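import Fermat.Agent.Curve.RiemannRoch
import Fermat.Prelude.Def_AlgebraicCurve_DivisorPushPull

/-!
# The degree of the pullback of a divisor along a finite extension

Team S26, owner helper99.
-/

set_option autoImplicit false

noncomputable section

open AlgebraicCurve IntermediateField

namespace Fermat.Agent.Abelian

open Fermat.Agent.Curve

variable {k L L' : Type*} [Field k] [IsAlgClosed k] [Field L] [Field L'] [Algebra k L]
  [Algebra k L'] [Algebra L L'] [IsScalarTower k L L'] [FiniteDimensional L L']
  [IsFunctionField1 k L] [IsFunctionField1 k L']

/-- `[L' : k(s)] = [L' : L] [L : k(s)]`. -/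
theorem finrank_adjoin_map (s : L) :
    Module.finrank k⟮algebraMap L L' s⟯ L' = Module.finrank k⟮s⟯ L * Module.finrank L L' := by
  classical
  have hmap : (k⟮s⟯).map (IsScalarTower.toAlgHom k L L') = k⟮algebraMap L L' s⟯ := by
    rw [IntermediateField.adjoin_map, Set.image_singleton]
    rfl
  let e : k⟮s⟯ ≃ₐ[k] k⟮algebraMap L L' s⟯ :=
    ((k⟮s⟯).equivMap (IsScalarTower.toAlgHom k L L')).trans (IntermediateField.equivOfEq hmap)
  rw [Module.finrank_mul_finrank k⟮s⟯ L L']
  refine (Algebra.finrank_eq_of_equiv_equiv e.toRingEquiv (RingEquiv.refl L') ?_).symm
  ext c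
  rfl

theorem degree_eq_finrank_mul {D : Divisor k L} {D' : Divisor k L'}
    (h : ∀ w, D' w = w.ramificationIndex L * D (w.restrict L)) :
    Divisor.degree D' = Module.finrank L L' * Divisor.degree D := by
  classical
  induction D using Finsupp.induction generalizing D' with
  | zero =>
    have : D' = 0 := Finsupp.ext fun w => by simpa using h w
    simp [this]
  | single_add P c E hP hc ih =>
    obtain ⟨s, hs, hpole⟩ := exists_unique_pole (K := k) P
    have hs' : Transcendental k (algebraMap L L' s) := transcendental_map hs
    have hd : poleDivisor (K := k) s = Finsupp.single P (-P.ord s) := by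
      ext v
      rw [poleDivisor_apply]
      rcases eq_or_ne v P with rfl | hv
      · have := (hpole v).mpr rfl
        rw [Finsupp.single_eq_same]; omega
      · rw [Finsupp.single_eq_of_ne hv]
        have : ¬ v.ord s < 0 := fun hh => hv ((hpole v).mp hh)
        omega
    set N : ℤ := -P.ord s with hN
    have hNpos : 0 < N := by have := (hpole P).mpr rfl; omega
    -- the pullback of `P`
    let M : Divisor k L' := (poleDivisor (K := k) (algebraMap L L' s)).mapRange (fun z => z / N) (by simp)
    have hM : ∀ w, M w = w.ramificationIndex L * (Finsupp.single P 1 : Divisor k L) (w.restrict L) := by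
      intro w
      simp only [M, Finsupp.mapRange_apply, poleDivisor_apply, w.ord_restrict]
      rcases eq_or_ne (w.restrict L) P with he | he
      · rw [he, Finsupp.single_eq_same, mul_one,
          show -(((w.ramificationIndex L : ℕ) : ℤ) * P.ord s) = w.ramificationIndex L * N by
            rw [hN]; ring,
          max_eq_left (by positivity), Int.mul_ediv_cancel _ hNpos.ne']
      · rw [Finsupp.single_eq_of_ne he, mul_zero]
        have h0 : ¬ (w.restrict L).ord s < 0 := fun hh => he ((hpole _).mp hh)
        have h1 : 0 ≤ ((w.ramificationIndex L : ℕ) : ℤ) * (w.restrict L).ord s :=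
          mul_nonneg (by positivity) (by omega)
        rw [max_eq_right (by omega), Int.zero_ediv]
    have hdegM : Divisor.degree M = Module.finrank L L' := by
      have h1 : poleDivisor (K := k) (algebraMap L L' s) = N • M := by
        ext w
        rw [Finsupp.smul_apply, smul_eq_mul, hM w, poleDivisor_apply, w.ord_restrict]
        rcases eq_or_ne (w.restrict L) P with he | he
        · rw [he, Finsupp.single_eq_same, mul_one,
            show -(((w.ramificationIndex L : ℕ) : ℤ) * P.ord s) = w.ramificationIndex L * N by
              rw [hN]; ring,
            max_eq_left (by positivity)]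
          ring
        · have h0 : ¬ (w.restrict L).ord s < 0 := fun hh => he ((hpole _).mp hh)
          rw [Finsupp.single_eq_of_ne he, mul_zero, mul_zero]
          exact max_eq_right (by
            have : 0 ≤ ((w.ramificationIndex L : ℕ) : ℤ) * (w.restrict L).ord s :=
              mul_nonneg (by positivity) (by omega)
            omega)
      have h2 := degree_poleDivisor (K := k) hs'
      rw [h1, map_zsmul, finrank_adjoin_map, smul_eq_mul] at h2
      have h3 := degree_poleDivisor (K := k) hs
      rw [hd, Divisor.degree_single, deg_eq_one] at h3
      push_cast at h2 h3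
      rw [← h3, mul_one] at h2
      exact mul_left_cancel₀ hNpos.ne' h2
    have hE : ∀ w, (D' - c • M) w = w.ramificationIndex L * E (w.restrict L) := by
      intro w
      rw [Finsupp.sub_apply, Finsupp.smul_apply, smul_eq_mul, hM w, h w, Finsupp.add_apply]
      rcases eq_or_ne (w.restrict L) P with he | he
      · rw [he, Finsupp.single_eq_same, Finsupp.single_eq_same]; ring
      · rw [Finsupp.single_eq_of_ne he, Finsupp.single_eq_of_ne he]; ring
    have := ih hE
    rw [map_sub, map_zsmul, hdegM, smul_eq_mul] at this
    rw [map_add, Divisor.degree_single, deg_eq_one]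
    push_cast
    linarith

end Fermat.Agent.Abelian
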