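import Fermat.Agent.Abelian.Points
import Fermat.Agent.Curve.Degree
import Fermat.Agent.Abelian.PullDegree
import Mathlib.RingTheory.FiniteType

/-!
# The line bundle of denominators and its pullback to function fields of one variable

Team S26.
-/

set_option autoImplicit false

noncomputable section

universe u

open AlgebraicCurve

namespace Fermat.Agent.Abelian

variable {K : Type u} [Field K]

namespace GroupVariety

variable (G : GroupVariety K)

/-- A chosen system of local generators for the denominators of finitely many functions. -/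
structure Bundle where
  /-- the functions -/
  x : Fin G.dim → G.Func
  /-- the local generators -/
  s : G.Center → G.Func
  s_generic : s G.generic = 1
  s_ne_zero : ∀ z, s z ≠ 0
  s_mem : ∀ z, s z ∈ G.O z
  s_mul_x : ∀ z i, s z * x i ∈ G.O z
  s_dvd : ∀ z, ∀ v ∈ G.O z, (∀ i, v * x i ∈ G.O z) → v / s z ∈ G.O z

namespace Bundle

variable {G} (B : G.Bundle)

theorem div_mem {z' z : G.Center} (h : G.Gen z' z) :
    B.s z / B.s z' ∈ G.O z' ∧ B.s z' / B.s z ∈ G.O z' := by
  refine ⟨B.s_dvd z' _ (G.gen_le h (B.s_mem z)) fun i => G.gen_le h (B.s_mul_x z i), ?_⟩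
  obtain ⟨a, ha, b, hb, c, hc, hbc, he⟩ := G.gen_loc h _ (B.s_mem z')
  choose a' ha' b' hb' c' hc' hbc' he' using fun i => G.gen_loc h _ (B.s_mul_x z' i)
  have key : B.s z' * (b * ∏ i, b' i) / B.s z ∈ G.O z := by
    refine B.s_dvd z _ ?_ fun i => ?_
    · have : B.s z' * (b * ∏ i, b' i) = a * (b * c) * ∏ i, b' i := by rw [he]; ring
      rw [this, hbc, mul_one]
      exact mul_mem ha (prod_mem fun i _ => hb' i)
    · classical
      rw [← Finset.mul_prod_erase Finset.univ b' (Finset.mem_univ i)]
      have : B.s z' * (b * (b' i * ∏ j ∈ Finset.univ.erase i, b' j)) * B.x i =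
          a' i * (b' i * c' i) * b * ∏ j ∈ Finset.univ.erase i, b' j := by
        rw [show B.s z' * (b * (b' i * ∏ j ∈ Finset.univ.erase i, b' j)) * B.x i =
          B.s z' * B.x i * (b * (b' i * ∏ j ∈ Finset.univ.erase i, b' j)) by ring, he' i]
        ring
      rw [this, hbc' i, mul_one]
      exact mul_mem (mul_mem (ha' i) hb) (prod_mem fun j _ => hb' j)
  have hprod : (b * ∏ i, b' i) * (c * ∏ i, c' i) = 1 := by
    rw [mul_mul_mul_comm, hbc, one_mul, ← Finset.prod_mul_distrib]
    exact Finset.prod_eq_one fun i _ => hbc' i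
  have : B.s z' / B.s z = (B.s z' * (b * ∏ i, b' i) / B.s z) * (c * ∏ i, c' i) := by
    rw [div_mul_eq_mul_div, mul_assoc, hprod, mul_one]
  rw [this]
  exact mul_mem (G.gen_le h key) (mul_mem hc (prod_mem fun i _ => hc' i))

end Bundle

variable {L : Type u} [Field L] [Algebra K L]

variable {k : Type u} [Field k] [Algebra K k] [Algebra k L] [IsScalarTower K k L]

theorem algebraMap_mem_place (v : Place k L) (a : K) :
    algebraMap K L a ∈ v.toValuationSubring := by
  rw [IsScalarTower.algebraMap_apply K k L]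
  exact v.algebraMap_mem' _

/-- The centre of a point at a place. -/
def centreAtPlace (x : G.Pt L) (v : Place k L) : G.Center :=
  G.centreAt x v.toValuationSubring (algebraMap_mem_place v)

namespace Bundle

variable {G} (B : G.Bundle)

/-- The local equation at `v` of the pullback of the bundle. -/
def ratio (x : G.Pt L) (v : Place k L) : L :=
  G.value x (B.s (G.centreAtPlace x v) / B.s (G.centre x))

/-- Comparison of local equations along a specialisation, for a valuation subring. -/
theorem value_div_s_mem (x : G.Pt L) (A : ValuationSubring L)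
    (hA : ∀ a, algebraMap K L a ∈ A) {z : G.Center} (h : G.Gen (G.centreAt x A hA) z) :
    ∃ r : L, r ∈ A ∧ r⁻¹ ∈ A ∧ r ≠ 0 ∧ G.value x (B.s z / B.s (G.centre x)) =
      G.value x (B.s (G.centreAt x A hA) / B.s (G.centre x)) * r := by
  obtain ⟨h1, h2⟩ := B.div_mem h
  have h3 := (B.div_mem (G.gen_centreAt x A hA)).1
  set zQ := G.centreAt x A hA
  have hinv : (B.s z / B.s zQ)⁻¹ ∈ G.O zQ := by rwa [inv_div]
  refine ⟨G.value x (B.s z / B.s zQ), G.value_mem x A hA h1, G.value_inv_mem x A hA h1 hinv,
    G.value_ne_zero x (G.mem_centre_of_mem_centreAt x A hA h1)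
      (G.mem_centre_of_mem_centreAt x A hA hinv) (div_ne_zero (B.s_ne_zero _) (B.s_ne_zero _)), ?_⟩
  rw [← G.value_mul x h3 (G.mem_centre_of_mem_centreAt x A hA h1), mul_comm,
    div_mul_div_cancel₀ (B.s_ne_zero zQ)]

omit [Algebra K k] [IsScalarTower K k L] in
theorem ord_eq_zero_of_mem (v : Place k L) {r : L} (h : r ∈ v.toValuationSubring)
    (h' : r⁻¹ ∈ v.toValuationSubring) : v.ord r = 0 := by
  have h1 := Fermat.Agent.Curve.ord_nonneg_of_mem v h
  have h2 := Fermat.Agent.Curve.ord_nonneg_of_mem v h'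
  rw [v.ord_inv] at h2
  omega

theorem value_div_s_ne_zero (x : G.Pt L) {z : G.Center} (h : G.Gen (G.centre x) z) :
    G.value x (B.s z / B.s (G.centre x)) ≠ 0 := by
  obtain ⟨h1, h2⟩ := B.div_mem h
  exact G.value_ne_zero x h1 (by rwa [inv_div]) (div_ne_zero (B.s_ne_zero _) (B.s_ne_zero _))

theorem ratio_ne_zero (x : G.Pt L) (v : Place k L) : B.ratio x v ≠ 0 :=
  B.value_div_s_ne_zero x (G.gen_centreAt x _ _)

/-- The local equation may be computed from any specialisation of the centre. -/
theorem ord_ratio_eq (x : G.Pt L) (v : Place k L) {z : G.Center}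
    (h : G.Gen (G.centreAtPlace x v) z) :
    v.ord (B.ratio x v) = v.ord (G.value x (B.s z / B.s (G.centre x))) := by
  obtain ⟨r, hr, hr', hr0, he⟩ := B.value_div_s_mem x _ (algebraMap_mem_place v) h
  rw [he]
  change v.ord (B.ratio x v) = v.ord (B.ratio x v * r)
  rw [v.ord_mul (B.ratio_ne_zero x v) hr0, ord_eq_zero_of_mem v hr hr', add_zero]

theorem finite_ord_ratio [Fermat.Agent.Curve.IsFunctionField1 k L] (x : G.Pt L) :
    {v : Place k L | v.ord (B.ratio x v) ≠ 0}.Finite := by
  classical
  obtain ⟨C, hfg, hle, hC⟩ := G.exists_chart (G.centre x)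
  obtain ⟨-, hw⟩ := hC (AlgHom.id K L) Function.injective_id x x (G.map_id x) rfl
    fun b _ h => ⟨_, rfl⟩
  -- a generator of the denominators inside the chart
  choose a ha b hb c hc hbc he using hw _ (B.s_mem (G.centre x))
  choose a' ha' b' hb' c' hc' hbc' he' using fun i => hw _ (B.s_mul_x (G.centre x) i)
  set β : G.Func := b * ∏ i, b' i with hβ
  have hβC : β ∈ C := mul_mem hb (prod_mem fun i _ => hb' i)
  have hprod : β * (c * ∏ i, c' i) = 1 := by
    rw [hβ, mul_mul_mul_comm, hbc, one_mul, ← Finset.prod_mul_distrib]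
    exact Finset.prod_eq_one fun i _ => hbc' i
  set e : G.Func := B.s (G.centre x) * β with he0
  have heC : e ∈ C := by
    have : e = a * (b * c) * ∏ i, b' i := by rw [he0, hβ, he]; ring
    rw [this, hbc, mul_one]
    exact mul_mem ha (prod_mem fun i _ => hb' i)
  have hex : ∀ i, e * B.x i ∈ C := fun i => by
    have : e * B.x i = a' i * (b' i * c' i) * b * ∏ j ∈ Finset.univ.erase i, b' j := by
      rw [show e * B.x i = B.s (G.centre x) * B.x i * β by rw [he0]; ring, he' i, hβ,
        ← Finset.mul_prod_erase Finset.univ b' (Finset.mem_univ i)]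
      ring
    rw [this, hbc' i, mul_one]
    exact mul_mem (mul_mem (ha' i) hb) (prod_mem fun j _ => hb' j)
  have hβi : β⁻¹ ∈ G.O (G.centre x) := by
    rw [inv_eq_of_mul_eq_one_right hprod]
    exact mul_mem hc (prod_mem fun i _ => hc' i)
  have hβ0 : β ≠ 0 := left_ne_zero_of_mul_eq_one hprod
  have he_ne : e ≠ 0 := mul_ne_zero (B.s_ne_zero _) hβ0
  -- the ideal of denominators of the chart
  haveI : Algebra.FiniteType K C := ⟨(Subalgebra.fg_top C).mpr hfg⟩
  haveI : IsNoetherianRing C := Algebra.FiniteType.isNoetherianRing K C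
  let I : Ideal C :=
    { carrier := {u | ∀ i, (u : G.Func) * B.x i ∈ C}
      zero_mem' := fun i => by simp
      add_mem' := fun {u v} hu hv i => by
        rw [Subalgebra.coe_add, add_mul]; exact add_mem (hu i) (hv i)
      smul_mem' := fun r u hu i => by
        rw [smul_eq_mul, Subalgebra.coe_mul, mul_assoc]; exact mul_mem r.2 (hu i) }
  obtain ⟨Sg, hSg⟩ := (IsNoetherian.noetherian I : I.FG)
  have hq : ∀ g ∈ Sg, ∃ a ∈ C, ∃ b ∈ C, ∃ c ∈ G.O (G.centre x),
      b * c = 1 ∧ (g : G.Func) / e = a * c := by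
    intro g hg
    have hgI : g ∈ I := hSg ▸ Ideal.subset_span hg
    refine hw _ ?_
    have h1 := B.s_dvd (G.centre x) g (hle g.2) fun i => hle (hgI i)
    rw [show (g : G.Func) / e = (g : G.Func) / B.s (G.centre x) * β⁻¹ by
      rw [he0, ← div_div, div_eq_mul_inv _ β]]
    exact mul_mem h1 hβi
  choose qa hqa qb hqb qc hqc hqbc hqe using hq
  obtain ⟨U, hU⟩ := hfg
  refine Set.Finite.subset
    ((U.finite_toSet.biUnion fun u _ => Fermat.Agent.Curve.finite_ord_ne_zero (K := k)
        (G.value x u)).union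
      ((Fermat.Agent.Curve.finite_ord_ne_zero (K := k) (G.value x β)).union
        (Sg.attach.finite_toSet.biUnion fun g _ => Fermat.Agent.Curve.finite_ord_ne_zero (K := k)
          (G.value x (qb g g.2))))) ?_
  intro v hv
  by_contra hgood
  simp only [Set.mem_union, Set.mem_iUnion, Finset.mem_coe, Set.mem_ofPred_eq, exists_prop,
    not_or, not_exists, not_and, not_not] at hgood
  obtain ⟨hUv, hβv, hqv⟩ := hgood
  -- the centre at `v` lies in the chart
  have hCv : ∀ u ∈ C, G.value x u ∈ v.toValuationSubring := by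
    intro u hu
    rw [← hU] at hu
    induction hu using Algebra.adjoin_induction with
    | mem u hu => exact Fermat.Agent.Curve.mem_of_ord_nonneg v (hUv u hu).ge
    | algebraMap c =>
      rw [G.value_algebraMap]
      exact algebraMap_mem_place v c
    | add u w hu hw' hu' hw'' =>
      rw [G.value_add x (hle (hU ▸ hu)) (hle (hU ▸ hw'))]
      exact add_mem hu' hw''
    | mul u w hu hw' hu' hw'' =>
      rw [G.value_mul x (hle (hU ▸ hu)) (hle (hU ▸ hw'))]
      exact mul_mem hu' hw''
  obtain ⟨hzC, hzq⟩ := hC (valAlg v.toValuationSubring (algebraMap_mem_place v)).val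
    Subtype.val_injective (G.lift x _ _) x (G.map_lift x _ _) rfl
    fun u hu h => ⟨⟨_, hCv u hu⟩, G.value_eq x h⟩
  set z := G.centreAtPlace x v with hz
  change C ≤ G.O z at hzC
  change ∀ w' ∈ G.O z, IsQuotientIn C (G.O z) w' at hzq
  have hunit : ∀ {u : G.Func}, u ∈ C → u ≠ 0 → v.ord (G.value x u) = 0 →
      G.value x u ≠ 0 → u⁻¹ ∈ G.O z := by
    intro u hu hu0 hord hne
    have h1 : IsUnit (⟨u, hzC hu⟩ : G.O z) := by
      refine (G.isUnit_hom_iff (G.lift x _ (algebraMap_mem_place v)) ⟨u, hzC hu⟩).mp ?_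
      have hval := G.value_eq_hom_lift x _ (algebraMap_mem_place v) (hzC hu)
      have hi : (G.value x u)⁻¹ ∈ v.toValuationSubring :=
        Fermat.Agent.Curve.mem_of_ord_nonneg v (by rw [v.ord_inv, hord, neg_zero])
      exact IsUnit.of_mul_eq_one ⟨_, hi⟩ (Subtype.ext (by
        show (_ : L) * _ = 1
        rw [← hval]; exact mul_inv_cancel₀ hne))
    exact ((G.isUnit_O_iff _).mp h1).2
  have hβz : β⁻¹ ∈ G.O z :=
    hunit hβC hβ0 hβv (G.value_ne_zero x (hle hβC) hβi hβ0)
  -- `e` generates at `z`
  have he1 : e / B.s z ∈ G.O z := B.s_dvd z e (hzC heC) fun i => hzC (hex i)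
  have he2 : B.s z / e ∈ G.O z := by
    obtain ⟨a₁, ha₁, b₁, hb₁, c₁, hc₁, hbc₁, he₁⟩ := hzq _ (B.s_mem z)
    choose a₂ ha₂ b₂ hb₂ c₂ hc₂ hbc₂ he₂ using fun i => hzq _ (B.s_mul_x z i)
    set γ : G.Func := b₁ * ∏ i, b₂ i with hγ
    have hγinv : γ * (c₁ * ∏ i, c₂ i) = 1 := by
      rw [hγ, mul_mul_mul_comm, hbc₁, one_mul, ← Finset.prod_mul_distrib]
      exact Finset.prod_eq_one fun i _ => hbc₂ i
    have hsC : B.s z * γ ∈ C := by
      have : B.s z * γ = a₁ * (b₁ * c₁) * ∏ i, b₂ i := by rw [hγ, he₁]; ring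
      rw [this, hbc₁, mul_one]
      exact mul_mem ha₁ (prod_mem fun i _ => hb₂ i)
    have hsI : (⟨_, hsC⟩ : C) ∈ I := fun i => by
      show B.s z * γ * B.x i ∈ C
      have : B.s z * γ * B.x i = a₂ i * (b₂ i * c₂ i) * b₁ *
          ∏ j ∈ Finset.univ.erase i, b₂ j := by
        rw [show B.s z * γ * B.x i = B.s z * B.x i * γ by ring, he₂ i, hγ,
          ← Finset.mul_prod_erase Finset.univ b₂ (Finset.mem_univ i)]
        ring
      rw [this, hbc₂ i, mul_one]
      exact mul_mem (mul_mem (ha₂ i) hb₁) (prod_mem fun j _ => hb₂ j)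
    have key : ∀ u ∈ I, (u : G.Func) / e ∈ G.O z := by
      intro u hu
      rw [← hSg] at hu
      induction hu using Submodule.span_induction with
      | mem g hg =>
        rw [hqe g hg]
        refine mul_mem (hzC (hqa g hg)) ?_
        rw [← inv_eq_of_mul_eq_one_right (hqbc g hg)]
        refine hunit (hqb g hg) (left_ne_zero_of_mul_eq_one (hqbc g hg)) (hqv ⟨g, hg⟩ (by simp))
          (G.value_ne_zero x (hle (hqb g hg)) ?_ (left_ne_zero_of_mul_eq_one (hqbc g hg)))
        rw [inv_eq_of_mul_eq_one_right (hqbc g hg)]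
        exact hqc g hg
      | zero => simp
      | add u w _ _ hu hw' => rw [Subalgebra.coe_add, add_div]; exact add_mem hu hw'
      | smul r u _ hu =>
        rw [smul_eq_mul, Subalgebra.coe_mul, mul_div_assoc]
        exact mul_mem (hzC r.2) hu
    have h := mul_mem (key _ hsI) (mul_mem hc₁ (prod_mem (t := Finset.univ) fun i _ => hc₂ i))
    rwa [show B.s z * γ / e * (c₁ * ∏ i, c₂ i) = B.s z / e by
      rw [div_mul_eq_mul_div, mul_assoc, hγinv, mul_one]] at h
  -- conclusion
  apply hv
  have h1 : B.s z / B.s (G.centre x) = β * (B.s z / e) := by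
    rw [he0, ← div_div, mul_div_cancel₀ _ hβ0]
  rw [ratio, h1, G.value_mul x (hle hβC) (G.mem_centre_of_mem_centreAt x _ _ he2),
    v.ord_mul (G.value_ne_zero x (hle hβC) hβi hβ0) (G.value_ne_zero x
      (G.mem_centre_of_mem_centreAt x _ _ he2)
      (G.mem_centre_of_mem_centreAt x _ _ (by rwa [inv_div]))
      (div_ne_zero (B.s_ne_zero z) he_ne)),
    hβv, zero_add]
  exact ord_eq_zero_of_mem v (G.value_mem x _ _ he2) (G.value_inv_mem x _ _ he2 (by rwa [inv_div]))

/-- The pullback of the bundle along a point. -/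
def divisor [Fermat.Agent.Curve.IsFunctionField1 k L] (x : G.Pt L) : Divisor k L :=
  Finsupp.onFinset (B.finite_ord_ratio (k := k) x).toFinset (fun v => v.ord (B.ratio x v))
    fun v hv => by simpa using hv

@[simp]
theorem divisor_apply [Fermat.Agent.Curve.IsFunctionField1 k L] (x : G.Pt L) (v : Place k L) :
    B.divisor x v = v.ord (B.ratio x v) := rfl

theorem divisor_eq_zero_of_centreAt [Fermat.Agent.Curve.IsFunctionField1 k L] {x : G.Pt L}
    (h : ∀ v : Place k L, G.centreAtPlace x v = G.centre x) : B.divisor (k := k) x = 0 := by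
  ext v
  rw [divisor_apply, ratio, h v, div_self (B.s_ne_zero _), G.value_one, v.ord_one]
  rfl

theorem divisor_zero [Fermat.Agent.Curve.IsFunctionField1 k L] :
    B.divisor (k := k) (0 : G.Pt L) = 0 :=
  B.divisor_eq_zero_of_centreAt fun _ => (G.centreAt_zero _ _).trans (G.centre_zero).symm

/-- Constant points pull the bundle back to the zero divisor. -/
theorem divisor_map_const [Fermat.Agent.Curve.IsFunctionField1 k L]
    (φ : k →ₐ[K] L) (hφ : ∀ a, φ a = algebraMap k L a) (y : G.Pt k) :
    B.divisor (k := k) (G.map φ y) = 0 :=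
  B.divisor_eq_zero_of_centreAt fun v =>
    (G.centreAt_map_field _ _ _ φ y rfl fun a => by rw [hφ]; exact v.algebraMap_mem' a).trans
      (G.centre_map_of_field φ y).symm

theorem divisor_nonneg [Fermat.Agent.Curve.IsFunctionField1 k L] {x : G.Pt L}
    (hx : G.centre x = G.generic) : 0 ≤ B.divisor (k := k) x := by
  intro v
  rw [divisor_apply, ratio, hx, B.s_generic, div_one]
  exact Fermat.Agent.Curve.ord_nonneg_of_mem v (G.value_mem x _ _ (B.s_mem _))

theorem value_x_mem [Fermat.Agent.Curve.IsFunctionField1 k L] {x : G.Pt L}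
    (hx : G.centre x = G.generic) (i : Fin G.dim) :
    G.value x (B.x i) ∈ riemannRochSpace (B.divisor (k := k) x) := by
  have hm : ∀ w : G.Func, w ∈ G.O (G.centre x) := fun w => by
    rw [hx, G.O_generic]; trivial
  rw [mem_riemannRochSpace_iff]
  intro v
  rcases eq_or_ne (G.value x (B.x i)) 0 with h0 | h0
  · exact Or.inl h0
  refine Or.inr ?_
  have hs0 : G.value x (B.s (G.centreAtPlace x v)) ≠ 0 :=
    G.value_ne_zero x (hm _) (hm _) (B.s_ne_zero _)
  have h1 := Fermat.Agent.Curve.ord_nonneg_of_mem v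
    (G.value_mem x _ (algebraMap_mem_place v) (B.s_mul_x (G.centreAtPlace x v) i))
  rw [G.value_mul x (hm _) (hm _), v.ord_mul hs0 h0] at h1
  rw [divisor_apply, ratio, hx, B.s_generic, div_one]
  omega

/-- Local equations pull back along an extension. -/
theorem divisor_map_apply [Fermat.Agent.Curve.IsFunctionField1 k L]
    {L' : Type u} [Field L'] [Algebra K L'] [Algebra k L'] [IsScalarTower K k L'] [Algebra L L']
    [IsScalarTower k L L'] [FiniteDimensional L L']
    [Fermat.Agent.Curve.IsFunctionField1 k L']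
    (φ : L →ₐ[K] L') (hφ : ∀ a, φ a = algebraMap L L' a) (x : G.Pt L) (w : Place k L') :
    B.divisor (k := k) (G.map φ x) w =
      w.ramificationIndex L * B.divisor (k := k) x (w.restrict L) := by
  have hc : G.centreAtPlace (G.map φ x) w = G.centreAtPlace x (w.restrict L) := by
    unfold GroupVariety.centreAtPlace
    rw [G.centreAt_map]
    congr 1
    ext a
    show φ a ∈ w.toValuationSubring ↔ algebraMap L L' a ∈ w.toValuationSubring
    rw [hφ]
  have hg : G.Gen (G.centre x) (G.centreAtPlace x (w.restrict L)) := G.gen_centreAt x _ _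
  rw [divisor_apply, divisor_apply, ratio, ratio, hc, G.centre_map_of_field,
    G.value_map φ x (B.div_mem hg).1, hφ, w.ord_restrict]

/-- Degree of the pullback along a finite extension of function fields with the same constants. -/
theorem degree_divisor_map [IsAlgClosed k] [Fermat.Agent.Curve.IsFunctionField1 k L]
    {L' : Type u} [Field L'] [Algebra K L'] [Algebra k L'] [IsScalarTower K k L'] [Algebra L L']
    [IsScalarTower k L L'] [FiniteDimensional L L']
    [Fermat.Agent.Curve.IsFunctionField1 k L']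
    (φ : L →ₐ[K] L') (hφ : ∀ a, φ a = algebraMap L L' a) (x : G.Pt L) :
    Divisor.degree (B.divisor (k := k) (G.map φ x)) =
      Module.finrank L L' * Divisor.degree (B.divisor (k := k) x) :=
  degree_eq_finrank_mul (fun w => B.divisor_map_apply φ hφ x w)

end Bundle

end GroupVariety

end Fermat.Agent.Abelian
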