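import Fermat.Agent.Abelian.PowerSeriesUFD
import Mathlib.RingTheory.Filtration
import Mathlib.RingTheory.LocalRing.MaximalIdeal.Basic
import Mathlib.RingTheory.Ideal.Colon
import Mathlib.RingTheory.MvPolynomial.Ideal

/-!
# Descent of principality from a power series completion

Team S26.
-/

set_option autoImplicit false

noncomputable section

namespace Fermat.Agent.Abelian

variable {K : Type*} [Field K] {n : ℕ} {O : Type*} [CommRing O] [IsDomain O] [IsLocalRing O]
  [IsNoetherianRing O] [Algebra K O]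

open IsLocalRing (maximalIdeal)

section Powers

variable {σ : Type*} [Finite σ]

theorem coeff_eq_zero_of_mem_pow {N : ℕ} {g : MvPowerSeries σ K}
    (hg : g ∈ maximalIdeal (MvPowerSeries σ K) ^ N) :
    ∀ d : σ →₀ ℕ, Finsupp.degree d < N → MvPowerSeries.coeff d g = 0 := by
  classical
  let +nondep : Fintype σ := Fintype.ofFinite σ
  induction N generalizing g with
  | zero => intro d hd; exact absurd hd (Nat.not_lt_zero _)
  | succ N ih =>
    rw [pow_succ'] at hg
    refine Submodule.mul_induction_on hg ?_ ?_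
    · intro x hx y hy d hd
      rw [maximalIdeal_mvPowerSeries, Ideal.mem_span_range_iff_exists_fun] at hx
      obtain ⟨c, rfl⟩ := hx
      rw [Finset.sum_mul, map_sum]
      refine Finset.sum_eq_zero fun i _ => ?_
      rw [mul_comm (c i), mul_assoc, MvPowerSeries.X_def, MvPowerSeries.coeff_monomial_mul, one_mul]
      split_ifs with h
      · refine ih (Ideal.mul_mem_left _ _ hy) _ ?_
        have e : d - Finsupp.single i 1 + Finsupp.single i 1 = d := tsub_add_cancel_of_le h
        have := congrArg Finsupp.degree e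
        rw [map_add, Finsupp.degree_single] at this
        omega
      · rfl
    · intro x y hx hy d hd
      rw [map_add, hx d hd, hy d hd, add_zero]

end Powers

variable (t : Fin n → O) (τ : O →ₐ[K] MvPowerSeries (Fin n) K)

omit [IsDomain O] [IsLocalRing O] [IsNoetherianRing O] in
theorem exists_pow_approx (hX : ∀ i, τ (t i) = MvPowerSeries.X i)
    (g : MvPowerSeries (Fin n) K) (N : ℕ) :
    ∃ u : O, g - τ u ∈ maximalIdeal (MvPowerSeries (Fin n) K) ^ N := by
  induction N generalizing g with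
  | zero => exact ⟨0, by simp⟩
  | succ N ih =>
    have h0 : g - algebraMap K _ (MvPowerSeries.constantCoeff g)
        ∈ Ideal.span (Set.range (MvPowerSeries.X : Fin n → MvPowerSeries (Fin n) K)) :=
      mem_span_range_X_of_constantCoeff_eq_zero
        (by simp [MvPowerSeries.algebraMap_apply])
    obtain ⟨c, hc⟩ := Ideal.mem_span_range_iff_exists_fun.mp h0
    choose u hu using fun i => ih (c i)
    refine ⟨algebraMap K O (MvPowerSeries.constantCoeff g) + ∑ i, u i * t i, ?_⟩
    rw [map_add, AlgHom.commutes, map_sum, ← sub_sub, ← hc, ← Finset.sum_sub_distrib]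
    refine Ideal.sum_mem _ fun i _ => ?_
    rw [map_mul, hX, ← sub_mul, pow_succ]
    refine Ideal.mul_mem_mul (hu i) ?_
    rw [maximalIdeal_mvPowerSeries]
    exact Ideal.subset_span ⟨i, rfl⟩

omit [IsDomain O] [IsNoetherianRing O] in
theorem map_mem_maximalIdeal (hX : ∀ i, τ (t i) = MvPowerSeries.X i)
    (hspan : Ideal.span (Set.range t) = maximalIdeal O) :
    (maximalIdeal O).map τ.toRingHom ≤ maximalIdeal (MvPowerSeries (Fin n) K) := by
  rw [← hspan, Ideal.map_span, maximalIdeal_mvPowerSeries]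
  refine Ideal.span_le.mpr ?_
  rintro _ ⟨_, ⟨i, rfl⟩, rfl⟩
  exact (show τ.toRingHom (t i) = MvPowerSeries.X i from hX i) ▸ Ideal.subset_span ⟨i, rfl⟩

omit [IsDomain O] [IsNoetherianRing O] in
theorem map_mem_pow (hX : ∀ i, τ (t i) = MvPowerSeries.X i)
    (hspan : Ideal.span (Set.range t) = maximalIdeal O) {N : ℕ} {u : O}
    (hu : u ∈ maximalIdeal O ^ N) : τ u ∈ maximalIdeal (MvPowerSeries (Fin n) K) ^ N :=
  Ideal.pow_right_mono (map_mem_maximalIdeal t τ hX hspan) N
    (Ideal.map_pow τ.toRingHom (maximalIdeal O) N ▸ Ideal.mem_map_of_mem τ.toRingHom hu)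

omit [IsDomain O] [IsNoetherianRing O] in
theorem exists_poly_approx (hspan : Ideal.span (Set.range t) = maximalIdeal O)
    (hres : ∀ u : O, ∃ c : K, u - algebraMap K O c ∈ maximalIdeal O) (u : O) (N : ℕ) :
    ∃ P : MvPolynomial (Fin n) K, u - MvPolynomial.aeval t P ∈ maximalIdeal O ^ N := by
  induction N generalizing u with
  | zero => exact ⟨0, by simp⟩
  | succ N ih =>
    obtain ⟨c, hc⟩ := hres u
    obtain ⟨d, hd⟩ := Ideal.mem_span_range_iff_exists_fun.mp (hspan.symm ▸ hc)
    choose P hP using fun i => ih (d i)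
    refine ⟨MvPolynomial.C c + ∑ i, P i * MvPolynomial.X i, ?_⟩
    simp only [map_add, map_sum, map_mul, MvPolynomial.aeval_C, MvPolynomial.aeval_X]
    rw [← sub_sub, ← hd, ← Finset.sum_sub_distrib]
    refine Ideal.sum_mem _ fun i _ => ?_
    rw [← sub_mul, pow_succ]
    exact Ideal.mul_mem_mul (hP i) (hspan ▸ Ideal.subset_span ⟨i, rfl⟩)

theorem mem_pow_of_map_mem_pow (hX : ∀ i, τ (t i) = MvPowerSeries.X i)
    (hspan : Ideal.span (Set.range t) = maximalIdeal O)
    (hres : ∀ u : O, ∃ c : K, u - algebraMap K O c ∈ maximalIdeal O) {u : O} {N : ℕ}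
    (hu : τ u ∈ maximalIdeal (MvPowerSeries (Fin n) K) ^ N) : u ∈ maximalIdeal O ^ N := by
  obtain ⟨P, hP⟩ := exists_poly_approx t hspan hres u N
  have hcoe : τ (MvPolynomial.aeval t P) = (P : MvPowerSeries (Fin n) K) := by
    have h : τ.comp (MvPolynomial.aeval t)
        = MvPolynomial.coeToMvPowerSeries.algHom K := MvPolynomial.algHom_ext fun i => by
      simp [hX]
    simpa using AlgHom.congr_fun h P
  have hPmem : (P : MvPowerSeries (Fin n) K) ∈ maximalIdeal (MvPowerSeries (Fin n) K) ^ N := by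
    have h2 := map_mem_pow t τ hX hspan hP
    rw [map_sub, hcoe] at h2
    simpa using sub_mem hu h2
  have hP' : P ∈ MvPolynomial.idealOfVars (Fin n) K ^ N :=
    (MvPolynomial.mem_pow_idealOfVars_iff' N P).mpr fun x hx => by
      simpa using coeff_eq_zero_of_mem_pow hPmem x hx
  have hv : MvPolynomial.aeval t P ∈ maximalIdeal O ^ N := by
    have := Ideal.mem_map_of_mem (MvPolynomial.aeval t : MvPolynomial (Fin n) K →ₐ[K] O).toRingHom hP'
    rw [Ideal.map_pow, MvPolynomial.idealOfVars, Ideal.map_span, ← Set.range_comp] at this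
    rw [← hspan]
    convert! this using 4
    funext i
    simp
  simpa using add_mem hP hv

variable {t τ} (hτ : Function.Injective τ) (hX : ∀ i, τ (t i) = MvPowerSeries.X i)
  (hspan : Ideal.span (Set.range t) = maximalIdeal O)
  (hres : ∀ u : O, ∃ c : K, u - algebraMap K O c ∈ maximalIdeal O)

include hX hspan hres in
theorem dvd_of_map_dvd {x y : O} (h : τ x ∣ τ y) : x ∣ y := by
  obtain ⟨g, hg⟩ := h
  have hmem : ∀ N, y ∈ Ideal.span {x} ⊔ maximalIdeal O ^ N := by
    intro N
    obtain ⟨u, hu⟩ := exists_pow_approx t τ hX g N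
    have h1 : y - x * u ∈ maximalIdeal O ^ N := by
      refine mem_pow_of_map_mem_pow t τ hX hspan hres ?_
      rw [map_sub, map_mul, hg, ← mul_sub]
      exact Ideal.mul_mem_left _ _ hu
    rw [show y = x * u + (y - x * u) by ring]
    exact Submodule.add_mem_sup (Ideal.mem_span_singleton'.mpr ⟨u, mul_comm _ _⟩) h1
  rw [← Ideal.mem_span_singleton]
  by_contra hy
  have hne : Ideal.span {x} ≠ ⊤ := fun e => hy (e ▸ Submodule.mem_top)
  let q := Ideal.Quotient.mk (Ideal.span {x})
  have : Nontrivial (O ⧸ Ideal.span {x}) := Ideal.Quotient.nontrivial_iff.mpr hne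
  have : IsLocalRing (O ⧸ Ideal.span {x}) := IsLocalRing.of_surjective' q Ideal.Quotient.mk_surjective
  have : IsNoetherianRing (O ⧸ Ideal.span {x}) :=
    isNoetherianRing_of_surjective O _ q Ideal.Quotient.mk_surjective
  have hbot := Ideal.iInf_pow_eq_bot_of_isLocalRing
    (R := O ⧸ Ideal.span {x}) (I := maximalIdeal _) (Ideal.IsMaximal.ne_top inferInstance)
  have hle : (maximalIdeal O).map q ≤ maximalIdeal (O ⧸ Ideal.span {x}) :=
    IsLocalRing.le_maximalIdeal fun e => by
      have h2 := congrArg (Ideal.comap q) e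
      rw [Ideal.comap_map_of_surjective q Ideal.Quotient.mk_surjective, Ideal.comap_top,
        ← RingHom.ker_eq_comap_bot, Ideal.mk_ker] at h2
      exact (maximalIdeal.isMaximal O).ne_top
        (top_le_iff.mp (h2 ▸ sup_le le_rfl (IsLocalRing.le_maximalIdeal hne)))
  have hyI : q y ∈ (⊥ : Ideal (O ⧸ Ideal.span {x})) := by
    rw [← hbot, Submodule.mem_iInf]
    intro N
    obtain ⟨a, ha, b, hb, hab⟩ := Submodule.mem_sup.mp (hmem N)
    rw [← hab, map_add, Ideal.Quotient.eq_zero_iff_mem.mpr ha, zero_add]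
    exact Ideal.pow_right_mono hle N (Ideal.map_pow q (maximalIdeal O) N ▸ Ideal.mem_map_of_mem q hb)
  exact hy (Ideal.Quotient.eq_zero_iff_mem.mp hyI)

include hτ hX hspan hres in
theorem exists_colon_generator (a b : O) (hb : b ≠ 0) :
    ∃ d : O, d ≠ 0 ∧ ∀ s : O, b ∣ s * a ↔ d ∣ s := by
  rcases eq_or_ne a 0 with rfl | ha
  · exact ⟨1, one_ne_zero, fun s => by simp⟩
  have : IsDomain (MvPowerSeries (Fin n) K) := NoZeroDivisors.to_isDomain _
  have : UniqueFactorizationMonoid (MvPowerSeries (Fin n) K) :=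
    uniqueFactorizationMonoid_mvPowerSeries K n
  have : IsNoetherianRing (MvPowerSeries (Fin n) K) := inferInstance
  set M := maximalIdeal (MvPowerSeries (Fin n) K) with hM
  obtain ⟨b', a', c, hcop, hcb, hca⟩ :=
    UniqueFactorizationMonoid.exists_reduced_factors (τ b)
      (fun h => hb (hτ (h.trans (map_zero τ).symm))) (τ a)
  have hc : c ≠ 0 := fun h => hb (hτ (by rw [← hcb, h, zero_mul, map_zero]))
  have hb' : b' ≠ 0 := fun h => hb (hτ (by rw [← hcb, h, mul_zero, map_zero]))
  obtain ⟨j, hj⟩ : ∃ j, b' ∉ M ^ j := by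
    by_contra hall
    push Not at hall
    have hbot := Ideal.iInf_pow_eq_bot_of_isLocalRing
      (R := MvPowerSeries (Fin n) K) (I := M) (Ideal.IsMaximal.ne_top inferInstance)
    exact hb' ((Submodule.mem_bot _).mp (hbot ▸ (Submodule.mem_iInf _).mpr hall))
  obtain ⟨k, hk⟩ := Ideal.exists_pow_inf_eq_pow_smul (maximalIdeal O) (Ideal.span {a, b})
  set N := j + k with hN
  obtain ⟨u, hu⟩ := exists_pow_approx t τ hX b' N
  obtain ⟨v, hv⟩ := exists_pow_approx t τ hX a' N
  have hw : u * a - v * b ∈ maximalIdeal O ^ N := by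
    refine mem_pow_of_map_mem_pow t τ hX hspan hres ?_
    rw [map_sub, map_mul, map_mul, ← hca, ← hcb,
      show τ u * (c * a') - τ v * (c * b') = c * b' * (a' - τ v) - c * a' * (b' - τ u) by ring]
    exact sub_mem (Ideal.mul_mem_left _ _ hv) (Ideal.mul_mem_left _ _ hu)
  have hw' : u * a - v * b ∈
      maximalIdeal O ^ j * (Ideal.span {a} ⊔ Ideal.span {b}) := by
    have h1 : u * a - v * b ∈ maximalIdeal O ^ N • (⊤ : Ideal O) ⊓ Ideal.span {a, b} :=
      ⟨by simpa using hw, Ideal.mem_span_pair.mpr ⟨u, -v, by ring⟩⟩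
    rw [hk N (by omega), show N - k = j by omega, smul_eq_mul] at h1
    refine Ideal.mul_mono_right (inf_le_right.trans ?_) h1
    rw [Ideal.span_insert]
  rw [Ideal.mul_sup, Submodule.mem_sup] at hw'
  obtain ⟨x, hx, y, hy, hxy⟩ := hw'
  obtain ⟨α, hα, rfl⟩ := Ideal.mem_mul_span_singleton.mp hx
  obtain ⟨β, hβ, rfl⟩ := Ideal.mem_mul_span_singleton.mp hy
  set d := u - α with hd
  have hdvd : b ∣ d * a := ⟨v + β, by rw [hd]; linear_combination -hxy⟩
  have hAiff : ∀ s : O, b ∣ s * a → b' ∣ τ s := by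
    intro s hs
    obtain ⟨r, hr⟩ := hs
    have h := congrArg τ hr
    rw [map_mul, map_mul, ← hca, ← hcb] at h
    refine hcop.dvd_of_dvd_mul_right ⟨τ r, mul_left_cancel₀ hc ?_⟩
    linear_combination h
  obtain ⟨e, he⟩ := hAiff d hdvd
  have hclose : b' * (e - 1) ∈ M ^ j := by
    rw [mul_sub, mul_one, ← he, hd, map_sub]
    have h1 : b' - τ u ∈ M ^ j := Ideal.pow_le_pow_right (by omega) hu
    have h2 : τ α ∈ M ^ j := map_mem_pow t τ hX hspan hα
    rw [show τ u - τ α - b' = -(b' - τ u) - τ α by ring]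
    exact sub_mem (neg_mem h1) h2
  have heu : IsUnit e := by
    have h1 : e - 1 ∈ M := by
      by_contra hnot
      exact hj ((Ideal.mul_unit_mem_iff_mem _ ((IsLocalRing.notMem_maximalIdeal).mp hnot)).mp hclose)
    by_contra he'
    have h2 := sub_mem (show e ∈ M from (IsLocalRing.mem_maximalIdeal e).mpr he') h1
    rw [sub_sub_cancel] at h2
    exact (Ideal.IsMaximal.ne_top (inferInstanceAs M.IsMaximal)) ((Ideal.eq_top_iff_one _).mpr h2)
  refine ⟨d, fun h0 => hb' ?_, fun s => ⟨fun hs => ?_, fun hs => ?_⟩⟩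
  · rw [h0, map_zero] at he
    exact (mul_eq_zero.mp he.symm).resolve_right heu.ne_zero
  · refine dvd_of_map_dvd hX hspan hres ?_
    rw [he]
    exact (heu.mul_right_dvd).mpr (hAiff s hs)
  · obtain ⟨r, rfl⟩ := hs
    rw [mul_right_comm]
    exact hdvd.mul_right r

/-- In a Noetherian local domain mapped injectively into `K⟦X⟧` with regular parameters going to
the variables, and with residue field `K`, the ideal of denominators of finitely many fractions is
principal. -/
theorem isPrincipal_denominators (t : Fin n → O) (τ : O →ₐ[K] MvPowerSeries (Fin n) K)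
    (hτ : Function.Injective τ) (hX : ∀ i, τ (t i) = MvPowerSeries.X i)
    (hspan : Ideal.span (Set.range t) = IsLocalRing.maximalIdeal O)
    (hres : ∀ u : O, ∃ c : K, u - algebraMap K O c ∈ IsLocalRing.maximalIdeal O)
    {ι : Type*} [Finite ι] (a b : ι → O) (hb : ∀ i, b i ≠ 0) :
    ∃ d : O, d ≠ 0 ∧ ∀ s : O, (∀ i, b i ∣ s * a i) ↔ d ∣ s := by
  classical
  let +nondep : Fintype ι := Fintype.ofFinite ι
  suffices h : ∀ S : Finset ι, ∃ d : O, d ≠ 0 ∧ ∀ s : O, (∀ i ∈ S, b i ∣ s * a i) ↔ d ∣ s by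
    obtain ⟨d, hd, h⟩ := h Finset.univ
    exact ⟨d, hd, fun s => by simpa using h s⟩
  intro S
  induction S using Finset.induction_on with
  | empty => exact ⟨1, one_ne_zero, fun s => by simp⟩
  | insert i S hi ih =>
    obtain ⟨c, hc, hcS⟩ := ih
    obtain ⟨d, hd, hdi⟩ := exists_colon_generator hτ hX hspan hres (a i) (b i) (hb i)
    obtain ⟨e, he, hce⟩ := exists_colon_generator hτ hX hspan hres c d hd
    refine ⟨c * e, mul_ne_zero hc he, fun s => ?_⟩
    rw [Finset.forall_mem_insert, hdi, hcS]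
    constructor
    · rintro ⟨h1, ⟨r, rfl⟩⟩
      exact mul_dvd_mul_left c ((hce r).mp (by rwa [mul_comm] at h1))
    · intro h
      obtain ⟨r, rfl⟩ := (dvd_mul_right c e).trans h
      exact ⟨mul_comm r c ▸ (hce r).mpr ((mul_dvd_mul_iff_left hc).mp h), dvd_mul_right _ _⟩

end Fermat.Agent.Abelian
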