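import Fermat.Agent.Abelian.Bundle
import Fermat.Agent.Abelian.Colon

/-!
# Existence of the bundle of denominators

At a closed point the ideal of denominators of finitely many rational functions is principal
(`isPrincipal_denominators`); at an arbitrary point a generator is obtained from a closed
specialisation.

Team S26, owner helper45.
-/

set_option autoImplicit false

noncomputable section

universe u

namespace Fermat.Agent.Abelian.GroupVariety

variable {K : Type u} [Field K] (G : GroupVariety K)

/-- At a rational point the denominators of finitely many functions have a greatest common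
multiple. -/
theorem exists_denominator_closed (p : G.Pt K) {ι : Type*} [Finite ι] (x : ι → G.Func) :
    ∃ s : G.Func, s ≠ 0 ∧ s ∈ G.O (G.centre p) ∧ (∀ i, s * x i ∈ G.O (G.centre p)) ∧
      ∀ v ∈ G.O (G.centre p), (∀ i, v * x i ∈ G.O (G.centre p)) → v / s ∈ G.O (G.centre p) := by
  obtain ⟨t, τ, hτ, hX, hspan, -⟩ := G.exists_coord p
  have hres : ∀ u : G.O (G.centre p), ∃ c : K,
      u - algebraMap K (G.O (G.centre p)) c ∈ IsLocalRing.maximalIdeal (G.O (G.centre p)) := by
    intro u
    refine ⟨G.hom p u, fun hu => ?_⟩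
    have h := hu.map (G.hom p)
    rw [map_sub, AlgHom.commutes, Algebra.algebraMap_self_apply, sub_self] at h
    exact not_isUnit_zero h
  choose a b hb hab using fun i => G.frac_O (G.centre p) (x i)
  obtain ⟨d, hd0, hd⟩ := isPrincipal_denominators t τ hτ hX hspan hres a b
    fun i h => hb i (congrArg Subtype.val h)
  have hd0' : (d : G.Func) ≠ 0 := fun h => hd0 (Subtype.ext h)
  refine ⟨d, hd0', d.2, fun i => ?_, fun v hv hvx => ?_⟩
  · obtain ⟨r, hr⟩ := (hd d).mpr dvd_rfl i
    have hr' : (d : G.Func) * a i = b i * r := congrArg Subtype.val hr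
    have : (d : G.Func) * x i = r := by
      apply mul_right_cancel₀ (hb i)
      rw [mul_assoc, hab i, hr', mul_comm]
    rw [this]
    exact r.2
  · have hdvd : d ∣ (⟨v, hv⟩ : G.O (G.centre p)) := by
      refine (hd _).mp fun i => ⟨⟨_, hvx i⟩, Subtype.ext ?_⟩
      show v * (a i : G.Func) = b i * (v * x i)
      rw [← hab i]
      ring
    obtain ⟨r, hr⟩ := hdvd
    have hr' : v = (d : G.Func) * r := congrArg Subtype.val hr
    rw [hr', mul_div_cancel_left₀ _ hd0']
    exact r.2

/-- A generator of the denominators at a point is inherited from any specialisation. -/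
theorem div_mem_of_gen {ι : Type*} [Finite ι] (x : ι → G.Func) {z w : G.Center} (h : G.Gen z w)
    {s : G.Func}
    (hs : ∀ v ∈ G.O w, (∀ i, v * x i ∈ G.O w) → v / s ∈ G.O w)
    {v : G.Func} (hv : v ∈ G.O z) (hvx : ∀ i, v * x i ∈ G.O z) : v / s ∈ G.O z := by
  classical
  let +nondep : Fintype ι := Fintype.ofFinite ι
  obtain ⟨a, ha, b, hb, c, hc, hbc, he⟩ := G.gen_loc h _ hv
  choose a' ha' b' hb' c' hc' hbc' he' using fun i => G.gen_loc h _ (hvx i)
  have key : v * (b * ∏ i, b' i) / s ∈ G.O w := by
    refine hs _ ?_ fun i => ?_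
    · have : v * (b * ∏ i, b' i) = a * (b * c) * ∏ i, b' i := by rw [he]; ring
      rw [this, hbc, mul_one]
      exact mul_mem ha (prod_mem fun i _ => hb' i)
    · rw [← Finset.mul_prod_erase Finset.univ b' (Finset.mem_univ i)]
      have : v * (b * (b' i * ∏ j ∈ Finset.univ.erase i, b' j)) * x i =
          a' i * (b' i * c' i) * b * ∏ j ∈ Finset.univ.erase i, b' j := by
        rw [show v * (b * (b' i * ∏ j ∈ Finset.univ.erase i, b' j)) * x i =
          v * x i * (b * (b' i * ∏ j ∈ Finset.univ.erase i, b' j)) by ring, he' i]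
        ring
      rw [this, hbc' i, mul_one]
      exact mul_mem (mul_mem (ha' i) hb) (prod_mem fun j _ => hb' j)
  have hprod : (b * ∏ i, b' i) * (c * ∏ i, c' i) = 1 := by
    rw [mul_mul_mul_comm, hbc, one_mul, ← Finset.prod_mul_distrib]
    exact Finset.prod_eq_one fun i _ => hbc' i
  have : v / s = (v * (b * ∏ i, b' i) / s) * (c * ∏ i, c' i) := by
    rw [div_mul_eq_mul_div, mul_assoc, hprod, mul_one]
  rw [this]
  exact mul_mem (G.gen_le h key) (mul_mem hc (prod_mem fun i _ => hc' i))

/-- Every family of `G.dim` rational functions has a bundle of denominators. -/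
theorem exists_bundle (x : Fin G.dim → G.Func) : ∃ B : G.Bundle, B.x = x := by
  have key : ∀ z, ∃ s : G.Func, (z = G.generic → s = 1) ∧ s ≠ 0 ∧ s ∈ G.O z ∧
      (∀ i, s * x i ∈ G.O z) ∧
      ∀ v ∈ G.O z, (∀ i, v * x i ∈ G.O z) → v / s ∈ G.O z := by
    intro z
    rcases eq_or_ne z G.generic with rfl | hz
    · exact ⟨1, fun _ => rfl, one_ne_zero, one_mem _, fun i => by rw [G.O_generic]; trivial,
        fun v _ _ => by rw [G.O_generic]; trivial⟩
    obtain ⟨p, hp⟩ := G.exists_closed z
    obtain ⟨s, hs0, hs, hsx, hsd⟩ := G.exists_denominator_closed p x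
    exact ⟨s, fun h => absurd h hz, hs0, G.gen_le hp hs, fun i => G.gen_le hp (hsx i),
      fun v hv hvx => G.div_mem_of_gen x hp hsd hv hvx⟩
  choose s h1 h0 hm hmx hd using key
  exact ⟨⟨x, s, h1 _ rfl, h0, hm, hmx, hd⟩, rfl⟩

end Fermat.Agent.Abelian.GroupVariety
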