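import Mathlib.RingTheory.TensorProduct.Free
import Mathlib.RingTheory.Jacobson.Ring
import Mathlib.RingTheory.Localization.Away.Basic
import Mathlib.RingTheory.Localization.InvSubmonoid
import Mathlib.RingTheory.Flat.Basic
import Mathlib.FieldTheory.IsAlgClosed.Basic
import Mathlib.LinearAlgebra.FiniteDimensional.Lemmas
import Mathlib.LinearAlgebra.Dimension.StrongRankCondition
import Mathlib.RingTheory.Valuation.ValuationSubring
import Mathlib.RingTheory.Valuation.LocalSubring

/-!
# The tensor product of two extensions of an algebraically closed field, and its Gauss reduction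

Team S26, owner helper37.
-/

set_option autoImplicit false
set_option linter.style.haveILetI false
set_option linter.unusedSectionVars false

noncomputable section

universe u

open TensorProduct

namespace Fermat.Agent.Abelian

/-- A finitely generated algebra over an algebraically closed field has a point where a given
element of a domain does not vanish. -/
theorem exists_algHom_ne_zero {k S : Type*} [Field k] [IsAlgClosed k] [CommRing S] [IsDomain S]
    [Algebra k S] [Algebra.FiniteType k S] {s : S} (hs : s ≠ 0) :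
    ∃ φ : S →ₐ[k] k, φ s ≠ 0 := by
  haveI : Nontrivial (Localization.Away s) :=
    (IsLocalization.injective (Localization.Away s)
      (powers_le_nonZeroDivisors_of_noZeroDivisors hs)).nontrivial
  haveI : Algebra.FiniteType S (Localization.Away s) :=
    IsLocalization.finiteType_of_monoid_fg (Submonoid.powers s) _
  haveI : Algebra.FiniteType k (Localization.Away s) :=
    Algebra.FiniteType.trans (R := k) (S := S) inferInstance inferInstance
  obtain ⟨m, hm⟩ := Ideal.exists_maximal (Localization.Away s)
  letI : Field (Localization.Away s ⧸ m) := Ideal.Quotient.field m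
  haveI : Module.Finite k (Localization.Away s ⧸ m) :=
    finite_of_finite_type_of_isJacobsonRing _ _
  haveI : Algebra.IsIntegral k (Localization.Away s ⧸ m) := Algebra.IsIntegral.of_finite _ _
  let e : k ≃ₐ[k] (Localization.Away s ⧸ m) :=
    AlgEquiv.ofBijective (Algebra.ofId k _) IsAlgClosed.algebraMap_bijective_of_isIntegral
  refine ⟨(e.symm.toAlgHom.comp (Ideal.Quotient.mkₐ k m)).comp
    (IsScalarTower.toAlgHom k S (Localization.Away s)), IsUnit.ne_zero ?_⟩
  exact (IsLocalization.map_units (Localization.Away s)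
    (⟨s, Submonoid.mem_powers s⟩ : Submonoid.powers s)).map
      (e.symm.toAlgHom.comp (Ideal.Quotient.mkₐ k m))

variable (k Ω F : Type*) [Field k] [IsAlgClosed k] [Field Ω] [Algebra k Ω] [Field F] [Algebra k F]

/-- `Ω ⊗ F` is a domain. -/
theorem noZeroDivisors_constTensor : NoZeroDivisors (Ω ⊗[k] F) := by
  classical
  refine ⟨fun {a b} hab => ?_⟩
  by_contra h
  push Not at h
  obtain ⟨ha, hb⟩ := h
  let e := Module.Free.chooseBasis k F
  let BΩ := Algebra.TensorProduct.basis Ω e
  set T : Finset Ω := ((BΩ.repr a).support.image (BΩ.repr a)) ∪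
    ((BΩ.repr b).support.image (BΩ.repr b))
  let S : Subalgebra k Ω := Algebra.adjoin k (T : Set Ω)
  haveI : Algebra.FiniteType k S := .adjoin_of_finite T.finite_toSet
  let BS := Algebra.TensorProduct.basis S e
  let j : S ⊗[k] F →ₐ[k] Ω ⊗[k] F := Algebra.TensorProduct.map S.val (AlgHom.id k F)
  have hjinj : Function.Injective j := by
    have : Function.Injective (S.val.toLinearMap.rTensor F) :=
      Module.Flat.rTensor_preserves_injective_linearMap _ Subtype.val_injective
    exact this
  have hrep : ∀ (x : S ⊗[k] F) i, BΩ.repr (j x) i = (BS.repr x i : Ω) := by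
    intro x i
    induction x using TensorProduct.induction_on with
    | zero => simp
    | tmul c f =>
      simp only [j, Algebra.TensorProduct.map_tmul, BΩ, BS, Algebra.TensorProduct.basis_repr_tmul]
      simp
    | add x y hx hy => simp [hx, hy]
  have hlift : ∀ z : Ω ⊗[k] F, (∀ i ∈ (BΩ.repr z).support, BΩ.repr z i ∈ T) →
      ∃ z' : S ⊗[k] F, j z' = z := by
    intro z hz
    refine ⟨∑ i ∈ (BΩ.repr z).support.attach,
      (⟨BΩ.repr z i, Algebra.subset_adjoin (hz i i.2)⟩ : S) ⊗ₜ[k] e i, ?_⟩
    rw [map_sum]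
    conv_rhs => rw [← BΩ.linearCombination_repr z]
    rw [Finsupp.linearCombination_apply, Finsupp.sum, ← Finset.sum_attach (BΩ.repr z).support]
    refine Finset.sum_congr rfl fun i _ => ?_
    rw [Algebra.TensorProduct.basis_repr_symm_apply']
    rfl
  obtain ⟨a', ha2⟩ := hlift a fun i hi => Finset.mem_union_left _ (Finset.mem_image_of_mem _ hi)
  obtain ⟨b', hb2⟩ := hlift b fun i hi => Finset.mem_union_right _ (Finset.mem_image_of_mem _ hi)
  have hab' : a' * b' = 0 := hjinj (by rw [map_mul, ha2, hb2, hab, map_zero])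
  have ha' : a' ≠ 0 := fun h0 => ha (by rw [← ha2, h0, map_zero])
  have hb' : b' ≠ 0 := fun h0 => hb (by rw [← hb2, h0, map_zero])
  have hne : ∀ x : S ⊗[k] F, x ≠ 0 → ∃ i, BS.repr x i ≠ 0 := by
    intro x hx
    by_contra hall
    push Not at hall
    exact hx (BS.repr.injective (by ext i; simp [hall i]))
  obtain ⟨i, hi⟩ := hne a' ha'
  obtain ⟨l, hl⟩ := hne b' hb'
  obtain ⟨φ, hφ⟩ := exists_algHom_ne_zero (k := k) (mul_ne_zero hi hl)
  rw [map_mul, mul_ne_zero_iff] at hφ
  let ρ : S ⊗[k] F →ₐ[k] F :=
    Algebra.TensorProduct.lift ((Algebra.ofId k F).comp φ) (AlgHom.id k F)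
      fun _ _ => Commute.all _ _
  have hρ : ∀ (x : S ⊗[k] F) i, e.repr (ρ x) i = φ (BS.repr x i) := by
    intro x i
    induction x using TensorProduct.induction_on with
    | zero => simp
    | tmul c f =>
      simp only [ρ, Algebra.TensorProduct.lift_tmul, BS, Algebra.TensorProduct.basis_repr_tmul]
      simp [Algebra.ofId_apply, ← Algebra.smul_def]
    | add x y hx hy => simp [hx, hy]
  have h0 : ρ a' * ρ b' = 0 := by rw [← map_mul, hab', map_zero]
  rcases mul_eq_zero.mp h0 with h0 | h0
  · exact hφ.1 (by rw [← hρ, h0]; simp)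
  · exact hφ.2 (by rw [← hρ, h0]; simp)

theorem nontrivial_constTensor : Nontrivial (Ω ⊗[k] F) := by
  have h : Function.Injective
      (Algebra.TensorProduct.includeRight : F →ₐ[k] Ω ⊗[k] F) :=
    Algebra.TensorProduct.includeRight_injective (algebraMap k Ω).injective
  exact h.nontrivial

variable {k Ω}

/-- Residue data: the map `V ⊗ F → Ω ⊗ F` and the reduction `V ⊗ F → F`. -/
structure TensorReduction (V : ValuationSubring Ω) [Algebra k V] where
  res : V →ₐ[k] k
  val : ∀ a : k, ((algebraMap k V a : V) : Ω) = algebraMap k Ω a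
  res_eq_zero : ∀ v : V, (v : Ω)⁻¹ ∉ V → res v = 0

namespace TensorReduction

variable {F} {V : ValuationSubring Ω} [Algebra k V] (T : TensorReduction (k := k) V)

/-- The inclusion `V → Ω`. -/
def valHom : V →ₐ[k] Ω where
  toRingHom := V.subtype
  commutes' := T.val

variable (F) in
/-- `V ⊗ F → Ω ⊗ F`. -/
def toTensor : V ⊗[k] F →ₐ[k] Ω ⊗[k] F :=
  Algebra.TensorProduct.map T.valHom (AlgHom.id k F)

theorem toTensor_injective : Function.Injective (T.toTensor F) := by
  have : Function.Injective (T.valHom.toLinearMap.rTensor F) :=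
    Module.Flat.rTensor_preserves_injective_linearMap _ Subtype.val_injective
  exact this

variable (F) in
/-- `V ⊗ F → F`, reduction of the coefficients. -/
def red : V ⊗[k] F →ₐ[k] F :=
  Algebra.TensorProduct.lift ((Algebra.ofId k F).comp T.res) (AlgHom.id k F)
    fun _ _ => Commute.all _ _

@[simp]
theorem red_tmul (c : V) (f : F) : T.red F (c ⊗ₜ f) = algebraMap k F (T.res c) * f := by
  simp [red, Algebra.ofId_apply]

theorem toTensor_tmul (c : V) (f : F) : T.toTensor F (c ⊗ₜ f) = (c : Ω) ⊗ₜ f := rfl

theorem toTensor_const_mul (c : V) (x : V ⊗[k] F) :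
    T.toTensor F ((c ⊗ₜ (1 : F)) * x) = (c : Ω) • T.toTensor F x := by
  rw [map_mul, T.toTensor_tmul, Algebra.smul_def]
  rfl

theorem red_const_mul (c : V) (x : V ⊗[k] F) :
    T.red F ((c ⊗ₜ (1 : F)) * x) = T.res c • T.red F x := by
  rw [map_mul, T.red_tmul, mul_one, Algebra.smul_def]

variable (F) in
/-- Coordinates in `Ω ⊗ F` with respect to a fixed basis of `F` over `k`. -/
abbrev coordBasis : Module.Basis (Module.Free.ChooseBasisIndex k F) Ω (Ω ⊗[k] F) :=
  Algebra.TensorProduct.basis Ω (Module.Free.chooseBasis k F)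

theorem coord_mem_and_res (x : V ⊗[k] F) (i : Module.Free.ChooseBasisIndex k F) :
    ∃ h : (coordBasis F).repr (T.toTensor F x) i ∈ V,
      (Module.Free.chooseBasis k F).repr (T.red F x) i = T.res ⟨_, h⟩ := by
  induction x using TensorProduct.induction_on with
  | zero => exact ⟨by simp, by simp [show (⟨(0 : Ω), zero_mem V⟩ : V) = 0 from rfl]⟩
  | tmul c f =>
    have hc : (coordBasis F).repr (T.toTensor F (c ⊗ₜ f)) i =
        ((c * algebraMap k V ((Module.Free.chooseBasis k F).repr f i) : V) : Ω) := by
      rw [T.toTensor_tmul, Algebra.TensorProduct.basis_repr_tmul]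
      simp [T.val]
    refine ⟨hc ▸ Subtype.coe_prop _, ?_⟩
    rw [T.red_tmul, ← Algebra.smul_def, map_smul, Finsupp.smul_apply, smul_eq_mul]
    have : (⟨(coordBasis F).repr (T.toTensor F (c ⊗ₜ f)) i, hc ▸ Subtype.coe_prop _⟩ : V) =
        c * algebraMap k V ((Module.Free.chooseBasis k F).repr f i) := Subtype.ext hc
    rw [this, map_mul, AlgHom.commutes]
    rfl
  | add x y hx hy =>
    obtain ⟨hx, hx'⟩ := hx
    obtain ⟨hy, hy'⟩ := hy
    refine ⟨by simpa using add_mem hx hy, ?_⟩
    rw [map_add, map_add, Finsupp.add_apply, hx', hy', ← map_add]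
    congr 1
    ext
    simp

theorem exists_preimage {x : Ω ⊗[k] F} (h : ∀ i, (coordBasis F).repr x i ∈ V) :
    ∃ y, T.toTensor F y = x := by
  refine ⟨∑ i ∈ ((coordBasis F).repr x).support,
    (⟨_, h i⟩ : V) ⊗ₜ[k] Module.Free.chooseBasis k F i, ?_⟩
  rw [map_sum]
  conv_rhs => rw [← (coordBasis F).linearCombination_repr x]
  rw [Finsupp.linearCombination_apply, Finsupp.sum]
  refine Finset.sum_congr rfl fun i _ => ?_
  rw [Algebra.TensorProduct.basis_repr_symm_apply']
  rfl

/-- Scaling by a coefficient of maximal value. -/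
theorem exists_max {x : Ω ⊗[k] F} (hx : x ≠ 0) :
    ∃ i, (coordBasis F).repr x i ≠ 0 ∧
      ∀ l, (coordBasis F).repr x l / (coordBasis F).repr x i ∈ V := by
  classical
  have hne : ((coordBasis F).repr x).support.Nonempty := by
    rw [Finsupp.support_nonempty_iff]
    exact fun h => hx ((coordBasis F).repr.map_eq_zero_iff.mp h)
  obtain ⟨i, hi, hmax⟩ := Finset.exists_max_image _
    (fun l => V.valuation ((coordBasis F).repr x l)) hne
  rw [Finsupp.mem_support_iff] at hi
  refine ⟨i, hi, fun l => ?_⟩
  rw [← V.valuation_le_one_iff, map_div₀,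
    div_le_one₀ (zero_lt_iff.mpr ((Valuation.ne_zero_iff _).mpr hi))]
  rcases eq_or_ne ((coordBasis F).repr x l) 0 with hl | hl
  · simp [hl]
  · exact hmax l (Finsupp.mem_support_iff.mpr hl)

/-- A subspace of dimension `n` contains `n` integral elements with independent reductions. -/
theorem exists_independent_red (W : Submodule Ω (Ω ⊗[k] F)) [FiniteDimensional Ω W] :
    ∃ y : Fin (Module.finrank Ω W) → V ⊗[k] F,
      (∀ j, T.toTensor F (y j) ∈ W) ∧ LinearIndependent k fun j => T.red F (y j) := by
  classical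
  suffices ∀ n (W : Submodule Ω (Ω ⊗[k] F)) [FiniteDimensional Ω W], Module.finrank Ω W = n →
      ∃ y : Fin n → V ⊗[k] F,
        (∀ j, T.toTensor F (y j) ∈ W) ∧ LinearIndependent k fun j => T.red F (y j) from
    this _ W rfl
  intro n
  induction n with
  | zero => exact fun W _ _ => ⟨Fin.elim0, fun j => j.elim0, linearIndependent_empty_type⟩
  | succ n ih =>
    intro W _ hW
    obtain ⟨x, hxW, hx⟩ := Submodule.exists_mem_ne_zero_of_ne_bot (p := W) fun hb => by
      rw [hb, finrank_bot] at hW; omega
    obtain ⟨i, hi, hmax⟩ := exists_max (V := V) hx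
    set c := (coordBasis F).repr x i
    obtain ⟨y₀, hy₀⟩ := T.exists_preimage (x := c⁻¹ • x) fun l => by
      rw [map_smul, Finsupp.smul_apply, smul_eq_mul, inv_mul_eq_div]; exact hmax l
    have hy₀W : T.toTensor F y₀ ∈ W := hy₀ ▸ W.smul_mem _ hxW
    have hy₀i : (coordBasis F).repr (T.toTensor F y₀) i = 1 := by
      rw [hy₀, map_smul, Finsupp.smul_apply, smul_eq_mul, inv_mul_cancel₀ hi]
    let φ : W →ₗ[Ω] Ω := ((coordBasis F).coord i).comp W.subtype
    have hsurj : Function.Surjective φ := fun a =>
      ⟨a • ⟨_, hy₀W⟩, by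
        simp only [φ, LinearMap.comp_apply, map_smul, Submodule.coe_subtype,
          Module.Basis.coord_apply, hy₀i, smul_eq_mul, mul_one]⟩
    let W' : Submodule Ω (Ω ⊗[k] F) := (LinearMap.ker φ).map W.subtype
    have hker : Module.finrank Ω (LinearMap.ker φ) = n := by
      have := φ.finrank_range_add_finrank_ker
      rw [LinearMap.range_eq_top.mpr hsurj, finrank_top, Module.finrank_self, hW] at this
      omega
    haveI : FiniteDimensional Ω W' := Module.Finite.map _ _
    obtain ⟨y, hy, hli⟩ := ih W' (by
      rw [Submodule.finrank_map_subtype_eq]; exact hker)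
    refine ⟨Fin.cons y₀ y, fun j => ?_, ?_⟩
    · refine Fin.cases hy₀W (fun j => ?_) j
      simpa using Submodule.map_subtype_le _ _ (hy j)
    · rw [show (fun j => T.red F (Fin.cons (α := fun _ => V ⊗[k] F) y₀ y j)) =
        Fin.cons (α := fun _ => F) (T.red F y₀) (fun j => T.red F (y j)) from funext fun j => by
          refine Fin.cases ?_ (fun _ => ?_) j <;> simp]
      refine linearIndependent_finCons.mpr ⟨hli, fun hmem => ?_⟩
      have hzero : Submodule.span k (Set.range fun j => T.red F (y j)) ≤
          LinearMap.ker ((Module.Free.chooseBasis k F).coord i) := by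
        rw [Submodule.span_le]
        rintro - ⟨j, rfl⟩
        obtain ⟨w, hw, hw'⟩ := hy j
        obtain ⟨h, h'⟩ := T.coord_mem_and_res (y j) i
        have hz : (coordBasis F).repr (T.toTensor F (y j)) i = 0 := by
          rw [← hw']
          exact hw
        rw [SetLike.mem_coe, LinearMap.mem_ker, Module.Basis.coord_apply, h']
        rw [show (⟨_, h⟩ : V) = 0 from Subtype.ext hz, map_zero]
      have := hzero hmem
      obtain ⟨h, h'⟩ := T.coord_mem_and_res y₀ i
      rw [LinearMap.mem_ker, Module.Basis.coord_apply, h'] at this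
      rw [show (⟨_, h⟩ : V) = 1 from Subtype.ext hy₀i, map_one] at this
      exact one_ne_zero this

end TensorReduction

end Fermat.Agent.Abelian
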