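import Fermat.Agent.Reduction.PlaceReduction
import Fermat.Agent.Abelian.ConstTensor
import Fermat.Agent.Curve.ConstExt
import Fermat.Agent.Curve.Fibre
import Mathlib.RingTheory.TensorProduct.Basic
import Mathlib.RingTheory.Localization.FractionRing
import Mathlib.FieldTheory.IsAlgClosed.Basic

/-!
# Extension of the constants of a function field, and its reduction along a valuation

For an algebraically closed `k`, an extension field `Ω` and a function field `F/k`,
`ConstExt k Ω F` is the fraction field of `Ω ⊗[k] F`.  A residue datum (a valuation subring of `Ω`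
containing `k` with residue field `k`) induces a Gauss reduction from `ConstExt k Ω F` to `F`.

Team S26.
-/

set_option autoImplicit false
set_option linter.style.haveILetI false
set_option linter.unusedSectionVars false

noncomputable section

universe u

open AlgebraicCurve TensorProduct

namespace Fermat.Agent.Abelian

open Fermat.Agent.Curve Fermat.Agent.Reduction

variable (k Ω F : Type u) [Field k] [IsAlgClosed k] [Field Ω] [Algebra k Ω] [Field F] [Algebra k F]

instance isDomain_constTensor : IsDomain (Ω ⊗[k] F) := by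
  haveI := noZeroDivisors_constTensor k Ω F
  haveI := nontrivial_constTensor k Ω F
  exact NoZeroDivisors.to_isDomain _

/-- The function field with constants extended to `Ω`. -/
abbrev ConstExt : Type u := FractionRing (Ω ⊗[k] F)

namespace ConstExt

/-- The inclusion of the original function field. -/
def incl : F →ₐ[k] ConstExt k Ω F :=
  (IsScalarTower.toAlgHom k (Ω ⊗[k] F) (ConstExt k Ω F)).comp Algebra.TensorProduct.includeRight

variable {k Ω F}

theorem linearIndependent_incl {ι : Type*} {f : ι → F} (hf : LinearIndependent k f) :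
    LinearIndependent Ω fun i => incl k Ω F (f i) := by
  classical
  let B := Module.Basis.sumExtend hf
  let BΩ := Algebra.TensorProduct.basis Ω B
  have h1 : LinearIndependent Ω fun i => BΩ (Sum.inl i) :=
    BΩ.linearIndependent.comp _ Sum.inl_injective
  have h2 := h1.map' (IsScalarTower.toAlgHom Ω (Ω ⊗[k] F) (ConstExt k Ω F)).toLinearMap
    (LinearMap.ker_eq_bot.mpr (IsFractionRing.injective (Ω ⊗[k] F) (ConstExt k Ω F)))
  have hB : ∀ i, B (Sum.inl i) = f i := fun i => by
    simp [B, Module.Basis.sumExtend]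
    rfl
  have heq : (fun i => incl k Ω F (f i)) =
      (IsScalarTower.toAlgHom Ω (Ω ⊗[k] F) (ConstExt k Ω F)).toLinearMap ∘
        fun i => BΩ (Sum.inl i) := by
    funext i
    simp [BΩ, Algebra.TensorProduct.basis_apply, hB, incl]
  rw [heq]
  exact h2

theorem adjoin_range_incl :
    IntermediateField.adjoin Ω (Set.range (incl k Ω F)) = ⊤ := by
  rw [eq_top_iff]
  rintro e -
  have key : ∀ x : Ω ⊗[k] F, algebraMap (Ω ⊗[k] F) (ConstExt k Ω F) x ∈
      IntermediateField.adjoin Ω (Set.range (incl k Ω F)) := by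
    intro x
    induction x using TensorProduct.induction_on with
    | zero => simp
    | tmul c f =>
      have : algebraMap (Ω ⊗[k] F) (ConstExt k Ω F) (c ⊗ₜ f) =
          algebraMap Ω (ConstExt k Ω F) c * incl k Ω F f := by
        rw [IsScalarTower.algebraMap_apply Ω (Ω ⊗[k] F) (ConstExt k Ω F)]
        show _ = _ * algebraMap (Ω ⊗[k] F) (ConstExt k Ω F) (1 ⊗ₜ f)
        rw [← map_mul, Algebra.TensorProduct.algebraMap_apply, Algebra.TensorProduct.tmul_mul_tmul,
          mul_one, one_mul]
        rfl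
      rw [this]
      exact mul_mem (IntermediateField.algebraMap_mem _ c)
        (IntermediateField.subset_adjoin _ _ ⟨f, rfl⟩)
    | add x y hx hy => rw [map_add]; exact add_mem hx hy
  obtain ⟨a, b, -, rfl⟩ := IsFractionRing.div_surjective (A := Ω ⊗[k] F) e
  exact div_mem (key a) (key b)

instance instIsFunctionField1 [IsFunctionField1 k F] : IsFunctionField1 Ω (ConstExt k Ω F) := by
  letI : Algebra F (ConstExt k Ω F) := (incl k Ω F).toRingHom.toAlgebra
  haveI : IsScalarTower k F (ConstExt k Ω F) :=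
    IsScalarTower.of_algebraMap_eq fun a => ((incl k Ω F).commutes a).symm
  exact isFunctionField1_constExt (K := k) (L := Ω) (F := F) (F' := ConstExt k Ω F)
    (fun _ _ hf => linearIndependent_incl hf) adjoin_range_incl

/-- Riemann's inequality in the constant extension, with the genus of the original field. -/
theorem genusFF_le [IsFunctionField1 k F] [IsAlgClosed Ω] :
    genusFF Ω (ConstExt k Ω F) ≤ genusFF k F := by
  letI : Algebra F (ConstExt k Ω F) := (incl k Ω F).toRingHom.toAlgebra
  haveI : IsScalarTower k F (ConstExt k Ω F) :=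
    IsScalarTower.of_algebraMap_eq fun a => ((incl k Ω F).commutes a).symm
  obtain ⟨x, hx, -⟩ := IsFunctionField1.exists_transcendental' (K := k) (F := F)
  exact (finrank_eq_and_genusFF_le_constExt (L := Ω) (F' := ConstExt k Ω F)
    (fun _ _ hf => linearIndependent_incl hf) adjoin_range_incl hx).2

end ConstExt

/-- A valuation subring of `Ω` containing `k`, with residue field `k`. -/
structure ResidueDatum where
  V : ValuationSubring Ω
  algebraMap_mem : ∀ a : k, algebraMap k Ω a ∈ V
  res : V →+* k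
  res_algebraMap : ∀ a : k, res ⟨algebraMap k Ω a, algebraMap_mem a⟩ = a
  res_eq_zero : ∀ v : V, (v : Ω)⁻¹ ∉ V → res v = 0

variable {k Ω F}

theorem evalAt_one {L : Type*} [Field L] [Algebra k L] [IsFunctionField1 k L] (v : Place k L) :
    evalAt v (1 : L) = 1 :=
  evalAt_eq (c := (1 : k)) (by rw [map_one, sub_self]; exact ordGE_zero _)

/-- A place of a function field of transcendence degree one, inside an algebraically closed field
algebraic over it, extends to a residue datum. -/
theorem exists_residueDatum {L : Type u} [Field L] [Algebra k L] [Algebra L Ω]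
    [IsScalarTower k L Ω] [Algebra.IsAlgebraic L Ω] [IsFunctionField1 k L] (v : Place k L) :
    ∃ R : ResidueDatum k Ω, ∀ (x : L), x ∈ v.toValuationSubring →
      ∃ h : algebraMap L Ω x ∈ R.V, R.res ⟨_, h⟩ = evalAt v x := by
  classical
  let ι : v.toValuationSubring →+* Ω := (algebraMap L Ω).comp v.toValuationSubring.subtype
  obtain ⟨V, hV, hloc⟩ := IsLocalRing.exists_factor_valuationRing ι
  have hk : ∀ a : k, algebraMap k Ω a ∈ V := fun a => by
    rw [IsScalarTower.algebraMap_apply k L Ω]
    exact hV ⟨_, v.algebraMap_mem' a⟩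
  letI : Algebra k V := ((algebraMap k Ω).codRestrict V.toSubring hk).toAlgebra
  haveI : IsScalarTower k V Ω := IsScalarTower.of_algebraMap_eq fun _ => rfl
  let ι' : v.toValuationSubring →+* V := ι.codRestrict V.toSubring hV
  haveI : IsLocalHom ι' := hloc
  have hval : ∀ x : L, x ∈ v.toValuationSubring → ∃ h : algebraMap L Ω x ∈ V,
      IsLocalRing.residue V ⟨_, h⟩ = algebraMap k (IsLocalRing.ResidueField V) (evalAt v x) := by
    intro x hx
    refine ⟨hV ⟨x, hx⟩, ?_⟩
    have hmem : (⟨x, hx⟩ - algebraMap k v.toValuationSubring (evalAt v x) :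
        v.toValuationSubring) ∈ IsLocalRing.maximalIdeal v.toValuationSubring :=
      mem_maximalIdeal_iff.mpr (evalAt_spec v hx)
    have h2 : ι' (⟨x, hx⟩ - algebraMap k v.toValuationSubring (evalAt v x)) ∈
        IsLocalRing.maximalIdeal V := map_nonunit ι' _ hmem
    rw [← IsLocalRing.residue_eq_zero_iff, map_sub, map_sub, sub_eq_zero] at h2
    refine Eq.trans h2 ?_
    rw [IsScalarTower.algebraMap_apply k V (IsLocalRing.ResidueField V)]
    refine congrArg (IsLocalRing.residue V) (Subtype.ext ?_)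
    exact (IsScalarTower.algebraMap_apply k L Ω _).symm
  haveI : Algebra.IsIntegral k (IsLocalRing.ResidueField V) := by
    refine ⟨fun z => ?_⟩
    obtain ⟨u, rfl⟩ := IsLocalRing.residue_surjective z
    rw [← isAlgebraic_iff_isIntegral]
    -- an equation over `O_v` with a unit coefficient
    obtain ⟨p, hp, hpu⟩ := Algebra.IsAlgebraic.isAlgebraic (R := L) (u : Ω)
    obtain ⟨i, hi, hmax⟩ := Finset.exists_max_image p.support
      (fun j => v.toValuationSubring.valuation (p.coeff j))
      (Polynomial.support_nonempty.mpr hp)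
    have hi' : p.coeff i ≠ 0 := Polynomial.mem_support_iff.mp hi
    set q := Polynomial.C (p.coeff i)⁻¹ * p with hq
    have hqv : ∀ j, q.coeff j ∈ v.toValuationSubring := by
      intro j
      rw [hq, Polynomial.coeff_C_mul, inv_mul_eq_div, ← ValuationSubring.valuation_le_one_iff,
        map_div₀, div_le_one₀ (zero_lt_iff.mpr ((Valuation.ne_zero_iff _).mpr hi'))]
      rcases eq_or_ne (p.coeff j) 0 with hj | hj
      · simp [hj]
      · exact hmax j (Polynomial.mem_support_iff.mpr hj)
    have hqi : q.coeff i = 1 := by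
      rw [hq, Polynomial.coeff_C_mul, inv_mul_cancel₀ hi']
    have hq0 : ∑ j ∈ Finset.range (q.natDegree + 1), algebraMap L Ω (q.coeff j) * (u : Ω) ^ j
        = 0 := by
      have : Polynomial.aeval (u : Ω) q = 0 := by rw [hq, map_mul, hpu, mul_zero]
      rw [Polynomial.aeval_eq_sum_range] at this
      simpa [Algebra.smul_def] using this
    refine ⟨∑ j ∈ Finset.range (q.natDegree + 1),
      Polynomial.monomial j (evalAt v (q.coeff j)), fun h0 => ?_, ?_⟩
    · have hcoef := congrArg (fun r => Polynomial.coeff r i) h0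
      simp only [Polynomial.finsetSum_coeff, Polynomial.coeff_monomial, Finset.sum_ite_eq',
        Polynomial.coeff_zero, Finset.mem_range] at hcoef
      rw [if_pos (Nat.lt_succ_iff.mpr (Polynomial.le_natDegree_of_ne_zero (by simp [hqi]))),
        hqi, evalAt_one] at hcoef
      exact one_ne_zero hcoef
    · rw [map_sum]
      simp only [Polynomial.aeval_monomial]
      have hw : ∀ j, ∃ h : algebraMap L Ω (q.coeff j) ∈ V,
          IsLocalRing.residue V ⟨_, h⟩ =
            algebraMap k (IsLocalRing.ResidueField V) (evalAt v (q.coeff j)) :=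
        fun j => hval _ (hqv j)
      choose hw hw' using hw
      simp only [← hw', ← map_pow, ← map_mul, ← map_sum]
      rw [show (∑ j ∈ Finset.range (q.natDegree + 1), (⟨_, hw j⟩ : V) * u ^ j) = 0 from
        Subtype.ext (by push_cast; exact hq0), map_zero]
  have hbij : Function.Bijective (algebraMap k (IsLocalRing.ResidueField V)) :=
    IsAlgClosed.algebraMap_bijective_of_isIntegral
  let res : V →+* k := (RingEquiv.ofBijective _ hbij).symm.toRingHom.comp (IsLocalRing.residue V)
  have hres : ∀ (u : V) (c : k),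
      IsLocalRing.residue V u = algebraMap k (IsLocalRing.ResidueField V) c → res u = c := by
    intro u c h
    show (RingEquiv.ofBijective _ hbij).symm (IsLocalRing.residue V u) = c
    rw [h]
    exact (RingEquiv.ofBijective _ hbij).symm_apply_apply c
  refine ⟨⟨V, hk, res, fun a => hres _ _ rfl, fun u hu => hres u 0 ?_⟩, fun x hx => ?_⟩
  · rw [map_zero, IsLocalRing.residue_eq_zero_iff, IsLocalRing.mem_maximalIdeal, mem_nonunits_iff]
    rintro ⟨w, rfl⟩
    apply hu
    have h1 : ((w : V) : Ω) * (((w⁻¹ : Vˣ) : V) : Ω) = 1 := congrArg Subtype.val w.mul_inv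
    exact eq_inv_of_mul_eq_one_right h1 ▸ Subtype.coe_prop _
  · obtain ⟨h, h'⟩ := hval x hx
    exact ⟨h, hres _ _ h'⟩

namespace ResidueDatum

variable (R : ResidueDatum k Ω)

instance algebraV : Algebra k R.V :=
  ((algebraMap k Ω).codRestrict R.V.toSubring R.algebraMap_mem).toAlgebra

/-- The residue map as an algebra homomorphism. -/
def tensorReduction : TensorReduction (k := k) R.V where
  res := ⟨R.res, R.res_algebraMap⟩
  val _ := rfl
  res_eq_zero := R.res_eq_zero

variable (F) in
/-- `V ⊗ F → E`. -/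
def toExt : R.V ⊗[k] F →ₐ[k] ConstExt k Ω F :=
  (IsScalarTower.toAlgHom k (Ω ⊗[k] F) (ConstExt k Ω F)).comp (R.tensorReduction.toTensor F)

theorem toExt_injective : Function.Injective (R.toExt F) :=
  (IsFractionRing.injective (Ω ⊗[k] F) (ConstExt k Ω F)).comp R.tensorReduction.toTensor_injective

theorem toExt_const_mul (c : R.V) (x : R.V ⊗[k] F) :
    R.toExt F ((c ⊗ₜ (1 : F)) * x) = (c : Ω) • R.toExt F x := by
  show algebraMap _ (ConstExt k Ω F) (R.tensorReduction.toTensor F _) = _
  rw [R.tensorReduction.toTensor_const_mul]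
  exact map_smul (IsScalarTower.toAlgHom Ω (Ω ⊗[k] F) (ConstExt k Ω F)) _ _

variable (F) in
/-- Pairs (integral element, reduction). -/
def graphRing : Subring (ConstExt k Ω F × F) where
  carrier := {eg | ∃ a b : R.V ⊗[k] F, R.tensorReduction.red F b ≠ 0 ∧
    eg.1 * R.toExt F b = R.toExt F a ∧
    eg.2 * R.tensorReduction.red F b = R.tensorReduction.red F a}
  zero_mem' := ⟨0, 1, by simp, by simp, by simp⟩
  one_mem' := ⟨1, 1, by simp, by simp, by simp⟩
  add_mem' := by
    rintro p q ⟨a, b, hb, h1, h2⟩ ⟨a', b', hb', h1', h2'⟩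
    refine ⟨a * b' + a' * b, b * b', by rw [map_mul]; exact mul_ne_zero hb hb', ?_, ?_⟩
    · rw [Prod.fst_add, map_add, map_mul, map_mul, map_mul, ← h1, ← h1']; ring
    · rw [Prod.snd_add, map_add, map_mul, map_mul, map_mul, ← h2, ← h2']; ring
  mul_mem' := by
    rintro p q ⟨a, b, hb, h1, h2⟩ ⟨a', b', hb', h1', h2'⟩
    refine ⟨a * a', b * b', by rw [map_mul]; exact mul_ne_zero hb hb', ?_, ?_⟩
    · rw [Prod.fst_mul, map_mul, map_mul, ← h1, ← h1']; ring
    · rw [Prod.snd_mul, map_mul, map_mul, ← h2, ← h2']; ring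
  neg_mem' := by
    rintro p ⟨a, b, hb, h1, h2⟩
    exact ⟨-a, b, hb, by rw [Prod.fst_neg, map_neg, ← h1, neg_mul],
      by rw [Prod.snd_neg, map_neg, ← h2, neg_mul]⟩

theorem mem_graphRing {e : ConstExt k Ω F} {g : F} : (e, g) ∈ R.graphRing F ↔
    ∃ a b : R.V ⊗[k] F, R.tensorReduction.red F b ≠ 0 ∧
      e * R.toExt F b = R.toExt F a ∧
      g * R.tensorReduction.red F b = R.tensorReduction.red F a := Iff.rfl

theorem graphRing_unique {g : F} (h : ((0 : ConstExt k Ω F), g) ∈ R.graphRing F) : g = 0 := by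
  obtain ⟨a, b, hb, h1, h2⟩ := R.mem_graphRing.mp h
  rw [zero_mul, eq_comm, map_eq_zero_iff _ R.toExt_injective] at h1
  rw [h1, map_zero, mul_eq_zero, or_iff_left hb] at h2
  exact h2

theorem algebraMap_mem_graphRing (c : R.V) :
    (algebraMap Ω (ConstExt k Ω F) (c : Ω), algebraMap k F (R.res c)) ∈ R.graphRing F := by
  refine R.mem_graphRing.mpr ⟨(c ⊗ₜ (1 : F)) * 1, 1, by simp, ?_, ?_⟩
  · rw [R.toExt_const_mul, map_one, mul_one, Algebra.smul_def, mul_one]
  · rw [R.tensorReduction.red_const_mul, map_one, mul_one, Algebra.smul_def, mul_one]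
    rfl

theorem smul_mem_graphRing (c : R.V) {e : ConstExt k Ω F} {g : F} (h : (e, g) ∈ R.graphRing F) :
    ((c : Ω) • e, R.res c • g) ∈ R.graphRing F := by
  simpa [Algebra.smul_def] using (R.graphRing F).mul_mem (R.algebraMap_mem_graphRing c) h

/-- Integral elements with independent reductions are independent. -/
theorem linearIndependent_of_red {ι : Type*} [Fintype ι] {e : ι → ConstExt k Ω F} {g : ι → F}
    (h : ∀ i, (e i, g i) ∈ R.graphRing F) (hg : LinearIndependent k g) :
    LinearIndependent Ω e := by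
  classical
  rw [Fintype.linearIndependent_iff]
  intro c hc
  by_contra hall
  push Not at hall
  obtain ⟨i₀, hi₀⟩ := hall
  obtain ⟨i, -, hmax⟩ := Finset.exists_max_image Finset.univ (fun j => R.V.valuation (c j))
    ⟨i₀, Finset.mem_univ _⟩
  have hci : c i ≠ 0 := by
    intro h0
    have := hmax i₀ (Finset.mem_univ _)
    rw [h0, map_zero, le_zero_iff, Valuation.zero_iff] at this
    exact hi₀ this
  have hd : ∀ j, c j / c i ∈ R.V := fun j => by
    rw [← R.V.valuation_le_one_iff, map_div₀,
      div_le_one₀ (zero_lt_iff.mpr ((Valuation.ne_zero_iff _).mpr hci))]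
    exact hmax j (Finset.mem_univ _)
  have hsum := (R.graphRing F).sum_mem (t := Finset.univ)
    fun j _ => R.smul_mem_graphRing ⟨_, hd j⟩ (h j)
  have h0 : ∑ j, (c j / c i) • e j = 0 := by
    simp_rw [div_eq_inv_mul, mul_smul]
    rw [← Finset.smul_sum, hc, smul_zero]
  have hsum' : ((0 : ConstExt k Ω F), ∑ j, R.res ⟨_, hd j⟩ • g j) ∈ R.graphRing F := by
    convert hsum using 1
    ext <;> simp [Prod.fst_sum, Prod.snd_sum, h0]
  have hz := Fintype.linearIndependent_iff.mp hg _ (R.graphRing_unique hsum') i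
  rw [show (⟨_, hd i⟩ : R.V) = 1 from Subtype.ext (div_self hci), map_one] at hz
  exact one_ne_zero hz

theorem finrank_span_graphRing (W : Submodule Ω (ConstExt k Ω F)) [FiniteDimensional Ω W] :
    Module.finrank k (Submodule.span k {g : F | ∃ f ∈ W, (f, g) ∈ R.graphRing F}) =
      Module.finrank Ω W := by
  classical
  set S := Submodule.span k {g : F | ∃ f ∈ W, (f, g) ∈ R.graphRing F}
  have hmem : ∀ g ∈ S, ∃ f ∈ W, (f, g) ∈ R.graphRing F := by
    intro g hg
    induction hg using Submodule.span_induction with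
    | mem g hg => exact hg
    | zero => exact ⟨0, W.zero_mem, (R.graphRing F).zero_mem⟩
    | add a b _ _ ha hb =>
      obtain ⟨f, hf, hfa⟩ := ha
      obtain ⟨f', hf', hfb⟩ := hb
      exact ⟨f + f', add_mem hf hf', (R.graphRing F).add_mem hfa hfb⟩
    | smul c a _ ha =>
      obtain ⟨f, hf, hfa⟩ := ha
      refine ⟨((⟨_, R.algebraMap_mem c⟩ : R.V) : Ω) • f, W.smul_mem _ hf, ?_⟩
      have := R.smul_mem_graphRing ⟨_, R.algebraMap_mem c⟩ hfa
      rwa [R.res_algebraMap] at this
  have hle : ∀ s : Finset S, LinearIndependent k (fun i : s => (i : S)) →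
      s.card ≤ Module.finrank Ω W := by
    intro s hs
    choose f hf hfg using fun i : s => hmem _ (i : S).2
    have := R.linearIndependent_of_red hfg (hs.map' S.subtype S.ker_subtype)
    have h2 := (LinearIndependent.of_comp W.subtype
      (v := fun i => (⟨f i, hf i⟩ : W)) this).fintype_card_le_finrank
    rwa [Fintype.card_coe] at h2
  have hrank : Module.rank k S ≤ Module.finrank Ω W := rank_le hle
  haveI : FiniteDimensional k S :=
    Module.rank_lt_aleph0_iff.mp (hrank.trans_lt Cardinal.natCast_lt_aleph0)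
  refine le_antisymm (Nat.cast_le.mp ((Module.finrank_eq_rank k S).trans_le hrank)) ?_
  -- a common denominator with non-zero reduction
  let b := Module.finBasis Ω W
  obtain ⟨⟨y, hy⟩, hyb⟩ := IsLocalization.exist_integer_multiples (nonZeroDivisors (Ω ⊗[k] F))
    Finset.univ fun i => (b i : ConstExt k Ω F)
  obtain ⟨i, hi, hmax⟩ := TensorReduction.exists_max (V := R.V) (nonZeroDivisors.ne_zero hy)
  set c := (TensorReduction.coordBasis F).repr y i
  obtain ⟨z, hz⟩ := R.tensorReduction.exists_preimage (x := c⁻¹ • y) fun l => by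
    rw [map_smul, Finsupp.smul_apply, smul_eq_mul, inv_mul_eq_div]; exact hmax l
  have hzred : R.tensorReduction.red F z ≠ 0 := by
    intro h0
    obtain ⟨h, h'⟩ := R.tensorReduction.coord_mem_and_res z i
    rw [h0, map_zero, Finsupp.zero_apply] at h'
    have h1 : (TensorReduction.coordBasis F).repr (R.tensorReduction.toTensor F z) i = 1 := by
      rw [hz, map_smul, Finsupp.smul_apply, smul_eq_mul, inv_mul_cancel₀ hi]
    rw [show (⟨_, h⟩ : R.V) = 1 from Subtype.ext h1, map_one] at h'
    exact one_ne_zero h'.symm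
  have hzne : R.toExt F z ≠ 0 := fun h0 => hzred (by
    rw [(map_eq_zero_iff _ R.toExt_injective).mp h0, map_zero])
  -- the subspace of `Ω ⊗ F` lying over `W`
  let φ : (Ω ⊗[k] F) →ₗ[Ω] ConstExt k Ω F :=
    (LinearMap.mulRight Ω (R.toExt F z)⁻¹).comp
      (IsScalarTower.toAlgHom Ω (Ω ⊗[k] F) (ConstExt k Ω F)).toLinearMap
  have hφ : ∀ x, φ x = algebraMap (Ω ⊗[k] F) (ConstExt k Ω F) x * (R.toExt F z)⁻¹ := fun _ => rfl
  have hφinj : Function.Injective φ := fun x x' hxx => by
    rw [hφ, hφ] at hxx
    exact IsFractionRing.injective (Ω ⊗[k] F) (ConstExt k Ω F)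
      (mul_right_cancel₀ (inv_ne_zero hzne) hxx)
  let W₀ := W.comap φ
  have hW₀ : W₀.map φ = W := by
    refine le_antisymm (Submodule.map_comap_le _ _) ?_
    have hb : ∀ j, (b j : ConstExt k Ω F) ∈ LinearMap.range φ := by
      intro j
      obtain ⟨t, ht⟩ := hyb j (Finset.mem_univ _)
      refine ⟨c⁻¹ • t, ?_⟩
      have hz' : R.toExt F z = c⁻¹ • algebraMap (Ω ⊗[k] F) (ConstExt k Ω F) y := by
        show algebraMap _ (ConstExt k Ω F) (R.tensorReduction.toTensor F z) = _
        rw [hz]
        exact map_smul (IsScalarTower.toAlgHom Ω (Ω ⊗[k] F) (ConstExt k Ω F)) _ _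
      have ht' : algebraMap (Ω ⊗[k] F) (ConstExt k Ω F) t =
          algebraMap (Ω ⊗[k] F) (ConstExt k Ω F) y * (b j : ConstExt k Ω F) := by
        rw [ht, Algebra.smul_def]
      rw [map_smul, hφ, ht', ← smul_mul_assoc, ← smul_mul_assoc, ← hz', mul_comm (R.toExt F z)]
      exact mul_inv_cancel_right₀ hzne _
    intro w hw
    have hw' : w ∈ LinearMap.range φ := by
      have h := b.sum_repr ⟨w, hw⟩
      have h' : w = ∑ j, b.repr ⟨w, hw⟩ j • (b j : ConstExt k Ω F) := by
        rw [Subtype.ext_iff, Submodule.coe_sum] at h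
        exact h.symm
      rw [h']
      exact Submodule.sum_mem _ fun j _ => Submodule.smul_mem _ _ (hb j)
    obtain ⟨x, rfl⟩ := hw'
    exact ⟨x, hw, rfl⟩
  have hdim : Module.finrank Ω W₀ = Module.finrank Ω W := by
    rw [← hW₀]; exact (Submodule.equivMapOfInjective φ hφinj W₀).finrank_eq
  haveI : FiniteDimensional Ω W₀ :=
    FiniteDimensional.of_injective ((φ ∘ₗ W₀.subtype).codRestrict W fun x => x.2)
      fun x x' hxx => Subtype.ext (hφinj (congrArg Subtype.val hxx))
  obtain ⟨w, hw, hli⟩ := R.tensorReduction.exists_independent_red W₀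
  set g : Fin (Module.finrank Ω W₀) → F :=
    fun j => R.tensorReduction.red F (w j) * (R.tensorReduction.red F z)⁻¹
  have hgS : ∀ j, g j ∈ S := fun j => Submodule.subset_span
    ⟨φ (R.tensorReduction.toTensor F (w j)), hw j, R.mem_graphRing.mpr ⟨w j, z, hzred,
      by rw [hφ, inv_mul_cancel_right₀ hzne]; rfl,
      inv_mul_cancel_right₀ hzred _⟩⟩
  have hgli : LinearIndependent k g := hli.map' (LinearMap.mulRight k (R.tensorReduction.red F z)⁻¹)
    (LinearMap.ker_eq_bot.mpr fun x x' hxx => mul_right_cancel₀ (inv_ne_zero hzred) hxx)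
  have := (LinearIndependent.of_comp S.subtype (v := fun j => (⟨g j, hgS j⟩ : S))
    hgli).fintype_card_le_finrank
  rwa [Fintype.card_fin, hdim] at this

variable (F) in
/-- The Gauss reduction attached to a residue datum. -/
def gauss : GaussData R.res (ConstExt k Ω F) F where
  graph := R.graphRing F
  unique _ h := R.graphRing_unique h
  algebraMap_mem := R.algebraMap_mem_graphRing
  residue_surjective a := ⟨⟨_, R.algebraMap_mem a⟩, R.res_algebraMap a⟩
  residue_eq_zero := R.res_eq_zero
  exists_lift g := ⟨R.toExt F (1 ⊗ₜ g), R.mem_graphRing.mpr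
    ⟨1 ⊗ₜ g, 1, by simp, by simp, by simp [TensorReduction.red_tmul]⟩⟩
  finrank_span W _ := R.finrank_span_graphRing W

theorem gauss_incl (f : F) : (ConstExt.incl k Ω F f, f) ∈ (R.gauss F).graph :=
  R.mem_graphRing.mpr ⟨1 ⊗ₜ f, 1, by simp, by rw [map_one, mul_one]; rfl,
    by simp [TensorReduction.red_tmul]⟩

theorem gauss_inv {e : ConstExt k Ω F} {g : F} (h : (e, g) ∈ (R.gauss F).graph) (hg : g ≠ 0) :
    (e⁻¹, g⁻¹) ∈ (R.gauss F).graph := by
  have he : e ≠ 0 := (R.gauss F).ne_zero_of_mem h hg
  obtain ⟨a, b, hb, h1, h2⟩ := R.mem_graphRing.mp h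
  refine R.mem_graphRing.mpr ⟨b, a, ?_, ?_, ?_⟩
  · rw [← h2]; exact mul_ne_zero hg hb
  · rw [← h1, ← mul_assoc, inv_mul_cancel₀ he, one_mul]
  · rw [← h2, ← mul_assoc, inv_mul_cancel₀ hg, one_mul]

variable [IsFunctionField1 k F] [IsAlgClosed Ω]

/-- Specialisation of places. -/
def red (Q : Place Ω (ConstExt k Ω F)) : Place k F :=
  ((R.gauss F).exists_placeCompat ConstExt.genusFF_le).choose Q

theorem deg_red (Q : Place Ω (ConstExt k Ω F)) : (R.red Q).deg = Q.deg :=
  ((R.gauss F).exists_placeCompat ConstExt.genusFF_le).choose_spec.1 Q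

theorem placeCompat_red : (R.gauss F).PlaceCompat R.red :=
  ((R.gauss F).exists_placeCompat ConstExt.genusFF_le).choose_spec.2

/-- Specialisation of divisors preserves linear equivalence. -/
theorem isPrincipal_mapDomain_red {D : Divisor Ω (ConstExt k Ω F)} (h : D.IsPrincipal) :
    Divisor.IsPrincipal (Finsupp.mapDomain R.red D : Divisor k F) := by
  obtain ⟨f, hf, hD⟩ := h
  obtain ⟨c, hc, g, hg, hcg⟩ := (R.gauss F).exists_smul hf
  refine ⟨g, hg, R.placeCompat_red _ g hcg hg D fun Q => ?_⟩
  rw [hD Q, ord_smul_of_ne_zero hc]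

theorem degree_mapDomain_red (D : Divisor Ω (ConstExt k Ω F)) :
    Divisor.degree (Finsupp.mapDomain R.red D : Divisor k F) = Divisor.degree D := by
  exact degree_mapDomain_eq R.deg_red D

/-- Semicontinuity. -/
theorem ell_le_ell_mapDomain_red (D : Divisor Ω (ConstExt k Ω F)) :
    ell D ≤ ell (Finsupp.mapDomain R.red D : Divisor k F) := by
  haveI := finite_riemannRochSpace (Finsupp.mapDomain R.red D : Divisor k F)
  rw [ell, ← (R.gauss F).finrank_redSpace _ (finite_riemannRochSpace D)]
  exact Submodule.finrank_mono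
    (((R.gauss F).toGaussReduction R.placeCompat_red).redSpace_rr_le D)

/-- The order of the reduction is the sum of the orders above. -/
theorem ord_le_ord_red {e : ConstExt k Ω F} {g : F} (h : (e, g) ∈ (R.gauss F).graph) (hg : g ≠ 0)
    {Q : Place Ω (ConstExt k Ω F)}
    (hge : ∀ Q', R.red Q' = R.red Q → 0 ≤ Q'.ord e) :
    Q.ord e ≤ (R.red Q).ord g := by
  classical
  have hsum := R.placeCompat_red e g h hg (divisorOf e) (fun Q' => divisorOf_apply e Q') (R.red Q)
  rw [← hsum, Finsupp.mapDomain, Finsupp.sum_apply, Finsupp.sum]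
  rcases eq_or_ne (Q.ord e) 0 with h0 | h0
  · rw [h0]
    refine Finset.sum_nonneg fun Q' _ => ?_
    rw [Finsupp.single_apply]
    split
    · next hQ' => rw [divisorOf_apply]; exact hge Q' hQ'
    · exact le_rfl
  · refine le_trans (le_of_eq ?_) (Finset.single_le_sum
      (f := fun Q' => (Finsupp.single (R.red Q') (divisorOf e Q') : Divisor k F) (R.red Q))
      (fun Q' _ => ?_) (show Q ∈ (divisorOf (K := Ω) e).support by
        rwa [Finsupp.mem_support_iff, divisorOf_apply]))
    · simp
    · rw [Finsupp.single_apply]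
      split
      · next hQ' => rw [divisorOf_apply]; exact hge Q' hQ'
      · exact le_rfl

/-- Integral elements regular above `P` have values reducing to the value at `P`. -/
theorem eval_red {e : ConstExt k Ω F} {g : F} (h : (e, g) ∈ (R.gauss F).graph)
    (Q : Place Ω (ConstExt k Ω F))
    (hQ : ∀ Q', R.red Q' = R.red Q → e ∈ Q'.toValuationSubring) :
    ∃ hv : evalAt Q e ∈ R.V, R.res ⟨_, hv⟩ = evalAt (R.red Q) g := by
  set c := evalAt Q e
  have hspec : e - algebraMap _ _ c = 0 ∨ 0 < Q.ord (e - algebraMap Ω (ConstExt k Ω F) c) :=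
    evalAt_spec Q (hQ Q rfl)
  have hnn : ∀ (d : Ω) (e' : ConstExt k Ω F), (e' = algebraMap _ _ d * (e - algebraMap _ _ c)) →
      ∀ Q', R.red Q' = R.red Q → 0 ≤ Q'.ord e' := by
    rintro d e' rfl Q' hQ'
    exact (mem_iff_ord_nonneg Q').mp
      (mul_mem (Q'.algebraMap_mem' d) (sub_mem (hQ Q' hQ') (Q'.algebraMap_mem' c)))
  have hcV : c ∈ R.V := by
    by_contra hc
    have hc0 : c ≠ 0 := fun h0 => hc (h0 ▸ zero_mem _)
    have hci : c⁻¹ ∈ R.V := (R.V.mem_or_inv_mem c).resolve_left hc
    have hres : R.res ⟨c⁻¹, hci⟩ = 0 := R.res_eq_zero _ (by simpa using hc)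
    have h2 : (algebraMap Ω (ConstExt k Ω F) c⁻¹ * (e - algebraMap _ _ c), (-1 : F)) ∈
        (R.gauss F).graph := by
      have := (R.gauss F).graph.sub_mem
        ((R.gauss F).graph.mul_mem ((R.gauss F).algebraMap_mem ⟨c⁻¹, hci⟩) h)
        (R.gauss F).graph.one_mem
      rw [mul_sub, ← map_mul, inv_mul_cancel₀ hc0, map_one]
      convert this using 1
      ext <;> simp [hres]
    rcases hspec with h0 | h0
    · rw [h0, mul_zero] at h2
      exact one_ne_zero (neg_eq_zero.mp ((R.gauss F).unique _ h2))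
    · have := R.ord_le_ord_red h2 (neg_ne_zero.mpr one_ne_zero) (hnn _ _ rfl)
      rw [Q.ord_mul ((_root_.map_ne_zero _).mpr (inv_ne_zero hc0)) (fun h1 => by simp [h1] at h0),
        ord_algebraMap,
        ord_neg, Place.ord_one] at this
      omega
  refine ⟨hcV, (evalAt_eq ?_).symm⟩
  have h2 : (e - algebraMap Ω (ConstExt k Ω F) c, g - algebraMap k F (R.res ⟨c, hcV⟩)) ∈
      (R.gauss F).graph := (R.gauss F).graph.sub_mem h ((R.gauss F).algebraMap_mem ⟨c, hcV⟩)
  rcases eq_or_ne (g - algebraMap k F (R.res ⟨c, hcV⟩)) 0 with h3 | h3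
  · rw [h3]; exact ordGE_zero _
  · have := R.ord_le_ord_red h2 h3 (hnn 1 _ (by rw [map_one, one_mul]))
    have h4 := (R.gauss F).ne_zero_of_mem h2 h3
    exact ordGE_of_le_ord (by have := hspec.resolve_left h4; omega)

/-- The constants of `F` regular at `red Q` are regular at `Q`. -/
theorem incl_mem_of_mem_red {Q : Place Ω (ConstExt k Ω F)} {f : F}
    (hf : f ∈ (R.red Q).toValuationSubring) :
    ConstExt.incl k Ω F f ∈ Q.toValuationSubring := by
  classical
  by_contra hfQ
  letI : Algebra F (ConstExt k Ω F) := (ConstExt.incl k Ω F).toRingHom.toAlgebra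
  haveI : IsScalarTower k F (ConstExt k Ω F) :=
    IsScalarTower.of_algebraMap_eq fun a => ((ConstExt.incl k Ω F).commutes a).symm
  set A := Q.toValuationSubring.comap (algebraMap F (ConstExt k Ω F)) with hA
  have hk : ∀ a : k, algebraMap k F a ∈ A := fun a => by
    rw [hA, ValuationSubring.mem_comap, ← IsScalarTower.algebraMap_apply,
      IsScalarTower.algebraMap_apply k Ω (ConstExt k Ω F)]
    exact Q.algebraMap_mem' _
  have hne : A ≠ ⊤ := fun h => hfQ (show f ∈ A from h ▸ trivial)
  set v : Place k F := placeOfValuationSubring A hk hne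
  have hvne : R.red Q ≠ v := fun h => hfQ (show f ∈ A from by rw [h] at hf; exact hf)
  -- a function of `F` with poles only at `v`
  obtain ⟨h, htr, hpole⟩ := exists_unique_pole v
  have hh0 : h ≠ 0 := fun h0 => htr (h0 ▸ isAlgebraic_zero)
  have hdeg : Divisor.degree (poleDivisor (K := Ω) (ConstExt.incl k Ω F h)) =
      Divisor.degree (poleDivisor (K := k) h) := by
    show Divisor.degree (poleDivisor (K := Ω) (algebraMap F (ConstExt k Ω F) h)) = _
    rw [degree_poleDivisor (transcendental_constExt (L := Ω) (F' := ConstExt k Ω F)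
      (fun _ _ hf => ConstExt.linearIndependent_incl hf) htr), degree_poleDivisor htr]
    exact_mod_cast (finrank_eq_and_genusFF_le_constExt (L := Ω) (F' := ConstExt k Ω F)
      (fun _ _ hf => ConstExt.linearIndependent_incl hf) ConstExt.adjoin_range_incl htr).1
  set e := ConstExt.incl k Ω F h
  set M : Divisor k F := Finsupp.mapDomain R.red (poleDivisor (K := Ω) e)
  have hcomp : Finsupp.mapDomain R.red (divisorOf (K := Ω) e) = divisorOf (K := k) h :=
    Finsupp.ext fun P => (R.placeCompat_red e h (R.gauss_incl h) hh0 (divisorOf e)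
      (fun Q' => divisorOf_apply e Q') P).trans (divisorOf_apply h P).symm
  have hle : poleDivisor (K := k) h ≤ M := by
    intro P
    have hsplit : divisorOf (K := Ω) e + poleDivisor e ≥ 0 := fun Q' => by
      simp only [Finsupp.coe_zero, Pi.zero_apply, Finsupp.add_apply, divisorOf_apply,
        poleDivisor_apply]
      omega
    have h1 := mapDomain_nonneg (r := R.red) hsplit P
    rw [Finsupp.mapDomain_add, hcomp, Finsupp.add_apply, divisorOf_apply] at h1
    have h2 : 0 ≤ M P := mapDomain_nonneg (r := R.red) (poleDivisor_nonneg (K := Ω) e) P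
    change (0 : Divisor k F) P ≤ P.ord h + M P at h1
    rw [poleDivisor_apply]
    simp only [Finsupp.coe_zero, Pi.zero_apply] at h1 h2
    omega
  have hMeq : M = poleDivisor (K := k) h := by
    refine (sub_eq_zero.mp ?_)
    set D := M - poleDivisor (K := k) h
    have hD : 0 ≤ D := sub_nonneg.mpr hle
    have hD0 : Divisor.degree D = 0 := by
      rw [map_sub, R.degree_mapDomain_red, hdeg, sub_self]
    refine Finsupp.ext fun P => le_antisymm ?_ (hD P)
    by_contra hlt
    push Not at hlt
    simp only [Finsupp.coe_zero, Pi.zero_apply] at hlt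
    have hs : Finsupp.single P 1 ≤ D := fun P' => by
      rw [Finsupp.single_apply]
      split
      · next hP => subst hP; omega
      · exact hD P'
    have := degree_mono hs
    rw [hD0, Divisor.degree_single, deg_eq_one] at this
    omega
  have hQpole : 0 < poleDivisor (K := Ω) e Q := by
    rw [poleDivisor_apply]
    have : ¬ 0 ≤ Q.ord e := fun h0 => by
      have : h ∈ v.toValuationSubring := (mem_iff_ord_nonneg Q).mpr h0
      rw [mem_iff_ord_nonneg] at this
      have := (hpole v).mpr rfl
      omega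
    omega
  have hM : 0 < M (R.red Q) := by
    refine hQpole.trans_le ?_
    simp only [M, Finsupp.mapDomain, Finsupp.sum, Finsupp.finsetSum_apply]
    refine le_trans (le_of_eq Finsupp.single_eq_same.symm) (Finset.single_le_sum
      (f := fun Q' => (Finsupp.single (R.red Q') (poleDivisor (K := Ω) e Q') : Divisor k F)
        (R.red Q)) (fun Q' _ => ?_) (Finsupp.mem_support_iff.mpr hQpole.ne'))
    rw [Finsupp.single_apply]
    split
    · exact poleDivisor_nonneg _ Q'
    · exact le_rfl
  rw [hMeq, poleDivisor_apply] at hM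
  exact hvne ((hpole _).mp (by omega))

/-- The elements integral for the Gauss valuation and regular above `P`. -/
def localRing (P : Place k F) : Subalgebra k (ConstExt k Ω F) where
  carrier := {e | ∃ g ∈ P.toValuationSubring, (e, g) ∈ (R.gauss F).graph ∧
    ∀ Q, R.red Q = P → e ∈ Q.toValuationSubring}
  mul_mem' := by
    rintro a b ⟨g, hg, hga, ha⟩ ⟨g', hg', hgb, hb⟩
    exact ⟨g * g', mul_mem hg hg', (R.gauss F).graph.mul_mem hga hgb,
      fun Q hQ => mul_mem (ha Q hQ) (hb Q hQ)⟩
  add_mem' := by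
    rintro a b ⟨g, hg, hga, ha⟩ ⟨g', hg', hgb, hb⟩
    exact ⟨g + g', add_mem hg hg', (R.gauss F).graph.add_mem hga hgb,
      fun Q hQ => add_mem (ha Q hQ) (hb Q hQ)⟩
  algebraMap_mem' a := by
    refine ⟨algebraMap k F a, P.algebraMap_mem' a, ?_, fun Q _ => ?_⟩
    · simpa using R.gauss_incl (F := F) (algebraMap k F a)
    · rw [IsScalarTower.algebraMap_apply k Ω (ConstExt k Ω F)]
      exact Q.algebraMap_mem' _

theorem constant_mem_localRing (P : Place k F) {c : Ω} (hc : c ∈ R.V) :
    algebraMap Ω (ConstExt k Ω F) c ∈ R.localRing P := by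
  exact ⟨algebraMap k F (R.res ⟨c, hc⟩), P.algebraMap_mem' _, (R.gauss F).algebraMap_mem ⟨c, hc⟩,
    fun Q _ => Q.algebraMap_mem' c⟩

theorem incl_mem_localRing {P : Place k F} {f : F} (hf : f ∈ P.toValuationSubring) :
    ConstExt.incl k Ω F f ∈ R.localRing P := by
  exact ⟨f, hf, R.gauss_incl f, fun Q hQ => R.incl_mem_of_mem_red (hQ ▸ hf)⟩

/-- An element of the local ring is a unit iff its reduction is non-zero at `P`. -/
theorem isUnit_localRing_iff {P : Place k F} (e : R.localRing P) {g : F}
    (hg : ((e : ConstExt k Ω F), g) ∈ (R.gauss F).graph) :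
    IsUnit e ↔ g ≠ 0 ∧ P.ord g = 0 := by
  obtain ⟨g', hg'P, hg', hreg⟩ := e.2
  obtain rfl := (R.gauss F).eq_of_mem hg' hg
  constructor
  · rintro ⟨u, rfl⟩
    obtain ⟨g₂, hg₂P, hg₂, -⟩ := ((u⁻¹ : (R.localRing P)ˣ) : R.localRing P).2
    have h1 : g' * g₂ = 1 := by
      refine (R.gauss F).eq_of_mem ((R.gauss F).graph.mul_mem hg' hg₂) ?_
      have : ((u : R.localRing P) : ConstExt k Ω F) *
          (((u⁻¹ : (R.localRing P)ˣ) : R.localRing P) : ConstExt k Ω F) = 1 :=
        congrArg Subtype.val u.mul_inv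
      rw [this]
      exact (R.gauss F).graph.one_mem
    have hg0 : g' ≠ 0 := left_ne_zero_of_mul_eq_one h1
    refine ⟨hg0, ?_⟩
    have := congrArg P.ord h1
    rw [P.ord_mul hg0 (right_ne_zero_of_mul_eq_one h1), P.ord_one] at this
    have := (mem_iff_ord_nonneg P).mp hg'P
    have := (mem_iff_ord_nonneg P).mp hg₂P
    omega
  · rintro ⟨hg0, hord⟩
    have he0 := (R.gauss F).ne_zero_of_mem hg' hg0
    have hinv : (e : ConstExt k Ω F)⁻¹ ∈ R.localRing P := by
      refine ⟨g'⁻¹, (mem_iff_ord_nonneg P).mpr (by rw [P.ord_inv, hord]; rfl),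
        R.gauss_inv hg' hg0, fun Q hQ => (mem_iff_ord_nonneg Q).mpr ?_⟩
      subst hQ
      have := R.ord_le_ord_red hg' hg0 fun Q' hQ' => (mem_iff_ord_nonneg Q').mp (hreg Q' hQ')
      rw [Q.ord_inv]
      omega
    exact IsUnit.of_mul_eq_one ⟨_, hinv⟩ (Subtype.ext (mul_inv_cancel₀ he0))

theorem isLocalRing_localRing (P : Place k F) : IsLocalRing (R.localRing P) := by
  refine IsLocalRing.of_isUnit_or_isUnit_of_isUnit_add fun {a b} hab => ?_
  obtain ⟨g, hgP, hg, -⟩ := a.2
  obtain ⟨g', hg'P, hg', -⟩ := b.2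
  obtain ⟨h0, hord⟩ := (R.isUnit_localRing_iff (g := g + g') (a + b) ((R.gauss F).graph.add_mem hg hg')).mp hab
  by_contra hcon
  push Not at hcon
  have key : ∀ (x : R.localRing P) (r : F), ((x : ConstExt k Ω F), r) ∈ (R.gauss F).graph →
      r ∈ P.toValuationSubring → ¬ IsUnit x → OrdGE P 1 r := by
    intro x r hr hrP hx
    rcases eq_or_ne r 0 with rfl | hr0
    · exact ordGE_zero _
    · refine ordGE_of_le_ord ?_
      have := (mem_iff_ord_nonneg P).mp hrP
      by_contra hlt
      exact hx ((R.isUnit_localRing_iff x hr).mpr ⟨hr0, by omega⟩)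
  have := ((key a g hg hgP hcon.1).add (key b g' hg' hg'P hcon.2)).le_ord h0
  omega

end ResidueDatum

end Fermat.Agent.Abelian
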