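import Fermat.Agent.Abelian.Slopes
import Fermat.Agent.Curve.RiemannRoch

/-!
# Helper lemmas for counting torsion points

Vanishing orders in Riemann-Roch spaces, forms with exponents in a box, and an elementary growth
lemma.

Team S26, owner helper45.
-/

set_option autoImplicit false

noncomputable section

universe u

open AlgebraicCurve IntermediateField

namespace Fermat.Agent.Abelian

open Fermat.Agent.Curve

/-! ### Riemann-Roch spaces and vanishing orders -/

section RR

variable {k E : Type*} [Field k] [Field E] [Algebra k E]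

theorem mem_riemannRochSpace_iff_ordGE {D : Divisor k E} {f : E} :
    f ∈ riemannRochSpace D ↔ ∀ v : Place k E, OrdGE v (-D v) f := by
  rw [mem_riemannRochSpace_iff]
  exact forall_congr' fun v => (ordGE_iff v).symm

theorem mul_mem_riemannRochSpace_add {D D' : Divisor k E} {f f' : E}
    (hf : f ∈ riemannRochSpace D) (hf' : f' ∈ riemannRochSpace D') :
    f * f' ∈ riemannRochSpace (D + D') := by
  rw [mem_riemannRochSpace_iff_ordGE] at *
  intro v
  refine ((hf v).mul (hf' v)).mono ?_
  rw [Finsupp.add_apply]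
  omega

theorem ordGE_one (v : Place k E) : OrdGE v 0 (1 : E) :=
  (ordGE_zero_iff_mem v).mpr (one_mem _)

theorem one_mem_riemannRochSpace {D : Divisor k E} (hD : 0 ≤ D) :
    (1 : E) ∈ riemannRochSpace D := by
  rw [mem_riemannRochSpace_iff_ordGE]
  exact fun v => (ordGE_one v).mono (by have := hD v; simp at this; omega)

theorem prod_pow_mem_riemannRochSpace {ι : Type*} [Fintype ι] {D : Divisor k E} {x : ι → E}
    (hx : ∀ i, x i ∈ riemannRochSpace D) (α : ι → ℕ) :
    ∏ i, x i ^ α i ∈ riemannRochSpace ((∑ i, α i) • D) := by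
  classical
  have hpow : ∀ (i : ι) (m : ℕ), x i ^ m ∈ riemannRochSpace (m • D) := fun i m => by
    induction m with
    | zero => rw [pow_zero, zero_smul]; exact one_mem_riemannRochSpace le_rfl
    | succ m ih => rw [pow_succ, succ_nsmul]; exact mul_mem_riemannRochSpace_add ih (hx i)
  suffices h : ∀ S : Finset ι, ∏ i ∈ S, x i ^ α i ∈ riemannRochSpace ((∑ i ∈ S, α i) • D) from h _
  intro S
  induction S using Finset.induction_on with
  | empty => rw [Finset.prod_empty, Finset.sum_empty, zero_smul]; exact one_mem_riemannRochSpace le_rfl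
  | insert i S hi ih =>
    rw [Finset.prod_insert hi, Finset.sum_insert hi, add_nsmul]
    exact mul_mem_riemannRochSpace_add (hpow i _) ih

theorem riemannRochSpace_nsmul_mono {D : Divisor k E} (hD : 0 ≤ D) {m M : ℕ} (h : m ≤ M) :
    riemannRochSpace (m • D) ≤ riemannRochSpace (M • D) := by
  intro f hf
  rw [mem_riemannRochSpace_iff_ordGE] at *
  intro v
  refine (hf v).mono ?_
  have h1 := hD v
  simp only [Finsupp.coe_zero, Pi.zero_apply] at h1
  simp only [Finsupp.smul_apply, nsmul_eq_mul]
  have : (m : ℤ) * D v ≤ (M : ℤ) * D v := mul_le_mul_of_nonneg_right (by exact_mod_cast h) h1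
  omega

variable [IsFunctionField1 k E] [IsAlgClosed k]

theorem mem_riemannRochSpace_poleDivisor (f : E) :
    f ∈ riemannRochSpace (poleDivisor (K := k) f) := by
  rw [mem_riemannRochSpace_iff]
  intro v
  refine Or.inr ?_
  rw [poleDivisor_apply]
  omega

/-- A non-zero element of `L(D)` cannot vanish too much. -/
theorem card_mul_le_degree {D : Divisor k E} {f : E} (hf : f ≠ 0) (hfD : f ∈ riemannRochSpace D)
    (S : Finset (Place k E)) (N : ℤ) (hS : ∀ v ∈ S, N ≤ D v + v.ord f) :
    (S.card : ℤ) * N ≤ Divisor.degree D := by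
  classical
  set E' : Divisor k E := D + divisorOf f - ∑ v ∈ S, Finsupp.single v N with hE'
  have h0 : 0 ≤ E' := by
    intro v
    have h1 := (mem_riemannRochSpace_iff.mp hfD v).resolve_left hf
    simp only [hE', Finsupp.coe_zero, Pi.zero_apply, Finsupp.sub_apply, Finsupp.add_apply,
      divisorOf_apply, Finsupp.finset_sum_apply, Finsupp.single_apply, Finset.sum_ite_eq']
    split_ifs with h
    · have := hS v h; omega
    · omega
  have h1 := degree_nonneg h0
  rw [hE', map_sub, map_add, degree_divisorOf, add_zero, map_sum,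
    Finset.sum_congr rfl (fun v _ => show Divisor.degree (Finsupp.single v N : Divisor k E) = N by
      rw [Divisor.degree_single, deg_eq_one]; simp), Finset.sum_const, nsmul_eq_mul] at h1
  omega

end RR

namespace GroupVariety

variable {K : Type u} [Field K] (G : GroupVariety K)

theorem value_map_eta {L : Type u} [Field L] [Algebra K L] (φ : G.Func →ₐ[K] L) (v : G.Func) :
    G.value (G.map φ G.eta) v = φ v := by
  have h : v ∈ G.O (G.centre G.eta) := by rw [G.centre_eta]; exact G.mem_O_generic v
  rw [G.value_map φ G.eta h, G.value_eq G.eta h]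
  exact congrArg φ (G.hom_pt_apply G.generic (G.O G.generic).val v (G.mem_O_generic v) h)

theorem span_range_mulLoc {t : Fin G.dim → G.O (G.centre (0 : G.Pt K))}
    (ht : Ideal.span (Set.range t) = IsLocalRing.maximalIdeal _) (p : G.Pt K) (n : ℤ)
    (hn : (n : K) ≠ 0) (hp : n • p = 0) :
    Ideal.span (Set.range fun i => G.mulLoc p n hp (t i)) =
      IsLocalRing.maximalIdeal (G.O (G.centre p)) := by
  refine le_antisymm (Ideal.span_le.mpr ?_) ?_
  · rintro _ ⟨i, rfl⟩
    exact G.mulLoc_mem_maxIdeal p n hp (Coordinates.mem_of_span ht i)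
  · refine (G.span_image_mulLoc p n hn hp).symm.le.trans (Ideal.span_le.mpr ?_)
    rintro _ ⟨v, hv, rfl⟩
    change v ∈ IsLocalRing.maximalIdeal _ at hv
    rw [← ht] at hv
    have := Ideal.mem_map_of_mem (G.mulLoc p n hp).toRingHom hv
    rwa [Ideal.map_span, ← Set.range_comp] at this

variable {k E : Type u} [Field k] [Field E] [Algebra k E] [Algebra K k] [Algebra K E]
  [IsScalarTower K k E]

theorem mem_place_of_centred {p : G.Pt K} {w : Place k E} {φ : G.Func →ₐ[K] E}
    (hw : G.centreAtPlace (G.map φ G.eta) w = G.centre p) (a : G.O (G.centre p)) :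
    φ a ∈ w.toValuationSubring := by
  rw [← G.value_map_eta φ a]
  exact G.value_mem _ _ (algebraMap_mem_place w)
    (show (a : G.Func) ∈ G.O (G.centreAtPlace (G.map φ G.eta) w) by rw [hw]; exact a.2)

/-- Elements of `m ^ N` vanish to order at least `N` at a place centred at the point. -/
theorem ordGE_of_mem_pow {p : G.Pt K} {w : Place k E} {φ : G.Func →ₐ[K] E}
    (hw : G.centreAtPlace (G.map φ G.eta) w = G.centre p)
    (hpos : ∀ a ∈ IsLocalRing.maximalIdeal (G.O (G.centre p)), (a : G.Func) ≠ 0 → 0 < w.ord (φ a))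
    (N : ℕ) : ∀ a ∈ IsLocalRing.maximalIdeal (G.O (G.centre p)) ^ N, OrdGE w N (φ a) := by
  induction N with
  | zero => exact fun a _ => (ordGE_zero_iff_mem w).mpr (G.mem_place_of_centred hw a)
  | succ N ih =>
    intro a ha
    rw [pow_succ] at ha
    refine Submodule.mul_induction_on ha (fun x hx y hy => ?_) fun x y hx hy => ?_
    · rw [Subalgebra.coe_mul, map_mul]
      have h1 : OrdGE w 1 (φ y) := by
        rcases eq_or_ne (y : G.Func) 0 with h | h
        · rw [h, map_zero]; exact ordGE_zero (v := w) 1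
        · exact ordGE_of_le_ord (v := w) (hpos y hy h)
      exact ((ih x hx).mul h1).mono (by push_cast; omega)
    · rw [Subalgebra.coe_add, map_add]; exact hx.add hy

end GroupVariety

/-! ### Forms in a box -/

section Box

variable {K : Type*} [Field K] {g : ℕ}

/-- Polynomials with all exponents in a box, by their coefficients. -/
def boxPoly (a : ℕ) : ((Fin g → Fin (a + 1)) → K) →ₗ[K] MvPolynomial (Fin g) K :=
  Fintype.linearCombination K
    fun α => MvPolynomial.monomial (Finsupp.equivFunOnFinite.symm fun i => (α i : ℕ)) (1 : K)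

theorem boxPoly_apply (a : ℕ) (c : (Fin g → Fin (a + 1)) → K) :
    boxPoly a c = ∑ α, MvPolynomial.monomial (Finsupp.equivFunOnFinite.symm fun i => (α i : ℕ)) (c α) := by
  simp [boxPoly, Fintype.linearCombination_apply, MvPolynomial.smul_monomial]

theorem boxPoly_injective (a : ℕ) : Function.Injective (boxPoly (K := K) (g := g) a) := by
  classical
  rw [injective_iff_map_eq_zero]
  intro c hc
  funext α
  have h := congrArg (MvPolynomial.coeff (Finsupp.equivFunOnFinite.symm fun i => (α i : ℕ))) hc
  rw [boxPoly_apply, MvPolynomial.coeff_sum, MvPolynomial.coeff_zero,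
    Finset.sum_eq_single α (fun β _ hβ => ?_) (fun h => absurd (Finset.mem_univ α) h),
    MvPolynomial.coeff_monomial, if_pos rfl] at h
  · exact h
  · rw [MvPolynomial.coeff_monomial, if_neg]
    intro he
    apply hβ
    funext i
    exact Fin.ext (congrFun (Finsupp.equivFunOnFinite.symm.injective he) i)

theorem aeval_boxPoly {A : Type*} [CommRing A] [Algebra K A] (x : Fin g → A) (a : ℕ)
    (c : (Fin g → Fin (a + 1)) → K) :
    MvPolynomial.aeval x (boxPoly a c) = ∑ α, c α • ∏ i, x i ^ (α i : ℕ) := by
  classical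
  rw [boxPoly_apply, map_sum]
  refine Finset.sum_congr rfl fun α _ => ?_
  rw [MvPolynomial.aeval_monomial, Algebra.smul_def, Finsupp.prod_fintype _ _ fun i => by simp]
  simp

/-- The coefficients of degree `< N` in every variable. -/
def boxCoeff {O : Type*} [CommRing O] [Algebra K O] (τ : O →ₐ[K] MvPowerSeries (Fin g) K) (N : ℕ) :
    O →ₗ[K] (Fin g → Fin N) → K :=
  LinearMap.pi fun β =>
    (MvPowerSeries.coeff (Finsupp.equivFunOnFinite.symm fun i => (β i : ℕ))).comp τ.toLinearMap

theorem mem_pow_of_boxCoeff_eq_zero {O : Type*} [CommRing O] [IsDomain O] [IsLocalRing O]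
    [IsNoetherianRing O] [Algebra K O] {t : Fin g → O} {τ : O →ₐ[K] MvPowerSeries (Fin g) K}
    (ht : Coordinates t τ) (N : ℕ) {u : O} (h : boxCoeff τ N u = 0) :
    u ∈ IsLocalRing.maximalIdeal O ^ N := by
  classical
  refine ht.mem_pow_iff.mpr fun d hd => ?_
  have hi : ∀ i, d i < N := fun i => lt_of_le_of_lt (Finsupp.le_degree i d) hd
  have h2 := congrFun h fun i => ⟨d i, hi i⟩
  simpa [boxCoeff] using h2

end Box

namespace GroupVariety

variable {K : Type u} [Field K] (G : GroupVariety K)

theorem aeval_coe (p : G.Pt K) (x : Fin G.dim → G.O (G.centre p))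
    (P : MvPolynomial (Fin G.dim) K) :
    ((MvPolynomial.aeval x P : G.O (G.centre p)) : G.Func) =
      MvPolynomial.aeval (fun i => (x i : G.Func)) P :=
  MvPolynomial.comp_aeval_apply x (G.O (G.centre p)).val P

theorem coordinate_ne_zero {p : G.Pt K} {t : Fin G.dim → G.O (G.centre p)}
    {τ : G.O (G.centre p) →ₐ[K] MvPowerSeries (Fin G.dim) K} (ht : Coordinates t τ) (i : Fin G.dim) :
    t i ≠ 0 := fun h => by
  classical
  have h1 := congrArg (MvPowerSeries.coeff (Finsupp.single i 1)) (ht.map_t i)
  rw [h, map_zero, map_zero, MvPowerSeries.coeff_X, if_pos rfl] at h1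
  exact zero_ne_one h1

/-- Coordinates are algebraically independent in the function field. -/
theorem eq_zero_of_aeval_coordinate {p : G.Pt K} {t : Fin G.dim → G.O (G.centre p)}
    {τ : G.O (G.centre p) →ₐ[K] MvPowerSeries (Fin G.dim) K} (ht : Coordinates t τ)
    (P : MvPolynomial (Fin G.dim) K)
    (hP : MvPolynomial.aeval (fun i => (t i : G.Func)) P = 0) : P = 0 := by
  have h : MvPolynomial.aeval t P = 0 := Subtype.ext ((G.aeval_coe p t P).trans hP)
  have := ht.map_aeval P
  rw [h, map_zero] at this
  exact MvPolynomial.coe_injective _ _ (this.symm.trans MvPolynomial.coe_zero.symm)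

/-- Box forms in functions of bounded pole order. -/
theorem aeval_boxPoly_mem {k E : Type u} [Field k] [Field E] [Algebra k E] [Algebra K k] [Algebra K E]
    [IsScalarTower K k E] {g : ℕ} (φ : G.Func →ₐ[K] E) (x : Fin g → G.Func) {D : Divisor k E}
    (hD : 0 ≤ D) (hx : ∀ i, φ (x i) ∈ riemannRochSpace D) (a : ℕ)
    (c : (Fin g → Fin (a + 1)) → K) :
    φ (MvPolynomial.aeval x (boxPoly a c)) ∈ riemannRochSpace ((g * a) • D) := by
  rw [MvPolynomial.comp_aeval_apply, aeval_boxPoly]
  refine Submodule.sum_mem _ fun α _ => ?_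
  rw [← algebraMap_smul k (c α) (∏ i, φ (x i) ^ (α i : ℕ))]
  refine Submodule.smul_mem _ _ (riemannRochSpace_nsmul_mono hD ?_
    (prod_pow_mem_riemannRochSpace hx fun i => (α i : ℕ)))
  calc ∑ i, (α i : ℕ) ≤ ∑ _i : Fin g, a :=
        Finset.sum_le_sum fun i _ => Nat.lt_succ_iff.mp (α i).2
    _ = g * a := by simp

end GroupVariety

theorem le_of_forall_pow_le_mul_pow {a b C : ℕ} (h : ∀ j, a ^ j ≤ C * b ^ j) : a ≤ b := by
  by_contra hlt
  rw [not_le] at hlt
  rcases Nat.eq_zero_or_pos b with rfl | hb
  · have := h 1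
    simp at this
    omega
  set j := C * b + 1 with hj
  have key : ∀ i : ℕ, b ^ i * (b + i) ≤ (b + 1) ^ i * b := by
    intro i
    induction i with
    | zero => simp
    | succ i ih =>
      calc b ^ (i + 1) * (b + (i + 1)) ≤ b ^ i * (b + i) * (b + 1) := by
            rw [pow_succ, mul_assoc, mul_assoc]; exact Nat.mul_le_mul_left _ (by nlinarith)
        _ ≤ (b + 1) ^ i * b * (b + 1) := Nat.mul_le_mul_right _ ih
        _ = (b + 1) ^ (i + 1) * b := by ring
  have h1 := (key j).trans (Nat.mul_le_mul_right b ((Nat.pow_le_pow_left hlt j).trans (h j)))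
  have h2 : b ^ j * (b + j) ≤ b ^ j * (C * b) := by linarith
  have h3 := Nat.le_of_mul_le_mul_left h2 (by positivity)
  omega

end Fermat.Agent.Abelian
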