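import Fermat.Agent.Abelian.Quadratic
import Fermat.Agent.Abelian.BundleExists
import Fermat.Agent.Abelian.CountHelpers

/-!
# The number of torsion points

Vanishing orders against pole degrees on the slope curve and on its covering give
`deg n ≍ n ^ (2 g)`; multiplicativity gives equality.

Team S26, owner helper45.
-/

set_option autoImplicit false
set_option linter.style.haveILetI false

noncomputable section

universe u

open AlgebraicCurve IntermediateField

namespace Fermat.Agent.Abelian

open Fermat.Agent.Curve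

namespace GroupVariety

variable {K : Type u} [Field K] (G : GroupVariety K)

section Towers

variable (s : Fin G.dim → G.Func) (j : G.Func →ₐ[K] AlgebraicClosure G.Func)

instance isScalarTower_slopeCurve :
    IsScalarTower K (G.slopeConst s) (G.slopeCurve s) :=
  IsScalarTower.of_algebraMap_eq fun _ => rfl

instance isScalarTower_cover_K : IsScalarTower K (G.slopeConst s) (G.cover s j) :=
  IsScalarTower.of_algebraMap_eq fun _ => rfl

instance isScalarTower_cover_curve :
    IsScalarTower (G.slopeConst s) (G.slopeCurve s) (G.cover s j) :=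
  IsScalarTower.of_algebraMap_eq fun _ => rfl

instance isScalarTower_cover_K_curve : IsScalarTower K (G.slopeCurve s) (G.cover s j) :=
  IsScalarTower.of_algebraMap_eq fun _ => rfl

end Towers

theorem centre_zsmul_map_eta {E : Type u} [Field E] [Algebra K E] (φ : G.Func →ₐ[K] E) {n : ℤ}
    (hn : (n : K) ≠ 0) : G.centre (n • G.map φ G.eta) = G.generic := by
  rw [← map_zsmul, G.centre_map_of_field, G.centre_zsmul_eta hn]

theorem centre_neg_map_eta {E : Type u} [Field E] [Algebra K E] (φ : G.Func →ₐ[K] E) :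
    G.centre (-G.map φ G.eta) = G.generic := by
  have := G.centre_zsmul_map_eta φ (n := -1) (by simp)
  rwa [neg_smul, one_smul] at this

theorem exists_lift_mulBy {n : ℤ} (hn : (n : K) ≠ 0) :
    ∃ j : G.Func →ₐ[K] AlgebraicClosure G.Func, ∀ v, j (G.mulBy hn v) = G.incl v := by
  haveI := G.finiteDimensional_mulField hn
  let e : G.Func ≃ₐ[K] G.mulField hn := AlgEquiv.ofInjectiveField (G.mulBy hn)
  let ι₀ : G.mulField hn →ₐ[K] AlgebraicClosure G.Func := G.incl.comp e.symm.toAlgHom
  letI : Algebra (G.mulField hn) (AlgebraicClosure G.Func) := ι₀.toRingHom.toAlgebra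
  let j : G.Func →ₐ[G.mulField hn] AlgebraicClosure G.Func := IsAlgClosed.lift
  refine ⟨{ j.toRingHom with
            commutes' := fun c => (j.commutes (algebraMap K (G.mulField hn) c)).trans (ι₀.commutes c) },
    fun v => ?_⟩
  show j (G.mulBy hn v) = _
  rw [show G.mulBy hn v = algebraMap (G.mulField hn) G.Func (e v) from rfl, j.commutes]
  show G.incl (e.symm (e v)) = _
  rw [e.symm_apply_apply]

variable [IsAlgClosed K]

section Bounds

variable {s : Fin G.dim → G.Func} {t : Fin G.dim → G.O (G.centre (0 : G.Pt K))}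
  {τ : G.O (G.centre (0 : G.Pt K)) →ₐ[K] MvPowerSeries (Fin G.dim) K}
  (ht : Coordinates t τ) (hs : s = fun i => (t i : G.Func))
  [IsFunctionField1 (G.slopeConst s) (G.slopeCurve s)]
  (B : G.Bundle) (hB : B.x = s) (hdim : 0 < G.dim)

include ht hs hB hdim in
/-- Functions on the slope curve that vanish to high order at the origin. -/
theorem mulDeg_le_of_bound {n : ℤ} (hn : (n : K) ≠ 0) (H : ℕ)
    (hH : Divisor.degree (B.divisor (k := G.slopeConst s) (G.map (G.toCurve s) G.eta)) +
      Divisor.degree (B.divisor (k := G.slopeConst s) (-G.map (G.toCurve s) G.eta)) ≤ H) :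
    G.mulDeg hn ≤ ((G.dim * H + 1) * n.natAbs ^ 2) ^ G.dim := by
  classical
  have hs0 : ∀ i, (t i : G.Func) ≠ 0 := fun i h => G.coordinate_ne_zero ht i (Subtype.ext h)
  obtain ⟨P₀, hP₀, hP₀pos⟩ := G.exists_place_centred (s := s) ht.span ⟨0, hdim⟩ (hs0 _) G.incl
    (fun l => by rw [hs]) (G.slopeCurve s).val (G.toCurve s) fun _ => rfl
  haveI := G.finiteDimensional_mulField hn
  have hnn : n • (0 : G.Pt K) = 0 := smul_zero n
  let b₀ := Module.finBasis (G.mulField hn) G.Func
  choose num den hden hfrac using fun l => G.frac_O (G.centre (0 : G.Pt K)) (b₀ l)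
  let β : G.Func := ∏ l, (den l : G.Func)
  have hβ0 : β ≠ 0 := Finset.prod_ne_zero_iff.mpr fun l _ => hden l
  let b : Fin (Module.finrank (G.mulField hn) G.Func) → G.O (G.centre (0 : G.Pt K)) :=
    fun l => num l * ∏ m ∈ Finset.univ.erase l, den m
  have hbcoe : ∀ l, (b l : G.Func) = β * b₀ l := fun l => by
    show ((num l * ∏ m ∈ Finset.univ.erase l, den m : G.O _) : G.Func) = (∏ m, (den m : G.Func)) * b₀ l
    rw [← Finset.mul_prod_erase Finset.univ (fun m => (den m : G.Func)) (Finset.mem_univ l),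
      Subalgebra.coe_mul, ← hfrac l, SubmonoidClass.coe_finset_prod]
    ring
  let φn : G.Func →ₐ[K] G.slopeCurve s := (G.toCurve s).comp (G.mulBy hn)
  have hφn : G.map φn G.eta = n • G.map (G.toCurve s) G.eta := G.map_comp_mulBy hn _
  have hgenn : G.centre (G.map φn G.eta) = G.generic := G.centre_map_eta _
  let Dn := B.divisor (k := G.slopeConst s) (G.map φn G.eta)
  have hDn0 : 0 ≤ Dn := B.divisor_nonneg hgenn
  have hxmem : ∀ i, φn (s i) ∈ riemannRochSpace Dn := fun i => by
    have := B.value_x_mem (k := G.slopeConst s) hgenn i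
    rwa [hB, G.value_map_eta] at this
  let Eb : Divisor (G.slopeConst s) (G.slopeCurve s) :=
    ∑ l, poleDivisor (K := G.slopeConst s) (G.toCurve s (b l))
  have hEbl : ∀ l, poleDivisor (K := G.slopeConst s) (G.toCurve s (b l)) ≤ Eb := fun l =>
    Finset.single_le_sum (fun i _ => poleDivisor_nonneg _) (Finset.mem_univ l)
  have hEb0 : 0 ≤ Eb := Finset.sum_nonneg fun i _ => poleDivisor_nonneg _
  obtain ⟨a, ha⟩ : ∃ a : ℕ, (a : ℤ) = Divisor.degree Eb :=
    ⟨_, Int.toNat_of_nonneg (degree_nonneg hEb0)⟩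
  obtain ⟨M, hM⟩ : ∃ M, M = n.natAbs ^ 2 := ⟨_, rfl⟩
  have hsq : ((M : ℕ) : ℤ) = n ^ 2 := by rw [hM]; push_cast; exact sq_abs n
  have hM1 : 1 ≤ M := hM ▸ Nat.one_le_pow _ _
    (Int.natAbs_pos.mpr fun h => hn (by rw [h, Int.cast_zero]))
  let N := G.dim * a * (M * H) + a + 1
  let T : ((Fin (Module.finrank (G.mulField hn) G.Func)) × (Fin G.dim → Fin (a + 1)) → K) →ₗ[K]
      G.O (G.centre (0 : G.Pt K)) :=
    ∑ l, (LinearMap.mulLeft K (b l)).comp
      (((G.mulLoc 0 n hnn).comp (MvPolynomial.aeval t)).toLinearMap.comp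
        ((boxPoly a).comp (LinearMap.funLeft K K fun α => (l, α))))
  have hTapply : ∀ c, ((T c : G.O (G.centre (0 : G.Pt K))) : G.Func) =
      ∑ l, (b l : G.Func) * G.mulBy hn (MvPolynomial.aeval s (boxPoly a fun α => c (l, α))) := by
    intro c
    simp only [T, LinearMap.coe_sum, Finset.sum_apply, LinearMap.comp_apply,
      LinearMap.mulLeft_apply, AlgHom.toLinearMap_apply, AlgHom.comp_apply,
      AddSubmonoidClass.coe_finsetSum, Subalgebra.coe_mul]
    refine Finset.sum_congr rfl fun l _ => ?_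
    rw [← G.mulBy_apply hn 0 hnn, G.aeval_coe, ← hs]
    rfl
  have hzero : ∀ c, boxCoeff τ N (T c) = 0 → c = 0 := by
    intro c hc
    have hf : (T c : G.Func) = 0 := by
      by_contra hf
      have hord := G.ordGE_of_mem_pow hP₀ hP₀pos N _ (mem_pow_of_boxCoeff_eq_zero ht N hc)
      have hne : G.toCurve s (T c : G.Func) ≠ 0 :=
        (map_ne_zero_iff _ (G.toCurve s).toRingHom.injective).mpr hf
      have hmem : G.toCurve s (T c : G.Func) ∈ riemannRochSpace ((G.dim * a) • Dn + Eb) := by
        rw [hTapply, map_sum]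
        refine Submodule.sum_mem _ fun l _ => ?_
        rw [map_mul, mul_comm (G.toCurve s (b l : G.Func))]
        refine mul_mem_riemannRochSpace_add (G.aeval_boxPoly_mem φn s hDn0 hxmem a _) ?_
        have h1 := mem_riemannRochSpace_poleDivisor (k := G.slopeConst s) (G.toCurve s (b l))
        rw [mem_riemannRochSpace_iff_ordGE] at h1 ⊢
        exact fun v => (h1 v).mono (by have := hEbl l v; omega)
      have hbound := card_mul_le_degree hne hmem {P₀} (N : ℤ) fun v hv => by
        rw [Finset.mem_singleton] at hv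
        subst hv
        have := hord.le_ord hne
        have h2 : 0 ≤ ((G.dim * a) • Dn + Eb) v := (add_nonneg (nsmul_nonneg hDn0 _) hEb0) v
        omega
      have hquad := B.degree_divisor_quadratic (k := G.slopeConst s)
        (G.map (G.toCurve s) G.eta) P₀ hP₀ n
      have hnneg : 0 ≤ Divisor.degree
          (B.divisor (k := G.slopeConst s) ((-n) • G.map (G.toCurve s) G.eta)) :=
        degree_nonneg (B.divisor_nonneg (G.centre_zsmul_map_eta _ (by simpa using hn)))
      have hDle : Divisor.degree Dn ≤ (M : ℤ) * H := by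
        have h3 : (n ^ 2 : ℤ) * _ ≤ (n ^ 2 : ℤ) * H := mul_le_mul_of_nonneg_left hH (sq_nonneg n)
        show Divisor.degree (B.divisor (k := G.slopeConst s) (G.map φn G.eta)) ≤ _
        rw [hφn, hsq]
        linarith
      rw [map_add, map_nsmul, nsmul_eq_mul, ← ha, Finset.card_singleton] at hbound
      have h5 : ((G.dim * a : ℕ) : ℤ) * Divisor.degree Dn ≤ ((G.dim * a : ℕ) : ℤ) * ((M : ℤ) * H) :=
        mul_le_mul_of_nonneg_left hDle (by positivity)
      simp only [N] at hbound
      push_cast at hbound h5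
      linarith
    rw [hTapply] at hf
    simp only [hbcoe, mul_assoc, ← Finset.mul_sum, mul_eq_zero, or_iff_right hβ0] at hf
    funext ⟨l, α⟩
    have hli := Fintype.linearIndependent_iff.mp b₀.linearIndependent
      (fun l => ⟨_, MvPolynomial.aeval s (boxPoly a fun α => c (l, α)), rfl⟩) (by
        rw [← hf]
        exact Finset.sum_congr rfl fun l _ => mul_comm _ _) l
    have h1 := (map_eq_zero_iff _ (G.mulBy hn).toRingHom.injective).mp (congrArg Subtype.val hli)
    subst hs
    exact congrFun (boxPoly_injective a ((G.eq_zero_of_aeval_coordinate ht _ h1).trans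
      (map_zero (boxPoly a)).symm)) α
  have hrank := LinearMap.finrank_le_finrank_of_injective
    (f := (boxCoeff τ N).comp T) ((injective_iff_map_eq_zero _).mpr hzero)
  simp only [Module.finrank_fintype_fun_eq_card, Fintype.card_prod, Fintype.card_fun,
    Fintype.card_fin] at hrank
  have hle : N ≤ (a + 1) * ((G.dim * H + 1) * M) := by
    simp only [N]; nlinarith [Nat.mul_le_mul_left (a + 1) hM1, Nat.zero_le (G.dim * H * M)]
  have h6 : G.mulDeg hn * (a + 1) ^ G.dim ≤ ((G.dim * H + 1) * M) ^ G.dim * (a + 1) ^ G.dim :=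
    hrank.trans ((Nat.pow_le_pow_left hle _).trans (by rw [mul_pow (a + 1), mul_comm]))
  rw [← hM]
  exact Nat.le_of_mul_le_mul_right h6 (by positivity)

include ht hs hB hdim in
/-- Forms vanishing at every torsion point. -/
theorem natAbs_le_mulDeg_of_bound {n : ℤ} (hn : (n : K) ≠ 0) (H : ℕ)
    (hH : Divisor.degree (B.divisor (k := G.slopeConst s) (G.map (G.toCurve s) G.eta)) +
      Divisor.degree (B.divisor (k := G.slopeConst s) (-G.map (G.toCurve s) G.eta)) ≤ H) :
    (n.natAbs ^ 2) ^ G.dim ≤ G.mulDeg hn * (G.dim * H + 1) ^ G.dim := by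
  classical
  obtain ⟨j, hj⟩ := G.exists_lift_mulBy hn
  obtain ⟨hfin, hle⟩ := G.finite_cover hn hj (s := s)
  haveI := hfin
  haveI : IsFunctionField1 (G.slopeConst s) (G.cover s j) :=
    IsFunctionField1.of_finite _ (G.slopeCurve s) _
  let φ : G.slopeCurve s →ₐ[K] G.cover s j := IsScalarTower.toAlgHom K _ _
  have hnξ : n • G.map (G.toCover s j) G.eta = G.map φ (G.map (G.toCurve s) G.eta) := by
    rw [← G.map_comp_mulBy hn, ← G.map_comp]
    congr 2
    refine AlgHom.ext fun v => Subtype.ext ?_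
    exact hj v
  have hξgen : G.centre (G.map (G.toCover s j) G.eta) = G.generic := G.centre_map_eta _
  have hnn : n • (0 : G.Pt K) = 0 := smul_zero n
  have hplaces : ∀ p : {x : G.Pt K // n • x = 0}, ∃ w : Place (G.slopeConst s) (G.cover s j),
      G.centreAtPlace (G.map (G.toCover s j) G.eta) w = G.centre (p : G.Pt K) ∧
      ∀ v ∈ IsLocalRing.maximalIdeal (G.O (G.centre (p : G.Pt K))), (v : G.Func) ≠ 0 →
        0 < w.ord (G.toCover s j v) := fun p => by
    refine G.exists_place_centred (s := s) (t' := fun i => G.mulLoc p n p.2 (t i))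
      (G.span_range_mulLoc ht.span p n hn p.2) ⟨0, hdim⟩ (fun h => ?_) j (fun i => ?_)
      ((G.cover s j).val.restrictScalars (G.slopeConst s)) (G.toCover s j) fun _ => rfl
    · exact G.coordinate_ne_zero ht ⟨0, hdim⟩
        ((map_eq_zero_iff _ (G.exists_coordinates_mulLoc_injective p hn p.2)).mp (Subtype.ext h))
    · rw [← G.mulBy_apply hn p p.2, hj, hs]
  choose w hwc hwpos using hplaces
  have hd0 : 0 < G.mulDeg hn := G.mulDeg_pos hn
  have hcard : Nat.card {x : G.Pt K // n • x = 0} = G.mulDeg hn := G.natCard_zsmul_eq_zero hn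
  haveI : Finite {x : G.Pt K // n • x = 0} := Nat.finite_of_card_ne_zero (by omega)
  haveI : Fintype {x : G.Pt K // n • x = 0} := Fintype.ofFinite _
  have hwinj : Function.Injective w := fun p q h =>
    Subtype.ext (G.centre_injective ((hwc p).symm.trans (h ▸ hwc q)))
  let D' := B.divisor (k := G.slopeConst s) (G.map (G.toCover s j) G.eta)
  have hD'0 : 0 ≤ D' := B.divisor_nonneg hξgen
  obtain ⟨M, hM⟩ : ∃ M, M = n.natAbs ^ 2 := ⟨_, rfl⟩
  have hsq : ((M : ℕ) : ℤ) = n ^ 2 := by rw [hM]; push_cast; exact sq_abs n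
  have hdeg : (M : ℤ) * Divisor.degree D' ≤ (G.mulDeg hn : ℤ) * H := by
    have hquad := B.degree_divisor_quadratic (k := G.slopeConst s)
      (G.map (G.toCover s j) G.eta) _ (hwc ⟨0, hnn⟩) n
    rw [neg_smul, hnξ, ← map_neg, B.degree_divisor_map φ (fun _ => rfl),
      B.degree_divisor_map φ (fun _ => rfl), ← mul_add] at hquad
    have hneg' : 0 ≤ Divisor.degree
        (B.divisor (k := G.slopeConst s) (-G.map (G.toCover s j) G.eta)) :=
      degree_nonneg (B.divisor_nonneg (G.centre_neg_map_eta _))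
    have hle' : (Module.finrank (G.slopeCurve s) (G.cover s j) : ℤ) * H ≤ (G.mulDeg hn : ℤ) * H :=
      mul_le_mul_of_nonneg_right (by exact_mod_cast hle) (by positivity)
    have h4 : (Module.finrank (G.slopeCurve s) (G.cover s j) : ℤ) * _ ≤
        (Module.finrank (G.slopeCurve s) (G.cover s j) : ℤ) * H :=
      mul_le_mul_of_nonneg_left hH (by positivity)
    rw [hsq]
    show n ^ 2 * Divisor.degree (B.divisor (k := G.slopeConst s) (G.map (G.toCover s j) G.eta)) ≤ _
    nlinarith [sq_nonneg n, mul_nonneg (sq_nonneg n) hneg']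
  let N := G.dim * H + 1
  let σ : G.Pt K → G.Func := fun p => B.s (G.centre p)
  have hσ : ∀ p i, σ p * s i ∈ G.O (G.centre p) := fun p i => by
    have := B.s_mul_x (G.centre p) i
    rwa [hB] at this
  have hmemO : ∀ (p : G.Pt K) (c : (Fin G.dim → Fin (M + 1)) → K),
      σ p ^ (G.dim * M) * MvPolynomial.aeval s (boxPoly M c) ∈ G.O (G.centre p) := by
    intro p c
    rw [aeval_boxPoly, Finset.mul_sum]
    refine sum_mem fun α _ => ?_
    rw [mul_smul_comm]
    refine Subalgebra.smul_mem _ ?_ _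
    obtain ⟨e, he⟩ := Nat.exists_eq_add_of_le (show ∑ i, (α i : ℕ) ≤ G.dim * M from
      calc ∑ i, (α i : ℕ) ≤ ∑ _i : Fin G.dim, M :=
            Finset.sum_le_sum fun i _ => Nat.lt_succ_iff.mp (α i).2
        _ = G.dim * M := by simp)
    rw [he, pow_add, mul_comm (σ p ^ _) (σ p ^ e), mul_assoc, ← Finset.prod_pow_eq_pow_sum,
      ← Finset.prod_mul_distrib]
    refine mul_mem (pow_mem (B.s_mem _) e) (prod_mem fun i _ => ?_)
    rw [← mul_pow]
    exact pow_mem (hσ p i) _
  choose tp τp htp htalg using fun p : {x : G.Pt K // n • x = 0} =>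
    G.exists_coordinates (p : G.Pt K)
  let T : ((Fin G.dim → Fin (M + 1)) → K) →ₗ[K]
      ({x : G.Pt K // n • x = 0} × (Fin G.dim → Fin N) → K) :=
    { toFun := fun c pb => boxCoeff (τp pb.1) N ⟨_, hmemO pb.1 c⟩ pb.2
      map_add' := fun c c' => funext fun pb => by
        have h : (⟨_, hmemO pb.1 (c + c')⟩ : G.O (G.centre (pb.1 : G.Pt K))) =
            ⟨_, hmemO pb.1 c⟩ + ⟨_, hmemO pb.1 c'⟩ := Subtype.ext (by
          show σ pb.1 ^ (G.dim * M) * MvPolynomial.aeval s (boxPoly M (c + c')) =
            σ pb.1 ^ (G.dim * M) * MvPolynomial.aeval s (boxPoly M c) +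
              σ pb.1 ^ (G.dim * M) * MvPolynomial.aeval s (boxPoly M c')
          rw [map_add, map_add, mul_add])
        show boxCoeff (τp pb.1) N _ pb.2 = _
        rw [h, map_add]
        rfl
      map_smul' := fun r c => funext fun pb => by
        have h : (⟨_, hmemO pb.1 (r • c)⟩ : G.O (G.centre (pb.1 : G.Pt K))) =
            r • ⟨_, hmemO pb.1 c⟩ := Subtype.ext (by
          show σ pb.1 ^ (G.dim * M) * MvPolynomial.aeval s (boxPoly M (r • c)) =
            r • (σ pb.1 ^ (G.dim * M) * MvPolynomial.aeval s (boxPoly M c))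
          rw [map_smul, map_smul, mul_smul_comm])
        show boxCoeff (τp pb.1) N _ pb.2 = _
        rw [h, map_smul]
        rfl }
  have hzero : ∀ c, T c = 0 → c = 0 := by
    intro c hc
    by_contra hc0
    have hf0 : MvPolynomial.aeval s (boxPoly M c) ≠ 0 := fun h => by
      subst hs
      exact hc0 (boxPoly_injective M
        ((G.eq_zero_of_aeval_coordinate ht _ h).trans (map_zero (boxPoly M)).symm))
    have hne : G.toCover s j (MvPolynomial.aeval s (boxPoly M c)) ≠ 0 :=
      (map_ne_zero_iff _ (G.toCover s j).toRingHom.injective).mpr hf0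
    have hxmem : ∀ i, G.toCover s j (s i) ∈ riemannRochSpace D' := fun i => by
      have := B.value_x_mem (k := G.slopeConst s) hξgen i
      rwa [hB, G.value_map_eta] at this
    have hbound := card_mul_le_degree hne
      (G.aeval_boxPoly_mem (G.toCover s j) s hD'0 hxmem M c) (Finset.univ.image w) (N : ℤ)
      fun v hv => by
      obtain ⟨p, -, rfl⟩ := Finset.mem_image.mp hv
      have hord := G.ordGE_of_mem_pow (hwc p) (hwpos p) N ⟨_, hmemO p c⟩
        (mem_pow_of_boxCoeff_eq_zero (htp p) N (funext fun β => congrFun hc (p, β)))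
      have hσ0 : G.toCover s j (σ p) ≠ 0 :=
        (map_ne_zero_iff _ (G.toCover s j).toRingHom.injective).mpr (B.s_ne_zero _)
      have h1 := hord.le_ord ((map_ne_zero_iff _ (G.toCover s j).toRingHom.injective).mpr
        (mul_ne_zero (pow_ne_zero _ (B.s_ne_zero _)) hf0))
      rw [map_mul, map_pow, (w p).ord_mul (pow_ne_zero _ hσ0) hne, ord_pow] at h1
      have hD : D' (w p) = (w p).ord (G.toCover s j (σ p)) := by
        show B.divisor (k := G.slopeConst s) (G.map (G.toCover s j) G.eta) (w p) = _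
        rw [Bundle.divisor_apply, Bundle.ratio, hξgen, B.s_generic, div_one, hwc p,
          G.value_map_eta]
      rw [Finsupp.smul_apply, nsmul_eq_mul, hD]
      exact h1
    rw [Finset.card_image_of_injective _ hwinj, Finset.card_univ, ← Nat.card_eq_fintype_card,
      hcard, map_nsmul, nsmul_eq_mul] at hbound
    simp only [N] at hbound
    push_cast at hbound
    have h7 : (G.dim : ℤ) * ((M : ℤ) * Divisor.degree D') ≤
        (G.dim : ℤ) * ((G.mulDeg hn : ℤ) * H) :=
      mul_le_mul_of_nonneg_left hdeg (by positivity)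
    have : (0 : ℤ) < G.mulDeg hn := by exact_mod_cast hd0
    nlinarith
  have hrank := LinearMap.finrank_le_finrank_of_injective
    (f := T) ((injective_iff_map_eq_zero T).mpr hzero)
  simp only [Module.finrank_fintype_fun_eq_card, Fintype.card_prod, Fintype.card_fun,
    Fintype.card_fin, ← Nat.card_eq_fintype_card (α := {x : G.Pt K // n • x = 0}), hcard] at hrank
  rw [← hM]
  exact (Nat.pow_le_pow_left (Nat.le_succ M) _).trans hrank

end Bounds

/-- The two bounds for the degree of multiplication by `n`. -/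
theorem exists_bound (hdim : 0 < G.dim) :
    ∃ H : ℕ, ∀ (n : ℤ) (hn : (n : K) ≠ 0),
      G.mulDeg hn ≤ ((G.dim * H + 1) * n.natAbs ^ 2) ^ G.dim ∧
      (n.natAbs ^ 2) ^ G.dim ≤ G.mulDeg hn * (G.dim * H + 1) ^ G.dim := by
  obtain ⟨t, τ, ht, halg⟩ := G.exists_coordinates (0 : G.Pt K)
  have hi : (t ⟨0, hdim⟩ : G.Func) ≠ 0 := fun h => G.coordinate_ne_zero ht _ (Subtype.ext h)
  haveI := G.isFunctionField1_slopeCurve ht.span ⟨0, hdim⟩ hi halg
  obtain ⟨B, hB⟩ := G.exists_bundle fun i => (t i : G.Func)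
  refine ⟨(Divisor.degree (B.divisor (k := G.slopeConst fun i => (t i : G.Func))
      (G.map (G.toCurve fun i => (t i : G.Func)) G.eta)) +
      Divisor.degree (B.divisor (k := G.slopeConst fun i => (t i : G.Func))
      (-G.map (G.toCurve fun i => (t i : G.Func)) G.eta))).toNat, fun n hn => ⟨?_, ?_⟩⟩
  · exact G.mulDeg_le_of_bound ht rfl B hB hdim hn _ (Int.self_le_toNat _)
  · exact G.natAbs_le_mulDeg_of_bound ht rfl B hB hdim hn _ (Int.self_le_toNat _)

theorem algebraMap_bijective_of_dim_eq_zero (h : G.dim = 0) :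
    Function.Bijective (algebraMap K G.Func) := by
  obtain ⟨t, τ, -, halg⟩ := G.exists_coordinates (0 : G.Pt K)
  haveI : IsEmpty (Fin G.dim) := by rw [h]; exact Fin.isEmpty
  rw [Set.range_eq_empty, Algebra.adjoin_empty] at halg
  haveI : Algebra.IsAlgebraic K G.Func := ⟨fun v => by
    obtain ⟨P, hP0, hP⟩ := halg.isAlgebraic v
    let e : (⊥ : Subalgebra K G.Func) ≃ₐ[K] K := Algebra.botEquiv K G.Func
    refine ⟨P.map e.toRingEquiv.toRingHom,
      (Polynomial.map_ne_zero_iff e.injective).mpr hP0, ?_⟩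
    rw [Polynomial.aeval_def, Polynomial.eval₂_map, show (algebraMap K G.Func).comp
      e.toRingEquiv.toRingHom = algebraMap (⊥ : Subalgebra K G.Func) G.Func from RingHom.ext fun x => by
        obtain ⟨c, hc⟩ := Algebra.mem_bot.mp x.2
        have hx : x = algebraMap K _ c := Subtype.ext hc.symm
        subst hx
        show algebraMap K G.Func (e (algebraMap K _ c)) = _
        rw [e.commutes]
        rfl]
    rwa [← Polynomial.aeval_def]⟩
  exact IsAlgClosed.algebraMap_bijective_of_isIntegral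

theorem mulDeg_eq_one_of_dim_eq_zero (h : G.dim = 0) {n : ℤ} (hn : (n : K) ≠ 0) :
    G.mulDeg hn = 1 := by
  have htop : G.mulField hn = ⊤ := by
    rw [eq_top_iff]
    rintro v -
    obtain ⟨c, rfl⟩ := (G.algebraMap_bijective_of_dim_eq_zero h).2 v
    exact IntermediateField.algebraMap_mem _ c
  rw [mulDeg, htop, IntermediateField.finrank_top]

omit [IsAlgClosed K] in
theorem mulDeg_one (h1 : ((1 : ℤ) : K) ≠ 0) : G.mulDeg h1 = 1 := by
  rw [← G.natCard_zsmul_eq_zero h1, Nat.card_eq_one_iff_unique]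
  refine ⟨⟨fun a b => Subtype.ext ?_⟩, ⟨⟨0, smul_zero _⟩⟩⟩
  have ha := a.2
  have hb := b.2
  rw [one_smul] at ha hb
  rw [ha, hb]

end GroupVariety

theorem natCard_torsion {K : Type u} [Field K] [IsAlgClosed K] (G : GroupVariety K) (n : ℕ)
    (hn : (n : K) ≠ 0) : Nat.card {x : G.Pt K // n • x = 0} = n ^ (2 * G.dim) := by
  have hpow : ∀ j : ℕ, (((n : ℤ) ^ j : ℤ) : K) ≠ 0 := fun j => by
    push_cast; exact pow_ne_zero j hn
  have hn' : ((n : ℤ) : K) ≠ 0 := by push_cast; exact hn
  have hcard : Nat.card {x : G.Pt K // n • x = 0} = G.mulDeg hn' := by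
    rw [← G.natCard_zsmul_eq_zero hn']
    exact Nat.card_congr (Equiv.subtypeEquivRight fun x => by rw [natCast_zsmul])
  rw [hcard]
  rcases Nat.eq_zero_or_pos G.dim with h | hdim
  · rw [G.mulDeg_eq_one_of_dim_eq_zero h, h, mul_zero, pow_zero]
  have hcongr : ∀ {a b : ℤ} (e : a = b) (ha : (a : K) ≠ 0) (hb : (b : K) ≠ 0),
      G.mulDeg ha = G.mulDeg hb := by rintro a b rfl ha hb; rfl
  have hmul : ∀ j, G.mulDeg (hpow j) = G.mulDeg hn' ^ j := fun j => by
    induction j with
    | zero => rw [hcongr (pow_zero _) (hpow 0) (by simp), G.mulDeg_one, pow_zero]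
    | succ j ih =>
      rw [hcongr (pow_succ _ _) (hpow (j + 1))
        (by push_cast; exact mul_ne_zero (pow_ne_zero j hn) hn),
        G.mulDeg_mul (hpow j) hn', ih, pow_succ]
  obtain ⟨H, hH⟩ := G.exists_bound hdim
  have habs : ∀ j : ℕ, (((n : ℤ) ^ j).natAbs ^ 2) ^ G.dim = (n ^ (2 * G.dim)) ^ j := fun j => by
    rw [Int.natAbs_pow, Int.natAbs_natCast, ← pow_mul, ← pow_mul, ← pow_mul]
    congr 1
    ring
  refine le_antisymm (le_of_forall_pow_le_mul_pow (C := (G.dim * H + 1) ^ G.dim) fun j => ?_)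
    (le_of_forall_pow_le_mul_pow (C := (G.dim * H + 1) ^ G.dim) fun j => ?_)
  · have := (hH _ (hpow j)).1
    rwa [mul_pow, habs, hmul] at this
  · have := (hH _ (hpow j)).2
    rw [habs, hmul] at this
    exact this.trans_eq (mul_comm _ _)

end Fermat.Agent.Abelian
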