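import Fermat.Agent.Curve.RiemannRoch
import Fermat.Agent.Curve.Fibre

/-!
# Auxiliary facts on divisors of function fields of one variable

Team S26, owner helper99.
-/

set_option autoImplicit false

noncomputable section

open AlgebraicCurve

namespace Fermat.Agent.Abelian

open Fermat.Agent.Curve

variable {k F : Type*} [Field k] [Field F] [Algebra k F] [IsFunctionField1 k F]

theorem evalAt_algebraMap_const [IsAlgClosed k] (v : Place k F) (c : k) : evalAt v (algebraMap k F c) = c :=
  evalAt_eq (by rw [sub_self]; exact ordGE_zero _)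

theorem ordGE_one_sub_evalAt [IsAlgClosed k] (v : Place k F) {f : F}
    (hf : f ∈ v.toValuationSubring) : OrdGE v 1 (f - algebraMap k F (evalAt v f)) := by
  rcases evalAt_spec v hf with h | h
  · rw [h]; exact ordGE_zero _
  · exact ordGE_of_le_ord (by omega)

omit [IsFunctionField1 k F] in
theorem ord_pos_inv_of_not_mem (v : Place k F) {f : F} (hf : f ∉ v.toValuationSubring) :
    0 < v.ord f⁻¹ ∧ f ≠ 0 ∧ f⁻¹ ∈ v.toValuationSubring := by
  have h0 : f ≠ 0 := fun h => hf (h ▸ zero_mem _)
  have h1 : ¬ 0 ≤ v.ord f := fun h => hf (Fermat.Agent.Curve.mem_of_ord_nonneg v h)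
  refine ⟨by rw [v.ord_inv]; omega, h0, Fermat.Agent.Curve.mem_of_ord_nonneg v ?_⟩
  rw [v.ord_inv]; omega

theorem evalAt_eq_zero_of_ord_pos [IsAlgClosed k] (v : Place k F) {f : F} (hf : 0 < v.ord f) : evalAt v f = 0 :=
  evalAt_eq (by rw [map_zero, sub_zero]; exact ordGE_of_le_ord (by omega))

theorem evalAt_add' [IsAlgClosed k] (v : Place k F) {f g : F} (hf : f ∈ v.toValuationSubring)
    (hg : g ∈ v.toValuationSubring) : evalAt v (f + g) = evalAt v f + evalAt v g :=
  evalAt_eq (by
    rw [map_add, add_sub_add_comm]
    exact (ordGE_one_sub_evalAt v hf).add (ordGE_one_sub_evalAt v hg))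

theorem evalAt_smul' [IsAlgClosed k] (v : Place k F) (c : k) {f : F}
    (hf : f ∈ v.toValuationSubring) : evalAt v (c • f) = c * evalAt v f :=
  evalAt_eq (by
    rw [Algebra.smul_def, map_mul, ← mul_sub]
    have := (ordGE_algebraMap v c).mul (ordGE_one_sub_evalAt v hf)
    rwa [zero_add] at this)

theorem ell_sub_single [IsAlgClosed k] (D : Divisor k F) (P : Place k F) :
    ell D ≤ ell (D - Finsupp.single P 1) + 1 := by
  have h := degree_sub_ell_mono (D := D - Finsupp.single P 1) (E := D)
    (sub_le_self D (Finsupp.single_nonneg.mpr zero_le_one))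
  rw [map_sub, Divisor.degree_single, deg_eq_one] at h
  push_cast at h
  omega

/-- An effective divisor which is non-special and alone in its class. -/
theorem exists_effective_ell_eq_one [IsAlgClosed k] :
    ∃ E : Divisor k F, 0 ≤ E ∧ ell E = 1 ∧ Divisor.degree E = (genusFF k F : ℤ) := by
  classical
  obtain ⟨d, hd⟩ := exists_specialIndex_eq_zero (K := k) (F := F)
  obtain ⟨P⟩ := exists_place (K := k) (F := F)
  -- step one: some divisor with `ℓ = deg + 1 - g` and `ℓ ≥ 1`
  suffices key : ∀ (N : ℕ) (D : Divisor k F), ell D = N + 1 →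
      (ell D : ℤ) = Divisor.degree D + 1 - genusFF k F →
      ∃ E : Divisor k F, 0 ≤ E ∧ ell E = 1 ∧ Divisor.degree E = (genusFF k F : ℤ) by
    set D : Divisor k F := Finsupp.single P (max d 0 + genusFF k F)
    have hdeg : Divisor.degree D = max d 0 + genusFF k F := by
      simp [D, Divisor.degree_single, deg_eq_one]
    have h0 := hd D (by rw [hdeg]; omega)
    have hrr := riemann_roch (K := k) (F := F) D
    rw [h0] at hrr
    exact key (ell D - 1) D (by omega) (by push_cast at hrr; linarith)
  intro N
  induction N with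
  | zero =>
    intro D h1 h2
    obtain ⟨f, hf0, hf⟩ := exists_ne_zero_of_ell_pos (D := D) (by omega)
    refine ⟨D + divisorOf f, effective_of_mem hf0 hf, by rw [ell_add_divisorOf D hf0, h1], ?_⟩
    rw [map_add, degree_divisorOf]
    omega
  | succ N ih =>
    intro D h1 h2
    obtain ⟨f, hf0, hf⟩ := exists_ne_zero_of_ell_pos (D := D) (by omega)
    -- a place where `f` is a non-zero section
    obtain ⟨Q, hQ⟩ : ∃ Q : Place k F, Q ∉ (D.support ∪ (divisorOf (K := k) f).support) := by
      by_contra hall
      push Not at hall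
      have : Finite (Place k F) := Set.finite_univ_iff.mp
        ((D.support ∪ (divisorOf (K := k) f).support).finite_toSet.subset fun v _ => hall v)
      obtain ⟨x, hx, hpole⟩ := exists_unique_pole (K := k) P
      -- infinitely many constants `c`, each giving a place where `x - c` vanishes
      have hz : ∀ c : k, ∃ v : Place k F, 0 < v.ord (x - algebraMap k F c) := fun c =>
        exists_place_ord_pos (K := k) fun halg => hx (by
          simpa using halg.add (isAlgebraic_algebraMap (R := k) (A := F) c))
      choose v hv using hz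
      obtain ⟨c, c', hne, he⟩ := Finite.exists_ne_map_eq_of_infinite v
      have h1 : OrdGE (v c) 1 (x - algebraMap k F c) := ordGE_of_le_ord (hv c)
      have h2 : OrdGE (v c) 1 (x - algebraMap k F c') := by
        rw [he]; exact ordGE_of_le_ord (hv c')
      have h3 := h2.sub h1
      rw [sub_sub_sub_cancel_left, ← map_sub] at h3
      have h4 := h3.le_ord ((map_ne_zero _).mpr (sub_ne_zero.mpr hne))
      rw [Fermat.Agent.Curve.ord_algebraMap] at h4
      omega
    simp only [Finset.mem_union, Finsupp.mem_support_iff, not_or, not_not] at hQ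
    have hlt : ell (D - Finsupp.single Q 1) < ell D := by
      refine Submodule.finrank_lt_finrank_of_lt (lt_of_le_of_ne (riemannRochSpace_mono
        (sub_le_self D (Finsupp.single_nonneg.mpr zero_le_one))) fun he => ?_)
      have := (mem_riemannRochSpace_iff.mp (he ▸ hf) Q).resolve_left hf0
      have h2 := hQ.2
      rw [divisorOf_apply] at h2
      rw [Finsupp.sub_apply, Finsupp.single_eq_same, hQ.1] at this
      omega
    have := ell_sub_single D Q
    refine ih (D - Finsupp.single Q 1) (by omega) ?_
    rw [map_sub, Divisor.degree_single, deg_eq_one]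
    push_cast
    omega

/-- An effective divisor alone in its class. -/
theorem eq_of_isPrincipal_sub [IsAlgClosed k] {D D' : Divisor k F} (hD : 0 ≤ D) (h1 : ell D ≤ 1)
    (hD' : 0 ≤ D') (h : (D' - D).IsPrincipal) : D' = D := by
  obtain ⟨f, hf0, hf⟩ := h
  have hmem : f ∈ riemannRochSpace D := by
    rw [mem_riemannRochSpace_iff]
    intro v
    refine Or.inr ?_
    rw [← hf v, Finsupp.sub_apply]
    have := hD' v
    simp only [Finsupp.coe_zero, Pi.zero_apply] at this
    omega
  have hle : riemannRochSpace (0 : Divisor k F) ≤ riemannRochSpace D := riemannRochSpace_mono hD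
  have heq : riemannRochSpace (0 : Divisor k F) = riemannRochSpace D := by
    refine Submodule.eq_of_le_of_finrank_le hle ?_
    show ell D ≤ ell (0 : Divisor k F)
    rw [ell_zero]
    exact h1
  rw [← heq, riemannRochSpace_zero, Submodule.mem_span_singleton] at hmem
  obtain ⟨c, rfl⟩ := hmem
  ext v
  have := hf v
  rw [Algebra.smul_def, mul_one, Fermat.Agent.Curve.ord_algebraMap, Finsupp.sub_apply] at this
  omega

/-- A class with a section contains an effective divisor. -/
theorem exists_effective_of_ell_pos {D : Divisor k F} (h : 0 < ell D) :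
    ∃ G : Divisor k F, 0 ≤ G ∧ (G - D).IsPrincipal := by
  obtain ⟨f, hf0, hf⟩ := exists_ne_zero_of_ell_pos h
  exact ⟨D + divisorOf f, effective_of_mem hf0 hf, f, hf0, fun v => by simp⟩

theorem ell_eq_of_isPrincipal_sub {D D' : Divisor k F} (h : (D' - D).IsPrincipal) :
    ell D' = ell D := by
  obtain ⟨f, hf0, hf⟩ := h
  have : D' = D + divisorOf f := Finsupp.ext fun v => by
    rw [Finsupp.add_apply, divisorOf_apply, ← hf v, Finsupp.sub_apply]; ring
  rw [this, ell_add_divisorOf D hf0]

theorem degree_eq_of_isPrincipal_sub {D D' : Divisor k F} (h : (D' - D).IsPrincipal) :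
    Divisor.degree D' = Divisor.degree D := by
  obtain ⟨f, -, hf⟩ := h
  have : D' = D + divisorOf f := Finsupp.ext fun v => by
    rw [Finsupp.add_apply, divisorOf_apply, ← hf v, Finsupp.sub_apply]; ring
  rw [this, map_add, degree_divisorOf, add_zero]

/-- Every place is a difference of two pole divisors. -/
theorem exists_poleDivisor_sub_eq [IsAlgClosed k] (P : Place k F) :
    ∃ f f' : F, Transcendental k f ∧ Transcendental k f' ∧
      poleDivisor (K := k) f - poleDivisor (K := k) f' = Finsupp.single P 1 := by
  classical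
  obtain ⟨d, hd⟩ := exists_specialIndex_eq_zero (K := k) (F := F)
  set N : ℕ := d.toNat + genusFF k F with hN
  have hl : ∀ j : ℕ, N ≤ j →
      (ell (Finsupp.single P (j : ℤ)) : ℤ) = j + 1 - genusFF k F := fun j hj => by
    have h := riemann_roch (K := k) (F := F) (Finsupp.single P (j : ℤ))
    rw [hd _ (by rw [Divisor.degree_single, deg_eq_one]; push_cast; omega),
      Divisor.degree_single, deg_eq_one] at h
    push_cast at h
    linarith
  have key : ∀ j : ℕ, N ≤ j → ∃ f : F, Transcendental k f ∧
      poleDivisor (K := k) f = Finsupp.single P ((j : ℤ) + 1) := by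
    intro j hj
    have hlt : riemannRochSpace (Finsupp.single P (j : ℤ)) <
        riemannRochSpace (Finsupp.single P ((j + 1 : ℕ) : ℤ)) := by
      refine lt_of_le_of_ne (riemannRochSpace_mono
        (Finsupp.single_le_single.mpr (by push_cast; omega))) fun he => ?_
      have h1 := hl j hj
      have h2 := hl (j + 1) (by omega)
      simp only [ell] at h1 h2
      rw [he] at h1
      omega
    obtain ⟨f, hf, hnf⟩ := SetLike.exists_of_lt hlt
    have hf0 : f ≠ 0 := fun h => hnf (h ▸ zero_mem _)
    rw [mem_riemannRochSpace_iff] at hf hnf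
    push Not at hnf
    obtain ⟨v, hv0, hv⟩ := hnf
    have hvP : v = P := by
      by_contra hne
      have := (hf v).resolve_left hf0
      rw [Finsupp.single_eq_of_ne hne] at this hv
      omega
    subst hvP
    have hPv := (hf v).resolve_left hf0
    rw [Finsupp.single_eq_same] at hPv hv
    push_cast at hPv
    refine ⟨f, transcendental_of_ord_ne_zero (v := v) (by omega), ?_⟩
    ext w
    rw [poleDivisor_apply]
    rcases eq_or_ne w v with rfl | hwv
    · rw [Finsupp.single_eq_same]; omega
    · have := (hf w).resolve_left hf0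
      rw [Finsupp.single_eq_of_ne hwv] at this ⊢
      omega
  obtain ⟨f, hf, hf'⟩ := key (N + 1) (by omega)
  obtain ⟨g, hg, hg'⟩ := key N le_rfl
  refine ⟨f, g, hf, hg, ?_⟩
  rw [hf', hg', ← Finsupp.single_sub]
  congr 1
  push_cast
  ring

end Fermat.Agent.Abelian
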