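import Fermat.Agent.Abelian.CurveAux
import Fermat.Agent.Abelian.ConstExtension

/-!
# Lifting divisors to a constant extension and independence of the specialisation

Team S26, contract by helper99.
-/

set_option autoImplicit false
set_option linter.unusedSectionVars false
set_option linter.style.haveILetI false

noncomputable section

universe u

open AlgebraicCurve

namespace Fermat.Agent.Abelian

open Fermat.Agent.Curve

theorem mapDomain_apply_congr {α β M : Type*} [AddCommGroup M] {r : α → β} {D D' : α →₀ M} {b : β}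
    (h : ∀ a, r a = b → D a = D' a) :
    Finsupp.mapDomain r D b = Finsupp.mapDomain r D' b := by
  classical
  suffices Finsupp.mapDomain r (D - D') b = 0 by
    have hsum : Finsupp.mapDomain r D = Finsupp.mapDomain r (D - D') + Finsupp.mapDomain r D' := by
      rw [← Finsupp.mapDomain_add, sub_add_cancel]
    rw [hsum, Finsupp.add_apply, this, zero_add]
  rw [Finsupp.mapDomain, Finsupp.sum, Finsupp.finsetSum_apply]
  refine Finset.sum_eq_zero fun a _ => ?_
  rw [Finsupp.single_apply]
  split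
  · next ha => rw [Finsupp.sub_apply, h a ha, sub_self]
  · rfl

theorem le_mapDomain_apply {α β : Type*} {r : α → β} {D : α →₀ ℤ} (hD : 0 ≤ D) (a : α) :
    D a ≤ Finsupp.mapDomain r D (r a) := by
  classical
  rw [Finsupp.mapDomain, Finsupp.sum, Finsupp.finsetSum_apply]
  by_cases ha : a ∈ D.support
  · refine le_trans (le_of_eq Finsupp.single_eq_same.symm) (Finset.single_le_sum
      (f := fun x => (Finsupp.single (r x) (D x) : β →₀ ℤ) (r a)) (fun x _ => ?_) ha)
    rw [Finsupp.single_apply]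
    split
    · exact hD x
    · exact le_rfl
  · rw [Finsupp.notMem_support_iff.mp ha]
    refine Finset.sum_nonneg fun x _ => ?_
    rw [Finsupp.single_apply]
    split
    · exact hD x
    · exact le_rfl

theorem evalAt_mul' {k F : Type*} [Field k] [Field F] [Algebra k F] [IsFunctionField1 k F]
    [IsAlgClosed k] (v : Place k F) {f g : F} (hf : f ∈ v.toValuationSubring)
    (hg : g ∈ v.toValuationSubring) : evalAt v (f * g) = evalAt v f * evalAt v g := by
  refine evalAt_eq ?_
  have h1 := ((ordGE_zero_iff_mem v).mpr hf).mul (ordGE_one_sub_evalAt v hg)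
  have h2 := (ordGE_algebraMap v (evalAt v g)).mul (ordGE_one_sub_evalAt v hf)
  rw [zero_add] at h1 h2
  have h3 := h1.add h2
  rwa [show f * (g - algebraMap k F (evalAt v g)) +
      algebraMap k F (evalAt v g) * (f - algebraMap k F (evalAt v f)) =
      f * g - algebraMap k F (evalAt v f * evalAt v g) by rw [map_mul]; ring] at h3

variable {k F : Type u} [Field k] [IsAlgClosed k] [Field F] [Algebra k F] [IsFunctionField1 k F]
variable {Ω : Type u} [Field Ω] [Algebra k Ω] [IsAlgClosed Ω]

namespace ResidueDatum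

variable (R : ResidueDatum k Ω)

/-- Pole divisors of functions of `F` specialise to themselves. -/
theorem mapDomain_red_poleDivisor_incl (f : F) :
    Finsupp.mapDomain R.red (poleDivisor (K := Ω) (ConstExt.incl k Ω F f)) =
      poleDivisor (K := k) f := by
  classical
  rcases eq_or_ne f 0 with rfl | hf
  · rw [map_zero]
    have h0 : ∀ (L E : Type u) [Field L] [Field E] [Algebra L E] [IsFunctionField1 L E],
        poleDivisor (K := L) (0 : E) = 0 := fun L E _ _ _ _ => Finsupp.ext fun v => by simp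
    rw [h0, h0, Finsupp.mapDomain_zero]
  ext P
  rw [poleDivisor_apply]
  have hcomp := R.placeCompat_red _ f (R.gauss_incl f) hf
    (divisorOf (ConstExt.incl k Ω F f)) (fun Q => divisorOf_apply _ Q) P
  by_cases hP : f ∈ P.toValuationSubring
  · have h0 : 0 ≤ P.ord f := (mem_iff_ord_nonneg P).mp hP
    rw [mapDomain_apply_congr (D' := 0) fun Q hQ => by
      have := (mem_iff_ord_nonneg Q).mp (R.incl_mem_of_mem_red (hQ.symm ▸ hP))
      rw [poleDivisor_apply, Finsupp.zero_apply]; omega]
    rw [Finsupp.mapDomain_zero, Finsupp.zero_apply]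
    omega
  · obtain ⟨hlt, -, hinv⟩ := ord_pos_inv_of_not_mem P hP
    rw [P.ord_inv] at hlt
    rw [mapDomain_apply_congr (D' := -divisorOf (ConstExt.incl k Ω F f)) fun Q hQ => by
      have h1 : ConstExt.incl k Ω F f⁻¹ ∈ Q.toValuationSubring :=
        R.incl_mem_of_mem_red (hQ.symm ▸ hinv)
      rw [map_inv₀, mem_iff_ord_nonneg, Q.ord_inv] at h1
      rw [poleDivisor_apply, Finsupp.neg_apply, divisorOf_apply]; omega]
    rw [show -divisorOf (K := Ω) (ConstExt.incl k Ω F f) =
      (-1 : ℤ) • divisorOf (ConstExt.incl k Ω F f) by simp, Finsupp.mapDomain_smul,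
      Finsupp.smul_apply, hcomp, smul_eq_mul]
    omega

end ResidueDatum

namespace ConstExt

/-- A lift of divisors of `F`, inverse to every specialisation. -/
theorem exists_liftDiv :
    ∃ lift : Divisor k F →+ Divisor Ω (ConstExt k Ω F),
      ∀ (R : ResidueDatum k Ω) (D : Divisor k F), Finsupp.mapDomain R.red (lift D) = D := by
  classical
  choose f f' hf hf' hP using fun P : Place k F => exists_poleDivisor_sub_eq (k := k) P
  refine ⟨Finsupp.liftAddHom fun P => zmultiplesHom _
    (poleDivisor (K := Ω) (incl k Ω F (f P)) - poleDivisor (K := Ω) (incl k Ω F (f' P))),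
    fun R D => ?_⟩
  induction D using Finsupp.induction with
  | zero => simp
  | single_add P n D _ _ ih =>
    rw [map_add, Finsupp.mapDomain_add, ih, Finsupp.liftAddHom_apply_single, zmultiplesHom_apply,
      Finsupp.mapDomain_smul]
    have hsub : Finsupp.mapDomain R.red
        (poleDivisor (K := Ω) (incl k Ω F (f P)) - poleDivisor (K := Ω) (incl k Ω F (f' P))) =
        Finsupp.single P 1 := by
      rw [← Finsupp.mapDomain.addMonoidHom_apply, map_sub, Finsupp.mapDomain.addMonoidHom_apply,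
        Finsupp.mapDomain.addMonoidHom_apply, R.mapDomain_red_poleDivisor_incl,
        R.mapDomain_red_poleDivisor_incl, hP P]
    rw [hsub, Finsupp.smul_single, smul_eq_mul, mul_one]

/-- A place of the constant extension is determined by its trace on `F`. -/
theorem place_ext (R : ResidueDatum k Ω) {P P' : Place Ω (ConstExt k Ω F)}
    (hmem : ∀ f : F, ConstExt.incl k Ω F f ∈ P.toValuationSubring ↔
      ConstExt.incl k Ω F f ∈ P'.toValuationSubring)
    (hval : ∀ f : F, ConstExt.incl k Ω F f ∈ P.toValuationSubring →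
      evalAt P (ConstExt.incl k Ω F f) = evalAt P' (ConstExt.incl k Ω F f)) : P = P' := by
  classical
  by_contra hne
  letI : Algebra F (ConstExt k Ω F) := (incl k Ω F).toRingHom.toAlgebra
  haveI : IsScalarTower k F (ConstExt k Ω F) :=
    IsScalarTower.of_algebraMap_eq fun a => ((incl k Ω F).commutes a).symm
  obtain ⟨s, hs, hsP⟩ : ∃ s : F, Transcendental k s ∧ incl k Ω F s ∈ P.toValuationSubring := by
    obtain ⟨x, hx, -⟩ := IsFunctionField1.exists_transcendental' (K := k) (F := F)
    rcases P.toValuationSubring.mem_or_inv_mem (incl k Ω F x) with h | h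
    · exact ⟨x, hx, h⟩
    · exact ⟨x⁻¹, fun h' => hx (by simpa using h'.inv), by rwa [map_inv₀]⟩
  have hs0 : s ≠ 0 := fun h => hs (h ▸ isAlgebraic_zero)
  set D' := poleDivisor (K := Ω) (incl k Ω F s) with hD'
  have hs' : Transcendental Ω (incl k Ω F s) :=
    transcendental_constExt (L := Ω) (F' := ConstExt k Ω F)
      (fun _ _ hf => linearIndependent_incl hf) hs
  have hdeg : (1 : ℤ) ≤ Divisor.degree D' := by
    haveI := finiteDimensional_adjoin hs'
    rw [hD', degree_poleDivisor hs']
    exact_mod_cast Module.finrank_pos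
  obtain ⟨d', hd'⟩ := exists_specialIndex_eq_zero (K := Ω) (F := ConstExt k Ω F)
  set m : ℕ := d'.toNat + 2 with hm
  have hDP : ∀ P₀ : Place Ω (ConstExt k Ω F), incl k Ω F s ∈ P₀.toValuationSubring →
      (m • D') P₀ = 0 := fun P₀ h => by
    have := (mem_iff_ord_nonneg P₀).mp h
    rw [Finsupp.smul_apply, hD', poleDivisor_apply, max_eq_right (by omega), smul_zero]
  have hP0 := hDP P hsP
  have hP'0 := hDP P' ((hmem s).mp hsP)
  -- every element of `L(m D')` takes the same value at `P` and `P'`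
  haveI : Module.Finite k (riemannRochSpace (m • poleDivisor (K := k) s)) :=
    finite_riemannRochSpace _
  haveI : Module.Finite Ω (riemannRochSpace (m • D')) := finite_riemannRochSpace _
  let b := Module.finBasis k (riemannRochSpace (m • poleDivisor (K := k) s))
  have hbmem : ∀ i, incl k Ω F (b i : F) ∈ riemannRochSpace (m • D') := fun i =>
    algebraMap_mem_riemannRochSpace (L := Ω) (F' := ConstExt k Ω F) hs0 m (b i).2
  have hspan : Submodule.span Ω (Set.range fun i => incl k Ω F (b i : F)) =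
      riemannRochSpace (m • D') := by
    refine Submodule.eq_of_le_of_finrank_le (Submodule.span_le.mpr ?_) ?_
    · rintro - ⟨i, rfl⟩; exact hbmem i
    · have hli : LinearIndependent Ω fun i => incl k Ω F (b i : F) := linearIndependent_incl
        (b.linearIndependent.map' (Submodule.subtype _) (Submodule.ker_subtype _))
      rw [finrank_span_eq_card hli, Fintype.card_fin]
      refine le_trans (R.ell_le_ell_mapDomain_red (m • D')) (le_of_eq ?_)
      rw [Finsupp.mapDomain_smul, hD', R.mapDomain_red_poleDivisor_incl]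
      rfl
  have hreg : ∀ (P₀ : Place Ω (ConstExt k Ω F)), (m • D') P₀ = 0 →
      ∀ h ∈ riemannRochSpace (m • D'), h ∈ P₀.toValuationSubring := fun P₀ h0 h hh => by
    rw [mem_iff_ord_nonneg]
    rcases eq_or_ne h 0 with rfl | hne0
    · simp
    · have := (mem_riemannRochSpace_iff.mp hh P₀).resolve_left hne0
      omega
  have hsame : ∀ h ∈ riemannRochSpace (m • D'), evalAt P h = evalAt P' h := by
    intro h hh
    rw [← hspan] at hh
    induction hh using Submodule.span_induction with
    | mem x hx =>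
      obtain ⟨i, rfl⟩ := hx
      exact hval _ (hreg P hP0 _ (hbmem i))
    | zero =>
      rw [← map_zero (algebraMap Ω (ConstExt k Ω F)), evalAt_algebraMap_const,
        evalAt_algebraMap_const]
    | add x y hx hy ihx ihy =>
      rw [hspan] at hx hy
      rw [evalAt_add' P (hreg P hP0 x hx) (hreg P hP0 y hy),
        evalAt_add' P' (hreg P' hP'0 x hx) (hreg P' hP'0 y hy), ihx, ihy]
    | smul c x hx ihx =>
      rw [hspan] at hx
      rw [evalAt_smul' P c (hreg P hP0 x hx), evalAt_smul' P' c (hreg P' hP'0 x hx), ihx]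
  -- but some element vanishes at `P` and not at `P'`
  set A : Divisor Ω (ConstExt k Ω F) := m • D' - Finsupp.single P 1 with hA
  have hAdeg : d' + 1 ≤ Divisor.degree A := by
    rw [hA, map_sub, map_nsmul, Divisor.degree_single, deg_eq_one, nsmul_eq_mul]
    have : (m : ℤ) * 1 ≤ (m : ℤ) * Divisor.degree D' :=
      mul_le_mul_of_nonneg_left hdeg (Int.natCast_nonneg m)
    push_cast
    omega
  have hBdeg : Divisor.degree (A - Finsupp.single P' 1) = Divisor.degree A - 1 := by
    rw [map_sub, Divisor.degree_single, deg_eq_one]; simp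
  have h1 := riemann_roch A
  rw [hd' A (by omega)] at h1
  have h2 := riemann_roch (A - Finsupp.single P' 1)
  rw [hd' _ (by omega), hBdeg] at h2
  have hlt : riemannRochSpace (A - Finsupp.single P' 1) < riemannRochSpace A := by
    refine lt_of_le_of_ne (riemannRochSpace_mono
      (sub_le_self A (Finsupp.single_nonneg.mpr zero_le_one))) fun he => ?_
    simp only [ell] at h1 h2
    rw [he] at h2
    omega
  obtain ⟨h, hh, hnh⟩ := SetLike.exists_of_lt hlt
  have hh0 : h ≠ 0 := fun h0 => hnh (h0 ▸ zero_mem _)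
  rw [mem_riemannRochSpace_iff] at hh hnh
  push Not at hnh
  obtain ⟨w, -, hw⟩ := hnh
  have hwP' : w = P' := by
    by_contra hwne
    have := (hh w).resolve_left hh0
    rw [Finsupp.sub_apply, Finsupp.single_eq_of_ne hwne, sub_zero] at hw
    omega
  rw [hwP'] at hw
  have hAP := (hh P).resolve_left hh0
  have hAP' := (hh P').resolve_left hh0
  rw [hA, Finsupp.sub_apply, hP0, Finsupp.single_eq_same] at hAP
  rw [Finsupp.sub_apply, Finsupp.single_eq_same] at hw
  rw [hA, Finsupp.sub_apply, hP'0, Finsupp.single_eq_of_ne (Ne.symm hne)] at hAP' hw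
  have hord : P'.ord h = 0 := by omega
  have hmem' : h ∈ riemannRochSpace (m • D') :=
    riemannRochSpace_mono (sub_le_self _ (Finsupp.single_nonneg.mpr zero_le_one))
      (mem_riemannRochSpace_iff.mpr hh)
  have hv := hsame h hmem'
  rw [evalAt_eq_zero_of_ord_pos P (by omega)] at hv
  have := ordGE_one_sub_evalAt P' ((mem_iff_ord_nonneg P').mpr hord.ge)
  rw [← hv, map_zero, sub_zero] at this
  have := this.le_ord hh0
  omega

/-- Residue data of the algebraic closure of a function field with a prescribed value. -/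
theorem exists_residueDatum_value {L : Type u} [Field L] [Algebra Ω L] [IsFunctionField1 Ω L]
    {Ω₂ : Type u} [Field Ω₂] [Algebra Ω Ω₂] [Algebra L Ω₂] [IsScalarTower Ω L Ω₂]
    [Algebra.IsAlgebraic L Ω₂] {c : Ω₂} (hc : ∀ d : Ω, algebraMap Ω Ω₂ d ≠ c) (lam : Ω) :
    ∃ R₂ : ResidueDatum Ω Ω₂, ∃ h : c ∈ R₂.V, R₂.res ⟨c, h⟩ = lam := by
  have htr : Transcendental Ω c := fun halg => by
    have hdeg : (minpoly Ω c).degree = 1 :=
      IsAlgClosed.degree_eq_one_of_irreducible Ω (minpoly.irreducible halg.isIntegral)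
    obtain ⟨d, hd⟩ := minpoly.degree_eq_one_iff.mp hdeg
    exact hc d hd
  let L' : IntermediateField L Ω₂ := IntermediateField.adjoin L {c}
  haveI : FiniteDimensional L L' :=
    IntermediateField.adjoin.finiteDimensional (Algebra.IsAlgebraic.isAlgebraic c).isIntegral
  haveI : IsFunctionField1 Ω L' := IsFunctionField1.of_finite Ω L L'
  haveI : Algebra.IsAlgebraic L' Ω₂ := Algebra.IsAlgebraic.tower_top (K := L) L'
  haveI : IsScalarTower Ω L' Ω₂ :=
    IsScalarTower.of_algebraMap_eq fun a => rfl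
  set c' : L' := IntermediateField.AdjoinSimple.gen L c
  have htr' : Transcendental Ω (c' - algebraMap Ω L' lam) := by
    intro halg
    apply htr
    have h := (halg.add (isAlgebraic_algebraMap (R := Ω) (A := L') lam)).algebraMap (A := Ω₂)
    simpa [c'] using h
  obtain ⟨v, hv⟩ := exists_place_ord_pos (K := Ω) htr'
  have hc'mem : c' ∈ v.toValuationSubring := by
    have := add_mem ((mem_iff_ord_nonneg v).mpr hv.le) (v.algebraMap_mem' lam)
    simpa using this
  obtain ⟨R₂, hR₂⟩ := exists_residueDatum (k := Ω) (Ω := Ω₂) v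
  obtain ⟨h, h'⟩ := hR₂ c' hc'mem
  exact ⟨R₂, h, h'.trans (evalAt_eq (ordGE_of_le_ord (by omega)))⟩

/-- An effective divisor all whose second specialisations specialise to the same divisor of `F`
has only one second specialisation. -/
theorem mapDomain_red_eq (R : ResidueDatum k Ω) {L : Type u} [Field L] [Algebra Ω L]
    [IsFunctionField1 Ω L] {Ω₂ : Type u} [Field Ω₂] [IsAlgClosed Ω₂] [Algebra Ω Ω₂]
    [Algebra L Ω₂] [IsScalarTower Ω L Ω₂] [Algebra.IsAlgebraic L Ω₂]
    {D : Divisor Ω₂ (ConstExt Ω Ω₂ (ConstExt k Ω F))} (hD : 0 ≤ D) (E₀ : Divisor k F)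
    (h : ∀ R₂ : ResidueDatum Ω Ω₂,
      Finsupp.mapDomain R.red (Finsupp.mapDomain R₂.red D) = E₀)
    (R₂ R₂' : ResidueDatum Ω Ω₂) :
    Finsupp.mapDomain R₂.red D = Finsupp.mapDomain R₂'.red D := by
  classical
  refine Finsupp.mapDomain_congr fun Q hQ => ?_
  have hQpos : 0 < D Q := lt_of_le_of_ne (hD Q) (Ne.symm (Finsupp.mem_support_iff.mp hQ))
  have hE0 : ∀ R₂ : ResidueDatum Ω Ω₂, R.red (R₂.red Q) ∈ E₀.support := fun R₂ => by
    rw [Finsupp.mem_support_iff, ← h R₂]
    have h1 := le_mapDomain_apply (r := R₂.red) hD Q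
    have h2 := le_mapDomain_apply (r := R.red) (Reduction.mapDomain_nonneg (r := R₂.red) hD)
      (R₂.red Q)
    omega
  set ι₂ := incl Ω Ω₂ (ConstExt k Ω F)
  -- regularity and values at `Q` of the functions of `F` are constant
  have hconst : ∀ f : F, ι₂ (incl k Ω F f) ∈ Q.toValuationSubring →
      ∃ d : Ω, algebraMap Ω Ω₂ d = evalAt Q (ι₂ (incl k Ω F f)) := by
    intro f hf
    by_contra hnc
    push Not at hnc
    obtain ⟨lam, hlam⟩ := ((E₀.support.image fun P => evalAt P f) ∪ {0}).exists_notMem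
    simp only [Finset.mem_union, Finset.mem_image, Finset.mem_singleton, not_or, not_exists,
      not_and] at hlam
    obtain ⟨R₂, hcV, hres⟩ := exists_residueDatum_value (L := L) hnc (algebraMap k Ω lam)
    by_cases hfP : f ∈ (R.red (R₂.red Q)).toValuationSubring
    · have hreg1 : ∀ Q₂, R.red Q₂ = R.red (R₂.red Q) → incl k Ω F f ∈ Q₂.toValuationSubring :=
        fun Q₂ hQ₂ => R.incl_mem_of_mem_red (hQ₂.symm ▸ hfP)
      obtain ⟨h1, h1'⟩ := R₂.eval_red (R₂.gauss_incl (incl k Ω F f)) Q
        fun Q' hQ' => R₂.incl_mem_of_mem_red (hQ'.symm ▸ hreg1 _ rfl)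
      rw [hres] at h1'
      obtain ⟨h2, h2'⟩ := R.eval_red (R.gauss_incl f) (R₂.red Q) hreg1
      rw [show (⟨_, h2⟩ : R.V) = ⟨algebraMap k Ω lam, R.algebraMap_mem lam⟩ from
        Subtype.ext h1'.symm, R.res_algebraMap] at h2'
      exact hlam.1 _ (hE0 R₂) h2'.symm
    · obtain ⟨hpos, hf0, hinv⟩ := ord_pos_inv_of_not_mem _ hfP
      have hreg1 : ∀ Q₂, R.red Q₂ = R.red (R₂.red Q) → incl k Ω F f⁻¹ ∈ Q₂.toValuationSubring :=
        fun Q₂ hQ₂ => R.incl_mem_of_mem_red (hQ₂.symm ▸ hinv)
      obtain ⟨h1, h1'⟩ := R₂.eval_red (R₂.gauss_incl (incl k Ω F f⁻¹)) Q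
        fun Q' hQ' => R₂.incl_mem_of_mem_red (hQ'.symm ▸ hreg1 _ rfl)
      obtain ⟨h2, h2'⟩ := R.eval_red (R.gauss_incl f⁻¹) (R₂.red Q) hreg1
      rw [evalAt_eq_zero_of_ord_pos _ hpos] at h2'
      have hinvQ : ι₂ (incl k Ω F f⁻¹) ∈ Q.toValuationSubring :=
        R₂.incl_mem_of_mem_red (hreg1 _ rfl)
      have hone : ι₂ (incl k Ω F f) * ι₂ (incl k Ω F f⁻¹) = 1 := by
        rw [← map_mul, ← map_mul, mul_inv_cancel₀ hf0, map_one, map_one]
      have hprod : evalAt Q (ι₂ (incl k Ω F f)) * evalAt Q (ι₂ (incl k Ω F f⁻¹)) = 1 := by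
        rw [← evalAt_mul' Q hf hinvQ, hone,
          ← map_one (algebraMap Ω₂ (ConstExt Ω Ω₂ (ConstExt k Ω F))), evalAt_algebraMap_const]
      have h4 : algebraMap k Ω lam * evalAt (R₂.red Q) (incl k Ω F f⁻¹) = 1 := by
        rw [← hres, ← h1', ← map_mul]
        exact (congrArg R₂.res (Subtype.ext hprod :
          (⟨_, hcV⟩ : R₂.V) * ⟨_, h1⟩ = 1)).trans (map_one _)
      have h5 : R.res (⟨_, R.algebraMap_mem lam⟩ * ⟨_, h2⟩) = R.res 1 :=
        congrArg R.res (Subtype.ext h4)
      rw [map_mul, h2', mul_zero, map_one] at h5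
      exact zero_ne_one h5
  have key : ∀ (R₂ : ResidueDatum Ω Ω₂) (f : F),
      (incl k Ω F f ∈ (R₂.red Q).toValuationSubring ↔ ι₂ (incl k Ω F f) ∈ Q.toValuationSubring) ∧
      (ι₂ (incl k Ω F f) ∈ Q.toValuationSubring → ∀ d : Ω,
        algebraMap Ω Ω₂ d = evalAt Q (ι₂ (incl k Ω F f)) →
        evalAt (R₂.red Q) (incl k Ω F f) = d) := by
    intro R₂ f
    have hle : incl k Ω F f ∈ (R₂.red Q).toValuationSubring →
        ι₂ (incl k Ω F f) ∈ Q.toValuationSubring := R₂.incl_mem_of_mem_red
    have hge : ι₂ (incl k Ω F f) ∈ Q.toValuationSubring →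
        incl k Ω F f ∈ (R₂.red Q).toValuationSubring := by
      intro hf
      by_contra hnot
      obtain ⟨hpos, hg0, hinv⟩ := ord_pos_inv_of_not_mem _ hnot
      obtain ⟨d, hd⟩ := hconst f hf
      obtain ⟨h1, h1'⟩ := R₂.eval_red (R₂.gauss_incl (incl k Ω F f)⁻¹) Q
        fun Q' hQ' => R₂.incl_mem_of_mem_red (hQ'.symm ▸ hinv)
      rw [evalAt_eq_zero_of_ord_pos _ hpos] at h1'
      have hinvQ : ι₂ (incl k Ω F f)⁻¹ ∈ Q.toValuationSubring := R₂.incl_mem_of_mem_red hinv
      have hone : ι₂ (incl k Ω F f) * ι₂ (incl k Ω F f)⁻¹ = 1 := by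
        rw [← map_mul, mul_inv_cancel₀ hg0, map_one]
      have hprod : algebraMap Ω Ω₂ d * evalAt Q (ι₂ (incl k Ω F f)⁻¹) = 1 := by
        rw [hd, ← evalAt_mul' Q hf hinvQ, hone,
          ← map_one (algebraMap Ω₂ (ConstExt Ω Ω₂ (ConstExt k Ω F))), evalAt_algebraMap_const]
      have h5 : R₂.res (⟨_, R₂.algebraMap_mem d⟩ * ⟨_, h1⟩) = R₂.res 1 :=
        congrArg R₂.res (Subtype.ext hprod)
      rw [map_mul, h1', mul_zero, map_one] at h5
      exact zero_ne_one h5
    refine ⟨⟨hle, hge⟩, fun hf d hd => ?_⟩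
    obtain ⟨h1, h1'⟩ := R₂.eval_red (R₂.gauss_incl (incl k Ω F f)) Q
      fun Q' hQ' => R₂.incl_mem_of_mem_red (hQ'.symm ▸ hge hf)
    rw [← h1', show (⟨_, h1⟩ : R₂.V) = ⟨_, R₂.algebraMap_mem d⟩ from Subtype.ext hd.symm,
      R₂.res_algebraMap]
  refine place_ext R (fun f => ((key R₂ f).1.trans (key R₂' f).1.symm)) fun f hf => ?_
  have hf' := (key R₂ f).1.mp hf
  obtain ⟨d, hd⟩ := hconst f hf'
  rw [(key R₂ f).2 hf' d hd, (key R₂' f).2 hf' d hd]

end ConstExt

end Fermat.Agent.Abelian
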