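import Fermat.Agent.Abelian.Colon
import Mathlib.RingTheory.MvPowerSeries.Order
import Mathlib.RingTheory.MvPowerSeries.NoZeroDivisors
import Mathlib.RingTheory.MvPolynomial.Homogeneous
import Mathlib.RingTheory.Valuation.ValuationSubring
import Mathlib.LinearAlgebra.Matrix.NonsingularInverse

/-!
# Leading forms and the order valuation of a local ring with coordinates

`Coordinates t τ` says that `τ` is a completion map of a local `K`-algebra `O` with residue field `K`
for the generators `t` of the maximal ideal.  The order of a non-zero homogeneous form evaluated at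
any system of `n` generators of the maximal ideal is its degree, and the order defines a valuation
of the fraction field.

Team S26, owner helper45.
-/

set_option autoImplicit false

noncomputable section

namespace Fermat.Agent.Abelian

open IsLocalRing (maximalIdeal)

variable {K : Type*} [Field K] {n : ℕ} {O : Type*} [CommRing O] [IsDomain O] [IsLocalRing O]
  [IsNoetherianRing O] [Algebra K O]

/-- `τ` is a completion map for the generators `t` of the maximal ideal. -/
structure Coordinates (t : Fin n → O) (τ : O →ₐ[K] MvPowerSeries (Fin n) K) : Prop where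
  injective : Function.Injective τ
  map_t : ∀ i, τ (t i) = MvPowerSeries.X i
  span : Ideal.span (Set.range t) = maximalIdeal O
  res : ∀ u : O, ∃ c : K, u - algebraMap K O c ∈ maximalIdeal O

namespace Coordinates

variable {t : Fin n → O} {τ : O →ₐ[K] MvPowerSeries (Fin n) K}

omit [IsDomain O] [IsNoetherianRing O] in
theorem mem_of_span {t' : Fin n → O} (ht : Ideal.span (Set.range t') = maximalIdeal O) (i : Fin n) :
    t' i ∈ maximalIdeal O := ht ▸ Ideal.subset_span (Set.mem_range_self i)

omit [IsDomain O] [IsNoetherianRing O] in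
theorem map_aeval (h : Coordinates t τ) (P : MvPolynomial (Fin n) K) :
    τ (MvPolynomial.aeval t P) = (P : MvPowerSeries (Fin n) K) := by
  have h' : τ.comp (MvPolynomial.aeval t) = MvPolynomial.coeToMvPowerSeries.algHom K :=
    MvPolynomial.algHom_ext fun i => by simp [h.map_t]
  simpa using AlgHom.congr_fun h' P

omit [IsDomain O] [IsNoetherianRing O] in
theorem aeval_mem_pow {t' : Fin n → O} (ht' : ∀ i, t' i ∈ maximalIdeal O) {N : ℕ}
    {P : MvPolynomial (Fin n) K} (hP : P ∈ MvPolynomial.idealOfVars (Fin n) K ^ N) :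
    MvPolynomial.aeval t' P ∈ maximalIdeal O ^ N := by
  have := Ideal.mem_map_of_mem
    (MvPolynomial.aeval t' : MvPolynomial (Fin n) K →ₐ[K] O).toRingHom hP
  rw [Ideal.map_pow, MvPolynomial.idealOfVars, Ideal.map_span, ← Set.range_comp] at this
  refine Ideal.pow_right_mono ?_ N this
  refine Ideal.span_le.mpr ?_
  rintro _ ⟨i, rfl⟩
  simpa using ht' i

/-- Membership in a power of the maximal ideal is seen on the expansion. -/
theorem mem_pow_iff (h : Coordinates t τ) {u : O} {N : ℕ} :
    u ∈ maximalIdeal O ^ N ↔ ∀ d : Fin n →₀ ℕ, d.degree < N → MvPowerSeries.coeff d (τ u) = 0 := by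
  refine ⟨fun hu => coeff_eq_zero_of_mem_pow (map_mem_pow t τ h.map_t h.span hu), fun hu => ?_⟩
  obtain ⟨P, hP⟩ := exists_poly_approx t h.span h.res u N
  have h1 := coeff_eq_zero_of_mem_pow (map_mem_pow t τ h.map_t h.span hP)
  have hP' : P ∈ MvPolynomial.idealOfVars (Fin n) K ^ N :=
    (MvPolynomial.mem_pow_idealOfVars_iff' N P).mpr fun d hd => by
      have h2 := h1 d hd
      rw [map_sub, h.map_aeval, map_sub, hu d hd, zero_sub, neg_eq_zero,
        MvPolynomial.coeff_coe] at h2
      exact h2
  have := add_mem hP (aeval_mem_pow (mem_of_span h.span) hP')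
  simpa using this

theorem le_order_iff (h : Coordinates t τ) {u : O} {N : ℕ} :
    (N : ℕ∞) ≤ (τ u).order ↔ u ∈ maximalIdeal O ^ N := by
  rw [h.mem_pow_iff]
  refine ⟨fun hN d hd => MvPowerSeries.coeff_of_lt_order
    (lt_of_lt_of_le (by exact_mod_cast hd) hN), fun hN => MvPowerSeries.nat_le_order hN⟩

theorem order_eq_of_mem_pow (h : Coordinates t τ) {u : O} {N : ℕ} (h1 : u ∈ maximalIdeal O ^ N)
    (h2 : u ∉ maximalIdeal O ^ (N + 1)) : (τ u).order = N := by
  refine le_antisymm ?_ (h.le_order_iff.mpr h1)
  by_contra hlt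
  rw [not_le] at hlt
  exact h2 (h.le_order_iff.mp (Order.add_one_le_of_lt hlt))

omit [IsDomain O] [IsNoetherianRing O] in
/-- Congruent systems of values give congruent values of forms. -/
theorem aeval_sub_mem {x y : Fin n → O} (hx : ∀ i, x i ∈ maximalIdeal O)
    (hy : ∀ i, y i ∈ maximalIdeal O) (hxy : ∀ i, x i - y i ∈ maximalIdeal O ^ 2) :
    ∀ (N : ℕ) (P : MvPolynomial (Fin n) K), P ∈ MvPolynomial.idealOfVars (Fin n) K ^ N →
      MvPolynomial.aeval x P - MvPolynomial.aeval y P ∈ maximalIdeal O ^ (N + 1) := by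
  intro N
  induction N with
  | zero =>
    intro P hP
    clear hP
    rw [zero_add, pow_one]
    induction P using MvPolynomial.induction_on with
    | C a => simp
    | add p q hp hq => rw [map_add, map_add, add_sub_add_comm]; exact add_mem hp hq
    | mul_X p i _ =>
      rw [map_mul, map_mul, MvPolynomial.aeval_X, MvPolynomial.aeval_X]
      exact sub_mem (Ideal.mul_mem_left _ _ (hx i)) (Ideal.mul_mem_left _ _ (hy i))
  | succ N ih =>
    intro P hP
    rw [pow_succ'] at hP
    refine Submodule.mul_induction_on hP ?_ fun a b ha hb => ?_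
    · intro a ha b hb
      obtain ⟨c, rfl⟩ := Ideal.mem_span_range_iff_exists_fun.mp ha
      rw [Finset.sum_mul, map_sum, map_sum, ← Finset.sum_sub_distrib]
      refine Ideal.sum_mem _ fun i _ => ?_
      have h1 := ih b hb
      have h2 : MvPolynomial.aeval x (c i) - MvPolynomial.aeval y (c i) ∈ maximalIdeal O := by
        induction c i using MvPolynomial.induction_on with
        | C a => simp
        | add p q hp hq => rw [map_add, map_add, add_sub_add_comm]; exact add_mem hp hq
        | mul_X p j _ =>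
          rw [map_mul, map_mul, MvPolynomial.aeval_X, MvPolynomial.aeval_X]
          exact sub_mem (Ideal.mul_mem_left _ _ (hx j)) (Ideal.mul_mem_left _ _ (hy j))
      have hbx : MvPolynomial.aeval x b ∈ maximalIdeal O ^ N := aeval_mem_pow hx hb
      simp only [map_mul, MvPolynomial.aeval_X]
      set α := MvPolynomial.aeval x (c i)
      set α' := MvPolynomial.aeval y (c i)
      set β := MvPolynomial.aeval x b
      set β' := MvPolynomial.aeval y b
      rw [show α * x i * β - α' * y i * β' =
        ((α - α') * x i + α' * (x i - y i)) * β + α' * y i * (β - β') by ring]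
      refine add_mem ?_ ?_
      · have h3 : (α - α') * x i + α' * (x i - y i) ∈ maximalIdeal O ^ 2 :=
          add_mem (pow_two (maximalIdeal O) ▸ Ideal.mul_mem_mul h2 (hx i))
            (Ideal.mul_mem_left _ _ (hxy i))
        have h4 := Ideal.mul_mem_mul h3 hbx
        rwa [← pow_add, show 2 + N = N + 1 + 1 by omega] at h4
      · have h4 := Ideal.mul_mem_mul (Ideal.mul_mem_left _ α' (hy i)) h1
        rwa [← pow_succ'] at h4
    · rw [map_add, map_add, add_sub_add_comm]
      exact add_mem ha hb

omit [IsDomain O] [IsNoetherianRing O] in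
theorem idealOfVars_pow_of_isHomogeneous {P : MvPolynomial (Fin n) K} {m : ℕ}
    (hP : P.IsHomogeneous m) : P ∈ MvPolynomial.idealOfVars (Fin n) K ^ m :=
  (MvPolynomial.mem_pow_idealOfVars_iff' m P).mpr fun _ hd => hP.coeff_eq_zero hd.ne

/-- A non-zero form of degree `m` at generators of the maximal ideal is not in `m ^ (m + 1)`. -/
theorem aeval_notMem_pow (h : Coordinates t τ) {t' : Fin n → O}
    (hspan' : Ideal.span (Set.range t') = maximalIdeal O) {P : MvPolynomial (Fin n) K} {m : ℕ}
    (hP : P.IsHomogeneous m) (hP0 : P ≠ 0) :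
    MvPolynomial.aeval t' P ∉ maximalIdeal O ^ (m + 1) := by
  classical
  have ht : ∀ i, t i ∈ maximalIdeal O := mem_of_span h.span
  have ht' : ∀ i, t' i ∈ maximalIdeal O := mem_of_span hspan'
  -- linear parts
  choose a ha using fun i => Ideal.mem_span_range_iff_exists_fun.mp (h.span.symm ▸ ht' i)
  choose b hb using fun i => Ideal.mem_span_range_iff_exists_fun.mp (hspan'.symm ▸ ht i)
  choose a₀ ha₀ using fun i j => h.res (a i j)
  choose b₀ hb₀ using fun i j => h.res (b i j)
  set A : Matrix (Fin n) (Fin n) K := Matrix.of a₀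
  set B : Matrix (Fin n) (Fin n) K := Matrix.of b₀
  let lin : Matrix (Fin n) (Fin n) K → Fin n → MvPolynomial (Fin n) K :=
    fun M i => ∑ j, MvPolynomial.C (M i j) * MvPolynomial.X j
  have hlin : ∀ M i, (lin M i).IsHomogeneous 1 := fun M i =>
    MvPolynomial.IsHomogeneous.sum _ _ _ fun j _ => by
      simpa using (MvPolynomial.isHomogeneous_X K j).C_mul (M i j)
  have happrox : ∀ i, t' i - MvPolynomial.aeval t (lin A i) ∈ maximalIdeal O ^ 2 := fun i => by
    rw [← ha i, map_sum, ← Finset.sum_sub_distrib]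
    refine Ideal.sum_mem _ fun j _ => ?_
    rw [map_mul, MvPolynomial.aeval_C, MvPolynomial.aeval_X, ← sub_mul, pow_two]
    exact Ideal.mul_mem_mul (ha₀ i j) (ht j)
  have happrox' : ∀ i, t i - MvPolynomial.aeval t' (lin B i) ∈ maximalIdeal O ^ 2 := fun i => by
    rw [← hb i, map_sum, ← Finset.sum_sub_distrib]
    refine Ideal.sum_mem _ fun j _ => ?_
    rw [map_mul, MvPolynomial.aeval_C, MvPolynomial.aeval_X, ← sub_mul, pow_two]
    exact Ideal.mul_mem_mul (hb₀ i j) (ht' j)
  have hlt : ∀ i, MvPolynomial.aeval t (lin A i) ∈ maximalIdeal O := fun i => by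
    have := aeval_mem_pow ht (idealOfVars_pow_of_isHomogeneous (hlin A i))
    rwa [pow_one] at this
  -- `B * A = 1`
  have hBA : B * A = 1 := by
    ext k l
    have h1 : t k - MvPolynomial.aeval t (MvPolynomial.aeval (lin A) (lin B k)) ∈
        maximalIdeal O ^ 2 := by
      have h2 := aeval_sub_mem ht' hlt happrox 1 _ (idealOfVars_pow_of_isHomogeneous (hlin B k))
      have h3 := add_mem (happrox' k) h2
      rw [MvPolynomial.comp_aeval_apply]
      simpa using h3
    have h4 := h.mem_pow_iff.mp h1 (Finsupp.single l 1) (by simp [Finsupp.degree_single])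
    rw [map_sub, h.map_t, h.map_aeval, map_sub, MvPolynomial.coeff_coe, sub_eq_zero] at h4
    have h5 : MvPolynomial.aeval (lin A) (lin B k) = lin (B * A) k := by
      simp only [lin, map_sum, map_mul, MvPolynomial.aeval_C, MvPolynomial.aeval_X,
        Matrix.mul_apply, MvPolynomial.algebraMap_eq, Finset.mul_sum, Finset.sum_mul]
      rw [Finset.sum_comm]
      exact Finset.sum_congr rfl fun x _ => Finset.sum_congr rfl fun j _ => (mul_assoc _ _ _).symm
    rw [h5, MvPolynomial.coeff_sum] at h4
    simp only [MvPolynomial.coeff_C_mul, MvPolynomial.coeff_X', mul_ite, mul_one, mul_zero,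
      Finsupp.single_left_inj (one_ne_zero : (1 : ℕ) ≠ 0), Finset.sum_ite_eq',
      Finset.mem_univ, if_true] at h4
    rw [← h4, MvPowerSeries.coeff_X, Matrix.one_apply]
    simp [Finsupp.single_left_inj (one_ne_zero : (1 : ℕ) ≠ 0), eq_comm]
  have hAB : A * B = 1 := mul_eq_one_comm.mp hBA
  intro hmem
  apply hP0
  -- the substituted form vanishes
  have h1 : MvPolynomial.aeval t (MvPolynomial.aeval (lin A) P) ∈ maximalIdeal O ^ (m + 1) := by
    rw [MvPolynomial.comp_aeval_apply]
    simpa using sub_mem hmem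
      (aeval_sub_mem ht' hlt happrox m P (idealOfVars_pow_of_isHomogeneous hP))
  have hhom : (MvPolynomial.aeval (lin A) P).IsHomogeneous m := by
    simpa using hP.aeval _ (hlin A)
  have hzero : MvPolynomial.aeval (lin A) P = 0 := by
    ext d
    rw [MvPolynomial.coeff_zero]
    rcases eq_or_ne d.degree m with hd | hd
    · have := h.mem_pow_iff.mp h1 d (by omega)
      rwa [h.map_aeval, MvPolynomial.coeff_coe] at this
    · exact hhom.coeff_eq_zero hd
  have hinv : (MvPolynomial.aeval (lin B)).comp (MvPolynomial.aeval (lin A)) =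
      AlgHom.id K (MvPolynomial (Fin n) K) := by
    refine MvPolynomial.algHom_ext fun i => ?_
    rw [AlgHom.comp_apply, MvPolynomial.aeval_X, AlgHom.id_apply]
    show MvPolynomial.aeval (lin B) (∑ j, MvPolynomial.C (A i j) * MvPolynomial.X j) = _
    have h6 : ∀ j, (∑ x, A i x * B x j) = if i = j then 1 else 0 := fun j => by
      rw [← Matrix.mul_apply, hAB, Matrix.one_apply]
    simp only [lin, map_sum, map_mul, MvPolynomial.aeval_C, MvPolynomial.aeval_X,
      MvPolynomial.algebraMap_eq]
    simp only [Finset.mul_sum, ← mul_assoc, ← MvPolynomial.C_mul]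
    rw [Finset.sum_comm]
    simp only [← Finset.sum_mul, ← map_sum, h6]
    simp [apply_ite (MvPolynomial.C (σ := Fin n) (R := K)), ite_mul]
  have := AlgHom.congr_fun hinv P
  rw [AlgHom.comp_apply, hzero, map_zero, AlgHom.id_apply] at this
  exact this.symm

theorem order_aeval (h : Coordinates t τ) {t' : Fin n → O}
    (hspan' : Ideal.span (Set.range t') = maximalIdeal O) {P : MvPolynomial (Fin n) K} {m : ℕ}
    (hP : P.IsHomogeneous m) (hP0 : P ≠ 0) : (τ (MvPolynomial.aeval t' P)).order = m :=
  h.order_eq_of_mem_pow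
    (aeval_mem_pow (Coordinates.mem_of_span hspan')
      (idealOfVars_pow_of_isHomogeneous hP))
    (h.aeval_notMem_pow hspan' hP hP0)

theorem aeval_ne_zero (h : Coordinates t τ) {t' : Fin n → O}
    (hspan' : Ideal.span (Set.range t') = maximalIdeal O) {P : MvPolynomial (Fin n) K} {m : ℕ}
    (hP : P.IsHomogeneous m) (hP0 : P ≠ 0) : MvPolynomial.aeval t' P ≠ 0 := fun h0 =>
  h.aeval_notMem_pow hspan' hP hP0 (by rw [h0]; exact zero_mem _)

/-- A homomorphism carrying the coordinates to generators of the maximal ideal is injective. -/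
theorem injective_of_span (h : Coordinates t τ) {O' : Type*} [CommRing O'] [IsDomain O']
    [IsLocalRing O'] [IsNoetherianRing O'] [Algebra K O'] {s : Fin n → O'}
    {σ : O' →ₐ[K] MvPowerSeries (Fin n) K} (h' : Coordinates s σ) (ν : O →ₐ[K] O')
    (hν : Ideal.span (Set.range fun i => ν (t i)) = maximalIdeal O') : Function.Injective ν := by
  rw [injective_iff_map_eq_zero]
  intro u hu
  by_contra hu0
  have hfin := MvPowerSeries.ne_zero_iff_order_finite.mp
    ((map_ne_zero_iff τ h.injective).mpr hu0)
  set m := (τ u).order.toNat with hm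
  obtain ⟨⟨d, hd, hdm⟩, hlow⟩ := MvPowerSeries.order_eq_nat.mp hfin.symm
  obtain ⟨P, hP⟩ := exists_poly_approx t h.span h.res u (m + 1)
  set Q := MvPolynomial.homogeneousComponent m P with hQ
  have hc := coeff_eq_zero_of_mem_pow (map_mem_pow t τ h.map_t h.span hP)
  have hPd : ∀ e : Fin n →₀ ℕ, e.degree < m + 1 → P.coeff e = MvPowerSeries.coeff e (τ u) :=
    fun e he => by
      have := hc e he
      rw [map_sub, h.map_aeval, map_sub, MvPolynomial.coeff_coe, sub_eq_zero] at this
      exact this.symm
  have hQ0 : Q ≠ 0 := fun h0 => hd (by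
    rw [← hPd d (by omega)]
    have := congrArg (MvPolynomial.coeff d) h0
    rwa [hQ, MvPolynomial.coeff_homogeneousComponent, if_pos hdm, MvPolynomial.coeff_zero] at this)
  have hPQ : P - Q ∈ MvPolynomial.idealOfVars (Fin n) K ^ (m + 1) :=
    (MvPolynomial.mem_pow_idealOfVars_iff' _ _).mpr fun e he => by
      rw [MvPolynomial.coeff_sub, hQ, MvPolynomial.coeff_homogeneousComponent]
      split_ifs with hem
      · rw [sub_self]
      · rw [hPd e he, hlow e (by omega), sub_zero]
  have hmax : (maximalIdeal O).map ν.toRingHom ≤ maximalIdeal O' := by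
    rw [← h.span, Ideal.map_span, ← Set.range_comp, ← hν]
    exact le_rfl
  have h1 : ν (u - MvPolynomial.aeval t Q) ∈ maximalIdeal O' ^ (m + 1) := by
    have hmem : u - MvPolynomial.aeval t Q ∈ maximalIdeal O ^ (m + 1) := by
      have := add_mem hP
        (aeval_mem_pow (mem_of_span h.span) hPQ)
      simpa using this
    have := Ideal.mem_map_of_mem ν.toRingHom hmem
    rw [Ideal.map_pow] at this
    exact Ideal.pow_right_mono hmax _ this
  rw [map_sub, hu, zero_sub, neg_mem_iff, MvPolynomial.comp_aeval_apply] at h1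
  exact h'.aeval_notMem_pow hν (MvPolynomial.homogeneousComponent_isHomogeneous m P) hQ0 h1

end Coordinates

/-! ### The order valuation -/

section Valuation

variable {F : Type*} [Field F] [Algebra K F] {A : Subalgebra K F}
  [IsLocalRing A] [IsNoetherianRing A] {t : Fin n → A} {τ : A →ₐ[K] MvPowerSeries (Fin n) K}

/-- The valuation ring of the order at a point with coordinates. -/
def orderValuation (h : Coordinates t τ) (hfrac : ∀ x : F, ∃ a b : A, (b : F) ≠ 0 ∧ x * b = a) :
    ValuationSubring F where
  carrier := {x | ∃ a b : A, (b : F) ≠ 0 ∧ x * b = a ∧ (τ b).order ≤ (τ a).order}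
  mul_mem' := by
    rintro x y ⟨a, b, hb, he, ho⟩ ⟨a', b', hb', he', ho'⟩
    refine ⟨a * a', b * b', mul_ne_zero hb hb', ?_, ?_⟩
    · rw [Subalgebra.coe_mul, Subalgebra.coe_mul, mul_mul_mul_comm, he, he']
    · rw [map_mul, map_mul, MvPowerSeries.order_mul, MvPowerSeries.order_mul]
      exact add_le_add ho ho'
  one_mem' := ⟨1, 1, by simp, by simp, le_rfl⟩
  zero_mem' := ⟨0, 1, by simp, by simp, by rw [map_zero, MvPowerSeries.order_zero]; exact le_top⟩
  add_mem' := by
    rintro x y ⟨a, b, hb, he, ho⟩ ⟨a', b', hb', he', ho'⟩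
    refine ⟨a * b' + a' * b, b * b', mul_ne_zero hb hb', ?_, ?_⟩
    · rw [Subalgebra.coe_add, Subalgebra.coe_mul, Subalgebra.coe_mul, Subalgebra.coe_mul, ← he,
        ← he']
      ring
    · rw [map_add, map_mul, map_mul, map_mul, MvPowerSeries.order_mul]
      refine le_trans (le_min ?_ ?_) MvPowerSeries.min_order_le_add <;>
        rw [MvPowerSeries.order_mul]
      · exact add_le_add_left ho _
      · rw [add_comm]; exact add_le_add_left ho' _
  neg_mem' := by
    rintro x ⟨a, b, hb, he, ho⟩
    exact ⟨-a, b, hb, by rw [Subalgebra.coe_neg, ← he, neg_mul],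
      by rwa [map_neg, MvPowerSeries.order_neg]⟩
  mem_or_inv_mem' x := by
    obtain ⟨a, b, hb, he⟩ := hfrac x
    rcases le_total (τ b).order (τ a).order with ho | ho
    · exact Or.inl ⟨a, b, hb, he, ho⟩
    · rcases eq_or_ne x 0 with rfl | hx
      · exact Or.inl ⟨0, 1, by simp, by simp, by
          rw [map_zero, MvPowerSeries.order_zero]; exact le_top⟩
      · refine Or.inr ⟨b, a, ?_, ?_, ho⟩
        · rw [← he]; exact mul_ne_zero hx hb
        · rw [← he, ← mul_assoc, inv_mul_cancel₀ hx, one_mul]

variable (h : Coordinates t τ) (hfrac : ∀ x : F, ∃ a b : A, (b : F) ≠ 0 ∧ x * b = a)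

theorem coe_mem_orderValuation (a : A) : (a : F) ∈ orderValuation h hfrac :=
  ⟨a, 1, by simp, by simp, by
    have h1 : (1 : MvPowerSeries (Fin n) K).order = 0 :=
      MvPowerSeries.weightedOrder_one _
    rw [map_one, h1]; exact bot_le⟩

theorem inv_notMem_orderValuation {a : A} (ha : a ∈ maximalIdeal A) (ha0 : (a : F) ≠ 0) :
    (a : F)⁻¹ ∉ orderValuation h hfrac := by
  rintro ⟨c, b, hb, he, ho⟩
  have h1 : c * a = b := by
    apply Subtype.ext
    rw [Subalgebra.coe_mul, ← he, mul_comm ((a : F)⁻¹), mul_assoc, inv_mul_cancel₀ ha0, mul_one]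
  have h2 : (1 : ℕ∞) ≤ (τ a).order :=
    h.le_order_iff.mpr (by rwa [pow_one])
  have hc0 : c ≠ 0 := fun h0 => hb (by rw [← h1, h0, zero_mul]; rfl)
  rw [← h1, map_mul, MvPowerSeries.order_mul] at ho
  have hfin : (τ c).order ≠ ⊤ := fun h0 =>
    hc0 (h.injective (by rw [MvPowerSeries.order_eq_top_iff.mp h0, map_zero]))
  have h4 : (τ c).order + 1 ≤ (τ c).order := le_trans (add_le_add le_rfl h2) ho
  lift (τ c).order to ℕ using hfin with k
  norm_cast at h4
  omega

theorem div_mem_orderValuation {t' : Fin n → A}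
    (hspan' : Ideal.span (Set.range t') = maximalIdeal A) {P Q : MvPolynomial (Fin n) K} {m : ℕ}
    (hP : P.IsHomogeneous m) (hQ : Q.IsHomogeneous m) (hQ0 : Q ≠ 0) {x : F}
    (he : x * (MvPolynomial.aeval t' Q : A) = (MvPolynomial.aeval t' P : A)) :
    x ∈ orderValuation h hfrac := by
  refine ⟨MvPolynomial.aeval t' P, MvPolynomial.aeval t' Q, fun h0 => h.aeval_ne_zero hspan' hQ hQ0
    (Subtype.ext h0), he, ?_⟩
  rw [h.order_aeval hspan' hQ hQ0]
  exact h.le_order_iff.mpr (Coordinates.aeval_mem_pow
    (Coordinates.mem_of_span hspan') (Coordinates.idealOfVars_pow_of_isHomogeneous hP))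

end Valuation

end Fermat.Agent.Abelian
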