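import Fermat.Agent.Abelian.Tangent
import Fermat.Agent.Abelian.LeadingForm
import Mathlib.RingTheory.AlgebraicIndependent.TranscendenceBasis
import Mathlib.RingTheory.Unramified.Field
import Mathlib.FieldTheory.PrimitiveElement
import Mathlib.FieldTheory.Relrank
import Mathlib.FieldTheory.IsAlgClosed.AlgebraicClosure

/-!
# Multiplication by an invertible integer on the function field

`mulBy n` is the endomorphism `n*` of the function field.  Its degree equals the number of rational
points killed by `n` and is multiplicative in `n`.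

Team S26, owner helper45.
-/

set_option autoImplicit false

noncomputable section

universe u

namespace Fermat.Agent.Abelian

namespace GroupVariety

variable {K : Type u} [Field K] (G : GroupVariety K)

instance instIsFractionRingO (z : G.Center) : IsFractionRing (G.O z) G.Func :=
  IsFractionRing.of_field (G.O z) G.Func fun x => by
    obtain ⟨a, b, hb, he⟩ := G.frac_O z x
    exact ⟨a, b, eq_div_of_mul_eq hb he⟩

/-- The generic point. -/
def eta : G.Pt G.Func := G.pt G.generic (G.O G.generic).val

theorem pt_val (z : G.Center) : G.pt z (G.O z).val = G.eta :=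
  G.pt_gen (G.gen_generic z) (G.O G.generic).val

theorem mem_O_generic (v : G.Func) : v ∈ G.O G.generic := by rw [G.O_generic]; trivial

theorem isLocalHom_val {z : G.Center} (h : G.O z = ⊤) : IsLocalHom (G.O z).val.toRingHom :=
  ⟨fun v hv => (G.isUnit_O_iff v).mpr ⟨hv.ne_zero, SetLike.ext_iff.mp h.symm _ |>.mp trivial⟩⟩

theorem centre_eta : G.centre G.eta = G.generic :=
  G.centre_pt _ _ (G.isLocalHom_val G.O_generic)

theorem centre_map_eta {L : Type u} [Field L] [Algebra K L] (φ : G.Func →ₐ[K] L) :
    G.centre (G.map φ G.eta) = G.generic := by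
  rw [G.centre_map_of_field, G.centre_eta]

theorem map_eta {L : Type u} [Field L] [Algebra K L] (φ : G.Func →ₐ[K] L) (z : G.Center) :
    G.map φ G.eta = G.pt z (φ.comp (G.O z).val) := by
  rw [← G.pt_val z, G.map_pt]

theorem map_eta_injective {L : Type u} [Field L] [Algebra K L] :
    Function.Injective fun φ : G.Func →ₐ[K] L => G.map φ G.eta := by
  intro φ χ h
  change G.map φ G.eta = G.map χ G.eta at h
  rw [G.map_eta φ G.generic, G.map_eta χ G.generic] at h
  ext v
  exact DFunLike.congr_fun (G.pt_injective _ h) ⟨v, G.mem_O_generic v⟩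

theorem exists_map_eta {L : Type u} [Field L] [Algebra K L] (x : G.Pt L)
    (hx : G.centre x = G.generic) : ∃ φ : G.Func →ₐ[K] L, G.map φ G.eta = x := by
  obtain ⟨ψ, hψ⟩ := G.exists_pt_eq x hx
  let e : G.Func →ₐ[K] G.O G.generic := (AlgHom.id K G.Func).codRestrict _ G.mem_O_generic
  refine ⟨ψ.comp e, ?_⟩
  rw [G.map_eta _ G.generic, ← hψ]
  congr 1

/-! ### Closed coordinates -/

theorem exists_coordinates (p : G.Pt K) : ∃ (t : Fin G.dim → G.O (G.centre p))
    (τ : G.O (G.centre p) →ₐ[K] MvPowerSeries (Fin G.dim) K),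
    Coordinates t τ ∧ Algebra.IsAlgebraic (Algebra.adjoin K (Set.range fun i => (t i : G.Func))) G.Func := by
  obtain ⟨t, τ, h1, h2, h3, h4⟩ := G.exists_coord p
  exact ⟨t, τ, ⟨h1, h2, h3, fun u => G.exists_sub_algebraMap_mem p u⟩, h4⟩

theorem lift_trdeg_le (z : G.Center) :
    Cardinal.lift.{0} (Algebra.trdeg K (G.O z)) ≤ Cardinal.lift.{u} (Cardinal.mk (Fin G.dim)) := by
  obtain ⟨t, τ, -, halg⟩ := G.exists_coordinates (0 : G.Pt K)
  have h1 : Algebra.trdeg K (G.O z) ≤ Algebra.trdeg K G.Func :=
    trdeg_le_of_injective (G.O z).val Subtype.val_injective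
  have h2 : Algebra.trdeg K G.Func ≤ Cardinal.mk (Set.range fun i => (t i : G.Func)) :=
    Algebra.IsAlgebraic.trdeg_le_cardinalMk K _
  have h3 := Cardinal.mk_range_le_lift (f := fun i => (t i : G.Func))
  rw [Cardinal.lift_id', Cardinal.lift_umax.{0,u}] at *
  exact (h1.trans h2).trans (by simpa using h3)

/-- A point of which some translate, multiple, ... is generic, is generic. -/
theorem centre_eq_generic_of_map {L : Type u} [Field L] [Algebra K L] (x : G.Pt L)
    (y : G.Pt (G.O (G.centre x))) (h : G.centre (G.map (G.hom x) y) = G.generic) :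
    G.centre x = G.generic := by
  obtain ⟨p, hp⟩ := G.exists_closed (G.centre y)
  obtain ⟨t, τ, ht, -⟩ := G.exists_coordinates p
  set ψ := (G.hom y).comp (Subalgebra.inclusion (G.gen_le hp)) with hψ
  set φ := (G.hom x).comp ψ with hφ
  have hpt : G.pt (G.centre p) φ = G.map (G.hom x) y := by
    rw [hφ, ← G.map_pt, hψ, G.pt_gen hp, G.pt_hom]
  obtain ⟨χ, hχ⟩ := G.exists_map_eta _ h
  have hinj : Function.Injective φ := by
    have he : φ = χ.comp (G.O (G.centre p)).val := by
      apply G.pt_injective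
      rw [hpt, ← hχ, G.map_eta χ (G.centre p)]
    rw [he]
    exact χ.toRingHom.injective.comp Subtype.val_injective
  have hindep : AlgebraicIndependent K t := by
    refine AlgebraicIndependent.of_comp τ ?_
    rw [show (⇑τ ∘ t) = fun i => MvPowerSeries.X i from funext ht.map_t]
    rw [algebraicIndependent_iff_injective_aeval]
    have he : (MvPolynomial.aeval fun i => (MvPowerSeries.X i : MvPowerSeries (Fin G.dim) K)) =
        (MvPolynomial.coeToMvPowerSeries.algHom K :
          MvPolynomial (Fin G.dim) K →ₐ[K] MvPowerSeries (Fin G.dim) K) :=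
      MvPolynomial.algHom_ext fun i => by simp
    rw [he]
    intro P Q hPQ
    simpa using hPQ
  have hx : AlgebraicIndependent K (⇑φ ∘ t) := hindep.map' hinj
  set u : Fin G.dim → G.O (G.centre x) := fun i => ψ (t i) with hu
  have hu' : AlgebraicIndependent K u := AlgebraicIndependent.of_comp (G.hom x) hx
  have hbase : IsTranscendenceBasis K u :=
    AlgebraicIndependent.isTranscendenceBasis_of_lift_trdeg_le_of_finite hu' (G.lift_trdeg_le _)
  haveI : Algebra.IsAlgebraic (Algebra.adjoin K (Set.range u)) (G.O (G.centre x)) :=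
    hbase.isAlgebraic
  -- the maximal ideal vanishes
  have hbot : ∀ m ∈ G.maxIdeal (G.centre x), m = 0 := by
    intro m hm
    by_contra hm0
    have halg : IsAlgebraic (Algebra.adjoin K (Set.range u)) m := Algebra.IsAlgebraic.isAlgebraic m
    obtain ⟨r, hr0, hdvd⟩ := halg.exists_nonzero_dvd (mem_nonZeroDivisors_of_ne_zero hm0)
    apply hr0
    have hr : G.hom x (r : G.O (G.centre x)) = 0 := by
      obtain ⟨c, hc⟩ := hdvd
      by_contra hne
      have := (G.isUnit_hom_iff x _).mp (isUnit_iff_ne_zero.mpr hne)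
      rw [show (r : G.O (G.centre x)) = m * c from hc] at this
      exact (IsLocalRing.mem_maximalIdeal _).mp hm (isUnit_of_mul_isUnit_left this)
    obtain ⟨P, hP⟩ := (AlgHom.mem_range _).mp
      (show (r : G.O (G.centre x)) ∈ (MvPolynomial.aeval u).range by
        rw [← Algebra.adjoin_range_eq_range_aeval K u]; exact r.2)
    have hP0 : P = 0 := hx.eq_zero_of_aeval_eq_zero P (by
      rw [← hr, ← hP, MvPolynomial.comp_aeval_apply]
      rfl)
    apply Subtype.ext
    rw [← hP, hP0, map_zero]
    rfl
  have htop : G.O (G.centre x) = ⊤ := by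
    rw [eq_top_iff]
    intro v _
    obtain ⟨a, b, hb, he⟩ := G.frac_O (G.centre x) v
    have hbu : IsUnit b := by
      by_contra hnu
      exact hb (by rw [hbot b ((IsLocalRing.mem_maximalIdeal _).mpr hnu)]; rfl)
    obtain ⟨-, hbi⟩ := (G.isUnit_O_iff b).mp hbu
    rw [eq_div_of_mul_eq hb he, div_eq_mul_inv]
    exact mul_mem a.2 hbi
  rw [← G.centre_pt (G.centre x) _ (G.isLocalHom_val htop), G.pt_val, G.centre_eta]

theorem centre_add_const {L : Type u} [Field L] [Algebra K L] (φ : G.Func →ₐ[K] L) (c : G.Pt K) :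
    G.centre (G.map φ G.eta + G.map (Algebra.ofId K L) c) = G.generic := by
  set x := G.map φ G.eta + G.map (Algebra.ofId K L) c with hx
  refine G.centre_eq_generic_of_map x
    (G.taut (G.centre x) + G.map (Algebra.ofId K _) (-c)) ?_
  rw [map_add, G.map_taut, G.pt_hom, ← G.map_comp, map_neg, Algebra.comp_ofId]
  rw [hx, add_neg_cancel_right, G.centre_map_eta]

/-! ### Multiplication by `n` -/

section MulBy

variable {n : ℤ} (hn : (n : K) ≠ 0)

theorem exists_coordinates_mulLoc_injective (p : G.Pt K) (hn : (n : K) ≠ 0) (hp : n • p = 0) :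
    Function.Injective (G.mulLoc p n hp) := by
  obtain ⟨t, τ, ht, -⟩ := G.exists_coordinates (0 : G.Pt K)
  obtain ⟨s, σ, hs, -⟩ := G.exists_coordinates p
  refine ht.injective_of_span hs _ ?_
  refine le_antisymm (Ideal.span_le.mpr ?_) ?_
  · rintro _ ⟨i, rfl⟩
    exact G.mulLoc_mem_maxIdeal p n hp (Coordinates.mem_of_span ht.span i)
  · refine (G.span_image_mulLoc p n hn hp).symm.le.trans (Ideal.span_le.mpr ?_)
    rintro _ ⟨v, hv, rfl⟩
    change v ∈ IsLocalRing.maximalIdeal _ at hv
    rw [← ht.span] at hv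
    have := Ideal.mem_map_of_mem (G.mulLoc p n hp).toRingHom hv
    rwa [Ideal.map_span, ← Set.range_comp] at this

include hn in
theorem centre_zsmul_eta : G.centre (n • G.eta) = G.generic := by
  set z := G.centre (0 : G.Pt K)
  set ν := G.mulLoc 0 n (smul_zero n)
  have hg : Function.Injective ((G.O z).val.comp ν) :=
    Subtype.val_injective.comp (G.exists_coordinates_mulLoc_injective 0 hn (smul_zero n))
  have h : n • G.eta = G.map (IsFractionRing.liftAlgHom hg) G.eta := by
    rw [G.map_eta _ z, ← G.pt_val z, ← G.map_taut, ← map_zsmul, ← G.pt_mulLoc 0 n (smul_zero n),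
      G.map_pt]
    congr 1
    exact AlgHom.ext fun v => (IsFractionRing.lift_algebraMap hg v).symm
  rw [h, G.centre_map_eta]

theorem exists_mulBy (hn : (n : K) ≠ 0) :
    ∃ φ : G.Func →ₐ[K] G.Func, G.map φ G.eta = n • G.eta :=
  G.exists_map_eta _ (G.centre_zsmul_eta hn)

/-- Multiplication by `n` on the function field. -/
def mulBy : G.Func →ₐ[K] G.Func := (G.exists_mulBy hn).choose

theorem map_mulBy : G.map (G.mulBy hn) G.eta = n • G.eta := (G.exists_mulBy hn).choose_spec

theorem map_comp_mulBy {L : Type u} [Field L] [Algebra K L] (φ : G.Func →ₐ[K] L) :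
    G.map (φ.comp (G.mulBy hn)) G.eta = n • G.map φ G.eta := by
  rw [G.map_comp, G.map_mulBy, map_zsmul]

theorem mulBy_apply (p : G.Pt K) (hp : n • p = 0) (v : G.O (G.centre (0 : G.Pt K))) :
    G.mulBy hn v = (G.mulLoc p n hp v : G.Func) := by
  refine (DFunLike.congr_fun (G.pt_injective _ ?_) v : ((G.mulBy hn).comp (G.O _).val) v =
    ((G.O _).val.comp (G.mulLoc p n hp)) v)
  rw [← G.map_pt, G.pt_val, G.map_mulBy, G.pt_comp_mulLoc, G.pt_val]

/-- The image of multiplication by `n` on the function field. -/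
def mulField : IntermediateField K G.Func := (G.mulBy hn).fieldRange

/-- The degree of multiplication by `n`. -/
def mulDeg : ℕ := Module.finrank (G.mulField hn) G.Func

theorem mulDeg_mul {m : ℤ} (hm : (m : K) ≠ 0) (hnm : ((n * m : ℤ) : K) ≠ 0) :
    G.mulDeg hnm = G.mulDeg hn * G.mulDeg hm := by
  have he : G.mulBy hnm = (G.mulBy hn).comp (G.mulBy hm) := by
    apply G.map_eta_injective
    show G.map (G.mulBy hnm) G.eta = G.map ((G.mulBy hn).comp (G.mulBy hm)) G.eta
    rw [G.map_mulBy, G.map_comp, G.map_mulBy, map_zsmul, G.map_mulBy, mul_comm, mul_smul]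
  have h1 : G.mulField hnm = (G.mulField hm).map (G.mulBy hn) := by
    rw [mulField, he, mulField, AlgHom.map_fieldRange]
  rw [mulDeg, mulDeg, mulDeg, ← IntermediateField.relfinrank_top_right,
    ← IntermediateField.relfinrank_top_right, ← IntermediateField.relfinrank_top_right, h1,
    ← IntermediateField.relfinrank_mul_relfinrank (B := G.mulField hn) ?_ le_top, mul_comm,
    mulField, AlgHom.fieldRange_eq_map, IntermediateField.relfinrank_map_map]
  exact IntermediateField.map_mono _ le_top |>.trans (AlgHom.fieldRange_eq_map _).ge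

/-- Derivations killing the image of multiplication by `n` vanish. -/
theorem formallyUnramified_mulBy : Algebra.FormallyUnramified (G.mulField hn) G.Func := by
  classical
  set z := G.centre (0 : G.Pt K) with hz
  set F := G.mulField hn
  let D := KaehlerDifferential.D F G.Func
  have hDK : ∀ c : K, D (algebraMap K G.Func c) = 0 := fun c => by
    rw [IsScalarTower.algebraMap_apply K F G.Func]
    exact D.map_algebraMap _
  set N : Submodule (G.O z) (KaehlerDifferential F G.Func) :=
    Submodule.span (G.O z) (D '' (G.O z : Set G.Func)) with hN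
  have hmem : ∀ v ∈ G.O z, D v ∈ N := fun v hv => Submodule.subset_span ⟨v, hv, rfl⟩
  -- `N` is finitely generated
  obtain ⟨C, ⟨U, hU⟩, hle, hC⟩ := G.exists_chart z
  obtain ⟨-, hw⟩ := hC (AlgHom.id K K) Function.injective_id (0 : G.Pt K) 0 (G.map_id 0) rfl
    fun b _ h => ⟨_, rfl⟩
  set N0 : Submodule (G.O z) (KaehlerDifferential F G.Func) :=
    Submodule.span (G.O z) (D '' (U : Set G.Func)) with hN0
  have hfg : N.FG := by
    have hN0' : N0 = N := by
      refine le_antisymm (Submodule.span_mono (Set.image_mono fun u hu => hle (hU ▸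
        Algebra.subset_adjoin hu))) (Submodule.span_le.mpr ?_)
      have hB : ∀ v ∈ C, D v ∈ N0 := fun v hv => by
        rw [← hU] at hv
        induction hv using Algebra.adjoin_induction with
        | mem u hu => exact Submodule.subset_span ⟨u, hu, rfl⟩
        | algebraMap c => rw [hDK]; exact zero_mem _
        | add u w _ _ hu' hw' => rw [map_add]; exact add_mem hu' hw'
        | mul u w hu hw hu' hw' =>
          rw [D.leibniz]
          exact add_mem (N0.smul_mem ⟨u, hle (hU ▸ hu)⟩ hw')
            (N0.smul_mem ⟨w, hle (hU ▸ hw)⟩ hu')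
      rintro _ ⟨v, hv, rfl⟩
      obtain ⟨a, ha, b, hb, c, hc, hbc, rfl⟩ := hw v hv
      have hc' : c = b⁻¹ := (inv_eq_of_mul_eq_one_right hbc).symm
      rw [D.leibniz]
      refine add_mem (N0.smul_mem ⟨a, hle ha⟩ ?_) (N0.smul_mem ⟨c, hc⟩ (hB a ha))
      rw [hc', D.leibniz_inv]
      have h2 : -((b⁻¹) ^ 2) ∈ G.O z := neg_mem (pow_mem (hc' ▸ hc) 2)
      exact N0.smul_mem ⟨_, h2⟩ (hB b hb)
    rw [← hN0', hN0, ← Finset.coe_image]
    exact Submodule.fg_span (Finset.finite_toSet _)
  -- Nakayama
  have hsmul : N ≤ G.maxIdeal z • N := by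
    refine Submodule.span_le.mpr ?_
    rintro _ ⟨v, hv, rfl⟩
    have hw' := G.sub_algebraMap_hom_mem 0 ⟨v, hv⟩
    rw [← G.span_image_mulLoc 0 n hn (smul_zero n)] at hw'
    obtain ⟨U', hU', hc⟩ := Submodule.mem_span_finite_of_mem_span hw'
    rw [Submodule.mem_span_finset'] at hc
    obtain ⟨a, ha⟩ := hc
    have hv' : v = algebraMap K G.Func (G.hom 0 ⟨v, hv⟩) +
        ∑ i : U', (a i : G.Func) * ((i : G.O z) : G.Func) := by
      have := congrArg (fun w : G.O z => (w : G.Func)) ha
      simp only [AddSubmonoidClass.coe_finset_sum, smul_eq_mul, Subalgebra.coe_mul,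
        Subalgebra.coe_sub, Subalgebra.coe_algebraMap] at this
      rw [this]; ring
    rw [SetLike.mem_coe, hv', map_add, hDK, zero_add, map_sum]
    refine Submodule.sum_mem _ fun i _ => ?_
    obtain ⟨w, hw1, hw2⟩ := hU' i.2
    have h1 : D ((i : G.O z) : G.Func) = 0 := by
      rw [← hw2, ← G.mulBy_apply hn 0 (smul_zero n) w]
      exact D.map_algebraMap (⟨_, w, rfl⟩ : F)
    rw [D.leibniz, h1, smul_zero, zero_add]
    exact Submodule.smul_mem_smul (hw2 ▸ G.mulLoc_mem_maxIdeal 0 n (smul_zero n) hw1)
      (hmem _ (a i).2)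
  have hbot : N = ⊥ := Submodule.eq_bot_of_le_smul_of_le_jacobson_bot _ _ hfg hsmul
    (IsLocalRing.maximalIdeal_le_jacobson _)
  have hD : ∀ v, D v = 0 := by
    intro v
    obtain ⟨a, b, hb, he⟩ := G.frac_O z v
    have h0 : ∀ w ∈ G.O z, D w = 0 := fun w hw => by
      simpa [hbot] using hmem w hw
    rw [eq_div_of_mul_eq hb he, D.leibniz_div, h0 _ a.2, h0 _ b.2]
    simp
  refine ⟨subsingleton_of_forall_eq 0 fun w => ?_⟩
  have hw : w ∈ Submodule.span G.Func (Set.range D) := by
    rw [KaehlerDifferential.span_range_derivation]; trivial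
  induction hw using Submodule.span_induction with
  | mem x hx => obtain ⟨v, rfl⟩ := hx; exact hD v
  | zero => rfl
  | add x y _ _ hx hy => rw [hx, hy, add_zero]
  | smul c x _ hx => rw [hx, smul_zero]

instance instEssFiniteTypeMulField : Algebra.EssFiniteType (G.mulField hn) G.Func :=
  Algebra.EssFiniteType.of_comp K _ _

theorem finiteDimensional_mulField : FiniteDimensional (G.mulField hn) G.Func :=
  haveI := G.formallyUnramified_mulBy hn
  Algebra.FormallyUnramified.finite_of_free (G.mulField hn) G.Func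

theorem mulDeg_pos : 0 < G.mulDeg hn :=
  haveI := G.finiteDimensional_mulField hn
  Module.finrank_pos

include hn in
/-- Torsion points with values in any field are constant. -/
theorem exists_eq_map_of_zsmul_eq_zero {L : Type u} [Field L] [Algebra K L] (x : G.Pt L)
    (hx : n • x = 0) : ∃ p : G.Pt K, n • p = 0 ∧ G.map (Algebra.ofId K L) p = x := by
  obtain ⟨p, hp⟩ := G.exists_closed (G.centre x)
  set φ := (G.hom x).comp (Subalgebra.inclusion (G.gen_le hp)) with hφ
  have hx' : G.pt (G.centre p) φ = x := by rw [hφ, G.pt_gen hp, G.pt_hom]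
  have hnp : n • p = 0 := by
    have h1 := G.gen_centre φ (n • G.taut (G.centre p))
    rw [map_zsmul, G.map_taut, hx', hx, G.centre_zsmul_taut, G.centre_zero] at h1
    exact (G.eq_of_gen h1).symm
  refine ⟨p, hnp, ?_⟩
  have hν : φ.comp (G.mulLoc p n hnp) = (Algebra.ofId K L).comp (G.hom 0) := by
    apply G.pt_injective
    rw [G.pt_comp_mulLoc, hx', hx, ← G.map_pt, G.pt_hom, map_zero]
  have hker : G.maxIdeal (G.centre p) ≤ RingHom.ker φ := by
    rw [← G.span_image_mulLoc p n hn hnp, Ideal.span_le]
    rintro _ ⟨v, hv, rfl⟩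
    show φ.comp (G.mulLoc p n hnp) v = 0
    rw [hν, AlgHom.comp_apply, (G.mem_maxIdeal_iff_hom 0 v).mp hv, map_zero]
  conv_lhs => rw [← G.pt_hom p, G.map_pt]
  rw [← hx']
  congr 1
  ext v
  have := hker (G.sub_algebraMap_hom_mem p v)
  rw [RingHom.mem_ker, map_sub, AlgHom.commutes, sub_eq_zero] at this
  rw [this]
  rfl

theorem map_ofId_injective (L : Type u) [Field L] [Algebra K L] :
    Function.Injective (G.map (Algebra.ofId K L)) :=
  G.map_injective _ (algebraMap K L).injective

/-- The degree of multiplication by `n` is the number of rational points it kills. -/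
theorem natCard_zsmul_eq_zero : Nat.card {x : G.Pt K // n • x = 0} = G.mulDeg hn := by
  classical
  haveI := G.formallyUnramified_mulBy hn
  haveI := G.finiteDimensional_mulField hn
  haveI : Algebra.IsSeparable (G.mulField hn) G.Func :=
    Algebra.FormallyUnramified.isSeparable _ _
  let Ω := AlgebraicClosure G.Func
  rw [mulDeg, ← AlgHom.card (G.mulField hn) G.Func Ω, ← Nat.card_eq_fintype_card]
  let ι : G.Func →ₐ[K] Ω := IsScalarTower.toAlgHom K G.Func Ω
  have hbase : ∀ (ψ : G.Func →ₐ[K] Ω), ψ.comp (G.mulBy hn) = ι.comp (G.mulBy hn) ↔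
      n • (G.map ψ G.eta - G.map ι G.eta) = 0 := by
    intro ψ
    rw [zsmul_sub, ← G.map_comp_mulBy hn, ← G.map_comp_mulBy hn, sub_eq_zero]
    exact ⟨fun h => by rw [h], fun h => G.map_eta_injective h⟩
  choose f hf using fun c : {x : G.Pt K // n • x = 0} =>
    G.exists_map_eta _ (G.centre_add_const ι (c : G.Pt K))
  have hfc : ∀ c, (f c).comp (G.mulBy hn) = ι.comp (G.mulBy hn) := fun c => by
    rw [hbase, hf c, add_sub_cancel_left, ← map_zsmul, c.2, map_zero]
  let g : {x : G.Pt K // n • x = 0} → (G.Func →ₐ[G.mulField hn] Ω) := fun c =>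
    { (f c).toRingHom with
      commutes' := fun y => by
        obtain ⟨w, hw⟩ := y.2
        show f c (y : G.Func) = _
        rw [← hw]
        exact DFunLike.congr_fun (hfc c) w |>.trans (by
          show ι (G.mulBy hn w) = _
          rw [show G.mulBy hn w = (y : G.Func) from hw]; rfl) }
  refine Nat.card_eq_of_bijective g ⟨fun c d h => ?_, fun ψ => ?_⟩
  · have he : f c = f d := AlgHom.ext fun v => congrArg (fun χ : G.Func →ₐ[G.mulField hn] Ω => χ v) h
    refine Subtype.ext (G.map_ofId_injective Ω (add_left_cancel (a := G.map ι G.eta) ?_))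
    rw [← hf c, ← hf d, he]
  · have h0 : (ψ.restrictScalars K).comp (G.mulBy hn) = ι.comp (G.mulBy hn) :=
      AlgHom.ext fun w => ψ.commutes ⟨G.mulBy hn w, w, rfl⟩
    obtain ⟨c, hc, hc'⟩ := G.exists_eq_map_of_zsmul_eq_zero hn _ ((hbase _).mp h0)
    refine ⟨⟨c, hc⟩, ?_⟩
    have he : f ⟨c, hc⟩ = ψ.restrictScalars K := G.map_eta_injective (by
      show G.map (f ⟨c, hc⟩) G.eta = G.map _ G.eta
      rw [hf, hc', add_sub_cancel])
    exact AlgHom.ext fun v => DFunLike.congr_fun he v

end MulBy

end GroupVariety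

end Fermat.Agent.Abelian
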