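import Fermat.Agent.Abelian.Variety
import Mathlib.RingTheory.LocalRing.ResidueField.Basic
import Mathlib.RingTheory.Valuation.LocalSubring

/-!
# Elementary properties of points of a group variety

Team S26, owner helper99.
-/

set_option autoImplicit false

noncomputable section

universe u

namespace Fermat.Agent.Abelian.GroupVariety

variable {K : Type u} [Field K] (G : GroupVariety K)
variable {R S T : Type u} [CommRing R] [Algebra K R] [CommRing S] [Algebra K S]

theorem centre_map_of_isLocalHom [IsLocalRing R] [IsLocalRing S] (φ : R →ₐ[K] S)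
    (hφ : IsLocalHom φ.toRingHom) (x : G.Pt R) : G.centre (G.map φ x) = G.centre x := by
  conv_lhs => rw [← G.pt_hom x, G.map_pt]
  refine G.centre_pt _ _ ?_
  haveI := hφ
  haveI := G.isLocalHom_hom x
  exact RingHom.isLocalHom_comp φ.toRingHom (G.hom x).toRingHom

/-- Field homomorphisms are local. -/
theorem isLocalHom_of_field {L : Type u} [Field L] [Nontrivial S] (φ : L →+* S) :
    IsLocalHom φ :=
  ⟨fun a ha => isUnit_iff_ne_zero.mpr fun h => by
    rw [h, map_zero] at ha; exact not_isUnit_zero ha⟩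

theorem centre_map_of_field {L : Type u} [Field L] [Algebra K L] [IsLocalRing S]
    (φ : L →ₐ[K] S) (x : G.Pt L) : G.centre (G.map φ x) = G.centre x :=
  G.centre_map_of_isLocalHom φ (isLocalHom_of_field φ.toRingHom) x

theorem centre_zero [IsLocalRing R] : G.centre (0 : G.Pt R) = G.centre (0 : G.Pt K) := by
  conv_lhs => rw [← map_zero (G.map (Algebra.ofId K R))]
  exact G.centre_map_of_field _ _

/-- The value of a rational function at a point with values in a field, on its local ring. -/
theorem hom_congr [IsLocalRing R] {x y : G.Pt R} (h : x = y) (v : G.Func)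
    (hx : v ∈ G.O (G.centre x)) (hy : v ∈ G.O (G.centre y)) :
    G.hom x ⟨v, hx⟩ = G.hom y ⟨v, hy⟩ := by
  subst h; rfl

theorem hom_zero [IsLocalRing R] (v : G.Func) (h : v ∈ G.O (G.centre (0 : G.Pt R)))
    (h' : v ∈ G.O (G.centre (0 : G.Pt K))) :
    G.hom (0 : G.Pt R) ⟨v, h⟩ = algebraMap K R (G.hom (0 : G.Pt K) ⟨v, h'⟩) := by
  have h0 : G.map (Algebra.ofId K R) (0 : G.Pt K) = 0 := map_zero _
  rw [G.hom_congr h0.symm v h (by rw [h0]; exact h), G.hom_map_apply' _ _ v h']
  rfl

theorem isUnit_hom_iff [IsLocalRing R] (x : G.Pt R) (v : G.O (G.centre x)) :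
    IsUnit (G.hom x v) ↔ IsUnit v :=
  ⟨fun h => (G.isLocalHom_hom x).map_nonunit v h, fun h => h.map _⟩

theorem isUnit_O_of_mul_eq_one {z : G.Center} (v : G.O z) {w : G.Func} (hw : w ∈ G.O z)
    (h : (v : G.Func) * w = 1) : IsUnit v :=
  IsUnit.of_mul_eq_one ⟨w, hw⟩ (Subtype.ext h)

theorem isUnit_O_iff {z : G.Center} (v : G.O z) :
    IsUnit v ↔ (v : G.Func) ≠ 0 ∧ (v : G.Func)⁻¹ ∈ G.O z := by
  constructor
  · rintro h
    obtain ⟨w, hw⟩ := h.exists_right_inv
    have hw' : (v : G.Func) * w = 1 := congrArg Subtype.val hw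
    refine ⟨left_ne_zero_of_mul_eq_one hw', ?_⟩
    rw [inv_eq_of_mul_eq_one_right hw']
    exact w.2
  · rintro ⟨h0, hi⟩
    exact G.isUnit_O_of_mul_eq_one v hi (mul_inv_cancel₀ h0)

/-- Specialising further keeps membership and values. -/
theorem hom_map_map [IsLocalRing R] [IsLocalRing S] (φ : R →ₐ[K] S) {x : G.Pt R} {y : G.Pt S}
    (h : G.map φ x = y) (v : G.Func) (hv : v ∈ G.O (G.centre x)) :
    ∃ hv' : v ∈ G.O (G.centre y), G.hom y ⟨v, hv'⟩ = φ (G.hom x ⟨v, hv⟩) := by
  subst h
  exact ⟨_, G.hom_map_apply φ x ⟨v, hv⟩⟩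

section Field

variable {L L' : Type u} [Field L] [Algebra K L] [Field L'] [Algebra K L']

/-- The value of a rational function at a point (junk `0` where it is not defined). -/
def value (x : G.Pt L) (v : G.Func) : L :=
  letI := Classical.propDecidable
  if h : v ∈ G.O (G.centre x) then G.hom x ⟨v, h⟩ else 0

theorem value_eq (x : G.Pt L) {v : G.Func} (h : v ∈ G.O (G.centre x)) :
    G.value x v = G.hom x ⟨v, h⟩ := by
  rw [value, dif_pos h]

theorem value_mul (x : G.Pt L) {v w : G.Func} (hv : v ∈ G.O (G.centre x))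
    (hw : w ∈ G.O (G.centre x)) : G.value x (v * w) = G.value x v * G.value x w := by
  rw [G.value_eq x (mul_mem hv hw), G.value_eq x hv, G.value_eq x hw, ← map_mul]
  rfl

theorem value_add (x : G.Pt L) {v w : G.Func} (hv : v ∈ G.O (G.centre x))
    (hw : w ∈ G.O (G.centre x)) : G.value x (v + w) = G.value x v + G.value x w := by
  rw [G.value_eq x (add_mem hv hw), G.value_eq x hv, G.value_eq x hw, ← map_add]
  rfl

theorem value_algebraMap (x : G.Pt L) (c : K) :
    G.value x (algebraMap K G.Func c) = algebraMap K L c := by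
  rw [G.value_eq x ((G.O _).algebraMap_mem c)]
  exact (G.hom x).commutes c

@[simp]
theorem value_one (x : G.Pt L) : G.value x 1 = 1 := by
  simpa using G.value_algebraMap x 1

theorem value_ne_zero (x : G.Pt L) {v : G.Func} (hv : v ∈ G.O (G.centre x))
    (hi : v⁻¹ ∈ G.O (G.centre x)) (h0 : v ≠ 0) : G.value x v ≠ 0 := by
  intro h
  have h1 := G.value_mul x hv hi
  rw [h, zero_mul, mul_inv_cancel₀ h0, G.value_one] at h1
  exact one_ne_zero h1

theorem value_inv (x : G.Pt L) {v : G.Func} (hv : v ∈ G.O (G.centre x))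
    (hi : v⁻¹ ∈ G.O (G.centre x)) : G.value x v⁻¹ = (G.value x v)⁻¹ := by
  rcases eq_or_ne v 0 with rfl | h0
  · have hz : G.value x (0 : G.Func) = 0 := by
      simpa using G.value_algebraMap x 0
    rw [inv_zero, hz, inv_zero]
  refine eq_inv_of_mul_eq_one_left ?_
  rw [← G.value_mul x hi hv, inv_mul_cancel₀ h0, G.value_one]

theorem value_map (φ : L →ₐ[K] L') (x : G.Pt L) {v : G.Func} (hv : v ∈ G.O (G.centre x)) :
    G.value (G.map φ x) v = φ (G.value x v) := by
  obtain ⟨h, e⟩ := G.hom_map_map φ rfl v hv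
  rw [G.value_eq _ h, G.value_eq x hv, e]

/-- The value at the generic fibre of a point with values in a local ring. -/
theorem value_map_local [IsLocalRing R] (φ : R →ₐ[K] L) {x : G.Pt R} {y : G.Pt L}
    (h : G.map φ x = y) {v : G.Func} (hv : v ∈ G.O (G.centre x)) :
    G.value y v = φ (G.hom x ⟨v, hv⟩) := by
  obtain ⟨h', e⟩ := G.hom_map_map φ h v hv
  rw [G.value_eq _ h', e]

theorem value_injective {x : G.Pt L} (hx : G.centre x = G.generic) :
    Function.Injective (G.value x) := by
  intro v w h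
  have hm : ∀ v : G.Func, v ∈ G.O (G.centre x) := fun v => by
    rw [hx, G.O_generic]; trivial
  by_contra hne
  have h0 : v - w ≠ 0 := sub_ne_zero.mpr hne
  refine G.value_ne_zero x (hm _) (hm _) h0 ?_
  have := G.value_add x (hm (v - w)) (hm w)
  rw [sub_add_cancel, h] at this
  exact (add_right_cancel (by rw [zero_add, ← this]) : (0 : L) = _).symm

end Field

theorem exists_sub_algebraMap_not_isUnit (p : G.Pt K) (v : G.O (G.centre p)) :
    ∃ c : K, ¬ IsUnit (v - algebraMap K (G.O (G.centre p)) c) :=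
  ⟨G.hom p v, fun h => by
    have := (G.isUnit_hom_iff p _).mpr h
    rw [map_sub, (G.hom p).commutes, Algebra.algebraMap_self, RingHom.id_apply, sub_self] at this
    exact not_isUnit_zero this⟩

/-- A point with values in a field is determined by its centre when that is a rational point. -/
theorem eq_zero_of_centre_eq {L : Type u} [Field L] [Algebra K L] {x : G.Pt L}
    (h : G.centre x = G.centre (0 : G.Pt K)) : x = 0 := by
  have key : ∀ (z : G.Center), z = G.centre (0 : G.Pt K) → ∀ ψ : G.O z →ₐ[K] L,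
      IsLocalHom ψ.toRingHom → G.pt z ψ = 0 := by
    rintro z rfl ψ hψ
    have : ψ = (Algebra.ofId K L).comp (G.hom (0 : G.Pt K)) := by
      ext v
      obtain ⟨c, hc⟩ := G.exists_sub_algebraMap_not_isUnit 0 v
      have h1 : ψ (v - algebraMap K _ c) = 0 := by
        by_contra h0
        exact hc (hψ.map_nonunit _ (isUnit_iff_ne_zero.mpr h0))
      have h2 : G.hom (0 : G.Pt K) (v - algebraMap K _ c) = 0 := by
        by_contra h0
        exact hc ((G.isUnit_hom_iff _ _).mp (isUnit_iff_ne_zero.mpr h0))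
      rw [map_sub, AlgHom.commutes, sub_eq_zero] at h1 h2
      show ψ v = algebraMap K L (G.hom 0 v)
      rw [h1, h2, Algebra.algebraMap_self, RingHom.id_apply]
    rw [this, ← G.map_pt, G.pt_hom, map_zero]
  rw [← G.pt_hom x]
  exact key _ h _ (G.isLocalHom_hom x)


/-- A valuation subring containing `K`, as a `K`-subalgebra. -/
def valAlg {L : Type u} [Field L] [Algebra K L] (A : ValuationSubring L)
    (hA : ∀ a, algebraMap K L a ∈ A) : Subalgebra K L where
  toSubsemiring := A.toSubring.toSubsemiring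
  algebraMap_mem' := hA

instance instValuationRingValAlg {L : Type u} [Field L] [Algebra K L] (A : ValuationSubring L)
    (hA : ∀ a, algebraMap K L a ∈ A) :
    ValuationRing (valAlg A hA) := inferInstanceAs (ValuationRing A)

instance instIsFractionRingValAlg {L : Type u} [Field L] [Algebra K L] (A : ValuationSubring L)
    (hA : ∀ a, algebraMap K L a ∈ A) :
    IsFractionRing (valAlg A hA) L := inferInstanceAs (IsFractionRing A L)

section CentreAt

variable {L L' : Type u} [Field L] [Algebra K L] [Field L'] [Algebra K L']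
variable (x : G.Pt L) (A : ValuationSubring L) (hA : ∀ a, algebraMap K L a ∈ A)

/-- The unique extension of a point to a valuation ring. -/
def lift : G.Pt (valAlg A hA) :=
  (G.map_surjective (R := valAlg A hA) (L := L) x).choose

theorem map_lift : G.map (valAlg A hA).val (G.lift x A hA) = x :=
  (G.map_surjective (R := valAlg A hA) (L := L) x).choose_spec

/-- The centre of a point on a valuation ring. -/
def centreAt : G.Center := G.centre (G.lift x A hA)

theorem lift_eq (y : G.Pt (valAlg A hA)) (h : G.map (valAlg A hA).val y = x) :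
    G.lift x A hA = y :=
  G.map_injective (valAlg A hA).val Subtype.val_injective ((G.map_lift x A hA).trans h.symm)

theorem gen_centreAt : G.Gen (G.centre x) (G.centreAt x A hA) := by
  have h := G.gen_centre (valAlg A hA).val (G.lift x A hA)
  rwa [G.map_lift] at h

theorem mem_centre_of_mem_centreAt {v : G.Func} (hv : v ∈ G.O (G.centreAt x A hA)) :
    v ∈ G.O (G.centre x) :=
  G.gen_le (G.gen_centreAt x A hA) hv

theorem value_eq_hom_lift {v : G.Func} (hv : v ∈ G.O (G.centreAt x A hA)) :
    G.value x v = (G.hom (G.lift x A hA) ⟨v, hv⟩ : L) :=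
  G.value_map_local (valAlg A hA).val (G.map_lift x A hA) hv

theorem value_mem {v : G.Func} (hv : v ∈ G.O (G.centreAt x A hA)) : G.value x v ∈ A := by
  rw [G.value_eq_hom_lift x A hA hv]
  exact (G.hom (G.lift x A hA) ⟨v, hv⟩).2

theorem value_inv_mem {v : G.Func} (hv : v ∈ G.O (G.centreAt x A hA))
    (hi : v⁻¹ ∈ G.O (G.centreAt x A hA)) : (G.value x v)⁻¹ ∈ A := by
  rw [← G.value_inv x (G.mem_centre_of_mem_centreAt x A hA hv)
    (G.mem_centre_of_mem_centreAt x A hA hi)]
  exact G.value_mem x A hA hi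

/-- Refining the valuation specialises the centre. -/
theorem gen_centreAt_of_le (B : ValuationSubring L) (hle : A ≤ B) :
    G.Gen (G.centreAt x B fun a => hle (hA a)) (G.centreAt x A hA) := by
  let ι : valAlg A hA →ₐ[K] valAlg B (fun a => hle (hA a)) :=
    Subalgebra.inclusion (show valAlg A hA ≤ valAlg B _ from hle)
  have h : G.lift x B (fun a => hle (hA a)) = G.map ι (G.lift x A hA) := by
    refine G.lift_eq x B _ _ ?_
    rw [← G.map_comp]
    exact G.map_lift x A hA
  rw [centreAt, h]
  exact G.gen_centre ι _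

theorem centreAt_eq_of_point {R : Type u} [CommRing R] [IsLocalRing R] [Algebra K R]
    (y : G.Pt R) (φ : R →ₐ[K] L) (hy : G.map φ y = x) (hmem : ∀ r, φ r ∈ A)
    (hloc : ∀ r, (φ r)⁻¹ ∈ A → φ r ≠ 0 → IsUnit r) :
    G.centreAt x A hA = G.centre y := by
  let ψ : R →ₐ[K] valAlg A hA := φ.codRestrict _ hmem
  have h : G.lift x A hA = G.map ψ y := by
    refine G.lift_eq x A hA _ ?_
    rw [← G.map_comp]
    exact hy
  rw [centreAt, h]
  refine G.centre_map_of_isLocalHom ψ ⟨fun r hr => ?_⟩ y
  obtain ⟨b, hb⟩ := hr.exists_right_inv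
  have hb' : φ r * (b : L) = 1 := congrArg Subtype.val hb
  exact hloc r (by rw [inv_eq_of_mul_eq_one_right hb']; exact b.2)
    (left_ne_zero_of_mul_eq_one hb')

theorem centreAt_map_field (φ : L' →ₐ[K] L) (y : G.Pt L') (hy : G.map φ y = x)
    (hmem : ∀ r, φ r ∈ A) : G.centreAt x A hA = G.centre y :=
  G.centreAt_eq_of_point x A hA y φ hy hmem fun r _ h =>
    isUnit_iff_ne_zero.mpr fun h0 => h (by rw [h0, map_zero])

theorem centreAt_zero : G.centreAt (0 : G.Pt L) A hA = G.centre (0 : G.Pt K) :=
  G.centreAt_map_field 0 A hA (Algebra.ofId K L) 0 (map_zero _) hA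

theorem centreAt_map (φ : L' →ₐ[K] L) (y : G.Pt L') :
    G.centreAt (G.map φ y) A hA =
      G.centreAt y (A.comap φ.toRingHom)
        (fun a => show φ (algebraMap K L' a) ∈ A by rw [φ.commutes]; exact hA a) := by
  set A' : ValuationSubring L' := A.comap φ.toRingHom with hA'def
  have hA' : ∀ a, algebraMap K L' a ∈ A' := fun a =>
    show φ (algebraMap K L' a) ∈ A by rw [φ.commutes]; exact hA a
  refine G.centreAt_eq_of_point _ A hA (G.lift y A' hA') (φ.comp (valAlg A' hA').val) ?_
    (fun r => r.2) fun r hr h0 => ?_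
  · rw [G.map_comp, G.map_lift]
  · have hr0 : (r : L') ≠ 0 := fun h => h0 (show φ (r : L') = 0 by rw [h, map_zero])
    have hi : (r : L')⁻¹ ∈ A' := show φ (r : L')⁻¹ ∈ A by rw [map_inv₀]; exact hr
    exact IsUnit.of_mul_eq_one ⟨(r : L')⁻¹, hi⟩ (Subtype.ext (mul_inv_cancel₀ hr0))

end CentreAt

end Fermat.Agent.Abelian.GroupVariety
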