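import Mathlib.RingTheory.MvPowerSeries.Equiv
import Mathlib.RingTheory.MvPowerSeries.Substitution
import Mathlib.RingTheory.AdicCompletion.Completeness
import Mathlib.RingTheory.PowerSeries.WeierstrassPreparation
import Mathlib.RingTheory.MvPowerSeries.NoZeroDivisors
import Mathlib.RingTheory.MvPowerSeries.Inverse
import Mathlib.RingTheory.Polynomial.UniqueFactorization
import Mathlib.RingTheory.UniqueFactorizationDomain.Basic

/-!
# Power series rings in finitely many variables over a field are factorial

By induction on the number of variables, with Weierstrass preparation.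

Team S26.
-/

set_option autoImplicit false

noncomputable section

open Finset
open scoped PowerSeries

namespace Fermat.Agent.Abelian

section MaximalIdeal

variable {σ K : Type*} [Finite σ] [Field K]

theorem mem_span_range_X_of_constantCoeff_eq_zero {R : Type*} [CommRing R]
    {f : MvPowerSeries σ R} (hf : MvPowerSeries.constantCoeff f = 0) :
    f ∈ Ideal.span (Set.range (MvPowerSeries.X : σ → MvPowerSeries σ R)) := by
  classical
  let +nondep : Fintype σ := Fintype.ofFinite σ
  choose i hi using fun d : {d : σ →₀ ℕ // d ≠ 0} => Finsupp.support_nonempty_iff.mpr d.2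
  let g : σ → MvPowerSeries σ R := fun j e =>
    if h : e + Finsupp.single j 1 ≠ 0 then
      if i ⟨_, h⟩ = j then f (e + Finsupp.single j 1) else 0 else 0
  have key : f = ∑ j, MvPowerSeries.X j * g j := by
    ext d
    rw [map_sum]
    simp only [MvPowerSeries.X_def, MvPowerSeries.coeff_monomial_mul, one_mul]
    rcases eq_or_ne d 0 with rfl | hd
    · rw [MvPowerSeries.coeff_zero_eq_constantCoeff_apply, hf]
      refine (Finset.sum_eq_zero fun j _ => if_neg fun h => ?_).symm
      simpa using h j
    · have hle : Finsupp.single (i ⟨d, hd⟩) 1 ≤ d := by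
        rw [Finsupp.single_le_iff]
        exact Nat.one_le_iff_ne_zero.mpr (Finsupp.mem_support_iff.mp (hi ⟨d, hd⟩))
      have val : ∀ j, Finsupp.single j 1 ≤ d → MvPowerSeries.coeff (d - Finsupp.single j 1) (g j)
          = if i ⟨d, hd⟩ = j then f d else 0 := by
        intro j hj
        show g j (d - Finsupp.single j 1) = _
        have e : d - Finsupp.single j 1 + Finsupp.single j 1 = d := tsub_add_cancel_of_le hj
        simp only [g, e, dif_pos hd]
      rw [Finset.sum_eq_single (i ⟨d, hd⟩)]
      · rw [if_pos hle, val _ hle, if_pos rfl]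
        rfl
      · intro j _ hj
        split_ifs with h
        · rw [val _ h, if_neg (Ne.symm hj)]
        · rfl
      · exact fun h => absurd (Finset.mem_univ _) h
  rw [key]
  exact Ideal.sum_mem _ fun j _ => Ideal.mul_mem_right _ _ (Ideal.subset_span ⟨j, rfl⟩)

theorem maximalIdeal_mvPowerSeries :
    IsLocalRing.maximalIdeal (MvPowerSeries σ K)
      = Ideal.span (Set.range (MvPowerSeries.X : σ → MvPowerSeries σ K)) := by
  refine le_antisymm (fun f hf => mem_span_range_X_of_constantCoeff_eq_zero ?_) ?_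
  · by_contra h
    exact hf (MvPowerSeries.isUnit_iff_constantCoeff.mpr (isUnit_iff_ne_zero.mpr h))
  · rw [Ideal.span_le]
    rintro _ ⟨j, rfl⟩ h
    have := MvPowerSeries.isUnit_iff_constantCoeff.mp h
    simp at this

theorem isAdicComplete_maximalIdeal_mvPowerSeries :
    IsAdicComplete (IsLocalRing.maximalIdeal (MvPowerSeries σ K)) (MvPowerSeries σ K) := by
  rw [maximalIdeal_mvPowerSeries]
  infer_instance

end MaximalIdeal

/-- Weights, the first one `1`, separating a minimum of a nonempty set of exponents. -/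
theorem exists_weights (n : ℕ) (A : Set (Fin (n + 1) → ℕ)) (hA : A.Nonempty) :
    ∃ w : Fin (n + 1) → ℕ, w 0 = 1 ∧ (∀ i, 0 < w i) ∧ ∃ a ∈ A,
      ∀ b ∈ A, b ≠ a → ∑ i, w i * a i < ∑ i, w i * b i := by
  classical
  induction n with
  | zero =>
    have h : ∃ k, ∃ a ∈ A, a 0 = k := hA.elim fun a ha => ⟨_, a, ha, rfl⟩
    obtain ⟨a, ha, hk⟩ := Nat.find_spec h
    refine ⟨fun _ => 1, rfl, fun _ => one_pos, a, ha, fun b hb hne => ?_⟩
    have hle : a 0 ≤ b 0 := hk ▸ Nat.find_min' h ⟨b, hb, rfl⟩
    have hne' : a 0 ≠ b 0 := fun e =>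
      hne (funext fun i => by rw [Subsingleton.elim (α := Fin 1) i 0, e])
    simp only [Fin.sum_univ_succ, Finset.univ_eq_empty, Finset.sum_empty, one_mul]
    omega
  | succ n ih =>
    have h : ∃ k, ∃ a ∈ A, a (Fin.last _) = k := hA.elim fun a ha => ⟨_, a, ha, rfl⟩
    set c := Nat.find h
    obtain ⟨a₁, ha₁, hc₁⟩ := Nat.find_spec h
    let A' : Set (Fin (n + 1) → ℕ) := {a | Fin.snoc a c ∈ A}
    have hA' : A'.Nonempty := ⟨Fin.init a₁, by
      show Fin.snoc _ _ ∈ A
      rw [show c = a₁ (Fin.last _) from hc₁.symm, Fin.snoc_init_self]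
      exact ha₁⟩
    obtain ⟨w, hw0, hwpos, a, ha, hmin⟩ := ih A' hA'
    set W := ∑ i, w i * a i with hW
    refine ⟨Fin.snoc w (W + 1), ?_, ?_, Fin.snoc a c, ha, ?_⟩
    · rw [show (0 : Fin (n + 2)) = Fin.castSucc 0 from rfl, Fin.snoc_castSucc, hw0]
    · intro i
      refine Fin.lastCases ?_ (fun j => ?_) i
      · simp
      · simpa using hwpos j
    intro b hb hne
    have hsum : ∀ x : Fin (n + 2) → ℕ,
        ∑ i, Fin.snoc (α := fun _ => ℕ) w (W + 1) i * x i
          = ∑ i, w i * x i.castSucc + (W + 1) * x (Fin.last _) := fun x => by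
      rw [Fin.sum_univ_castSucc]
      simp
    rw [hsum, hsum]
    simp only [Fin.snoc_castSucc, Fin.snoc_last, ← hW]
    rcases eq_or_ne (b (Fin.last _)) c with hbc | hbc
    · rw [hbc]
      have hb' : Fin.init b ∈ A' := by
        show Fin.snoc _ _ ∈ A
        rw [← hbc, Fin.snoc_init_self]
        exact hb
      have hne' : Fin.init b ≠ a := fun e => hne (by rw [← e, ← hbc, Fin.snoc_init_self])
      have := hmin _ hb' hne'
      simp only [Fin.init] at this
      omega
    · have hle : c ≤ b (Fin.last _) := Nat.find_min' h ⟨b, hb, rfl⟩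
      have : (W + 1) * (c + 1) ≤ (W + 1) * b (Fin.last _) := Nat.mul_le_mul_left _ (by omega)
      rw [Nat.mul_succ] at this
      omega

section Regular

variable {K : Type*} [Field K] {n : ℕ}

/-- The values of the shearing automorphism on the variables. -/
def shearVar (c : K) (w : Fin (n + 1) → ℕ) (i : Fin (n + 1)) : MvPowerSeries (Fin (n + 1)) K :=
  if i = 0 then MvPowerSeries.X 0
  else MvPowerSeries.X i + MvPowerSeries.C c * MvPowerSeries.X 0 ^ w i

theorem hasSubst_shearVar (c : K) {w : Fin (n + 1) → ℕ} (hw : ∀ i, 0 < w i) :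
    MvPowerSeries.HasSubst (shearVar c w) :=
  MvPowerSeries.hasSubst_of_constantCoeff_zero fun i => by
    rw [shearVar]
    split_ifs
    · simp
    · simp [zero_pow (hw i).ne']

theorem subst_shearVar (c d : K) (hcd : c + d = 0) {w : Fin (n + 1) → ℕ} (hw : ∀ i, 0 < w i)
    (f : MvPowerSeries (Fin (n + 1)) K) :
    MvPowerSeries.subst (shearVar d w) (MvPowerSeries.subst (shearVar c w) f) = f := by
  have hd := hasSubst_shearVar d hw
  have h : (fun i => MvPowerSeries.subst (shearVar d w) (shearVar c w i))
      = (MvPowerSeries.X : Fin (n + 1) → MvPowerSeries (Fin (n + 1)) K) := by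
    funext i
    rw [← MvPowerSeries.coe_substAlgHom hd]
    by_cases hi : i = 0
    · subst hi
      simp [shearVar, MvPowerSeries.subst_X hd]
    · rw [shearVar, if_neg hi, map_add, map_mul, map_pow, MvPowerSeries.substAlgHom_X,
        MvPowerSeries.substAlgHom_X]
      rw [show (MvPowerSeries.C c : MvPowerSeries (Fin (n + 1)) K)
        = algebraMap K _ c from rfl, AlgHom.commutes]
      simp only [shearVar, if_neg hi, if_true, MvPowerSeries.algebraMap_apply,
        Algebra.algebraMap_self_apply]
      rw [add_assoc, ← add_mul, ← map_add, add_comm d c, hcd]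
      simp
  rw [MvPowerSeries.subst_comp_subst_apply (hasSubst_shearVar c hw) hd, h,
    MvPowerSeries.subst_self]
  rfl

/-- The shearing automorphism `Xᵢ ↦ Xᵢ + X₀ ^ wᵢ`. -/
def shear {w : Fin (n + 1) → ℕ} (hw : ∀ i, 0 < w i) :
    MvPowerSeries (Fin (n + 1)) K ≃ₐ[K] MvPowerSeries (Fin (n + 1)) K :=
  AlgEquiv.ofAlgHom (MvPowerSeries.substAlgHom (hasSubst_shearVar (1 : K) hw))
    (MvPowerSeries.substAlgHom (hasSubst_shearVar (-1 : K) hw))
    (AlgHom.ext fun f => by
      simp only [AlgHom.coe_comp, Function.comp_apply, MvPowerSeries.substAlgHom_apply,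
        AlgHom.coe_id, id_eq]
      exact subst_shearVar (-1) 1 (neg_add_cancel 1) hw f)
    (AlgHom.ext fun f => by
      simp only [AlgHom.coe_comp, Function.comp_apply, MvPowerSeries.substAlgHom_apply,
        AlgHom.coe_id, id_eq]
      exact subst_shearVar 1 (-1) (add_neg_cancel 1) hw f)

theorem coeff_subst_X_pow (w : Fin (n + 1) → ℕ) (hw : ∀ i, 0 < w i)
    (f : MvPowerSeries (Fin (n + 1)) K) (m : ℕ) (a : Fin (n + 1) →₀ ℕ)
    (ha : ∑ i, w i * a i = m)
    (huniq : ∀ b, MvPowerSeries.coeff b f ≠ 0 → ∑ i, w i * b i = m → b = a) :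
    PowerSeries.coeff m (MvPowerSeries.subst (fun i => (PowerSeries.X : K⟦X⟧) ^ w i) f)
      = MvPowerSeries.coeff a f := by
  classical
  have hs : MvPowerSeries.HasSubst (fun i => (PowerSeries.X : K⟦X⟧) ^ w i) :=
    MvPowerSeries.hasSubst_of_constantCoeff_zero fun i => by
      show PowerSeries.constantCoeff ((PowerSeries.X : K⟦X⟧) ^ w i) = 0
      simp [zero_pow (hw i).ne']
  have hprod : ∀ d : Fin (n + 1) →₀ ℕ,
      MvPowerSeries.coeff (Finsupp.single () m)
          (d.prod fun i k => ((PowerSeries.X : K⟦X⟧) ^ w i) ^ k)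
        = if m = ∑ i, w i * d i then 1 else 0 := by
    intro d
    show PowerSeries.coeff m _ = _
    rw [Finsupp.prod_fintype _ _ (fun i => pow_zero _)]
    simp only [← pow_mul, Finset.prod_pow_eq_pow_sum, PowerSeries.coeff_X_pow]
  show MvPowerSeries.coeff (Finsupp.single () m) _ = _
  rw [MvPowerSeries.coeff_subst hs, finsum_eq_single _ a]
  · rw [hprod, if_pos ha.symm, smul_eq_mul, mul_one]
  · intro b hb
    rw [hprod]
    split_ifs with h
    · by_cases h0 : MvPowerSeries.coeff b f = 0
      · rw [h0, zero_smul]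
      · exact absurd (huniq b h0 h.symm) hb
    · rw [smul_zero]

theorem map_constantCoeff_finSuccEquiv (p : MvPowerSeries (Fin (n + 1)) K) :
    PowerSeries.map (MvPowerSeries.constantCoeff : MvPowerSeries (Fin n) K →+* K)
        (MvPowerSeries.finSuccEquiv K n p)
      = MvPowerSeries.subst (fun i => if i = 0 then (PowerSeries.X : K⟦X⟧) else 0) p := by
  classical
  have hs : MvPowerSeries.HasSubst (fun i : Fin (n + 1) =>
      if i = 0 then (PowerSeries.X : K⟦X⟧) else 0) :=
    MvPowerSeries.hasSubst_of_constantCoeff_zero fun i => by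
      split_ifs
      · exact PowerSeries.constantCoeff_X
      · simp
  ext k
  rw [PowerSeries.coeff_map, ← MvPowerSeries.coeff_zero_eq_constantCoeff_apply,
    MvPowerSeries.coeff_coeff_finSuccEquiv]
  show _ = MvPowerSeries.coeff (Finsupp.single () k) _
  rw [MvPowerSeries.coeff_subst hs, finsum_eq_single _ ((0 : Fin n →₀ ℕ).cons k)]
  · rw [Finsupp.prod_fintype _ _ (fun i => pow_zero _), Fin.prod_univ_succ]
    show _ = _ • PowerSeries.coeff k _
    simp [Fin.succ_ne_zero]
  · intro b hb
    show _ • PowerSeries.coeff k _ = 0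
    rw [Finsupp.prod_fintype _ _ (fun i => pow_zero _), Fin.prod_univ_succ, if_pos rfl]
    simp only [Fin.succ_ne_zero, if_false]
    by_cases h : ∀ j : Fin n, b j.succ = 0
    · have hk : b 0 ≠ k := fun e => hb (Finsupp.ext fun i => by
        refine Fin.cases ?_ (fun j => ?_) i
        · simp [e]
        · simp [h j])
      simp [h, PowerSeries.coeff_X_pow, Ne.symm hk]
    · push Not at h
      obtain ⟨j, hj⟩ := h
      rw [Finset.prod_eq_zero (Finset.mem_univ j) (zero_pow hj), mul_zero]
      simp

theorem exists_regular {f : MvPowerSeries (Fin (n + 1)) K} (hf : f ≠ 0) :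
    ∃ θ : MvPowerSeries (Fin (n + 1)) K ≃ₐ[K] MvPowerSeries (Fin (n + 1)) K,
      (MvPowerSeries.finSuccEquiv K n (θ f)).map
        (IsLocalRing.residue (MvPowerSeries (Fin n) K)) ≠ 0 := by
  classical
  obtain ⟨d, hd⟩ := (MvPowerSeries.ne_zero_iff_exists_coeff_ne_zero f).mp hf
  obtain ⟨w, hw0, hw, a, ⟨a', ha', rfl⟩, hmin⟩ := exists_weights n
    {b | ∃ d : Fin (n + 1) →₀ ℕ, MvPowerSeries.coeff d f ≠ 0 ∧ ⇑d = b} ⟨d, d, hd, rfl⟩
  refine ⟨shear hw, fun h0 => ha' ?_⟩
  set b : Fin (n + 1) → K⟦X⟧ := fun i => if i = 0 then PowerSeries.X else 0 with hb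
  have hsb : MvPowerSeries.HasSubst b :=
    MvPowerSeries.hasSubst_of_constantCoeff_zero fun i => by
      rw [hb]
      dsimp only
      split_ifs
      · exact PowerSeries.constantCoeff_X
      · simp
  have hcomp : (fun i => MvPowerSeries.subst b (shearVar (1 : K) w i))
      = fun i => (PowerSeries.X : K⟦X⟧) ^ w i := by
    funext i
    rw [← MvPowerSeries.coe_substAlgHom hsb]
    by_cases hi : i = 0
    · subst hi
      simp [shearVar, MvPowerSeries.subst_X hsb, hw0]
      simp [hb]
    · rw [shearVar, if_neg hi, map_one, one_mul, map_add, map_pow, MvPowerSeries.substAlgHom_X,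
        MvPowerSeries.substAlgHom_X]
      simp [hb, hi]
  have h1 : PowerSeries.map (MvPowerSeries.constantCoeff : MvPowerSeries (Fin n) K →+* K)
      (MvPowerSeries.finSuccEquiv K n (shear hw f)) = 0 := by
    ext k
    have hk := congrArg (PowerSeries.coeff k) h0
    rw [PowerSeries.coeff_map, map_zero, IsLocalRing.residue_eq_zero_iff] at hk
    rw [PowerSeries.coeff_map, map_zero]
    by_contra hne
    exact hk (MvPowerSeries.isUnit_iff_constantCoeff.mpr (isUnit_iff_ne_zero.mpr hne))
  rw [map_constantCoeff_finSuccEquiv, show (shear hw : MvPowerSeries (Fin (n + 1)) K ≃ₐ[K] _) f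
    = MvPowerSeries.subst (shearVar (1 : K) w) f from MvPowerSeries.substAlgHom_apply (hasSubst_shearVar (1 : K) hw) f] at h1
  have h2 : MvPowerSeries.subst (fun i => (PowerSeries.X : K⟦X⟧) ^ w i) f = 0 := by
    rw [← hcomp, ← MvPowerSeries.subst_comp_subst_apply (hasSubst_shearVar (1 : K) hw) hsb]
    exact h1
  rw [← coeff_subst_X_pow w hw f (∑ i, w i * a' i) a' rfl, h2, map_zero]
  intro c hc hsum
  by_contra hne
  exact absurd hsum (hmin _ ⟨c, hc, rfl⟩ fun e => hne (DFunLike.coe_injective e)).ne'

end Regular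

/-- An irreducible power series which is regular in the variable is prime, over a complete local
factorial domain. -/
theorem prime_of_regular {R : Type*} [CommRing R] [IsDomain R] [IsLocalRing R]
    [UniqueFactorizationMonoid R] [IsAdicComplete (IsLocalRing.maximalIdeal R) R] {g : R⟦X⟧}
    (hg : Irreducible g) (hr : g.map (IsLocalRing.residue R) ≠ 0) : Prime g := by
  classical
  set P := g.weierstrassDistinguished hr with hP
  set u := g.weierstrassUnit hr with hu
  have hdist := g.isDistinguishedAt_weierstrassDistinguished hr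
  have huu := g.isUnit_weierstrassUnit hr
  have heq := g.eq_weierstrassDistinguished_mul_weierstrassUnit hr
  rw [← hP] at hdist heq
  rw [← hu] at huu heq
  have hPirr : Irreducible (P : R⟦X⟧) := by
    rw [← irreducible_mul_isUnit huu, ← heq]
    exact hg
  have hfac : ∀ a b : Polynomial R, a.Monic → b.Monic → a * b = P → 0 < a.natDegree →
      ¬IsUnit (a : R⟦X⟧) := by
    intro a b ha hb hab hdeg hau
    have hmap := hdist.map_eq_X_pow
    rw [← hab, Polynomial.map_mul] at hmap
    obtain ⟨i, -, hai⟩ := (dvd_prime_pow Polynomial.prime_X _).mp (Dvd.intro _ hmap)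
    have hmon := ha.map (Ideal.Quotient.mk (IsLocalRing.maximalIdeal R))
    have hai' := Polynomial.eq_of_monic_of_associated hmon (Polynomial.monic_X_pow i) hai
    have hid : i = a.natDegree := by
      have h3 := ha.natDegree_map (Ideal.Quotient.mk (IsLocalRing.maximalIdeal R))
      rw [hai', Polynomial.natDegree_X_pow] at h3
      exact h3
    have h0 : Ideal.Quotient.mk (IsLocalRing.maximalIdeal R) (a.coeff 0) = 0 := by
      rw [← Polynomial.coeff_map, hai', Polynomial.coeff_X_pow, if_neg (by omega)]
    have hc := (PowerSeries.isUnit_iff_constantCoeff).mp hau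
    rw [Polynomial.constantCoeff_coe] at hc
    exact (Ideal.Quotient.eq_zero_iff_mem.mp h0) hc
  have hP1 : P ≠ 1 := fun h => hPirr.not_isUnit (by rw [h, Polynomial.coe_one]; exact isUnit_one)
  have hirr : Irreducible P := by
    rw [hdist.monic.irreducible_iff_natDegree]
    refine ⟨hP1, fun a b ha hb hab => ?_⟩
    by_contra hne
    push Not at hne
    rcases hPirr.isUnit_or_isUnit (show (P : R⟦X⟧) = a * b by rw [← hab, Polynomial.coe_mul])
      with h | h
    · exact hfac a b ha hb hab (Nat.pos_of_ne_zero hne.1) h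
    · exact hfac b a hb ha (by rw [mul_comm, hab]) (Nat.pos_of_ne_zero hne.2) h
  have hprime : Prime P := UniqueFactorizationMonoid.irreducible_iff_prime.mp hirr
  have : (Ideal.span {P}).IsPrime :=
    (Ideal.span_singleton_prime hirr.ne_zero).mpr hprime
  have e := g.algEquivQuotientWeierstrassDistinguished hr
  have : IsDomain (R⟦X⟧ ⧸ Ideal.span {g}) := e.symm.toMulEquiv.isDomain _
  exact (Ideal.span_singleton_prime hg.ne_zero).mp ((Ideal.Quotient.isDomain_iff_prime _).mp this)

theorem uniqueFactorizationMonoid_mvPowerSeries (K : Type*) [Field K] (n : ℕ) :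
    UniqueFactorizationMonoid (MvPowerSeries (Fin n) K) := by
  have hdom : ∀ m, IsDomain (MvPowerSeries (Fin m) K) := fun m => NoZeroDivisors.to_isDomain _
  induction n with
  | zero =>
    exact (MvPowerSeries.isEmptyEquiv (σ := Fin 0) (R := K)).symm.toMulEquiv.uniqueFactorizationMonoid
      inferInstance
  | succ n ih =>
    have := isAdicComplete_maximalIdeal_mvPowerSeries (σ := Fin n) (K := K)
    have hwf : WfDvdMonoid (MvPowerSeries (Fin (n + 1)) K) := IsNoetherianRing.wfDvdMonoid
    suffices h : ∀ f : MvPowerSeries (Fin (n + 1)) K, Irreducible f → Prime f from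
      { toIsWellFounded := hwf
        irreducible_iff_prime := @fun f => ⟨h f, Prime.irreducible⟩ }
    intro f hf
    obtain ⟨θ, hθ⟩ := exists_regular hf.ne_zero
    let e := θ.trans (MvPowerSeries.finSuccEquiv K n)
    have h : Prime (e f) := prime_of_regular ((MulEquiv.irreducible_iff e.toMulEquiv).mpr hf) hθ
    exact (MulEquiv.prime_iff e.toMulEquiv).mp h

end Fermat.Agent.Abelian
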