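import Fermat.Agent.Abelian.Rigidity
import Mathlib.FieldTheory.IsAlgClosed.AlgebraicClosure

/-!
# The degree of the pullback is quadratic along multiples of a point

Team S26.
-/

set_option autoImplicit false
set_option linter.style.haveILetI false

noncomputable section

universe u

open AlgebraicCurve

namespace Fermat.Agent.Abelian

open Fermat.Agent.Curve

variable {K : Type u} [Field K] [IsAlgClosed K] {G : GroupVariety K}
variable {k F : Type u} [Field k] [IsAlgClosed k] [Field F] [Algebra K k] [Algebra k F] [Algebra K F]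
  [IsScalarTower K k F] [IsFunctionField1 k F]

namespace GroupVariety.Bundle

variable (B : G.Bundle)

/-- The cube relation, on degrees. -/
theorem degree_divisor_cube (a b c : G.Pt F) (P0 : Place k F)
    (ha : G.centreAtPlace a P0 = G.centre (0 : G.Pt K))
    (hb : G.centreAtPlace b P0 = G.centre (0 : G.Pt K))
    (hc : G.centreAtPlace c P0 = G.centre (0 : G.Pt K)) :
    Divisor.degree (B.divisor (k := k) (a + b + c)) + Divisor.degree (B.divisor (k := k) a)
        + Divisor.degree (B.divisor (k := k) b) + Divisor.degree (B.divisor (k := k) c) =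
      Divisor.degree (B.divisor (k := k) (a + b)) + Divisor.degree (B.divisor (k := k) (a + c))
        + Divisor.degree (B.divisor (k := k) (b + c)) := by
  classical
  let Ω : Type u := AlgebraicClosure F
  haveI : IsScalarTower K k Ω := IsScalarTower.of_algebraMap_eq fun t => by
    rw [IsScalarTower.algebraMap_apply K F Ω, IsScalarTower.algebraMap_apply k F Ω,
      ← IsScalarTower.algebraMap_apply K k F]
  let j : F →ₐ[k] Ω := IsScalarTower.toAlgHom k F Ω
  have halg : ∀ w : Ω, IsAlgebraic j.fieldRange w := fun w =>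
    (Algebra.IsAlgebraic.isAlgebraic (R := F) w).ringHom_of_comp_eq j.toRingHom.rangeRestrictField
      (RingHom.id Ω) j.toRingHom.rangeRestrictField.injective (RingHom.ext fun _ => rfl)
  obtain ⟨R, -⟩ := exists_residueDatum (k := k) (Ω := Ω) P0
  obtain ⟨Q, hQ⟩ := ConstExt.exists_diagPlace j
  obtain ⟨Q', hQ'⟩ := ConstExt.exists_constPlace R P0
  set e := G.inclPt (Ω := Ω) (k := k) a
  set bt := G.constPt (F := F) (k := k) (G.map (j.restrictScalars K) b)
  set ct := G.constPt (F := F) (k := k) (G.map (j.restrictScalars K) c)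
  let x : Fin 4 → G.Pt (ConstExt k Ω F) := ![e + bt + ct, e + bt, e + ct, e]
  have hx : ∀ (R : ResidueDatum k Ω) i, G.IsGood R (x i) := by
    intro R i
    have hi := G.isGood_inclPt R (F := F) a
    have hb' := G.isGood_constPt (F := F) R (G.map (j.restrictScalars K) b)
    have hc' := G.isGood_constPt (F := F) R (G.map (j.restrictScalars K) c)
    fin_cases i
    · exact G.isGood_add R (G.isGood_add R hi hb') hc'
    · exact G.isGood_add R hi hb'
    · exact G.isGood_add R hi hc'
    · exact hi
  have hprin : (∑ i, (![1, -1, -1, 1] : Fin 4 → ℤ) i • B.divisor (k := Ω) (x i)).IsPrincipal := by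
    have h := B.isPrincipal_squareDivisor (k := k) (Ω := Ω) a b c P0 hb hc j halg
    convert h using 1
    simp [Fin.sum_univ_four, x, squareDivisor, e, bt, ct, sub_eq_add_neg]
  have hQe : G.ptAt Q e = G.map (j.restrictScalars K) a := G.ptAt_inclPt_of_diag j Q hQ a
  have hQ'e : G.ptAt Q' e = 0 := by
    show G.ptAt Q' (G.inclPt a) = 0
    rw [G.ptAt_inclPt_of_const P0 Q' hQ' a, (G.ptAt_eq_zero_iff P0 a).mpr ha, map_zero]
  have key := B.sum_degree_eq_of_isPrincipal j halg x hx ![1, -1, -1, 1] hprin Q Q'
    ![a + b + c, a + b, a + c, a] ![b + c, b, c, 0]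
    (fun i => by fin_cases i <;> simp [x, bt, ct, ptAt_add, hQe, ptAt_constPt])
    (fun i => by fin_cases i <;> simp [x, bt, ct, ptAt_add, hQ'e, ptAt_constPt])
  simp [Fin.sum_univ_four, B.divisor_zero] at key
  linarith

theorem degree_divisor_quadratic (a : G.Pt F) (P0 : Place k F)
    (ha : G.centreAtPlace a P0 = G.centre (0 : G.Pt K)) (n : ℤ) :
    Divisor.degree (B.divisor (k := k) (n • a)) + Divisor.degree (B.divisor (k := k) ((-n) • a)) =
      n ^ 2 * (Divisor.degree (B.divisor (k := k) a) + Divisor.degree (B.divisor (k := k) (-a))) := by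
  let φ : G.Pt F →+ G.Pt k := AddMonoidHom.mk' (G.ptAt P0) (G.ptAt_add P0)
  have h0 : φ a = 0 := (G.ptAt_eq_zero_iff P0 a).mpr ha
  have hcen : ∀ m : ℤ, G.centreAtPlace (m • a) P0 = G.centre (0 : G.Pt K) := fun m =>
    (G.ptAt_eq_zero_iff P0 _).mp (show φ (m • a) = 0 by rw [map_zsmul, h0, smul_zero])
  set q : ℤ → ℤ := fun m =>
    Divisor.degree (B.divisor (k := k) (m • a)) + Divisor.degree (B.divisor (k := k) ((-m) • a))
    with hq
  have hstep : ∀ m : ℤ, q (m + 1) + q (m - 1) = 2 * q m + 2 * q 1 := by
    intro m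
    have key : ∀ t : ℤ, Divisor.degree (B.divisor (k := k) ((t + 1) • a))
        + Divisor.degree (B.divisor (k := k) ((t - 1) • a)) =
        2 * Divisor.degree (B.divisor (k := k) (t • a))
          + (Divisor.degree (B.divisor (k := k) ((1 : ℤ) • a))
          + Divisor.degree (B.divisor (k := k) ((-1 : ℤ) • a))) := by
      intro t
      have h := B.degree_divisor_cube (t • a) ((1 : ℤ) • a) ((-1 : ℤ) • a) P0
        (hcen _) (hcen _) (hcen _)
      rw [← add_zsmul, ← add_zsmul, ← add_zsmul, ← add_zsmul] at h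
      norm_num [← sub_eq_add_neg, B.divisor_zero] at h ⊢
      linarith
    have h1 := key m
    have h2 := key (-m)
    simp only [hq, show -(m + 1) = -m - 1 by ring, show -(m - 1) = -m + 1 by ring]
    linarith
  have hzero : q 0 = 0 := by simp [hq, B.divisor_zero]
  have hnat : ∀ t : ℕ, q t = (t : ℤ) ^ 2 * q 1 ∧ q (t + 1) = ((t : ℤ) + 1) ^ 2 * q 1 := by
    intro t
    induction t with
    | zero => simp [hzero]
    | succ t ih =>
      refine ⟨by push_cast; exact ih.2, ?_⟩
      have h := hstep ((t : ℤ) + 1)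
      rw [add_sub_cancel_right, ih.1, ih.2] at h
      push_cast
      linarith
  have hqn : q n = n ^ 2 * q 1 := by
    rcases Int.eq_nat_or_neg n with ⟨t, rfl | rfl⟩
    · exact (hnat t).1
    · rw [show q (-(t : ℤ)) = q t by simp [hq, add_comm], neg_sq]
      exact (hnat t).1
  simpa [hq] using hqn

end GroupVariety.Bundle

end Fermat.Agent.Abelian
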