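import Fermat.Agent.Abelian.Sections
import Mathlib.FieldTheory.IsAlgClosed.AlgebraicClosure

/-!
# Rigidity: the theorem of the square along a curve, by specialisation

Team S26.

For a point `a` of the curve and two points `β`, `γ` of `Ω` with `γ` reducing to `0`, the square
divisor `Θ(β)` specialises to a principal divisor.  Adding the lift of an effective divisor which
is alone in its class gives a class with a single effective divisor; comparing two specialisations
of a generic version of it shows that the class of `Θ(β)` does not move with `β`.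
-/

set_option autoImplicit false
set_option linter.style.haveILetI false

noncomputable section

universe u

open AlgebraicCurve

namespace Fermat.Agent.Abelian

open Fermat.Agent.Curve

variable {K : Type u} [Field K] [IsAlgClosed K] {G : GroupVariety K}
variable {k F : Type u} [Field k] [IsAlgClosed k] [Field F] [Algebra K k] [Algebra k F] [Algebra K F]
  [IsScalarTower K k F] [IsFunctionField1 k F]
variable {Ω : Type u} [Field Ω] [Algebra k Ω] [Algebra K Ω] [IsScalarTower K k Ω]

omit [IsAlgClosed k] [IsFunctionField1 k F] in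
theorem isPrincipal_sub_trans {D D' D'' : Divisor k F} (h : (D - D').IsPrincipal)
    (h' : (D' - D'').IsPrincipal) : (D - D'').IsPrincipal := by
  have := (Divisor.principal (K := k) (F := F)).add_mem (x := D - D') (y := D' - D'') h h'
  rwa [sub_add_sub_cancel] at this

omit [IsAlgClosed k] [IsFunctionField1 k F] in
theorem isPrincipal_sub_symm {D D' : Divisor k F} (h : (D - D').IsPrincipal) :
    (D' - D).IsPrincipal := by
  have := (Divisor.principal (K := k) (F := F)).neg_mem (x := D - D') h
  rwa [neg_sub] at this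

namespace GroupVariety

namespace Bundle

variable (B : G.Bundle)

/-- The second difference of the pullback divisor in two constant translations. -/
def squareDivisor [IsAlgClosed Ω] (a : G.Pt F) (β γ : G.Pt Ω) :
    Divisor Ω (ConstExt k Ω F) :=
  B.divisor (G.inclPt a + G.constPt β + G.constPt γ) - B.divisor (G.inclPt a + G.constPt β)
    - B.divisor (G.inclPt a + G.constPt γ) + B.divisor (G.inclPt a)

section

variable [IsAlgClosed Ω] [Nonempty (Place k F)] (R : ResidueDatum k Ω)

omit [IsAlgClosed K] in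
theorem isPrincipal_red_squareDivisor (a : G.Pt F) (β γ : G.Pt Ω) :
    Divisor.IsPrincipal ((Finsupp.mapDomain R.red (B.squareDivisor (k := k) a β γ) : Divisor k F) -
      (B.divisor (a + G.map (IsScalarTower.toAlgHom K k F) (G.redConst R β) +
          G.map (IsScalarTower.toAlgHom K k F) (G.redConst R γ))
        - B.divisor (a + G.map (IsScalarTower.toAlgHom K k F) (G.redConst R β))
        - B.divisor (a + G.map (IsScalarTower.toAlgHom K k F) (G.redConst R γ))
        + B.divisor a)) := by
  have hi := G.isGood_inclPt R (F := F) a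
  have hb := G.isGood_constPt (F := F) R β
  have hc := G.isGood_constPt (F := F) R γ
  have h1 := B.isPrincipal_red_divisor R (G.isGood_add R (G.isGood_add R hi hb) hc)
  have h2 := B.isPrincipal_red_divisor R (G.isGood_add R hi hb)
  have h3 := B.isPrincipal_red_divisor R (G.isGood_add R hi hc)
  have h4 := B.isPrincipal_red_divisor R hi
  rw [G.specPt_add R (G.isGood_add R hi hb) hc, G.specPt_add R hi hb, G.specPt_inclPt,
    G.specPt_constPt, G.specPt_constPt] at h1
  rw [G.specPt_add R hi hb, G.specPt_inclPt, G.specPt_constPt] at h2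
  rw [G.specPt_add R hi hc, G.specPt_inclPt, G.specPt_constPt] at h3
  rw [G.specPt_inclPt] at h4
  have := (Divisor.principal (K := k) (F := F)).add_mem
    ((Divisor.principal (K := k) (F := F)).sub_mem
      ((Divisor.principal (K := k) (F := F)).sub_mem (show _ ∈ Divisor.principal from h1) h2) h3) h4
  refine Eq.mp ?_ (Divisor.mem_principal.mp this)
  congr 1
  simp only [squareDivisor, Finsupp.mapDomain_sub, Finsupp.mapDomain_add]
  abel

/-- If `γ` reduces to `0`, the square divisor specialises to a principal divisor. -/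
theorem isPrincipal_red_squareDivisor_of_eq_zero (a : G.Pt F) (β γ : G.Pt Ω)
    (hγ : G.redConst R γ = 0) :
    Divisor.IsPrincipal (Finsupp.mapDomain R.red (B.squareDivisor (k := k) a β γ) : Divisor k F) := by
  have h := B.isPrincipal_red_squareDivisor R a β γ
  simpa [hγ, map_zero] using h

/-- The class of a square divisor shifted by a lift of a rigid divisor has one effective
divisor, specialising to the rigid divisor. -/
theorem exists_effective_square (a : G.Pt F) (β γ : G.Pt Ω) (hγ : G.redConst R γ = 0)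
    {E₀ : Divisor k F} (hE : 0 ≤ E₀) (hE1 : ell E₀ = 1)
    (hEdeg : Divisor.degree E₀ = (genusFF k F : ℤ)) {E₁ : Divisor Ω (ConstExt k Ω F)}
    (hE₁ : Finsupp.mapDomain R.red E₁ = E₀) :
    ∃ D : Divisor Ω (ConstExt k Ω F), 0 ≤ D ∧
      (D - (B.squareDivisor (k := k) a β γ + E₁)).IsPrincipal ∧
      Finsupp.mapDomain R.red D = E₀ ∧ ell D ≤ 1 := by
  classical
  set D₁ := B.squareDivisor (k := k) a β γ + E₁
  have hred : Divisor.IsPrincipal ((Finsupp.mapDomain R.red D₁ : Divisor k F) - E₀) := by
    rw [Finsupp.mapDomain_add, hE₁, add_sub_cancel_right]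
    exact B.isPrincipal_red_squareDivisor_of_eq_zero R a β γ hγ
  have hdeg : Divisor.degree D₁ = (genusFF k F : ℤ) := by
    rw [← R.degree_mapDomain_red D₁, degree_eq_of_isPrincipal_sub hred, hEdeg]
  have hpos : 0 < ell D₁ := by
    have h1 := riemann_inequality (K := Ω) (F := ConstExt k Ω F) D₁
    have h2 := ConstExt.genusFF_le (k := k) (F := F) (Ω := Ω)
    omega
  obtain ⟨D, hD, hDp⟩ := exists_effective_of_ell_pos hpos
  have hp := R.isPrincipal_mapDomain_red hDp
  rw [Finsupp.mapDomain_sub] at hp
  have heq : Finsupp.mapDomain R.red D = E₀ :=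
    eq_of_isPrincipal_sub hE hE1.le
      (fun P => Finsupp.mapDomain_nonneg hD P) (isPrincipal_sub_trans hp hred)
  exact ⟨D, hD, hDp, heq, (R.ell_le_ell_mapDomain_red D).trans (by rw [heq, hE1])⟩

end

/-- The theorem of the square along a curve: for points `β`, `γ` coming from the curve through
`0`, the square divisor is principal. -/
theorem isPrincipal_squareDivisor [IsAlgClosed Ω] (a b c : G.Pt F) (P0 : Place k F)
    (hb : G.centreAtPlace b P0 = G.centre (0 : G.Pt K))
    (hc : G.centreAtPlace c P0 = G.centre (0 : G.Pt K))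
    (j : F →ₐ[k] Ω) (halg : ∀ w : Ω, IsAlgebraic j.fieldRange w) :
    (B.squareDivisor (k := k) a (G.map (j.restrictScalars K) b)
      (G.map (j.restrictScalars K) c)).IsPrincipal := by
  classical
  haveI : Nonempty (Place k F) := ⟨P0⟩
  -- the residue datum over `P0`
  obtain ⟨R, hR⟩ : ∃ R : ResidueDatum k Ω, ∀ f ∈ P0.toValuationSubring,
      ∃ h : j f ∈ R.V, R.res ⟨j f, h⟩ = evalAt P0 f := by
    letI : Algebra F Ω := j.toRingHom.toAlgebra
    haveI : IsScalarTower k F Ω := IsScalarTower.of_algebraMap_eq fun x => (j.commutes x).symm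
    haveI : Algebra.IsAlgebraic F Ω := ⟨fun w =>
      (halg w).of_ringHom_of_comp_eq j.toRingHom.rangeRestrictField (RingHom.id Ω)
        (fun ⟨_, f, hf⟩ => ⟨f, Subtype.ext hf⟩) Function.injective_id (RingHom.ext fun _ => rfl)⟩
    exact exists_residueDatum P0
  -- reduction of the points coming from `F`
  have hredF : ∀ x : G.Pt F, G.centreAtPlace x P0 = G.centre (0 : G.Pt K) →
      G.redConst R (G.map (j.restrictScalars K) x) = 0 := by
    intro x hx
    have h0 := (G.ptAt_eq_zero_iff P0 x).mpr hx
    conv_lhs => rw [← G.map_lift x P0.toValuationSubring (algebraMap_mem_place P0), ← G.map_comp]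
    rw [G.redConst_map R _ (fun t => (hR _ t.2).1), ← h0, ptAt]
    refine DFunLike.congr_fun (congrArg G.map (AlgHom.ext fun t => ?_)) _
    exact (hR _ t.2).2
  set β := G.map (j.restrictScalars K) b
  set γ := G.map (j.restrictScalars K) c
  have hγ : G.redConst R γ = 0 := hredF c hc
  -- a rigid divisor and its lift
  obtain ⟨E₀, hE, hE1, hEdeg⟩ := exists_effective_ell_eq_one (k := k) (F := F)
  obtain ⟨lift₁, hlift₁⟩ := ConstExt.exists_liftDiv (k := k) (F := F) (Ω := Ω)
  have hE₁ := hlift₁ R E₀
  set E₁ := lift₁ E₀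
  -- the generic version, over the algebraic closure of the constant extension
  let Ω₂ : Type u := AlgebraicClosure (ConstExt k Ω F)
  haveI : IsScalarTower K k (ConstExt k Ω F) := inferInstance
  let toΩ₂ : ConstExt k Ω F →ₐ[K] Ω₂ := IsScalarTower.toAlgHom K (ConstExt k Ω F) Ω₂
  let β₂ : G.Pt Ω₂ := G.map (toΩ₂.comp ((ConstExt.incl k Ω F).restrictScalars K)) b
  let γ₂ : G.Pt Ω₂ := G.map (IsScalarTower.toAlgHom K Ω Ω₂) γ
  haveI : Nonempty (Place Ω (ConstExt k Ω F)) := exists_place
  have hγ₂ : ∀ R₂ : ResidueDatum Ω Ω₂, G.redConst R₂ γ₂ = γ := by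
    intro R₂
    rw [show γ₂ = G.map (IsScalarTower.toAlgHom K Ω Ω₂) γ from rfl,
      G.redConst_map R₂ _ (fun t => R₂.algebraMap_mem t)]
    conv_rhs => rw [← G.map_id γ]
    refine DFunLike.congr_fun (congrArg G.map (AlgHom.ext fun t => ?_)) _
    exact R₂.res_algebraMap t
  obtain ⟨lift₂, hlift₂⟩ :=
    ConstExt.exists_liftDiv (k := Ω) (F := ConstExt k Ω F) (Ω := Ω₂)
  -- the effective divisor in the generic class
  set D₂ := B.squareDivisor (k := Ω) (G.inclPt (Ω := Ω) (k := k) a) β₂ γ₂ + lift₂ E₁
  have hred₂ : ∀ R₂ : ResidueDatum Ω Ω₂,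
      Divisor.IsPrincipal ((Finsupp.mapDomain R₂.red D₂ : Divisor Ω (ConstExt k Ω F)) -
        (B.squareDivisor (k := k) a (G.redConst R₂ β₂) γ + E₁)) := by
    intro R₂
    have h := B.isPrincipal_red_squareDivisor R₂ (G.inclPt (Ω := Ω) (k := k) a) β₂ γ₂
    rw [hγ₂] at h
    rw [Finsupp.mapDomain_add, hlift₂, add_sub_add_right_eq_sub]
    exact h
  -- the degree and the effective representative
  obtain ⟨Q₀, hQ₀⟩ := ConstExt.exists_constPlace R P0
  obtain ⟨QΔ, hQΔ⟩ := ConstExt.exists_diagPlace j
  obtain ⟨RΔ, hRΔ⟩ := exists_residueDatum (k := Ω) (Ω := Ω₂) QΔ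
  obtain ⟨R₀, hR₀⟩ := exists_residueDatum (k := Ω) (Ω := Ω₂) Q₀
  have hdeg : Divisor.degree D₂ = (genusFF k F : ℤ) := by
    rw [← RΔ.degree_mapDomain_red D₂, degree_eq_of_isPrincipal_sub (hred₂ RΔ),
      ← R.degree_mapDomain_red, Finsupp.mapDomain_add, hE₁, map_add,
      show Divisor.degree (Finsupp.mapDomain R.red
        (B.squareDivisor (k := k) a (G.redConst RΔ β₂) γ) : Divisor k F) = 0 by
      obtain ⟨f, hf, hfv⟩ := B.isPrincipal_red_squareDivisor_of_eq_zero R a (G.redConst RΔ β₂) γ hγ
      rw [show (Finsupp.mapDomain R.red (B.squareDivisor (k := k) a (G.redConst RΔ β₂) γ) :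
          Divisor k F) = divisorOf f from Finsupp.ext fun v => (hfv v).trans (divisorOf_apply f v).symm,
        degree_divisorOf], zero_add, hEdeg]
  have hpos : 0 < ell D₂ := by
    have h1 := riemann_inequality (K := Ω₂) (F := ConstExt Ω Ω₂ (ConstExt k Ω F)) D₂
    have h2 := ConstExt.genusFF_le (k := k) (F := F) (Ω := Ω)
    have h3 := ConstExt.genusFF_le (k := Ω) (F := ConstExt k Ω F) (Ω := Ω₂)
    omega
  obtain ⟨D, hD, hDp⟩ := exists_effective_of_ell_pos hpos
  -- each specialisation is the effective divisor of its class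
  have hspec : ∀ R₂ : ResidueDatum Ω Ω₂,
      Divisor.IsPrincipal ((Finsupp.mapDomain R₂.red D : Divisor Ω (ConstExt k Ω F)) -
        (B.squareDivisor (k := k) a (G.redConst R₂ β₂) γ + E₁)) ∧
      Finsupp.mapDomain R.red (Finsupp.mapDomain R₂.red D) = E₀ := by
    intro R₂
    have hp := R₂.isPrincipal_mapDomain_red hDp
    rw [Finsupp.mapDomain_sub] at hp
    have hp' := isPrincipal_sub_trans hp (hred₂ R₂)
    refine ⟨hp', ?_⟩
    obtain ⟨D', hD', hD'p, hD'red, hD'ell⟩ :=
      B.exists_effective_square R a (G.redConst R₂ β₂) γ hγ hE hE1 hEdeg hE₁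
    have : Finsupp.mapDomain R₂.red D = D' :=
      eq_of_isPrincipal_sub hD' hD'ell (fun Q => Finsupp.mapDomain_nonneg hD Q)
        (isPrincipal_sub_trans hp' (isPrincipal_sub_symm hD'p))
    rw [this, hD'red]
  have hindep := ConstExt.mapDomain_red_eq R (L := ConstExt k Ω F) hD E₀ (fun R₂ => (hspec R₂).2) RΔ R₀
  -- the two special values of the generic point
  have hβΔ : G.redConst RΔ β₂ = β := by
    rw [show β₂ = G.map (toΩ₂.comp ((ConstExt.incl k Ω F).restrictScalars K)) b from rfl,
      G.redConst_map RΔ _ (fun f => (hRΔ _ (hQΔ f).1).1)]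
    refine DFunLike.congr_fun (congrArg G.map (AlgHom.ext fun f => ?_)) _
    exact ((hRΔ _ (hQΔ f).1).2).trans (hQΔ f).2
  have hβ₀ : G.redConst R₀ β₂ = 0 := by
    have h0 := (G.ptAt_eq_zero_iff P0 b).mpr hb
    rw [show β₂ = G.map (toΩ₂.comp ((ConstExt.incl k Ω F).restrictScalars K)) b from rfl]
    conv_lhs => rw [← G.map_lift b P0.toValuationSubring (algebraMap_mem_place P0), ← G.map_comp]
    rw [G.redConst_map R₀ _ (fun t => (hR₀ _ (hQ₀ _ t.2).1).1),
      ← map_zero (G.map (IsScalarTower.toAlgHom K k Ω)), ← h0, ptAt, ← G.map_comp]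
    refine DFunLike.congr_fun (congrArg G.map (AlgHom.ext fun t => ?_)) _
    exact ((hR₀ _ (hQ₀ _ t.2).1).2).trans (hQ₀ _ t.2).2
  have h1 := (hspec RΔ).1
  have h2 := (hspec R₀).1
  rw [hindep, hβΔ] at h1
  rw [hβ₀] at h2
  have h3 := isPrincipal_sub_trans (isPrincipal_sub_symm h1) h2
  rw [add_sub_add_right_eq_sub] at h3
  have h4 : B.squareDivisor (k := k) a (0 : G.Pt Ω) γ = 0 := by
    simp [squareDivisor, constPt]
  rwa [h4, sub_zero] at h3

end Bundle

end GroupVariety

end Fermat.Agent.Abelian
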