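import Mathlib.Algebra.Algebra.Subalgebra.Basic
import Mathlib.RingTheory.Adjoin.FG
import Mathlib.RingTheory.LocalRing.Basic
import Mathlib.RingTheory.LocalRing.RingHom.Basic
import Mathlib.RingTheory.Localization.FractionRing
import Mathlib.RingTheory.Valuation.ValuationRing
import Mathlib.RingTheory.MvPowerSeries.Basic
import Mathlib.RingTheory.Algebraic.Basic
import Mathlib.RingTheory.EssentialFiniteness
import Mathlib.Algebra.Category.Ring.Basic

/-!
# An algebraic interface for smooth proper group varieties

`GroupVariety K` records, in purely algebraic terms, what the computation of the number of torsion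
points needs from a smooth proper connected commutative group scheme over `K`: the functor of
points, the local rings inside the function field, and completions at rational points.

It is constructed from a scheme in `Fermat.Agent.Abelian.SchemeModel`.

Team S26, owner helper99.
-/

set_option autoImplicit false

noncomputable section

universe u

namespace Fermat.Agent.Abelian

/-- `u` is a quotient `a / b` with `a, b ∈ B` and `b` invertible in `O`. -/
def IsQuotientIn {K E : Type*} [CommRing K] [CommRing E] [Algebra K E]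
    (B O : Subalgebra K E) (x : E) : Prop :=
  ∃ a ∈ B, ∃ b ∈ B, ∃ c ∈ O, b * c = 1 ∧ x = a * c

/-- The algebraic data of a smooth proper connected commutative group variety. -/
structure GroupVariety (K : Type u) [Field K] where
  /-- the function field -/
  Func : Type u
  [fieldFunc : Field Func]
  [algFunc : Algebra K Func]
  /-- the dimension -/
  dim : ℕ
  /-- the points of the underlying scheme -/
  Center : Type u
  /-- `Gen z' z` : `z'` generalises `z` -/
  Gen : Center → Center → Prop
  /-- the local rings -/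
  O : Center → Subalgebra K Func
  /-- the generic point -/
  generic : Center
  O_generic : O generic = ⊤
  isLocalRing_O : ∀ z, IsLocalRing (O z)
  isNoetherianRing_O : ∀ z, IsNoetherianRing (O z)
  frac_O : ∀ z (x : Func), ∃ a b : O z, (b : Func) ≠ 0 ∧ x * b = a
  gen_le : ∀ {z' z}, Gen z' z → O z ≤ O z'
  gen_loc : ∀ {z' z}, Gen z' z → ∀ x ∈ O z', IsQuotientIn (O z) (O z') x
  gen_generic : ∀ z, Gen generic z
  gen_refl : ∀ z, Gen z z
  /-- the functor of points -/
  Pt : ∀ (R : Type u) [CommRing R] [Algebra K R], Type u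
  [addCommGroupPt : ∀ (R : Type u) [CommRing R] [Algebra K R], AddCommGroup (Pt R)]
  /-- functoriality -/
  map : ∀ {R S : Type u} [CommRing R] [Algebra K R] [CommRing S] [Algebra K S],
    (R →ₐ[K] S) → Pt R →+ Pt S
  map_id : ∀ {R : Type u} [CommRing R] [Algebra K R] (x : Pt R), map (AlgHom.id K R) x = x
  map_comp : ∀ {R S T : Type u} [CommRing R] [Algebra K R] [CommRing S] [Algebra K S]
    [CommRing T] [Algebra K T] (φ : R →ₐ[K] S) (χ : S →ₐ[K] T) (x : Pt R),
    map (χ.comp φ) x = map χ (map φ x)
  map_injective : ∀ {R S : Type u} [CommRing R] [IsDomain R] [Algebra K R] [CommRing S]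
    [IsDomain S] [Algebra K S] (φ : R →ₐ[K] S), Function.Injective φ →
    Function.Injective (map φ)
  map_surjective : ∀ {R L : Type u} [CommRing R] [IsDomain R] [ValuationRing R] [Field L]
    [Algebra K R] [Algebra K L] [Algebra R L] [IsScalarTower K R L] [IsFractionRing R L],
    Function.Surjective (map (IsScalarTower.toAlgHom K R L))
  /-- the point given by a homomorphism out of a local ring -/
  pt : ∀ {R : Type u} [CommRing R] [Algebra K R] (z : Center), (O z →ₐ[K] R) → Pt R
  pt_injective : ∀ {R : Type u} [CommRing R] [Algebra K R] (z : Center),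
    Function.Injective (pt (R := R) z)
  map_pt : ∀ {R S : Type u} [CommRing R] [Algebra K R] [CommRing S] [Algebra K S]
    (φ : R →ₐ[K] S) (z : Center) (ψ : O z →ₐ[K] R), map φ (pt z ψ) = pt z (φ.comp ψ)
  pt_gen : ∀ {R : Type u} [CommRing R] [Algebra K R] {z' z : Center} (h : Gen z' z)
    (ψ : O z' →ₐ[K] R), pt z (ψ.comp (Subalgebra.inclusion (gen_le h))) = pt z' ψ
  /-- the image of the closed point -/
  centre : ∀ {R : Type u} [CommRing R] [IsLocalRing R] [Algebra K R], Pt R → Center
  /-- the homomorphism of local rings attached to a point with values in a local ring -/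
  hom : ∀ {R : Type u} [CommRing R] [IsLocalRing R] [Algebra K R] (x : Pt R),
    O (centre x) →ₐ[K] R
  isLocalHom_hom : ∀ {R : Type u} [CommRing R] [IsLocalRing R] [Algebra K R] (x : Pt R),
    IsLocalHom (hom x).toRingHom
  pt_hom : ∀ {R : Type u} [CommRing R] [IsLocalRing R] [Algebra K R] (x : Pt R),
    pt (centre x) (hom x) = x
  centre_pt : ∀ {R : Type u} [CommRing R] [IsLocalRing R] [Algebra K R] (z : Center)
    (ψ : O z →ₐ[K] R), IsLocalHom ψ.toRingHom → centre (pt z ψ) = z
  gen_centre : ∀ {R S : Type u} [CommRing R] [IsLocalRing R] [Algebra K R] [CommRing S]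
    [IsLocalRing S] [Algebra K S] (φ : R →ₐ[K] S) (x : Pt R),
    Gen (centre (map φ x)) (centre x)
  /-- every point has a closed specialisation -/
  exists_closed : ∀ z, ∃ p : Pt K, Gen z (centre p)
  /-- affine charts -/
  exists_chart : ∀ w, ∃ B : Subalgebra K Func, B.FG ∧ B ≤ O w ∧
    ∀ {R L : Type u} [CommRing R] [IsDomain R] [IsLocalRing R] [Field L] [Algebra K R]
      [Algebra K L] (ι : R →ₐ[K] L), Function.Injective ι → ∀ (x : Pt R) (y : Pt L),
      map ι x = y → centre y = w →
      (∀ b ∈ B, ∀ h : b ∈ O (centre y), hom y ⟨b, h⟩ ∈ Set.range ι) →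
      B ≤ O (centre x) ∧ ∀ v ∈ O (centre x), IsQuotientIn B (O (centre x)) v
  /-- completion at rational points -/
  exists_coord : ∀ p : Pt K, ∃ (t : Fin dim → O (centre p))
    (τ : O (centre p) →ₐ[K] MvPowerSeries (Fin dim) K),
    Function.Injective τ ∧ (∀ i, τ (t i) = MvPowerSeries.X i) ∧
    (Ideal.span (Set.range t) : Ideal (O (centre p))) =
      @IsLocalRing.maximalIdeal _ _ (isLocalRing_O (centre p)) ∧
    Algebra.IsAlgebraic (Algebra.adjoin K (Set.range fun i => (t i : Func))) Func
  /-- the function field is finitely generated -/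
  essFiniteType_func : Algebra.EssFiniteType K Func

namespace GroupVariety

variable {K : Type u} [Field K]

attribute [instance] fieldFunc algFunc addCommGroupPt
attribute [instance low] isLocalRing_O isNoetherianRing_O

variable (G : GroupVariety K)

instance instEssFiniteType : Algebra.EssFiniteType K G.Func := G.essFiniteType_func

variable {R S : Type u} [CommRing R] [Algebra K R] [CommRing S] [Algebra K S]

theorem centre_map_pt [IsLocalRing R] (z : G.Center) (ψ : G.O z →ₐ[K] R) :
    G.Gen (G.centre (G.pt z ψ)) z := by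
  have h1 : G.centre (G.pt z (AlgHom.id K (G.O z))) = z :=
    G.centre_pt z _ ⟨fun a ha => by simpa using ha⟩
  have h2 : G.map ψ (G.pt z (AlgHom.id K (G.O z))) = G.pt z ψ := by
    rw [G.map_pt, AlgHom.comp_id]
  have := G.gen_centre ψ (G.pt z (AlgHom.id K (G.O z)))
  rwa [h1, h2] at this

/-- The homomorphism of a point extends the one of any of its specialisations. -/
theorem hom_map_apply [IsLocalRing R] [IsLocalRing S] (φ : R →ₐ[K] S) (x : G.Pt R)
    (v : G.O (G.centre x)) :
    G.hom (G.map φ x) ⟨v, G.gen_le (G.gen_centre φ x) v.2⟩ = φ (G.hom x v) := by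
  have h := G.pt_gen (G.gen_centre φ x) (G.hom (G.map φ x))
  rw [G.pt_hom] at h
  have h2 : G.pt (G.centre x) (φ.comp (G.hom x)) = G.map φ x := by
    rw [← G.map_pt, G.pt_hom]
  exact DFunLike.congr_fun (G.pt_injective _ (h.trans h2.symm)) v

theorem hom_map_apply' [IsLocalRing R] [IsLocalRing S] (φ : R →ₐ[K] S) (x : G.Pt R) (v : G.Func)
    (hv : v ∈ G.O (G.centre x)) (hv' : v ∈ G.O (G.centre (G.map φ x))) :
    G.hom (G.map φ x) ⟨v, hv'⟩ = φ (G.hom x ⟨v, hv⟩) :=
  G.hom_map_apply φ x ⟨v, hv⟩

theorem centre_pt_of_isLocalHom [IsLocalRing R] (z : G.Center) (ψ : G.O z →ₐ[K] R)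
    [h : IsLocalHom ψ.toRingHom] : G.centre (G.pt z ψ) = z := G.centre_pt z ψ h

theorem hom_pt_apply [IsLocalRing R] (z : G.Center) (ψ : G.O z →ₐ[K] R) (v : G.Func)
    (hv : v ∈ G.O z) (hv' : v ∈ G.O (G.centre (G.pt z ψ))) :
    G.hom (G.pt z ψ) ⟨v, hv'⟩ = ψ ⟨v, hv⟩ := by
  have h := G.pt_gen (G.centre_map_pt z ψ) (G.hom (G.pt z ψ))
  rw [G.pt_hom] at h
  exact DFunLike.congr_fun (G.pt_injective _ h) ⟨v, hv⟩

end GroupVariety

end Fermat.Agent.Abelian
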