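import Fermat.Agent.Abelian.Variety
import Fermat.Agent.Abelian.SchemeModel.Chart

/-!
# The group variety attached to an abelian scheme over an algebraically closed field

The building blocks are in `Fermat.Agent.Abelian.SchemeModel.*`.

Team S26.
-/

set_option autoImplicit false
set_option linter.style.haveILetI false

noncomputable section

universe u

open CategoryTheory AlgebraicGeometry NeronModelInfra GoodReductionJacobian
  GoodReductionJacobian.RelativeGroupLaw

namespace Fermat.Agent.Abelian

namespace SchemeModel

variable {K : Type u} [Field K] [IsAlgClosed K] {A : Scheme.{u}}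
  (f : A ⟶ Spec (CommRingCat.of K)) (L : RelativeGroupLaw K f) (hc : L.IsCommutative)

/-- Every point has a closed specialisation, given by a rational point. -/
theorem exists_closed_point [LocallyOfFiniteType f] [QuasiCompact f] (z : A) :
    ∃ p : PtOf f K, z ⤳ centreOf f p := by
  have : CompactSpace A := QuasiCompact.compactSpace_of_compactSpace f
  obtain ⟨q, hq, hqc⟩ := IsClosed.exists_closed_singleton (isClosed_closure (s := {z}))
    ⟨z, subset_closure rfl⟩
  refine ⟨⟨pointOfClosedPoint f q hqc, ?_⟩, ?_⟩
  · rw [pointOfClosedPoint_comp, baseMap, Algebra.algebraMap_self, CommRingCat.ofHom_id,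
      Spec.map_id]
  · exact (specializes_iff_mem_closure.mpr hq).trans
      (specializes_of_eq (pointOfClosedPoint_apply f q hqc _).symm)

/-- The group variety of a smooth proper connected commutative group scheme. -/
def groupVariety [IsProper f] [IsIntegral A] (g : ℕ) [SmoothOfRelativeDimension g f] :
    GroupVariety K :=
  haveI : IsLocallyNoetherian A := LocallyOfFiniteType.isLocallyNoetherian f
  letI := funcAlg f
  { Func := A.functionField
    dim := g
    Center := A
    Gen := fun z' z => z' ⤳ z
    O := fun z => locRing f z
    generic := genericPoint A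
    O_generic := locRing_generic f
    isLocalRing_O := isLocalRing_locRing f
    isNoetherianRing_O := isNoetherianRing_locRing f
    frac_O := exists_div_locRing f
    gen_le := fun h => locRing_le f h
    gen_loc := fun h x hx => isQuotientIn_locRing f h x hx
    gen_generic := fun z => genericPoint_specializes' z
    gen_refl := fun z => specializes_refl z
    Pt := fun R _ _ => PtOf f R
    addCommGroupPt := fun R _ _ => ptGroup L hc R
    map := fun φ => ptMap L hc φ
    map_id := fun x => ptMap_id L hc x
    map_comp := fun φ χ x => ptMap_comp L hc φ χ x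
    map_injective := fun φ hφ => ptMap_injective L hc φ hφ
    map_surjective := fun {_ _} _ _ _ _ _ _ _ _ _ => ptMap_surjective L hc
    pt := fun z ψ => ptOfHom f z ψ
    pt_injective := fun z => ptOfHom_injective f z
    map_pt := fun φ z ψ => ptMap_ptOfHom f L hc φ z ψ
    pt_gen := fun h ψ => ptOfHom_inclusion f h ψ
    centre := fun x => centreOf f x
    hom := fun x => homOf f x
    isLocalHom_hom := fun x => isLocalHom_homOf f x
    pt_hom := fun x => ptOfHom_homOf f x
    centre_pt := fun z ψ hψ => centreOf_ptOfHom f z ψ hψ
    gen_centre := fun φ x => centreOf_ptMap f L hc φ x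
    exists_closed := exists_closed_point f
    exists_chart := fun w => exists_chartRing f L hc w
    exists_coord := fun p => exists_coord_locRing f g p
    essFiniteType_func := essFiniteType_functionField f }

end SchemeModel

theorem exists_groupVariety (K : Type u) [Field K] [IsAlgClosed K] {A : Scheme.{u}}
    (f : A ⟶ Spec (CommRingCat.of K)) (L : RelativeGroupLaw K f) (hc : L.IsCommutative)
    (hA : AbelianSchemePropertyBundle K f) (g : ℕ) [SmoothOfRelativeDimension g f] :
    ∃ G : GroupVariety K, G.dim = g ∧ ∀ n : ℕ,
      Nonempty ({x : SchemeHomOver (𝟙 (Spec (CommRingCat.of K))) f //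
          L.IsTorsionPoint (𝟙 (Spec (CommRingCat.of K))) n x} ≃ {x : G.Pt K // n • x = 0}) := by
  have := hA.proper
  have hfib := hA.connectedFibres (IsLocalRing.closedPoint K)
  have huniv : f.base ⁻¹' {IsLocalRing.closedPoint K} = Set.univ :=
    Set.eq_univ_of_forall fun x => Subsingleton.elim (α := PrimeSpectrum K) _ _
  have : ConnectedSpace A := connectedSpace_iff_univ.mpr
    ((congrArg _root_.IsConnected huniv).mp hfib)
  have := SchemeModel.isIntegral_of_smooth f g
  exact ⟨SchemeModel.groupVariety f L hc g, rfl,
    fun n => ⟨SchemeModel.torsionEquiv L hc n⟩⟩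

end Fermat.Agent.Abelian
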