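import Fermat.Agent.Abelian.Bundle
import Fermat.Agent.Abelian.ConstExtension

/-!
# Specialisation of points and of pulled back divisors

Team S26, owner helper99.
-/

set_option autoImplicit false

noncomputable section

universe u

open AlgebraicCurve

namespace Fermat.Agent.Abelian

open Fermat.Agent.Curve GroupVariety

variable {K : Type u} [Field K]
variable {k F : Type u} [Field k] [IsAlgClosed k] [Field F] [Algebra K k] [Algebra k F] [Algebra K F]
  [IsScalarTower K k F] [IsFunctionField1 k F]
variable {Ω : Type u} [Field Ω] [Algebra k Ω] [Algebra K Ω] [IsScalarTower K k Ω] [IsAlgClosed Ω]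

namespace ResidueDatum

variable (R : ResidueDatum k Ω)

variable (F) in
/-- The elements integral for the Gauss valuation. -/
def intRing : Subalgebra k (ConstExt k Ω F) where
  carrier := {e | ∃ g, (e, g) ∈ (R.gauss F).graph}
  mul_mem' := by rintro a b ⟨g, hg⟩ ⟨g', hg'⟩; exact ⟨g * g', (R.gauss F).graph.mul_mem hg hg'⟩
  add_mem' := by rintro a b ⟨g, hg⟩ ⟨g', hg'⟩; exact ⟨g + g', (R.gauss F).graph.add_mem hg hg'⟩
  algebraMap_mem' a := ⟨algebraMap k F a, by simpa using R.gauss_incl (F := F) (algebraMap k F a)⟩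

variable (F) in
/-- Reduction of integral elements. -/
def intRes : R.intRing F →ₐ[k] F where
  toFun e := e.2.choose
  map_one' := (R.gauss F).eq_of_mem (1 : R.intRing F).2.choose_spec
    ((R.gauss F).graph.one_mem : ((1 : ConstExt k Ω F), (1 : F)) ∈ (R.gauss F).graph)
  map_mul' a b := (R.gauss F).eq_of_mem (a * b).2.choose_spec
    ((R.gauss F).graph.mul_mem a.2.choose_spec b.2.choose_spec)
  map_zero' := (R.gauss F).eq_of_mem (0 : R.intRing F).2.choose_spec
    ((R.gauss F).graph.zero_mem : ((0 : ConstExt k Ω F), (0 : F)) ∈ (R.gauss F).graph)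
  map_add' a b := (R.gauss F).eq_of_mem (a + b).2.choose_spec
    ((R.gauss F).graph.add_mem a.2.choose_spec b.2.choose_spec)
  commutes' c := (R.gauss F).eq_of_mem (algebraMap k (R.intRing F) c).2.choose_spec
    (by simpa using R.gauss_incl (F := F) (algebraMap k F c))

theorem mem_graph (e : R.intRing F) :
    ((e : ConstExt k Ω F), R.intRes F e) ∈ (R.gauss F).graph := e.2.choose_spec

theorem intRes_eq {e : R.intRing F} {g : F}
    (h : ((e : ConstExt k Ω F), g) ∈ (R.gauss F).graph) : R.intRes F e = g :=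
  (R.gauss F).eq_of_mem (R.mem_graph e) h

theorem isUnit_intRing_of_intRes_ne_zero {e : R.intRing F} (h : R.intRes F e ≠ 0) : IsUnit e := by
  have h0 : (e : ConstExt k Ω F) ≠ 0 := (R.gauss F).ne_zero_of_mem (R.mem_graph e) h
  exact IsUnit.of_mul_eq_one (⟨_, _, R.gauss_inv (R.mem_graph e) h⟩ : R.intRing F)
    (Subtype.ext (mul_inv_cancel₀ h0))

instance isLocalRing_intRing : IsLocalRing (R.intRing F) := by
  refine IsLocalRing.of_nonunits_add fun a b ha hb => ?_
  intro hu
  have hz : ∀ e : R.intRing F, e ∈ nonunits (R.intRing F) → R.intRes F e = 0 := fun e he => by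
    by_contra h
    exact he (R.isUnit_intRing_of_intRes_ne_zero h)
  have := hu.map (R.intRes F)
  rw [map_add, hz a ha, hz b hb, add_zero] at this
  exact not_isUnit_zero this

theorem isLocalHom_intRes : IsLocalHom (R.intRes F).toRingHom :=
  ⟨fun e he => R.isUnit_intRing_of_intRes_ne_zero he.ne_zero⟩

theorem localRing_le (P : Place k F) : R.localRing P ≤ R.intRing F :=
  fun _ ⟨g, _, hg, _⟩ => ⟨g, hg⟩

instance instIsLocalRingLocalRing (P : Place k F) : IsLocalRing (R.localRing P) :=
  R.isLocalRing_localRing P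

end ResidueDatum

variable (G : GroupVariety K)

namespace GroupVariety

/-- A point of the original field, seen in the constant extension. -/
def inclPt (a : G.Pt F) : G.Pt (ConstExt k Ω F) :=
  G.map ((ConstExt.incl k Ω F).restrictScalars K) a

/-- A constant point. -/
def constPt (β : G.Pt Ω) : G.Pt (ConstExt k Ω F) :=
  G.map (IsScalarTower.toAlgHom K Ω (ConstExt k Ω F)) β

variable (R : ResidueDatum k Ω)

variable (F) in
/-- The inclusion of the integral elements, over `K`. -/
def intVal : R.intRing F →ₐ[K] ConstExt k Ω F := (R.intRing F).val.restrictScalars K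

/-- The inclusion of a local ring into the integral elements, over `K`. -/
def locToInt (P : Place k F) : R.localRing P →ₐ[K] R.intRing F :=
  (Subalgebra.inclusion (R.localRing_le P)).restrictScalars K

/-- The inclusion of a local ring, over `K`. -/
def locVal (P : Place k F) : R.localRing P →ₐ[K] ConstExt k Ω F :=
  (R.localRing P).val.restrictScalars K

/-- Points which are defined on every local ring above the places of `F`. -/
def IsGood (x : G.Pt (ConstExt k Ω F)) : Prop :=
  ∀ P : Place k F, ∃ y : G.Pt (R.localRing P), G.map (locVal R P) y = x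

theorem map_locToInt_locVal (P : Place k F) (y : G.Pt (R.localRing P)) :
    G.map (intVal F R) (G.map (locToInt R P) y) = G.map (locVal R P) y := by
  rw [← G.map_comp]
  rfl

theorem isGood_add {x x' : G.Pt (ConstExt k Ω F)} (h : G.IsGood R x) (h' : G.IsGood R x') :
    G.IsGood R (x + x') := fun P => by
  obtain ⟨y, hy⟩ := h P
  obtain ⟨y', hy'⟩ := h' P
  exact ⟨y + y', by rw [map_add, hy, hy']⟩

theorem isGood_zero : G.IsGood R (0 : G.Pt (ConstExt k Ω F)) :=
  fun _ => ⟨0, map_zero _⟩

/-- The point of the special fibre: `x̄`. -/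
def specPt (x : G.Pt (ConstExt k Ω F)) : G.Pt F :=
  letI := Classical.propDecidable
  if h : ∃ y : G.Pt (R.intRing F), G.map (intVal F R) y = x then
    G.map ((R.intRes F).restrictScalars K) h.choose else 0

theorem specPt_eq {x : G.Pt (ConstExt k Ω F)} {y : G.Pt (R.intRing F)}
    (h : G.map (intVal F R) y = x) :
    G.specPt R x = G.map ((R.intRes F).restrictScalars K) y := by
  have hex : ∃ y : G.Pt (R.intRing F), G.map (intVal F R) y = x := ⟨y, h⟩
  rw [specPt, dif_pos hex,
    G.map_injective (intVal F R) Subtype.val_injective (hex.choose_spec.trans h.symm)]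

theorem exists_intPt [Nonempty (Place k F)] {x : G.Pt (ConstExt k Ω F)} (hx : G.IsGood R x) :
    ∃ y : G.Pt (R.intRing F), G.map (intVal F R) y = x := by
  obtain ⟨y, hy⟩ := hx (Classical.arbitrary _)
  exact ⟨_, (G.map_locToInt_locVal R _ y).trans hy⟩

theorem specPt_add [Nonempty (Place k F)] {x x' : G.Pt (ConstExt k Ω F)} (hx : G.IsGood R x)
    (hx' : G.IsGood R x') : G.specPt R (x + x') = G.specPt R x + G.specPt R x' := by
  obtain ⟨y, hy⟩ := G.exists_intPt R hx
  obtain ⟨y', hy'⟩ := G.exists_intPt R hx'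
  rw [G.specPt_eq R hy, G.specPt_eq R hy', G.specPt_eq R (y := y + y')
    (by rw [map_add, hy, hy']), map_add]

/-- `V` as a `K`-algebra. -/
theorem algebraMap_mem_V (a : K) : algebraMap K Ω a ∈ R.V := by
  rw [IsScalarTower.algebraMap_apply K k Ω]; exact R.algebraMap_mem _

/-- The residue map, over `K`. -/
def resHom : valAlg R.V (algebraMap_mem_V (K := K) R) →ₐ[K] k where
  toFun v := R.res ⟨(v : Ω), v.2⟩
  map_one' := map_one R.res
  map_mul' a b := map_mul R.res ⟨(a : Ω), a.2⟩ ⟨(b : Ω), b.2⟩
  map_zero' := map_zero R.res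
  map_add' a b := map_add R.res ⟨(a : Ω), a.2⟩ ⟨(b : Ω), b.2⟩
  commutes' a := by
    show R.res ⟨algebraMap K Ω a, _⟩ = _
    rw [show (⟨algebraMap K Ω a, algebraMap_mem_V R a⟩ : R.V) =
      ⟨algebraMap k Ω (algebraMap K k a), R.algebraMap_mem _⟩ from
        Subtype.ext (IsScalarTower.algebraMap_apply K k Ω a), R.res_algebraMap]

theorem isLocalHom_resHom :
    IsLocalHom (resHom R : valAlg R.V (algebraMap_mem_V (K := K) R) →ₐ[K] k).toRingHom := by
  refine ⟨fun v hv => ?_⟩
  by_contra h
  refine hv.ne_zero (R.res_eq_zero ⟨(v : Ω), v.2⟩ fun hi => h ?_)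
  have h0 : (v : Ω) ≠ 0 := fun h0 => hv.ne_zero <| by
    show R.res ⟨(v : Ω), v.2⟩ = 0
    rw [show (⟨(v : Ω), v.2⟩ : R.V) = 0 from Subtype.ext h0, map_zero]
  exact IsUnit.of_mul_eq_one (⟨_, hi⟩ : valAlg R.V (algebraMap_mem_V R))
    (Subtype.ext (mul_inv_cancel₀ h0))

/-- The reduction of a constant point. -/
def redConst (β : G.Pt Ω) : G.Pt k :=
  G.map (resHom R) (G.lift β R.V (algebraMap_mem_V R))

theorem centre_redConst (β : G.Pt Ω) :
    G.centre (G.redConst R β) = G.centreAt β R.V (algebraMap_mem_V R) :=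
  G.centre_map_of_isLocalHom _ (isLocalHom_resHom R) _

theorem redConst_zero : G.redConst R (0 : G.Pt Ω) = 0 := by
  refine G.eq_zero_of_centre_eq ?_
  rw [G.centre_redConst, G.centreAt_zero]

/-- Reduction of the points defined inside `V`. -/
theorem redConst_map {T : Type u} [CommRing T] [Algebra K T] (φ : T →ₐ[K] Ω)
    (hφ : ∀ t, φ t ∈ R.V) (y : G.Pt T) :
    G.redConst R (G.map φ y) = G.map ((resHom R).comp (φ.codRestrict _ hφ)) y := by
  rw [redConst, G.lift_eq _ _ _ (G.map (φ.codRestrict (valAlg R.V (algebraMap_mem_V R)) hφ) y)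
    (by rw [← G.map_comp]; rfl), ← G.map_comp]

/-- The reduction of `V` into the local ring at `P`. -/
def constToLoc (P : Place k F) : valAlg R.V (algebraMap_mem_V (K := K) R) →ₐ[K] R.localRing P :=
  AlgHom.codRestrict ((IsScalarTower.toAlgHom K Ω (ConstExt k Ω F)).comp (valAlg R.V _).val)
    ((R.localRing P).restrictScalars K) fun v => R.constant_mem_localRing P v.2

theorem isGood_constPt (β : G.Pt Ω) : G.IsGood R (G.constPt (F := F) (k := k) β) := fun P => by
  refine ⟨G.map (constToLoc R P) (G.lift β R.V (algebraMap_mem_V R)), ?_⟩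
  rw [← G.map_comp, constPt]
  conv_rhs => rw [← G.map_lift β R.V (algebraMap_mem_V R), ← G.map_comp]
  rfl

/-- The inclusion of a local ring of `F`. -/
def inclToLoc (P : Place k F) :
    valAlg P.toValuationSubring (algebraMap_mem_place (K := K) P) →ₐ[K] R.localRing P :=
  AlgHom.codRestrict (((ConstExt.incl k Ω F).restrictScalars K).comp (valAlg _ _).val)
    ((R.localRing P).restrictScalars K) fun v => R.incl_mem_localRing v.2

theorem isGood_inclPt (a : G.Pt F) : G.IsGood R (G.inclPt (Ω := Ω) (k := k) a) := fun P => by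
  refine ⟨G.map (inclToLoc R P) (G.lift a _ (algebraMap_mem_place P)), ?_⟩
  rw [← G.map_comp, inclPt]
  conv_rhs => rw [← G.map_lift a P.toValuationSubring (algebraMap_mem_place P), ← G.map_comp]
  rfl

theorem specPt_constPt [Nonempty (Place k F)] (β : G.Pt Ω) :
    G.specPt R (G.constPt (F := F) (k := k) β) =
      G.map (IsScalarTower.toAlgHom K k F) (G.redConst R β) := by
  let P := Classical.arbitrary (Place k F)
  let y := G.map (constToLoc R P) (G.lift β R.V (algebraMap_mem_V R))
  have hy : G.map (intVal F R) (G.map (locToInt R P) y) = G.constPt (F := F) (k := k) β := by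
    rw [G.map_locToInt_locVal, ← G.map_comp, constPt]
    conv_rhs => rw [← G.map_lift β R.V (algebraMap_mem_V R), ← G.map_comp]
    rfl
  rw [G.specPt_eq R hy, ← G.map_comp, ← G.map_comp, redConst, ← G.map_comp]
  refine DFunLike.congr_fun (congrArg G.map (AlgHom.ext fun v => ?_)) _
  show R.intRes F ⟨algebraMap Ω (ConstExt k Ω F) (v : Ω), _⟩ =
    algebraMap k F (R.res ⟨(v : Ω), v.2⟩)
  exact R.intRes_eq ((R.gauss F).algebraMap_mem ⟨(v : Ω), v.2⟩)

theorem specPt_inclPt [Nonempty (Place k F)] (a : G.Pt F) :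
    G.specPt R (G.inclPt (Ω := Ω) (k := k) a) = a := by
  let P := Classical.arbitrary (Place k F)
  let y := G.map (inclToLoc R P) (G.lift a _ (algebraMap_mem_place P))
  have hy : G.map (intVal F R) (G.map (locToInt R P) y) = G.inclPt (Ω := Ω) (k := k) a := by
    rw [G.map_locToInt_locVal, ← G.map_comp, inclPt]
    conv_rhs => rw [← G.map_lift a P.toValuationSubring (algebraMap_mem_place P), ← G.map_comp]
    rfl
  rw [G.specPt_eq R hy, ← G.map_comp, ← G.map_comp]
  conv_rhs => rw [← G.map_lift a P.toValuationSubring (algebraMap_mem_place P)]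
  refine DFunLike.congr_fun (congrArg G.map (AlgHom.ext fun v => ?_)) _
  show R.intRes F ⟨ConstExt.incl k Ω F (v : F), _⟩ = (v : F)
  exact R.intRes_eq (R.gauss_incl (v : F))

/-- The reduction map of a local ring at `P`. -/
def locRes (P : Place k F) :
    R.localRing P →ₐ[K] valAlg P.toValuationSubring (algebraMap_mem_place (K := K) P) :=
  AlgHom.codRestrict (((R.intRes F).restrictScalars K).comp (locToInt R P))
    (valAlg _ _) fun e => by
      obtain ⟨g, hgP, hg, -⟩ := e.2
      show R.intRes F ⟨_, R.localRing_le P e.2⟩ ∈ P.toValuationSubring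
      rw [R.intRes_eq (e := ⟨_, R.localRing_le P e.2⟩) hg]
      exact hgP

/-- The inclusion of a local ring at `P` in the ring of a place above `P`. -/
def locToPlace (Q : Place Ω (ConstExt k Ω F)) :
    R.localRing (R.red Q) →ₐ[K] valAlg Q.toValuationSubring (algebraMap_mem_place (K := K) Q) :=
  AlgHom.codRestrict (locVal R (R.red Q)) (valAlg _ _) fun e => e.2.choose_spec.2.2 Q rfl

theorem gen_centreAtPlace_specPt {x : G.Pt (ConstExt k Ω F)} {P : Place k F}
    {y : G.Pt (R.localRing P)} (hy : G.map (locVal R P) y = x) :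
    G.Gen (G.centreAtPlace (G.specPt R x) P) (G.centre y) := by
  have h : G.lift (G.specPt R x) P.toValuationSubring (algebraMap_mem_place P) =
      G.map (locRes R P) y := by
    refine G.lift_eq _ _ _ _ ?_
    rw [G.specPt_eq R ((G.map_locToInt_locVal R P y).trans hy), ← G.map_comp, ← G.map_comp]
    rfl
  rw [centreAtPlace, centreAt, h]
  exact G.gen_centre _ _

theorem gen_centreAtPlace_of_red {x : G.Pt (ConstExt k Ω F)} (Q : Place Ω (ConstExt k Ω F))
    {y : G.Pt (R.localRing (R.red Q))} (hy : G.map (locVal R (R.red Q)) y = x) :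
    G.Gen (G.centreAtPlace x Q) (G.centre y) := by
  have h : G.lift x Q.toValuationSubring (algebraMap_mem_place Q) = G.map (locToPlace R Q) y := by
    refine G.lift_eq _ _ _ _ ?_
    rw [← G.map_comp, ← hy]
    rfl
  rw [centreAtPlace, centreAt, h]
  exact G.gen_centre _ _

namespace Bundle

variable {G} (B : G.Bundle)

/-- Divisor classes pulled back along good points commute with specialisation. -/
theorem isPrincipal_red_divisor [Nonempty (Place k F)] {x : G.Pt (ConstExt k Ω F)}
    (hx : G.IsGood R x) :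
    Divisor.IsPrincipal ((Finsupp.mapDomain R.red (B.divisor (k := Ω) x) : Divisor k F)
      - B.divisor (k := k) (G.specPt R x)) := by
  classical
  obtain ⟨yW, hyW⟩ := G.exists_intPt R hx
  set xb := G.specPt R x with hxb
  have hxb' : xb = G.map ((R.intRes F).restrictScalars K) yW := G.specPt_eq R hyW
  set w := G.centre x
  set w0 := G.centre xb
  have hcW : G.centre yW = w0 := by
    have := G.centre_map_of_isLocalHom ((R.intRes F).restrictScalars K) R.isLocalHom_intRes yW
    rw [← hxb'] at this
    exact this.symm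
  have hgw : G.Gen w w0 := by
    have := G.gen_centre (intVal F R) yW
    rwa [hyW, hcW] at this
  set u := G.value x (B.s w0 / B.s w)
  have hu : u ≠ 0 := B.value_div_s_ne_zero x hgw
  refine Eq.mp ?_ (R.isPrincipal_mapDomain_red (F := F) (D := divisorOf (K := Ω) u)
    ⟨u, hu, fun v => rfl⟩)
  congr 1
  ext P
  obtain ⟨y, hy⟩ := hx P
  set zP := G.centre y
  have hyW' : G.map (locToInt R P) y = yW :=
    G.map_injective (intVal F R) Subtype.val_injective
      ((G.map_locToInt_locVal R P y).trans (hy.trans hyW.symm))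
  have hg0 : G.Gen w0 zP := by
    have := G.gen_centre (locToInt R P) y
    rwa [hyW', hcW] at this
  set v := B.s zP / B.s w0 with hv
  obtain ⟨hv1, hv2⟩ := B.div_mem hg0
  have hvW : v ∈ G.O (G.centre yW) := by rw [hcW]; exact hv1
  set eP : R.intRing F := G.hom yW ⟨v, hvW⟩
  have hgr : ((eP : ConstExt k Ω F), R.intRes F eP) ∈ (R.gauss F).graph := R.mem_graph eP
  have hval : R.intRes F eP = G.value xb v := by
    rw [hxb', G.value_map_local ((R.intRes F).restrictScalars K) (x := yW) rfl hvW]
    rfl
  have hg_ne : R.intRes F eP ≠ 0 := by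
    rw [hval]; exact B.value_div_s_ne_zero xb hg0
  have hordP : B.divisor (k := k) xb P = P.ord (R.intRes F eP) := by
    rw [hval, Bundle.divisor_apply, B.ord_ratio_eq xb P (G.gen_centreAtPlace_specPt R hy)]
  have hsum : ∀ Q, R.red Q = P →
      B.divisor (k := Ω) x Q = divisorOf (K := Ω) u Q + Q.ord (eP : ConstExt k Ω F) := by
    intro Q hQ
    subst hQ
    have hprod : B.s zP / B.s w = v * (B.s w0 / B.s w) := by
      rw [hv, div_mul_div_cancel₀ (B.s_ne_zero w0)]
    have hm : v ∈ G.O w := G.gen_le hgw hv1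
    rw [Bundle.divisor_apply, B.ord_ratio_eq x Q (G.gen_centreAtPlace_of_red R Q hy),
      divisorOf_apply, hprod, G.value_mul x hm (B.div_mem hgw).1,
      G.value_map_local (intVal F R) hyW hvW]
    change Q.ord ((eP : ConstExt k Ω F) * u) = _
    rw [Q.ord_mul ((R.gauss F).ne_zero_of_mem hgr hg_ne) hu, add_comm]
  have hcongr : ∀ D D' : Divisor Ω (ConstExt k Ω F), (∀ Q, R.red Q = P → D Q = D' Q) →
      Finsupp.mapDomain R.red D P = Finsupp.mapDomain R.red D' P := by
    intro D D' h
    simp only [Finsupp.mapDomain, Finsupp.sum, Finsupp.finset_sum_apply, Finsupp.single_apply]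
    rw [Finset.sum_subset (s₁ := D.support) (s₂ := D.support ∪ D'.support)
        Finset.subset_union_left (fun Q _ hQ => by simp [Finsupp.notMem_support_iff.mp hQ]),
      Finset.sum_subset (s₁ := D'.support) (s₂ := D.support ∪ D'.support)
        Finset.subset_union_right (fun Q _ hQ => by simp [Finsupp.notMem_support_iff.mp hQ])]
    refine Finset.sum_congr rfl fun Q _ => ?_
    split_ifs with hQ
    · exact h Q hQ
    · rfl
  have h := hcongr (B.divisor (k := Ω) x)
    (divisorOf (K := Ω) u + divisorOf (K := Ω) (eP : ConstExt k Ω F)) fun Q hQ => by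
      rw [hsum Q hQ, Finsupp.add_apply]
      rfl
  rw [Finsupp.mapDomain_add, Finsupp.add_apply,
    R.placeCompat_red (eP : ConstExt k Ω F) (R.intRes F eP) hgr hg_ne
      (divisorOf (K := Ω) (eP : ConstExt k Ω F)) (fun Q => rfl) P] at h
  rw [Finsupp.sub_apply, h, hordP]
  ring

end Bundle

end GroupVariety

end Fermat.Agent.Abelian
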