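import Fermat.Agent.Abelian.Independence
import Fermat.Agent.Abelian.SpecPoints
import Fermat.Agent.Reduction.ConstReduction.Eval

/-!
# Evaluation of points at rational places; the diagonal and constant sections

Team S26, contract by helper99.
-/

set_option autoImplicit false
set_option linter.unusedSectionVars false
set_option linter.style.haveILetI false

noncomputable section

universe u

open AlgebraicCurve TensorProduct

namespace Fermat.Agent.Abelian

open Fermat.Agent.Curve GroupVariety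

variable {K : Type u} [Field K]

namespace GroupVariety

section EvalPt

variable (G : GroupVariety K)
variable {k L : Type u} [Field k] [IsAlgClosed k] [Field L] [Algebra K k] [Algebra k L]
  [Algebra K L] [IsScalarTower K k L] [IsFunctionField1 k L]

/-- Evaluation at a place, over `K`. -/
def evalPlace (Q : Place k L) :
    valAlg Q.toValuationSubring (algebraMap_mem_place (K := K) Q) →ₐ[K] k where
  toFun f := evalAt Q (f : L)
  map_one' := Reduction.ConstRed.evalAt_one Q
  map_mul' f g := Reduction.ConstRed.evalAt_mul Q f.2 g.2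
  map_zero' := Reduction.ConstRed.evalAt_zero Q
  map_add' f g := Reduction.ConstRed.evalAt_add Q f.2 g.2
  commutes' a := by
    show evalAt Q (algebraMap K L a) = algebraMap K k a
    rw [IsScalarTower.algebraMap_apply K k L, Reduction.ConstRed.evalAt_algebraMap]

/-- The value of a point at a place. -/
def ptAt (Q : Place k L) : G.Pt L → G.Pt k := fun x =>
  G.map (evalPlace Q) (G.lift x Q.toValuationSubring (algebraMap_mem_place Q))

theorem ptAt_add (Q : Place k L) (x x' : G.Pt L) : G.ptAt Q (x + x') = G.ptAt Q x + G.ptAt Q x' := by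
  rw [ptAt, ptAt, ptAt, ← map_add, G.lift_eq _ _ _ (G.lift x _ _ + G.lift x' _ _)]
  rw [map_add, G.map_lift, G.map_lift]

theorem isLocalHom_evalPlace (Q : Place k L) :
    IsLocalHom (evalPlace (K := K) Q).toRingHom := by
  refine ⟨fun f hf => ?_⟩
  obtain ⟨h0, hord⟩ := (Reduction.ConstRed.evalAt_ne_zero_iff Q f.2).mp hf.ne_zero
  have hi : (f : L)⁻¹ ∈ Q.toValuationSubring :=
    Fermat.Agent.Curve.mem_of_ord_nonneg Q (by rw [Q.ord_inv, hord, neg_zero])
  exact IsUnit.of_mul_eq_one ⟨_, hi⟩ (Subtype.ext (mul_inv_cancel₀ h0))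

theorem centre_ptAt (Q : Place k L) (x : G.Pt L) :
    G.centre (G.ptAt Q x) = G.centreAtPlace x Q :=
  G.centre_map_of_isLocalHom _ (isLocalHom_evalPlace Q) _

/-- The value at the value of a point. -/
theorem value_ptAt (Q : Place k L) (x : G.Pt L) {t : G.Func}
    (ht : t ∈ G.O (G.centreAtPlace x Q)) :
    G.value (G.ptAt Q x) t = evalAt Q (G.value x t) := by
  rw [G.value_eq_hom_lift x Q.toValuationSubring (algebraMap_mem_place Q) ht]
  exact G.value_map_local (evalPlace Q) rfl ht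

theorem ptAt_eq_zero_iff (Q : Place k L) (x : G.Pt L) :
    G.ptAt Q x = 0 ↔ G.centreAtPlace x Q = G.centre (0 : G.Pt K) := by
  rw [← G.centre_ptAt]
  exact ⟨fun h => by rw [h, G.centre_zero], fun h => G.eq_zero_of_centre_eq h⟩

/-- The value at a place is additive. -/
def ptAtHom (Q : Place k L) : G.Pt L →+ G.Pt k :=
  AddMonoidHom.mk' (G.ptAt Q) (G.ptAt_add Q)

/-- The value of a point which is defined in a ring mapping into the ring of a place. -/
theorem ptAt_eq_map (Q : Place k L) {T : Type u} [CommRing T] [Algebra K T]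
    (φ : T →ₐ[K] L) (hφ : ∀ t, φ t ∈ Q.toValuationSubring) (y : G.Pt T) :
    G.ptAt Q (G.map φ y) =
      G.map ((evalPlace Q).comp (φ.codRestrict (valAlg _ (algebraMap_mem_place Q)) hφ)) y := by
  rw [ptAt, G.lift_eq _ _ _ (G.map (φ.codRestrict (valAlg _ (algebraMap_mem_place Q)) hφ) y)
    (by rw [← G.map_comp]; rfl), ← G.map_comp]

end EvalPt

variable (G : GroupVariety K)
variable {k F : Type u} [Field k] [IsAlgClosed k] [Field F] [Algebra K k] [Algebra k F] [Algebra K F]
  [IsScalarTower K k F] [IsFunctionField1 k F]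
variable {Ω : Type u} [Field Ω] [Algebra k Ω] [Algebra K Ω] [IsScalarTower K k Ω] [IsAlgClosed Ω]

theorem ptAt_constPt (Q : Place Ω (ConstExt k Ω F)) (β : G.Pt Ω) :
    G.ptAt Q (G.constPt (F := F) (k := k) β) = β := by
  rw [constPt, G.ptAt_eq_map Q _ (fun t => Q.algebraMap_mem' t)]
  conv_rhs => rw [← G.map_id β]
  refine DFunLike.congr_fun (congrArg G.map (AlgHom.ext fun t => ?_)) _
  exact Reduction.ConstRed.evalAt_algebraMap Q t

theorem ptAt_inclPt_of_diag (j : F →ₐ[k] Ω) (Q : Place Ω (ConstExt k Ω F))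
    (hQ : ∀ f : F, ConstExt.incl k Ω F f ∈ Q.toValuationSubring ∧
      evalAt Q (ConstExt.incl k Ω F f) = j f) (a : G.Pt F) :
    G.ptAt Q (G.inclPt (Ω := Ω) (k := k) a) = G.map (j.restrictScalars K) a := by
  rw [inclPt, G.ptAt_eq_map Q _ (fun f => (hQ f).1)]
  exact DFunLike.congr_fun (congrArg G.map (AlgHom.ext fun f => (hQ f).2)) _

theorem ptAt_inclPt_of_const (P₀ : Place k F) (Q : Place Ω (ConstExt k Ω F))
    (hQ : ∀ f ∈ P₀.toValuationSubring, ConstExt.incl k Ω F f ∈ Q.toValuationSubring ∧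
      evalAt Q (ConstExt.incl k Ω F f) = algebraMap k Ω (evalAt P₀ f)) (a : G.Pt F) :
    G.ptAt Q (G.inclPt (Ω := Ω) (k := k) a) =
      G.map (IsScalarTower.toAlgHom K k Ω) (G.ptAt P₀ a) := by
  conv_lhs =>
    rw [inclPt, ← G.map_lift a P₀.toValuationSubring (algebraMap_mem_place P₀), ← G.map_comp]
  rw [G.ptAt_eq_map Q _ (fun f : valAlg _ _ => (hQ (f : F) f.2).1), ptAt, ← G.map_comp]
  exact DFunLike.congr_fun
    (congrArg G.map (AlgHom.ext fun f : valAlg _ _ => (hQ (f : F) f.2).2)) _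

end GroupVariety

namespace ConstExt

variable {k F : Type u} [Field k] [IsAlgClosed k] [Field F] [Algebra k F] [IsFunctionField1 k F]
variable {Ω : Type u} [Field Ω] [Algebra k Ω] [IsAlgClosed Ω]

/-- The diagonal section. -/
theorem exists_diagPlace (j : F →ₐ[k] Ω) :
    ∃ Q : Place Ω (ConstExt k Ω F), ∀ f : F, ConstExt.incl k Ω F f ∈ Q.toValuationSubring ∧
      evalAt Q (ConstExt.incl k Ω F f) = j f := by
  let Φ : Ω ⊗[k] F →ₐ[Ω] Ω :=
    Algebra.TensorProduct.lift (Algebra.ofId Ω Ω) j fun _ _ => Commute.all _ _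
  set p := RingHom.ker Φ.toRingHom
  haveI : p.IsPrime := RingHom.ker_isPrime _
  let ι : Localization.AtPrime p →+* ConstExt k Ω F :=
    IsLocalization.lift (M := p.primeCompl) (g := algebraMap (Ω ⊗[k] F) (ConstExt k Ω F))
      fun t => isUnit_iff_ne_zero.mpr fun h => t.2 (by
        rw [map_eq_zero_iff _ (IsFractionRing.injective (Ω ⊗[k] F) (ConstExt k Ω F))] at h
        rw [h]; exact p.zero_mem)
  obtain ⟨A, hA, hloc⟩ := IsLocalRing.exists_factor_valuationRing ι
  have himg : ∀ t, algebraMap (Ω ⊗[k] F) (ConstExt k Ω F) t ∈ A := fun t => by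
    have := hA (algebraMap _ (Localization.AtPrime p) t)
    rwa [IsLocalization.lift_eq] at this
  have hker : ∀ t ∈ p, ∀ u : A, (u : ConstExt k Ω F) = algebraMap (Ω ⊗[k] F) _ t →
      ¬ IsUnit u := by
    intro t ht u hu hunit
    have h1 : IsUnit ((ι.codRestrict A.toSubring hA) (algebraMap _ (Localization.AtPrime p) t)) := by
      have he : (ι.codRestrict A.toSubring hA) (algebraMap _ (Localization.AtPrime p) t) = u :=
        Subtype.ext (by rw [hu]; exact IsLocalization.lift_eq _ t)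
      rw [he]; exact hunit
    exact (IsLocalization.AtPrime.isUnit_to_map_iff (Localization.AtPrime p) p t).mp
      (hloc.map_nonunit _ h1) ht
  have hsub : ∀ f : F, (1 : Ω) ⊗ₜ[k] f - algebraMap Ω (Ω ⊗[k] F) (j f) ∈ p := fun f => by
    rw [RingHom.mem_ker, map_sub, sub_eq_zero]
    show Φ ((1 : Ω) ⊗ₜ[k] f) = Φ (algebraMap Ω _ (j f))
    rw [Φ.commutes]
    simp [Φ]
  have hsubE : ∀ f : F, algebraMap (Ω ⊗[k] F) (ConstExt k Ω F)
      ((1 : Ω) ⊗ₜ[k] f - algebraMap Ω (Ω ⊗[k] F) (j f)) =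
      incl k Ω F f - algebraMap Ω (ConstExt k Ω F) (j f) := fun f => by
    rw [map_sub, ← IsScalarTower.algebraMap_apply]
    rfl
  have hK : ∀ w : Ω, algebraMap Ω (ConstExt k Ω F) w ∈ A := fun w => by
    rw [IsScalarTower.algebraMap_apply Ω (Ω ⊗[k] F) (ConstExt k Ω F)]
    exact himg _
  have hne : A ≠ ⊤ := by
    intro htop
    obtain ⟨f, hf, -⟩ := IsFunctionField1.exists_transcendental' (K := k) (F := F)
    letI : Algebra F (ConstExt k Ω F) := (incl k Ω F).toRingHom.toAlgebra
    haveI : IsScalarTower k F (ConstExt k Ω F) :=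
      IsScalarTower.of_algebraMap_eq fun a => ((incl k Ω F).commutes a).symm
    have htr : Transcendental Ω (incl k Ω F f) :=
      transcendental_constExt (L := Ω) (F' := ConstExt k Ω F)
        (fun _ _ h => linearIndependent_incl h) hf
    set t := algebraMap (Ω ⊗[k] F) (ConstExt k Ω F)
      ((1 : Ω) ⊗ₜ[k] f - algebraMap Ω (Ω ⊗[k] F) (j f)) with ht
    have ht0 : t ≠ 0 := fun h => htr (by
      rw [ht, hsubE, sub_eq_zero] at h
      rw [h]; exact isAlgebraic_algebraMap _)
    exact hker _ (hsub f) ⟨t, himg _⟩ rfl (IsUnit.of_mul_eq_one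
      ⟨t⁻¹, htop ▸ trivial⟩ (Subtype.ext (mul_inv_cancel₀ ht0)))
  refine ⟨placeOfValuationSubring A hK hne, fun f => ⟨himg (1 ⊗ₜ f), evalAt_eq ?_⟩⟩
  have hmem : (⟨_, himg ((1 : Ω) ⊗ₜ[k] f - algebraMap Ω (Ω ⊗[k] F) (j f))⟩ :
      (placeOfValuationSubring A hK hne).toValuationSubring) ∈
      IsLocalRing.maximalIdeal (placeOfValuationSubring A hK hne).toValuationSubring :=
    hker _ (hsub f) _ rfl
  have h2 := mem_maximalIdeal_iff.mp hmem
  simp only [hsubE] at h2
  exact (ordGE_iff _).mpr (h2.imp id (by omega))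

/-- The constant section through a place of `F`. -/
theorem exists_constPlace (R : ResidueDatum k Ω) (P₀ : Place k F) :
    ∃ Q : Place Ω (ConstExt k Ω F), ∀ f ∈ P₀.toValuationSubring,
      ConstExt.incl k Ω F f ∈ Q.toValuationSubring ∧
      evalAt Q (ConstExt.incl k Ω F f) = algebraMap k Ω (evalAt P₀ f) := by
  obtain ⟨s, hs, hpole⟩ := exists_unique_pole P₀
  letI : Algebra F (ConstExt k Ω F) := (incl k Ω F).toRingHom.toAlgebra
  haveI : IsScalarTower k F (ConstExt k Ω F) :=
    IsScalarTower.of_algebraMap_eq fun a => ((incl k Ω F).commutes a).symm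
  have htr : Transcendental Ω (incl k Ω F s) :=
    transcendental_constExt (L := Ω) (F' := ConstExt k Ω F)
      (fun _ _ h => linearIndependent_incl h) hs
  obtain ⟨Q, hQ⟩ := exists_place_ord_pos (K := Ω) (f := (incl k Ω F s)⁻¹)
    fun h => htr (by simpa using h.inv)
  rw [Q.ord_inv] at hQ
  have hred : R.red Q = P₀ := by
    by_contra hne
    have hm : s ∈ (R.red Q).toValuationSubring := Fermat.Agent.Curve.mem_of_ord_nonneg _
      (not_lt.mp fun h => hne ((hpole _).mp h))
    have := Fermat.Agent.Curve.ord_nonneg_of_mem Q (R.incl_mem_of_mem_red hm)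
    omega
  subst hred
  refine ⟨Q, fun f hf => ⟨R.incl_mem_of_mem_red hf, evalAt_eq ?_⟩⟩
  set c := evalAt (R.red Q) f
  have he : incl k Ω F f - algebraMap Ω (ConstExt k Ω F) (algebraMap k Ω c) =
      incl k Ω F (f - algebraMap k F c) := by
    rw [map_sub, AlgHom.commutes, ← IsScalarTower.algebraMap_apply]
  rw [he]
  rcases evalAt_spec (R.red Q) hf with h | h
  · rw [h, map_zero]; exact ordGE_zero _
  set g := f - algebraMap k F c with hg
  have hg0 : g ≠ 0 := fun h0 => by rw [h0, (R.red Q).ord_zero] at h; omega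
  have hs0 : s ≠ 0 := fun h0 => hs (h0 ▸ isAlgebraic_zero)
  set M := (-(R.red Q).ord s).toNat
  have hmem : g ^ M * s ∈ (R.red Q).toValuationSubring := by
    refine Fermat.Agent.Curve.mem_of_ord_nonneg _ ?_
    rw [(R.red Q).ord_mul (pow_ne_zero _ hg0) hs0, ord_pow]
    have : (M : ℤ) ≤ M * (R.red Q).ord g := le_mul_of_one_le_right (by positivity) (by omega)
    omega
  have h1 := Fermat.Agent.Curve.ord_nonneg_of_mem Q (R.incl_mem_of_mem_red hmem)
  rw [map_mul, map_pow, Q.ord_mul (pow_ne_zero _ ((map_ne_zero _).mpr hg0))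
    ((map_ne_zero _).mpr hs0), ord_pow] at h1
  refine ordGE_of_le_ord ?_
  by_contra hlt
  have := mul_nonpos_of_nonneg_of_nonpos (Int.natCast_nonneg M)
    (show Q.ord (incl k Ω F g) ≤ 0 by omega)
  omega

end ConstExt

/-! ### Products of integer powers -/

theorem ord_prod_zpow {L : Type*} [Field L] {κ : Type*} [Field κ] [Algebra κ L] (v : Place κ L)
    {ι : Type*} (s : Finset ι) (m : ι → ℤ) {f : ι → L} (hf : ∀ i, f i ≠ 0) :
    v.ord (∏ i ∈ s, f i ^ m i) = ∑ i ∈ s, m i * v.ord (f i) := by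
  classical
  induction s using Finset.induction_on with
  | empty => rw [Finset.prod_empty, Finset.sum_empty, v.ord_one]
  | insert i s hi ih =>
    rw [Finset.prod_insert hi, Finset.sum_insert hi, v.ord_mul (zpow_ne_zero _ (hf i))
      (Finset.prod_ne_zero_iff.mpr fun j _ => zpow_ne_zero _ (hf j)), v.ord_zpow, ih]

theorem evalAt_zpow' {κ L : Type*} [Field κ] [IsAlgClosed κ] [Field L] [Algebra κ L]
    [IsFunctionField1 κ L] (v : Place κ L) {f : L} (hf : v.ord f = 0) (m : ℤ) :
    evalAt v (f ^ m) = evalAt v f ^ m := by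
  rcases eq_or_ne f 0 with rfl | hf0
  · rcases eq_or_ne m 0 with rfl | hm
    · rw [zpow_zero, zpow_zero, Reduction.ConstRed.evalAt_one]
    · rw [zero_zpow m hm, Reduction.ConstRed.evalAt_zero, zero_zpow m hm]
  have hm : f ∈ v.toValuationSubring := Fermat.Agent.Curve.mem_of_ord_nonneg v hf.ge
  have hi : f⁻¹ ∈ v.toValuationSubring :=
    Fermat.Agent.Curve.mem_of_ord_nonneg v (by rw [v.ord_inv, hf, neg_zero])
  have hinv : evalAt v f⁻¹ = (evalAt v f)⁻¹ := by
    refine eq_inv_of_mul_eq_one_left ?_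
    rw [← Reduction.ConstRed.evalAt_mul v hi hm, inv_mul_cancel₀ hf0,
      Reduction.ConstRed.evalAt_one]
  cases m with
  | ofNat n => rw [Int.ofNat_eq_natCast, zpow_natCast, zpow_natCast,
      Reduction.ConstRed.evalAt_pow v hm]
  | negSucc n => rw [zpow_negSucc, zpow_negSucc, ← inv_pow, Reduction.ConstRed.evalAt_pow v hi,
      hinv, inv_pow]

theorem evalAt_prod_zpow {κ L : Type*} [Field κ] [IsAlgClosed κ] [Field L] [Algebra κ L]
    [IsFunctionField1 κ L] (v : Place κ L) {ι : Type*} (s : Finset ι) (m : ι → ℤ) {f : ι → L}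
    (hf : ∀ i, f i ≠ 0) (hord : ∀ i, v.ord (f i) = 0) :
    evalAt v (∏ i ∈ s, f i ^ m i) = ∏ i ∈ s, evalAt v (f i) ^ m i := by
  classical
  induction s using Finset.induction_on with
  | empty => rw [Finset.prod_empty, Finset.prod_empty, Reduction.ConstRed.evalAt_one]
  | insert i s hi ih =>
    rw [Finset.prod_insert hi, Finset.prod_insert hi, Reduction.ConstRed.evalAt_mul v
      (Fermat.Agent.Curve.mem_of_ord_nonneg v (by rw [v.ord_zpow, hord i, mul_zero]))
      (Fermat.Agent.Curve.mem_of_ord_nonneg v (le_of_eq (by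
        rw [ord_prod_zpow v s m hf]
        exact (Finset.sum_eq_zero fun j _ => by rw [hord j, mul_zero]).symm))),
      evalAt_zpow' v (hord i), ih]

namespace ResidueDatum

variable {k F : Type u} [Field k] [IsAlgClosed k] [Field F] [Algebra k F] [IsFunctionField1 k F]
variable {Ω : Type u} [Field Ω] [Algebra k Ω] [IsAlgClosed Ω] (R : ResidueDatum k Ω)

theorem gauss_prod_zpow {ι : Type*} (s : Finset ι) (m : ι → ℤ) {e : ι → ConstExt k Ω F}
    {g : ι → F} (h : ∀ i, (e i, g i) ∈ (R.gauss F).graph) (hg : ∀ i, g i ≠ 0) :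
    (∏ i ∈ s, e i ^ m i, ∏ i ∈ s, g i ^ m i) ∈ (R.gauss F).graph := by
  classical
  induction s using Finset.induction_on with
  | empty =>
    rw [Finset.prod_empty, Finset.prod_empty, Prod.mk_one_one]
    exact (R.gauss F).graph.one_mem
  | insert i s hi ih =>
    rw [Finset.prod_insert hi, Finset.prod_insert hi, ← Prod.mk_mul_mk]
    refine (R.gauss F).graph.mul_mem ?_ ih
    cases m i with
    | ofNat n =>
      rw [Int.ofNat_eq_natCast, zpow_natCast, zpow_natCast]
      exact pow_mem (h i) n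
    | negSucc n =>
      rw [zpow_negSucc, zpow_negSucc, ← inv_pow, ← inv_pow]
      exact pow_mem (R.gauss_inv (h i) (hg i)) (n + 1)

/-- Evaluation of the local ring below a place, over `K`. -/
def locEval {K : Type u} [Field K] [Algebra K k] [Algebra K F] [Algebra K Ω]
    [IsScalarTower K k Ω] [IsScalarTower K k F] (Q : Place Ω (ConstExt k Ω F)) :
    R.localRing (R.red Q) →ₐ[K] valAlg R.V (algebraMap_mem_V (K := K) R) :=
  AlgHom.codRestrict ((evalPlace Q).comp (locToPlace R Q)) (valAlg _ _) fun e => by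
    obtain ⟨g, -, hg, hreg⟩ := e.2
    exact (R.eval_red hg Q hreg).1

theorem isLocalHom_locEval {K : Type u} [Field K] [Algebra K k] [Algebra K F] [Algebra K Ω]
    [IsScalarTower K k Ω] [IsScalarTower K k F] (Q : Place Ω (ConstExt k Ω F)) :
    IsLocalHom (R.locEval (K := K) Q).toRingHom := by
  refine ⟨fun e he => ?_⟩
  obtain ⟨g, hgP, hg, hreg⟩ := e.2
  obtain ⟨hv, hres⟩ := R.eval_red hg Q hreg
  obtain ⟨b, hb⟩ := he.exists_right_inv
  have h1 : (⟨_, hv⟩ : R.V) * ⟨(b : Ω), b.2⟩ = 1 := Subtype.ext (congrArg Subtype.val hb :)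
  have h2 := congrArg R.res h1
  rw [map_mul, map_one, hres] at h2
  exact (R.isUnit_localRing_iff e hg).mpr
    ((Reduction.ConstRed.evalAt_ne_zero_iff (R.red Q) hgP).mp (left_ne_zero_of_mul_eq_one h2))

/-- An element of a smaller function field integral in `V` is regular at the traced place. -/
theorem mem_place_of_mem_V {L : Type u} [Field L] [Algebra k L] [Algebra L Ω]
    [IsFunctionField1 k L] (v : Place k L)
    (hR : ∀ x : L, x ∈ v.toValuationSubring →
      ∃ h : algebraMap L Ω x ∈ R.V, R.res ⟨_, h⟩ = evalAt v x)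
    {x : L} (hx : algebraMap L Ω x ∈ R.V) : x ∈ v.toValuationSubring := by
  by_contra hx'
  obtain ⟨hord, hx0, hi⟩ := ord_pos_inv_of_not_mem v hx'
  obtain ⟨h, hres⟩ := hR x⁻¹ hi
  rw [evalAt_eq_zero_of_ord_pos v hord] at hres
  have h1 : (⟨_, hx⟩ : R.V) * ⟨_, h⟩ = 1 :=
    Subtype.ext (by
      show algebraMap L Ω x * algebraMap L Ω x⁻¹ = 1
      rw [← map_mul, mul_inv_cancel₀ hx0, map_one])
  have h2 := congrArg R.res h1
  rw [map_mul, map_one, hres, mul_zero] at h2
  exact zero_ne_one h2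

end ResidueDatum

namespace GroupVariety.Bundle

variable {G : GroupVariety K}
variable {k F : Type u} [Field k] [IsAlgClosed k] [Field F] [Algebra K k] [Algebra k F] [Algebra K F]
  [IsScalarTower K k F] [IsFunctionField1 k F]
variable {Ω : Type u} [Field Ω] [Algebra k Ω] [Algebra K Ω] [IsScalarTower K k Ω] [IsAlgClosed Ω]
variable (B : G.Bundle)

set_option maxHeartbeats 1600000 in
-- a long computation with local equations
/-- Up to one scalar, the value of the principal function and of the local equations on `V`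
differ by units, at every section. -/
theorem exists_const_unit (R : ResidueDatum k Ω) {ι : Type} [Fintype ι]
    (x : ι → G.Pt (ConstExt k Ω F)) (hx : ∀ i, G.IsGood R (x i)) (m : ι → ℤ)
    {f₀ : ConstExt k Ω F} (hf₀ : f₀ ≠ 0)
    (hD : ∀ Q, (∑ i, m i • B.divisor (k := Ω) (x i)) Q = Q.ord f₀) :
    ∃ c : Ω, c ≠ 0 ∧ ∀ Q : Place Ω (ConstExt k Ω F),
      ∃ q : Ω, q = c * evalAt Q (f₀ / ∏ i, B.ratio (x i) Q ^ m i) /
          ∏ i, G.value (G.ptAt Q (x i))
            (B.s (G.centreAt (G.ptAt Q (x i)) R.V (algebraMap_mem_V R)) /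
              B.s (G.centre (G.ptAt Q (x i)))) ^ m i ∧
        q ≠ 0 ∧ q ∈ R.V ∧ q⁻¹ ∈ R.V := by
  classical
  haveI : Nonempty (Place k F) := exists_place (K := k) (F := F)
  have hsum : ∀ (Q : Place Ω (ConstExt k Ω F)),
      Q.ord f₀ = ∑ i, m i * Q.ord (B.ratio (x i) Q) := fun Q => by
    rw [← hD Q, Finsupp.finsetSum_apply]
    exact Finset.sum_congr rfl fun i _ => by
      rw [Finsupp.smul_apply, smul_eq_mul, Bundle.divisor_apply]
  choose yW hyW using fun i => G.exists_intPt R (hx i)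
  set w := fun i => G.centre (x i)
  set w0 := fun i => G.centre (G.specPt R (x i))
  have hcW : ∀ i, G.centre (yW i) = w0 i := fun i => by
    have := G.centre_map_of_isLocalHom ((R.intRes F).restrictScalars K) R.isLocalHom_intRes (yW i)
    rw [← G.specPt_eq R (hyW i)] at this
    exact this.symm
  have hgw : ∀ i, G.Gen (w i) (w0 i) := fun i => by
    have := G.gen_centre (intVal F R) (yW i)
    rwa [hyW i, hcW i] at this
  set u := fun i => G.value (x i) (B.s (w0 i) / B.s (w i))
  have hu : ∀ i, u i ≠ 0 := fun i => B.value_div_s_ne_zero (x i) (hgw i)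
  have hU : (∏ i, u i ^ m i) ≠ 0 := Finset.prod_ne_zero_iff.mpr fun i _ => zpow_ne_zero _ (hu i)
  obtain ⟨c, hc, g₀, hg₀, hcg⟩ := (R.gauss F).exists_smul (div_ne_zero hf₀ hU)
  refine ⟨c, hc, fun Q => ⟨_, rfl, ?_⟩⟩
  set P := R.red Q
  choose y hy using fun i => hx i P
  set z := fun i => G.centre (y i)
  have hyW' : ∀ i, G.map (locToInt R P) (y i) = yW i := fun i =>
    G.map_injective (intVal F R) Subtype.val_injective
      ((G.map_locToInt_locVal R P (y i)).trans ((hy i).trans (hyW i).symm))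
  have hg0 : ∀ i, G.Gen (w0 i) (z i) := fun i => by
    have := G.gen_centre (locToInt R P) (y i)
    rwa [hyW' i, hcW i] at this
  set e := fun i => G.value (x i) (B.s (z i) / B.s (w i))
  have hev : ∀ i, ∃ eP : R.intRing F, e i = (eP : ConstExt k Ω F) * u i ∧
      R.intRes F eP ≠ 0 := fun i => by
    obtain ⟨hv1, -⟩ := B.div_mem (hg0 i)
    have hvW : B.s (z i) / B.s (w0 i) ∈ G.O (G.centre (yW i)) := by rw [hcW i]; exact hv1
    refine ⟨G.hom (yW i) ⟨_, hvW⟩, ?_, ?_⟩
    · have hprod : B.s (z i) / B.s (w i) =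
          (B.s (z i) / B.s (w0 i)) * (B.s (w0 i) / B.s (w i)) :=
        (div_mul_div_cancel₀ (B.s_ne_zero _)).symm
      show G.value (x i) _ = _
      rw [hprod, G.value_mul (x i) (G.gen_le (hgw i) hv1) (B.div_mem (hgw i)).1,
        G.value_map_local (intVal F R) (hyW i) hvW]
      rfl
    · have hval : R.intRes F (G.hom (yW i) ⟨_, hvW⟩) =
          G.value (G.specPt R (x i)) (B.s (z i) / B.s (w0 i)) := by
        rw [G.specPt_eq R (hyW i),
          G.value_map_local ((R.intRes F).restrictScalars K) (x := yW i) rfl hvW]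
        rfl
      rw [hval]
      exact B.value_div_s_ne_zero _ (hg0 i)
  choose eP he heP using hev
  -- the modified function is a unit of the local ring below `Q`
  set Φ := (c • (f₀ / ∏ i, u i ^ m i)) / ∏ i, (eP i : ConstExt k Ω F) ^ m i
  have hΦ : (Φ, g₀ * (∏ i, R.intRes F (eP i) ^ m i)⁻¹) ∈ (R.gauss F).graph := by
    rw [show Φ = c • (f₀ / ∏ i, u i ^ m i) * (∏ i, (eP i : ConstExt k Ω F) ^ m i)⁻¹ from
      div_eq_mul_inv _ _]
    exact (R.gauss F).graph.mul_mem hcg (R.gauss_inv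
      (R.gauss_prod_zpow _ m (fun i => R.mem_graph (eP i)) heP)
      (Finset.prod_ne_zero_iff.mpr fun i _ => zpow_ne_zero _ (heP i)))
  set g := g₀ * (∏ i, R.intRes F (eP i) ^ m i)⁻¹
  have hg : g ≠ 0 := mul_ne_zero hg₀ (inv_ne_zero
    (Finset.prod_ne_zero_iff.mpr fun i _ => zpow_ne_zero _ (heP i)))
  have he0 : ∀ i, e i ≠ 0 := fun i => by
    rw [he i]
    exact mul_ne_zero ((R.gauss F).ne_zero_of_mem (R.mem_graph (eP i)) (heP i)) (hu i)
  have hΦ' : Φ = c • (f₀ / ∏ i, e i ^ m i) := by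
    simp only [Φ, he, mul_zpow, Finset.prod_mul_distrib]
    rw [smul_div_assoc, div_div, mul_comm]
  have hE : (∏ i, e i ^ m i) ≠ 0 := Finset.prod_ne_zero_iff.mpr fun i _ => zpow_ne_zero _ (he0 i)
  have hord : ∀ Q', R.red Q' = P → Q'.ord Φ = 0 := fun Q' hQ' => by
    rw [hΦ', Reduction.ord_smul_of_ne_zero hc, Fermat.Agent.Curve.ord_div Q' hf₀ hE,
      ord_prod_zpow Q' _ m he0, hsum Q', sub_eq_zero]
    refine Finset.sum_congr rfl fun i _ => congrArg (m i * ·) ?_
    have hgen : G.Gen (G.centreAtPlace (x i) Q') (z i) := by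
      obtain ⟨y', hy'⟩ : ∃ y' : G.Pt (R.localRing (R.red Q')),
          G.map (locVal R (R.red Q')) y' = x i ∧ G.centre y' = z i := by
        rw [hQ']; exact ⟨y i, hy i, rfl⟩
      rw [← hy'.2]
      exact G.gen_centreAtPlace_of_red R Q' hy'.1
    exact B.ord_ratio_eq (x i) Q' hgen
  have hΦ0 : Φ ≠ 0 := (R.gauss F).ne_zero_of_mem hΦ hg
  have hPg : P.ord g = 0 := by
    have h1 := R.ord_le_ord_red hΦ hg (Q := Q) fun Q' hQ' => (hord Q' hQ').ge
    have h2 := R.ord_le_ord_red (R.gauss_inv hΦ hg) (inv_ne_zero hg) (Q := Q)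
      fun Q' hQ' => by rw [Q'.ord_inv, hord Q' hQ', neg_zero]
    rw [hord Q rfl] at h1
    rw [Q.ord_inv, hord Q rfl, (R.red Q).ord_inv] at h2
    show (R.red Q).ord g = 0
    omega
  have hmem : Φ ∈ R.localRing P := ⟨g, Fermat.Agent.Curve.mem_of_ord_nonneg P hPg.ge, hΦ,
    fun Q' hQ' => Fermat.Agent.Curve.mem_of_ord_nonneg Q' (hord Q' hQ').ge⟩
  have hunit : IsUnit (R.locEval (K := K) Q ⟨Φ, hmem⟩) :=
    ((R.isUnit_localRing_iff ⟨Φ, hmem⟩ hΦ).mpr ⟨hg, hPg⟩).map _
  -- its value
  have hlift : ∀ i, G.lift (G.ptAt Q (x i)) R.V (algebraMap_mem_V R) =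
      G.map (R.locEval (K := K) Q) (y i) := fun i => by
    refine G.lift_eq _ _ _ _ ?_
    rw [ptAt, G.lift_eq (x i) Q.toValuationSubring (algebraMap_mem_place Q)
      (G.map (locToPlace R Q) (y i)) (by rw [← G.map_comp, ← hy i]; rfl), ← G.map_comp,
      ← G.map_comp]
    rfl
  have hz : ∀ i, G.centreAt (G.ptAt Q (x i)) R.V (algebraMap_mem_V R) = z i := fun i => by
    rw [centreAt, hlift i]
    exact G.centre_map_of_isLocalHom _ (R.isLocalHom_locEval Q) _
  set zQ := fun i => G.centreAtPlace (x i) Q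
  have hgQ : ∀ i, G.Gen (zQ i) (z i) := fun i => G.gen_centreAtPlace_of_red R Q (hy i)
  set η := fun i => G.value (x i) (B.s (z i) / B.s (zQ i))
  have hη : ∀ i, e i = η i * B.ratio (x i) Q := fun i => by
    show G.value (x i) _ = _ * G.value (x i) (B.s (zQ i) / B.s (w i))
    refine (congrArg (G.value (x i))
      (div_mul_div_cancel₀ (B.s_ne_zero (zQ i))).symm).trans ?_
    exact G.value_mul (x i) (G.mem_centre_of_mem_centreAt (x i) _ (algebraMap_mem_place Q)
      (B.div_mem (hgQ i)).1) (B.div_mem (G.gen_centreAt (x i) _ (algebraMap_mem_place Q))).1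
  have hη0 : ∀ i, η i ≠ 0 := fun i => left_ne_zero_of_mul (hη i ▸ he0 i)
  have hηord : ∀ i, Q.ord (η i) = 0 := fun i => by
    have := B.ord_ratio_eq (x i) Q (hgQ i)
    change Q.ord (B.ratio (x i) Q) = Q.ord (e i) at this
    rw [hη i, Q.ord_mul (hη0 i) (B.ratio_ne_zero (x i) Q)] at this
    omega
  have hηval : ∀ i, evalAt Q (η i) = G.value (G.ptAt Q (x i))
      (B.s (G.centreAt (G.ptAt Q (x i)) R.V (algebraMap_mem_V R)) /
        B.s (G.centre (G.ptAt Q (x i)))) := fun i => by
    rw [hz i, G.centre_ptAt Q (x i)]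
    exact (G.value_ptAt Q (x i) (B.div_mem (hgQ i)).1).symm
  set φ := f₀ / ∏ i, B.ratio (x i) Q ^ m i
  have hRt : (∏ i, B.ratio (x i) Q ^ m i) ≠ 0 :=
    Finset.prod_ne_zero_iff.mpr fun i _ => zpow_ne_zero _ (B.ratio_ne_zero (x i) Q)
  have hφ : φ ∈ Q.toValuationSubring := by
    refine Fermat.Agent.Curve.mem_of_ord_nonneg Q (le_of_eq ?_)
    rw [Fermat.Agent.Curve.ord_div Q hf₀ hRt, ord_prod_zpow Q _ m fun i => B.ratio_ne_zero (x i) Q,
      hsum Q, sub_self]
  have hΦφ : Φ = algebraMap Ω (ConstExt k Ω F) c * φ * ∏ i, η i ^ (-m i) := by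
    rw [hΦ', Algebra.smul_def]
    simp only [φ, hη, mul_zpow, Finset.prod_mul_distrib, zpow_neg, Finset.prod_inv_distrib]
    rw [mul_assoc, ← div_eq_mul_inv (f₀ / _), div_div, mul_comm (∏ i, η i ^ m i)]
  have hmemη : (∏ i, η i ^ (-m i)) ∈ Q.toValuationSubring := by
    refine Fermat.Agent.Curve.mem_of_ord_nonneg Q (le_of_eq ?_)
    rw [ord_prod_zpow Q _ _ hη0]
    exact (Finset.sum_eq_zero fun i _ => by rw [hηord i, mul_zero]).symm
  have hval : evalAt Q Φ = c * evalAt Q φ /
      ∏ i, G.value (G.ptAt Q (x i))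
        (B.s (G.centreAt (G.ptAt Q (x i)) R.V (algebraMap_mem_V R)) /
          B.s (G.centre (G.ptAt Q (x i)))) ^ m i := by
    rw [hΦφ, Reduction.ConstRed.evalAt_mul Q (mul_mem (Q.algebraMap_mem' c) hφ) hmemη,
      Reduction.ConstRed.evalAt_mul Q (Q.algebraMap_mem' c) hφ,
      Reduction.ConstRed.evalAt_algebraMap, evalAt_prod_zpow Q _ _ hη0 hηord]
    simp only [hηval, zpow_neg, Finset.prod_inv_distrib, ← div_eq_mul_inv]
  rw [← hval]
  obtain ⟨b, hb⟩ := hunit.exists_right_inv
  have hb' : evalAt Q Φ * (b : Ω) = 1 := congrArg Subtype.val hb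
  exact ⟨left_ne_zero_of_mul_eq_one hb', (R.locEval (K := K) Q ⟨Φ, hmem⟩).2,
    by rw [inv_eq_of_mul_eq_one_right hb']; exact b.2⟩

/-- If a combination of pulled back divisors is principal, its degrees on two sections agree. -/
theorem sum_degree_eq_of_isPrincipal (j : F →ₐ[k] Ω)
    (halg : ∀ w : Ω, IsAlgebraic j.fieldRange w) {ι : Type} [Fintype ι]
    (x : ι → G.Pt (ConstExt k Ω F)) (hx : ∀ (R : ResidueDatum k Ω) (i : ι), G.IsGood R (x i))
    (m : ι → ℤ) (hprin : (∑ i, m i • B.divisor (k := Ω) (x i)).IsPrincipal)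
    (Q Q' : Place Ω (ConstExt k Ω F)) (y y' : ι → G.Pt F)
    (hy : ∀ i, G.ptAt Q (x i) = G.map (j.restrictScalars K) (y i))
    (hy' : ∀ i, G.ptAt Q' (x i) = G.map (j.restrictScalars K) (y' i)) :
    (∑ i, m i * Divisor.degree (B.divisor (k := k) (y i))) =
      ∑ i, m i * Divisor.degree (B.divisor (k := k) (y' i)) := by
  classical
  obtain ⟨f₀, hf₀, hD⟩ := hprin
  letI : Algebra F Ω := j.toRingHom.toAlgebra
  haveI : IsScalarTower k F Ω := IsScalarTower.of_algebraMap_eq fun t => (j.commutes t).symm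
  haveI : IsScalarTower K F Ω := IsScalarTower.of_algebraMap_eq fun t => by
    rw [IsScalarTower.algebraMap_apply K k F, IsScalarTower.algebraMap_apply K k Ω]
    exact (j.commutes _).symm
  haveI : Algebra.IsAlgebraic F Ω := ⟨fun t => by
    refine (halg t).ringHom_of_comp_eq (f := (RingHom.rangeRestrictFieldEquiv j.toRingHom).symm.toRingHom)
      (g := RingHom.id Ω) (RingEquiv.injective _) ?_
    ext ⟨_, s, rfl⟩
    show j ((RingHom.rangeRestrictFieldEquiv j.toRingHom).symm _) = j s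
    exact congrArg j ((RingHom.rangeRestrictFieldEquiv j.toRingHom).symm_apply_apply s)⟩
  set a := evalAt Q (f₀ / ∏ i, B.ratio (x i) Q ^ m i)
  set a' := evalAt Q' (f₀ / ∏ i, B.ratio (x i) Q' ^ m i)
  set L : IntermediateField F Ω := IntermediateField.adjoin F {a, a'}
  haveI : FiniteDimensional F L :=
    IntermediateField.finiteDimensional_adjoin fun t _ => Algebra.IsIntegral.isIntegral t
  haveI : IsFunctionField1 k L := IsFunctionField1.of_finite k F L
  haveI : Algebra.IsAlgebraic L Ω := Algebra.IsAlgebraic.tower_top (K := F) L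
  haveI : IsScalarTower K L Ω := IsScalarTower.of_algebraMap_eq' rfl
  haveI : IsScalarTower k L Ω := IsScalarTower.of_algebraMap_eq' rfl
  haveI : IsScalarTower K k L := IsScalarTower.of_algebraMap_eq fun t =>
    Subtype.ext (IsScalarTower.algebraMap_apply K k Ω t)
  let φ : F →ₐ[K] L := IsScalarTower.toAlgHom K F L
  let ιL : L →ₐ[K] Ω := IsScalarTower.toAlgHom K L Ω
  have hjy : ∀ z : G.Pt F, G.map (j.restrictScalars K) z = G.map ιL (G.map φ z) := fun z => by
    rw [← G.map_comp]; rfl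
  set aL : L := ⟨a, IntermediateField.subset_adjoin _ _ (by simp)⟩
  set aL' : L := ⟨a', IntermediateField.subset_adjoin _ _ (by simp)⟩
  set Y := fun i => G.map φ (y i)
  set Y' := fun i => G.map φ (y' i)
  -- the claim place by place
  have key : ∀ v : Place k L,
      v.ord aL - ∑ i, m i * B.divisor (k := k) (Y i) v =
        v.ord aL' - ∑ i, m i * B.divisor (k := k) (Y' i) v := by
    intro v
    obtain ⟨R, hR⟩ := exists_residueDatum (Ω := Ω) v
    obtain ⟨c, hc, hcQ⟩ := B.exists_const_unit R x (hx R) m hf₀ hD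
    have hA : R.V.comap (algebraMap L Ω) = v.toValuationSubring :=
      ValuationSubring.ext _ _ fun t =>
        ⟨fun h => R.mem_place_of_mem_V v hR h, fun h => (hR t h).1⟩
    have hcen : ∀ (Z : G.Pt L),
        G.centreAt (G.map ιL Z) R.V (algebraMap_mem_V R) = G.centreAtPlace Z v := fun Z => by
      rw [G.centreAt_map]
      unfold GroupVariety.centreAtPlace
      congr 1
    have hval : ∀ (Z : G.Pt L),
        G.value (G.map ιL Z) (B.s (G.centreAt (G.map ιL Z) R.V (algebraMap_mem_V R)) /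
          B.s (G.centre (G.map ιL Z))) = algebraMap L Ω (B.ratio Z v) := fun Z => by
      rw [hcen Z, G.centre_map_of_field, G.value_map ιL Z
        (B.div_mem (z := G.centreAtPlace Z v) (G.gen_centreAt Z _ _)).1]
      rfl
    obtain ⟨q, hq, hq0, hqV, hqV'⟩ := hcQ Q
    obtain ⟨q', hq', hq0', hqV₁, hqV₁'⟩ := hcQ Q'
    simp only [hy, hjy, hval] at hq
    simp only [hy', hjy, hval] at hq'
    set N := aL / ∏ i, B.ratio (Y i) v ^ m i
    set N' := aL' / ∏ i, B.ratio (Y' i) v ^ m i
    have hN : q = c * algebraMap L Ω N := by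
      rw [hq, map_div₀, map_prod, mul_div_assoc]
      simp only [map_zpow₀]
      rfl
    have hN' : q' = c * algebraMap L Ω N' := by
      rw [hq', map_div₀, map_prod, mul_div_assoc]
      simp only [map_zpow₀]
      rfl
    have hN0 : N ≠ 0 := fun h => hq0 (by rw [hN, h, map_zero, mul_zero])
    have hN0' : N' ≠ 0 := fun h => hq0' (by rw [hN', h, map_zero, mul_zero])
    have hdiv : algebraMap L Ω (N / N') = q / q' := by
      rw [hN, hN', mul_div_mul_left _ _ hc, map_div₀]
    have h1 : N / N' ∈ v.toValuationSubring := R.mem_place_of_mem_V v hR (by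
      rw [hdiv, div_eq_mul_inv]; exact mul_mem hqV hqV₁')
    have h2 : (N / N')⁻¹ ∈ v.toValuationSubring := R.mem_place_of_mem_V v hR (by
      rw [map_inv₀, hdiv, inv_div, div_eq_mul_inv]; exact mul_mem hqV₁ hqV')
    have h3 := ord_eq_zero_of_mem v h1 h2
    rw [Fermat.Agent.Curve.ord_div v hN0 hN0'] at h3
    have hs : ∀ (b : L) (Z : ι → G.Pt L), b / ∏ i, B.ratio (Z i) v ^ m i ≠ 0 →
        v.ord (b / ∏ i, B.ratio (Z i) v ^ m i) =
          v.ord b - ∑ i, m i * B.divisor (k := k) (Z i) v := fun b Z hb => by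
      rw [Fermat.Agent.Curve.ord_div v (fun h => hb (by rw [h, zero_div]))
        (Finset.prod_ne_zero_iff.mpr fun i _ => zpow_ne_zero _ (B.ratio_ne_zero _ v)),
        ord_prod_zpow v _ m fun i => B.ratio_ne_zero (Z i) v]
      simp only [Bundle.divisor_apply]
    rw [hs aL Y hN0, hs aL' Y' hN0'] at h3
    omega
  have hdiv : divisorOf (K := k) aL - ∑ i, m i • B.divisor (k := k) (Y i) =
      divisorOf (K := k) aL' - ∑ i, m i • B.divisor (k := k) (Y' i) := Finsupp.ext fun v => by
    simp only [Finsupp.sub_apply, Finsupp.finsetSum_apply, Finsupp.smul_apply, smul_eq_mul,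
      divisorOf_apply]
    exact key v
  have hdeg := congrArg Divisor.degree hdiv
  simp only [map_sub, degree_divisorOf, zero_sub, neg_inj, map_sum, map_zsmul, smul_eq_mul] at hdeg
  simp only [Y, Y', B.degree_divisor_map φ (fun _ => rfl)] at hdeg
  simp only [← mul_assoc, mul_comm (m _) (Module.finrank F L : ℤ)] at hdeg
  simp only [mul_assoc, ← Finset.mul_sum] at hdeg
  exact mul_left_cancel₀ (Int.natCast_ne_zero.mpr Module.finrank_pos.ne') hdeg

end GroupVariety.Bundle

end Fermat.Agent.Abelian
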