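import Fermat.Agent.Abelian.MulBy
import Fermat.Agent.Abelian.Bundle
import Fermat.Agent.Curve.Places
import Mathlib.FieldTheory.AlgebraicClosure
import Mathlib.FieldTheory.IntermediateField.Adjoin.Algebra
import Mathlib.RingTheory.Valuation.LocalSubring

/-!
# The slope curve and its covering by multiplication by `n`

For coordinates `t` at the origin the constants `slopeConst` are the algebraic closure of the field
of slopes `t i / t j` inside an algebraic closure of the function field; the slope curve is their
compositum with the function field.  Places centred at prescribed rational points exist.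

Team S26, owner helper45.
-/

set_option autoImplicit false

noncomputable section

universe u

open AlgebraicCurve IntermediateField

namespace Fermat.Agent.Abelian

namespace GroupVariety

variable {K : Type u} [Field K] (G : GroupVariety K)

/-- The inclusion in the chosen algebraic closure. -/
def incl : G.Func →ₐ[K] AlgebraicClosure G.Func :=
  IsScalarTower.toAlgHom K G.Func (AlgebraicClosure G.Func)

variable (s : Fin G.dim → G.Func)

/-- Ratios of forms of equal degree at `s`. -/
def slopeField : IntermediateField K G.Func where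
  carrier := {x | ∃ (m : ℕ) (P Q : MvPolynomial (Fin G.dim) K), P.IsHomogeneous m ∧
    Q.IsHomogeneous m ∧ MvPolynomial.aeval s Q ≠ 0 ∧
    x * MvPolynomial.aeval s Q = MvPolynomial.aeval s P}
  mul_mem' := by
    rintro x y ⟨m, P, Q, hP, hQ, h0, he⟩ ⟨m', P', Q', hP', hQ', h0', he'⟩
    exact ⟨m + m', P * P', Q * Q', hP.mul hP', hQ.mul hQ', by rw [map_mul]; exact mul_ne_zero h0 h0',
      by rw [map_mul, map_mul, mul_mul_mul_comm, he, he']⟩
  add_mem' := by
    rintro x y ⟨m, P, Q, hP, hQ, h0, he⟩ ⟨m', P', Q', hP', hQ', h0', he'⟩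
    refine ⟨m + m', P * Q' + Q * P', Q * Q', (hP.mul hQ').add (hQ.mul hP'), hQ.mul hQ',
      by rw [map_mul]; exact mul_ne_zero h0 h0', ?_⟩
    rw [map_add, map_mul, map_mul, map_mul, ← he, ← he']
    ring
  algebraMap_mem' c := ⟨0, MvPolynomial.C c, 1, MvPolynomial.isHomogeneous_C _ c,
    MvPolynomial.isHomogeneous_one _ _, by rw [map_one]; exact one_ne_zero,
    by rw [map_one, mul_one, MvPolynomial.aeval_C]⟩
  inv_mem' := by
    rintro x ⟨m, P, Q, hP, hQ, h0, he⟩
    rcases eq_or_ne (MvPolynomial.aeval s P) 0 with hP0 | hP0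
    · rw [hP0, mul_eq_zero, or_iff_left h0] at he
      exact ⟨m, P, Q, hP, hQ, h0, by rw [he, inv_zero, zero_mul, hP0]⟩
    · exact ⟨m, Q, P, hQ, hP, hP0, by
        rw [← he, ← mul_assoc, inv_mul_cancel₀ (left_ne_zero_of_mul (he ▸ hP0)), one_mul]⟩

theorem div_mem_slopeField (i : Fin G.dim) {j : Fin G.dim} (hj : s j ≠ 0) :
    s i / s j ∈ G.slopeField s :=
  ⟨1, MvPolynomial.X i, MvPolynomial.X j, MvPolynomial.isHomogeneous_X _ _,
    MvPolynomial.isHomogeneous_X _ _, by simpa using hj, by simp [div_mul_cancel₀ _ hj]⟩

/-- The constants of the slope curve. -/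
def slopeConst : IntermediateField K (AlgebraicClosure G.Func) :=
  (algebraicClosure (G.slopeField s) (AlgebraicClosure G.Func)).restrictScalars K

theorem mem_slopeConst_iff {x : AlgebraicClosure G.Func} :
    x ∈ G.slopeConst s ↔ IsAlgebraic (G.slopeField s) x :=
  mem_algebraicClosure_iff

theorem incl_mem_slopeConst {x : G.Func} (hx : x ∈ G.slopeField s) :
    G.incl x ∈ G.slopeConst s :=
  (G.mem_slopeConst_iff s).mpr (isAlgebraic_algebraMap (⟨x, hx⟩ : G.slopeField s))

instance isAlgClosed_slopeConst : IsAlgClosed (G.slopeConst s) :=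
  show IsAlgClosed (algebraicClosure (G.slopeField s) (AlgebraicClosure G.Func)) from
    IsAlgClosure.isAlgClosed (G.slopeField s)

instance isScalarTower_intermediate {k' : Type u} [Field k'] [Algebra K k']
    [Algebra k' (AlgebraicClosure G.Func)] [IsScalarTower K k' (AlgebraicClosure G.Func)]
    (E : IntermediateField k' (AlgebraicClosure G.Func)) :
    IsScalarTower K E (AlgebraicClosure G.Func) :=
  IsScalarTower.of_algebraMap_eq fun _ => rfl

/-- A homomorphism into a subfield. -/
def toSub {k' : Type u} [Field k'] [Algebra K k'] [Algebra k' (AlgebraicClosure G.Func)]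
    [IsScalarTower K k' (AlgebraicClosure G.Func)]
    (E : IntermediateField k' (AlgebraicClosure G.Func))
    (j : G.Func →ₐ[K] AlgebraicClosure G.Func) (h : ∀ v, j v ∈ E) : G.Func →ₐ[K] E where
  toFun v := ⟨j v, h v⟩
  map_one' := Subtype.ext (map_one j)
  map_mul' a b := Subtype.ext (map_mul j a b)
  map_zero' := Subtype.ext (map_zero j)
  map_add' a b := Subtype.ext (map_add j a b)
  commutes' c := Subtype.ext ((j.commutes c).trans
    (IsScalarTower.algebraMap_apply K E (AlgebraicClosure G.Func) c))

variable {s}

/-- Valuations of the big field centred at a rational point that are trivial on the constants. -/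
theorem exists_valuationSubring {p : G.Pt K} {t' : Fin G.dim → G.O (G.centre p)}
    (hspan : Ideal.span (Set.range t') = IsLocalRing.maximalIdeal (G.O (G.centre p)))
    (j : G.Func →ₐ[K] AlgebraicClosure G.Func) (hj : ∀ i, j (t' i) = G.incl (s i)) :
    ∃ W : ValuationSubring (AlgebraicClosure G.Func), (∀ c ∈ G.slopeConst s, c ∈ W) ∧
      (∀ a : G.O (G.centre p), j a ∈ W) ∧
      ∀ a ∈ IsLocalRing.maximalIdeal (G.O (G.centre p)), (a : G.Func) ≠ 0 → (j a)⁻¹ ∉ W := by
  obtain ⟨t, τ, ht, -⟩ := G.exists_coordinates p
  set V := orderValuation ht (G.frac_O (G.centre p)) with hV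
  obtain ⟨W, hW⟩ := (V.toLocalSubring.map j.toRingHom).exists_le_valuationSubring
  obtain ⟨hle, hloc⟩ := hW
  have hVW : ∀ v ∈ V, j v ∈ W := fun v hv => hle ⟨v, hv, rfl⟩
  refine ⟨W, fun c hc => ?_, fun a => hVW _ (coe_mem_orderValuation ht _ a), fun a ha ha0 hinv => ?_⟩
  · have hL : ∀ x ∈ G.slopeField s, G.incl x ∈ W := by
      rintro x ⟨m, P, Q, hP, hQ, h0, he⟩
      have hev : ∀ R : MvPolynomial (Fin G.dim) K, G.incl (MvPolynomial.aeval s R) =
          j (MvPolynomial.aeval t' R : G.O (G.centre p)) := fun R => by
        show G.incl _ = (j.comp (G.O _).val) _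
        rw [MvPolynomial.comp_aeval_apply, MvPolynomial.comp_aeval_apply]
        congr 2
        funext i
        exact (hj i).symm
      have hQ0 : Q ≠ 0 := fun h => h0 (by rw [h, map_zero])
      have hne : ((MvPolynomial.aeval t' Q : G.O (G.centre p)) : G.Func) ≠ 0 := fun h =>
        ht.aeval_ne_zero hspan hQ hQ0 (Subtype.ext h)
      have := hVW _ (div_mem_orderValuation ht (G.frac_O (G.centre p)) hspan hP hQ hQ0
        (div_mul_cancel₀ ((MvPolynomial.aeval t' P : G.O (G.centre p)) : G.Func) hne))
      rwa [map_div₀, ← hev, ← hev, ← map_div₀, ← he, mul_div_cancel_right₀ _ h0] at this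
    letI : Algebra (G.slopeField s) W :=
      ((algebraMap (G.slopeField s) (AlgebraicClosure G.Func)).codRestrict W.toSubring
        fun x => hL x x.2).toAlgebra
    haveI : IsScalarTower (G.slopeField s) W (AlgebraicClosure G.Func) :=
      IsScalarTower.of_algebraMap_eq fun _ => rfl
    have hint : IsIntegral W c :=
      (isAlgebraic_iff_isIntegral.mp ((G.mem_slopeConst_iff s).mp hc)).tower_top
    obtain ⟨y, hy⟩ := IsIntegrallyClosed.isIntegral_iff.mp hint
    rw [← hy]
    exact y.2
  · have haV : (a : G.Func) ∈ V := coe_mem_orderValuation ht _ a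
    have hu : IsUnit (⟨j a, hVW _ haV⟩ : W) :=
      IsUnit.of_mul_eq_one ⟨(j a)⁻¹, hinv⟩ (Subtype.ext (mul_inv_cancel₀
        ((map_ne_zero_iff j j.toRingHom.injective).mpr ha0)))
    have hu' : IsUnit (⟨j a, ⟨_, haV, rfl⟩⟩ : (V.toLocalSubring.map j.toRingHom).toSubring) :=
      hloc.map_nonunit _ hu
    obtain ⟨⟨b, v, hv, hvb⟩, hb⟩ := hu'.exists_right_inv
    have h1 : j a * j v = 1 := by
      have := congrArg Subtype.val hb
      change j a * b = 1 at this
      rw [← this, ← hvb]
      rfl
    rw [← map_mul, ← map_one j] at h1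
    refine inv_notMem_orderValuation ht (G.frac_O _) ha ha0 ?_
    rw [inv_eq_of_mul_eq_one_right (j.toRingHom.injective h1)]
    exact hv

theorem transcendental_incl {t' : Fin G.dim → G.O (G.centre (0 : G.Pt K))}
    (hspan : Ideal.span (Set.range t') = IsLocalRing.maximalIdeal _) (i : Fin G.dim)
    (hi : (t' i : G.Func) ≠ 0) :
    Transcendental (G.slopeConst fun j => (t' j : G.Func)) (G.incl (t' i)) := by
  set s : Fin G.dim → G.Func := fun j => (t' j : G.Func)
  obtain ⟨W, hk, -, hm⟩ := G.exists_valuationSubring (s := s) hspan G.incl fun _ => rfl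
  intro halg
  have hmem : G.incl (t' i) ∈ G.slopeConst s := by
    haveI : FiniteDimensional (G.slopeConst s) (G.slopeConst s)⟮G.incl (t' i)⟯ :=
      adjoin.finiteDimensional (isAlgebraic_iff_isIntegral.mp halg)
    obtain ⟨y, hy⟩ := (IsAlgClosed.algebraMap_bijective_of_isIntegral
      (k := G.slopeConst s) (K := (G.slopeConst s)⟮G.incl (t' i)⟯)).2
      ⟨_, mem_adjoin_simple_self _ _⟩
    have := congrArg Subtype.val hy
    rw [show G.incl (t' i) = (y : AlgebraicClosure G.Func) from this.symm]
    exact y.2
  exact hm _ (Coordinates.mem_of_span hspan i) hi (hk _ (inv_mem hmem))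

/-! ### The curves -/

variable (s)

/-- The slope curve. -/
def slopeCurve : IntermediateField (G.slopeConst s) (AlgebraicClosure G.Func) :=
  IntermediateField.adjoin (G.slopeConst s) (Set.range G.incl)

/-- The point of the slope curve. -/
def toCurve : G.Func →ₐ[K] G.slopeCurve s :=
  G.toSub _ G.incl fun v => IntermediateField.subset_adjoin _ _ ⟨v, rfl⟩

variable (j : G.Func →ₐ[K] AlgebraicClosure G.Func)

/-- The covering of the slope curve attached to a second embedding of the function field. -/
def cover : IntermediateField (G.slopeCurve s) (AlgebraicClosure G.Func) :=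
  IntermediateField.adjoin (G.slopeCurve s) (Set.range j)

/-- The point of the covering. -/
def toCover : G.Func →ₐ[K] G.cover s j :=
  G.toSub _ j fun v => IntermediateField.subset_adjoin _ _ ⟨v, rfl⟩

@[simp]
theorem coe_toCurve (v : G.Func) : (G.toCurve s v : AlgebraicClosure G.Func) = G.incl v := rfl

@[simp]
theorem coe_toCover (v : G.Func) : (G.toCover s j v : AlgebraicClosure G.Func) = j v := rfl

theorem map_toCurve_eq (v : G.Func) :
    algebraMap (G.slopeCurve s) (AlgebraicClosure G.Func) (G.toCurve s v) = G.incl v := rfl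

variable {s j}

theorem isFunctionField1_slopeCurve {t : Fin G.dim → G.O (G.centre (0 : G.Pt K))}
    (hspan : Ideal.span (Set.range t) = IsLocalRing.maximalIdeal _) (i : Fin G.dim)
    (hi : (t i : G.Func) ≠ 0)
    (halg : Algebra.IsAlgebraic (Algebra.adjoin K (Set.range fun j => (t j : G.Func))) G.Func) :
    Fermat.Agent.Curve.IsFunctionField1 (G.slopeConst fun j => (t j : G.Func))
      (G.slopeCurve fun j => (t j : G.Func)) := by
  classical
  set s : Fin G.dim → G.Func := fun j => (t j : G.Func)
  set k := G.slopeConst s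
  set x : G.slopeCurve s := G.toCurve s (s i)
  have hx : Transcendental k x := by
    rw [← transcendental_algebraMap_iff (A := AlgebraicClosure G.Func)
      (algebraMap (G.slopeCurve s) (AlgebraicClosure G.Func)).injective]
    exact G.transcendental_incl hspan i hi
  refine .of_finite_adjoin hx ?_
  obtain ⟨U, hU⟩ := IntermediateField.fg_top_iff.mpr (inferInstance : Algebra.EssFiniteType K G.Func)
  -- every value is algebraic over `k(x)`
  have hs : ∀ l, G.toCurve s (s l) ∈ k⟮x⟯ := fun l => by
    have h1 : (⟨G.incl (s l / s i), G.incl_mem_slopeConst s (G.div_mem_slopeField s l hi)⟩ : k) • x =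
        G.toCurve s (s l) := Subtype.ext (by
      show G.incl (s l / s i) * G.incl (s i) = G.incl (s l)
      rw [← map_mul, div_mul_cancel₀ _ hi])
    rw [← h1]
    exact IntermediateField.smul_mem _ (mem_adjoin_simple_self k x)
  have hint : ∀ v : G.Func, IsIntegral k⟮x⟯ (G.toCurve s v) := by
    intro v
    let f : Algebra.adjoin K (Set.range s) →+* k⟮x⟯ :=
      (((G.toCurve s).comp (Algebra.adjoin K (Set.range s)).val).toRingHom).codRestrict k⟮x⟯
        fun r => by
          show G.toCurve s (r : G.Func) ∈ k⟮x⟯
          obtain ⟨r, hr⟩ := r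
          change G.toCurve s r ∈ k⟮x⟯
          induction hr using Algebra.adjoin_induction with
          | mem y hy => obtain ⟨l, rfl⟩ := hy; exact hs l
          | algebraMap c =>
            rw [show G.toCurve s (algebraMap K G.Func c) =
              algebraMap k (G.slopeCurve s) (algebraMap K k c) from (G.toCurve s).commutes c]
            exact IntermediateField.algebraMap_mem _ _
          | add y z _ _ hy hz => rw [map_add]; exact add_mem hy hz
          | mul y z _ _ hy hz => rw [map_mul]; exact mul_mem hy hz
    obtain ⟨P, hP0, hP⟩ := halg.isAlgebraic v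
    refine isAlgebraic_iff_isIntegral.mp ⟨P.map f, ?_, ?_⟩
    · refine (Polynomial.map_ne_zero_iff fun a b h => ?_).mpr hP0
      exact Subtype.ext ((G.toCurve s).toRingHom.injective
        (congrArg (fun z : k⟮x⟯ => (z : G.slopeCurve s)) h))
    · rw [Polynomial.aeval_def, Polynomial.eval₂_map,
        show (algebraMap k⟮x⟯ (G.slopeCurve s)).comp f =
          (G.toCurve s).toRingHom.comp (algebraMap (Algebra.adjoin K (Set.range s)) G.Func) from rfl]
      show Polynomial.eval₂ _ ((G.toCurve s).toRingHom v) P = 0
      rw [← Polynomial.hom_eval₂, ← Polynomial.aeval_def, hP, map_zero]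
  haveI : FiniteDimensional k⟮x⟯ (IntermediateField.adjoin k⟮x⟯ (G.toCurve s '' (U : Set G.Func))) :=
    IntermediateField.finiteDimensional_adjoin fun y hy => by
      obtain ⟨v, -, rfl⟩ := hy; exact hint v
  have htop : IntermediateField.adjoin k⟮x⟯ (G.toCurve s '' (U : Set G.Func)) = ⊤ := by
    set M := IntermediateField.adjoin k⟮x⟯ (G.toCurve s '' (U : Set G.Func))
    have hle : ∀ v : G.Func, G.toCurve s v ∈ M := fun v => by
      have : v ∈ IntermediateField.adjoin K (U : Set G.Func) := by rw [hU]; trivial
      induction this using IntermediateField.adjoin_induction with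
      | mem v hv => exact IntermediateField.subset_adjoin _ _ ⟨v, hv, rfl⟩
      | algebraMap c =>
        rw [show G.toCurve s (algebraMap K G.Func c) =
          algebraMap k⟮x⟯ (G.slopeCurve s) (algebraMap k k⟮x⟯ (algebraMap K k c)) from
            (G.toCurve s).commutes c]
        exact IntermediateField.algebraMap_mem _ _
      | add a b _ _ ha hb => rw [map_add]; exact add_mem ha hb
      | inv a _ ha => rw [map_inv₀]; exact inv_mem ha
      | mul a b _ _ ha hb => rw [map_mul]; exact mul_mem ha hb
    rw [eq_top_iff]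
    rintro ⟨y, hy⟩ -
    induction hy using IntermediateField.adjoin_induction with
    | mem y hy => obtain ⟨v, rfl⟩ := hy; exact hle v
    | algebraMap c =>
      exact IntermediateField.algebraMap_mem M (algebraMap k k⟮x⟯ c)
    | add a b ha hb ha' hb' => exact add_mem (s := M) ha' hb'
    | inv a ha ha' => exact inv_mem (s := M) ha'
    | mul a b ha hb ha' hb' => exact mul_mem (s := M) ha' hb'
  rw [htop] at this
  exact LinearEquiv.finiteDimensional (IntermediateField.topEquiv (F := k⟮x⟯) (E := G.slopeCurve s)).toLinearEquiv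

section Cover

variable {n : ℤ} (hn : (n : K) ≠ 0) (hj : ∀ v, j (G.mulBy hn v) = G.incl v)

include hn hj in
/-- The covering is finite of degree at most the degree of multiplication by `n`. -/
theorem finite_cover : FiniteDimensional (G.slopeCurve s) (G.cover s j) ∧
    Module.finrank (G.slopeCurve s) (G.cover s j) ≤ G.mulDeg hn := by
  classical
  haveI := G.finiteDimensional_mulField hn
  set b := Module.finBasis (G.mulField hn) G.Func
  set S : Submodule (G.slopeCurve s) (AlgebraicClosure G.Func) :=
    Submodule.span _ (Set.range fun i => j (b i)) with hS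
  have hjS : ∀ v, j v ∈ S := fun v => by
    rw [← b.sum_repr v, map_sum]
    refine Submodule.sum_mem _ fun i _ => ?_
    obtain ⟨w, hw⟩ := (b.repr v i).2
    rw [show b.repr v i • b i = (b.repr v i : G.Func) * b i from rfl, map_mul,
      show j (b.repr v i : G.Func) = G.incl w by rw [← hj w]; exact congrArg j hw.symm]
    exact S.smul_mem (G.toCurve s w) (Submodule.subset_span ⟨i, rfl⟩)
  have hclosure : (Submonoid.closure (Set.range j) : Set (AlgebraicClosure G.Func)) = Set.range j := by
    rw [show Set.range j = ((MonoidHom.mrange (j : G.Func →* AlgebraicClosure G.Func) : Submonoid _) :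
      Set (AlgebraicClosure G.Func)) from rfl, Submonoid.closure_eq]
  have hadj : Subalgebra.toSubmodule (Algebra.adjoin (G.slopeCurve s) (Set.range j)) = S := by
    rw [Algebra.adjoin_eq_span, hclosure]
    exact le_antisymm (Submodule.span_le.mpr (by rintro _ ⟨v, rfl⟩; exact hjS v))
      (Submodule.span_mono (by rintro _ ⟨i, rfl⟩; exact ⟨_, rfl⟩))
  haveI : FiniteDimensional (G.slopeCurve s) S :=
    FiniteDimensional.span_of_finite _ (Set.finite_range _)
  have halg : ∀ y ∈ Set.range j, IsAlgebraic (G.slopeCurve s) y := fun y hy => by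
    have hfin : FiniteDimensional (G.slopeCurve s)
        (Algebra.adjoin (G.slopeCurve s) (Set.range j)) := by
      change FiniteDimensional (G.slopeCurve s)
        (Subalgebra.toSubmodule (Algebra.adjoin (G.slopeCurve s) (Set.range j)))
      rw [hadj]; infer_instance
    exact isAlgebraic_iff_isIntegral.mpr (IsIntegral.of_mem_of_fg _
      ((Submodule.fg_top _).mp hfin.fg_top) y (Algebra.subset_adjoin hy))
  have he : Subalgebra.toSubmodule (G.cover s j).toSubalgebra = S := by
    rw [cover, adjoin_toSubalgebra_of_isAlgebraic halg, hadj]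
  let e : (G.cover s j) ≃ₗ[G.slopeCurve s] S := LinearEquiv.ofEq _ _ he
  constructor
  · exact e.symm.finiteDimensional
  · rw [e.finrank_eq]
    calc Module.finrank _ S ≤ Fintype.card (Fin (Module.finrank (G.mulField hn) G.Func)) :=
          finrank_range_le_card _
      _ = G.mulDeg hn := by rw [Fintype.card_fin]; rfl

end Cover

end GroupVariety

/-! ### Places centred at rational points -/

namespace GroupVariety

variable {K : Type u} [Field K] (G : GroupVariety K) {s : Fin G.dim → G.Func}

theorem exists_place_centred {p : G.Pt K} {t' : Fin G.dim → G.O (G.centre p)}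
    (hspan : Ideal.span (Set.range t') = IsLocalRing.maximalIdeal (G.O (G.centre p)))
    (i : Fin G.dim) (hi : (t' i : G.Func) ≠ 0)
    (j : G.Func →ₐ[K] AlgebraicClosure G.Func) (hj : ∀ l, j (t' l) = G.incl (s l))
    {E : Type u} [Field E] [Algebra K E] [Algebra (G.slopeConst s) E]
    [IsScalarTower K (G.slopeConst s) E] [Fermat.Agent.Curve.IsFunctionField1 (G.slopeConst s) E]
    (ι : E →ₐ[G.slopeConst s] AlgebraicClosure G.Func) (jE : G.Func →ₐ[K] E)
    (hjE : ∀ v, ι (jE v) = j v) :
    ∃ w : Place (G.slopeConst s) E, G.centreAtPlace (G.map jE G.eta) w = G.centre p ∧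
      (∀ a ∈ IsLocalRing.maximalIdeal (G.O (G.centre p)), (a : G.Func) ≠ 0 → 0 < w.ord (jE a)) := by
  obtain ⟨W, hk, hO, hm⟩ := G.exists_valuationSubring hspan j hj
  set A : ValuationSubring E := W.comap ι.toRingHom with hA
  have hmem : ∀ a : G.O (G.centre p), jE a ∈ A := fun a =>
    show ι (jE a) ∈ W by rw [hjE]; exact hO a
  have hnot : ∀ a ∈ IsLocalRing.maximalIdeal (G.O (G.centre p)), (a : G.Func) ≠ 0 →
      (jE a)⁻¹ ∉ A := fun a ha ha0 h => hm a ha ha0 (by
    have h' : ι (jE a)⁻¹ ∈ W := h
    rwa [map_inv₀, hjE] at h')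
  have hne : A ≠ ⊤ := fun h =>
    hnot _ (Coordinates.mem_of_span hspan i) hi (by rw [h]; trivial)
  let w : Place (G.slopeConst s) E := Fermat.Agent.Curve.placeOfValuationSubring A
    (fun c => show ι (algebraMap _ E c) ∈ W by rw [ι.commutes]; exact hk _ c.2) hne
  refine ⟨w, ?_, fun a ha ha0 => ?_⟩
  · refine G.centreAt_eq_of_point _ A (algebraMap_mem_place w) (G.taut (G.centre p))
      (jE.comp (G.O (G.centre p)).val) ?_ hmem (fun r hr hr0 => ?_) |>.trans ?_
    · rw [G.map_taut, G.map_eta jE (G.centre p)]
    · by_contra hu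
      exact hnot r ((IsLocalRing.mem_maximalIdeal _).mpr hu)
        (fun h => hr0 (by rw [AlgHom.comp_apply]; exact (congrArg jE h).trans (map_zero jE))) hr
    · exact G.centre_pt _ _ ⟨fun a ha => by simpa using ha⟩
  · by_contra hle
    refine hnot a ha ha0 (Fermat.Agent.Curve.mem_of_ord_nonneg w ?_)
    rw [w.ord_inv]
    omega

end GroupVariety

end Fermat.Agent.Abelian
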