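import Fermat.Agent.Abelian.Points
import Mathlib.Algebra.TrivSqZeroExt.Basic
import Mathlib.LinearAlgebra.Dual.Lemmas
import Mathlib.RingTheory.Nakayama

/-!
# The differential of multiplication by an integer

Points with values in square-zero extensions of `K` show that multiplication by `n` is `n` to first
order at the origin and that, for invertible `n`, it is unramified at every `n`-torsion point.

Team S26, owner helper45.
-/

set_option autoImplicit false

noncomputable section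

universe u

open TrivSqZeroExt

namespace Fermat.Agent.Abelian

theorem isLocalRing_trivSqZeroExt (K M : Type u) [Field K] [AddCommGroup M] [Module K M]
    [Module Kᵐᵒᵖ M] [IsCentralScalar K M] : IsLocalRing (TrivSqZeroExt K M) :=
  IsLocalRing.of_isUnit_or_isUnit_one_sub_self fun a => by
    simp only [isUnit_iff_isUnit_fst, isUnit_iff_ne_zero, fst_sub, fst_one]
    rcases eq_or_ne a.fst 0 with h | h
    · exact Or.inr (by rw [h, sub_zero]; exact one_ne_zero)
    · exact Or.inl h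

attribute [local instance] isLocalRing_trivSqZeroExt

namespace GroupVariety

variable {K : Type u} [Field K] (G : GroupVariety K)

/-- The tautological point with values in a local ring. -/
def taut (z : G.Center) : G.Pt (G.O z) := G.pt z (AlgHom.id K (G.O z))

theorem map_taut {R : Type u} [CommRing R] [Algebra K R] (z : G.Center) (φ : G.O z →ₐ[K] R) :
    G.map φ (G.taut z) = G.pt z φ := by
  rw [taut, G.map_pt, AlgHom.comp_id]

/-- The maximal ideal of the local ring at a point. -/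
def maxIdeal (z : G.Center) : Ideal (G.O z) := @IsLocalRing.maximalIdeal _ _ (G.isLocalRing_O z)

theorem mem_maxIdeal_iff_hom (p : G.Pt K) (v : G.O (G.centre p)) :
    v ∈ G.maxIdeal (G.centre p) ↔ G.hom p v = 0 := by
  rw [maxIdeal, IsLocalRing.mem_maximalIdeal, mem_nonunits_iff, ← G.isUnit_hom_iff p v,
    isUnit_iff_ne_zero, not_not]

theorem sub_algebraMap_hom_mem (p : G.Pt K) (v : G.O (G.centre p)) :
    v - algebraMap K _ (G.hom p v) ∈ G.maxIdeal (G.centre p) := by
  rw [G.mem_maxIdeal_iff_hom, map_sub, AlgHom.commutes]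
  simp

theorem exists_sub_algebraMap_mem (p : G.Pt K) (v : G.O (G.centre p)) :
    ∃ c : K, v - algebraMap K _ c ∈ G.maxIdeal (G.centre p) :=
  ⟨_, G.sub_algebraMap_hom_mem p v⟩

/-- A `K`-homomorphism from the local ring at a rational point to `K` is the evaluation. -/
theorem algHom_eq_hom (p : G.Pt K) (φ : G.O (G.centre p) →ₐ[K] K) : φ = G.hom p := by
  ext v
  have h := G.sub_algebraMap_hom_mem p v
  by_contra hne
  rw [maxIdeal, IsLocalRing.mem_maximalIdeal, mem_nonunits_iff] at h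
  have hu : φ (v - algebraMap K _ (G.hom p v)) ≠ 0 := by
    rw [map_sub, AlgHom.commutes]
    simpa [sub_eq_zero] using hne
  -- an element with non-zero value outside the units would generate a proper ideal with unit image
  have : v - algebraMap K _ (G.hom p v) -
      algebraMap K _ (φ (v - algebraMap K _ (G.hom p v))) ∈ RingHom.ker φ := by
    rw [RingHom.mem_ker, map_sub, AlgHom.commutes]
    simp
  have hker : RingHom.ker φ ≤ G.maxIdeal (G.centre p) :=
    IsLocalRing.le_maximalIdeal (RingHom.ker_ne_top φ)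
  have h1 : algebraMap K _ (φ (v - algebraMap K _ (G.hom p v))) ∈ G.maxIdeal (G.centre p) := by
    have h2 := Ideal.sub_mem _ ((IsLocalRing.mem_maximalIdeal _).mpr h) (hker this)
    simpa [maxIdeal] using h2
  exact (IsLocalRing.mem_maximalIdeal _).mp h1 ((Ne.isUnit hu).map _)

theorem pt_eq_of_centre_eq (p : G.Pt K) :
    ∀ z, G.centre p = z → ∀ φ : G.O z →ₐ[K] K, G.pt z φ = p := by
  rintro z rfl φ
  rw [G.algHom_eq_hom p φ, G.pt_hom]

theorem centre_injective : Function.Injective (G.centre (R := K)) := fun p q h =>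
  ((G.pt_eq_of_centre_eq q _ h.symm (G.hom p)).symm.trans (G.pt_hom p)).symm

/-- A rational point generalising another one equals it. -/
theorem eq_of_gen {p q : G.Pt K} (h : G.Gen (G.centre p) (G.centre q)) : p = q := by
  have h1 := G.pt_gen h (G.hom p)
  rw [G.pt_hom] at h1
  rw [← h1]
  exact G.pt_eq_of_centre_eq q _ rfl _

theorem exists_pt_eq {R : Type u} [CommRing R] [IsLocalRing R] [Algebra K R] (y : G.Pt R)
    {z : G.Center} (h : G.centre y = z) : ∃ ψ : G.O z →ₐ[K] R, G.pt z ψ = y := by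
  subst h
  exact ⟨_, G.pt_hom y⟩

theorem centre_zsmul_taut (p : G.Pt K) (n : ℤ) :
    G.centre (n • G.taut (G.centre p)) = G.centre (n • p) := by
  conv_rhs => rw [← G.pt_hom p, ← G.map_taut, ← map_zsmul]
  exact (G.centre_map_of_isLocalHom _ (G.isLocalHom_hom p) _).symm

/-! ### Tangent vectors -/

section Tangent

variable {M N : Type u} [AddCommGroup M] [Module K M] [Module Kᵐᵒᵖ M] [IsCentralScalar K M]
  [AddCommGroup N] [Module K N] [Module Kᵐᵒᵖ N] [IsCentralScalar K N]

theorem isLocalHom_fstHom : IsLocalHom (fstHom K K M).toRingHom :=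
  ⟨fun _ h => isUnit_iff_isUnit_fst.mpr h⟩

theorem map_fstHom_pt (p : G.Pt K) (ψ : G.O (G.centre p) →ₐ[K] TrivSqZeroExt K M) :
    G.map (fstHom K K M) (G.pt (G.centre p) ψ) = p := by
  rw [G.map_pt]
  exact G.pt_eq_of_centre_eq p _ rfl _

theorem fst_tangent (p : G.Pt K) (ψ : G.O (G.centre p) →ₐ[K] TrivSqZeroExt K M)
    (v : G.O (G.centre p)) : (ψ v).fst = G.hom p v :=
  DFunLike.congr_fun (G.algHom_eq_hom p ((fstHom K K M).comp ψ)) v

theorem centre_eq_of_map_fstHom {y : G.Pt (TrivSqZeroExt K M)} {p : G.Pt K}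
    (h : G.map (fstHom K K M) y = p) : G.centre y = G.centre p := by
  rw [← h]
  exact (G.centre_map_of_isLocalHom _ isLocalHom_fstHom y).symm

theorem exists_tangent_of_map_fstHom {y : G.Pt (TrivSqZeroExt K M)} {p : G.Pt K}
    (h : G.map (fstHom K K M) y = p) :
    ∃ ψ : G.O (G.centre p) →ₐ[K] TrivSqZeroExt K M, G.pt (G.centre p) ψ = y :=
  G.exists_pt_eq y (G.centre_eq_of_map_fstHom h)

/-- The zero tangent vector. -/
def zeroTangent (p : G.Pt K) : G.O (G.centre p) →ₐ[K] TrivSqZeroExt K M :=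
  (inlAlgHom K K M).comp (G.hom p)

theorem pt_zeroTangent (p : G.Pt K) :
    G.pt (G.centre p) (G.zeroTangent (M := M) p) = G.map (inlAlgHom K K M) p := by
  rw [zeroTangent, ← G.map_pt, G.pt_hom]

/-- Addition of tangent vectors at the origin is addition of points. -/
theorem exists_add_tangent (ψ₁ ψ₂ : G.O (G.centre (0 : G.Pt K)) →ₐ[K] TrivSqZeroExt K K) :
    ∃ ψ : G.O (G.centre (0 : G.Pt K)) →ₐ[K] TrivSqZeroExt K K,
      G.pt _ ψ = G.pt _ ψ₁ + G.pt _ ψ₂ ∧ ∀ v, (ψ v).snd = (ψ₁ v).snd + (ψ₂ v).snd := by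
  set y := G.map (TrivSqZeroExt.map (LinearMap.inl K K K)) (G.pt _ ψ₁) +
    G.map (TrivSqZeroExt.map (LinearMap.inr K K K)) (G.pt _ ψ₂) with hy
  have hfst : ∀ (f : K →ₗ[K] K × K), (fstHom K K (K × K)).comp (TrivSqZeroExt.map f) =
      fstHom K K K := fun f => AlgHom.ext fun x => fst_map f x
  have h0 : G.map (fstHom K K (K × K)) y = 0 := by
    rw [hy, map_add, ← G.map_comp, ← G.map_comp, hfst, hfst, G.map_fstHom_pt, G.map_fstHom_pt,
      add_zero]
  obtain ⟨Ψ, hΨ⟩ := G.exists_tangent_of_map_fstHom h0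
  have hi : TrivSqZeroExt.map (0 : K →ₗ[K] K) = (inlAlgHom K K K).comp (fstHom K K K) :=
    AlgHom.ext fun x => TrivSqZeroExt.ext (by simp) (by simp)
  have hz : ∀ ψ : G.O (G.centre (0 : G.Pt K)) →ₐ[K] TrivSqZeroExt K K,
      G.map (TrivSqZeroExt.map (0 : K →ₗ[K] K)) (G.pt _ ψ) = 0 := fun ψ => by
    rw [hi, G.map_comp, G.map_fstHom_pt, map_zero]
  have h1 : (TrivSqZeroExt.map (LinearMap.fst K K K)).comp Ψ = ψ₁ := by
    apply G.pt_injective
    rw [← G.map_pt, hΨ, hy, map_add, ← G.map_comp, ← G.map_comp, ← map_comp_map, ← map_comp_map,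
      LinearMap.fst_comp_inl, LinearMap.fst_comp_inr, hz, add_zero, TrivSqZeroExt.map_id, G.map_id]
  have h2 : (TrivSqZeroExt.map (LinearMap.snd K K K)).comp Ψ = ψ₂ := by
    apply G.pt_injective
    rw [← G.map_pt, hΨ, hy, map_add, ← G.map_comp, ← G.map_comp, ← map_comp_map, ← map_comp_map,
      LinearMap.snd_comp_inl, LinearMap.snd_comp_inr, hz, zero_add, TrivSqZeroExt.map_id, G.map_id]
  refine ⟨(TrivSqZeroExt.map (LinearMap.fst K K K + LinearMap.snd K K K)).comp Ψ, ?_, fun v => ?_⟩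
  · rw [← G.map_pt, hΨ, hy, map_add, ← G.map_comp, ← G.map_comp, ← map_comp_map, ← map_comp_map]
    rw [LinearMap.add_comp, LinearMap.add_comp, LinearMap.fst_comp_inl, LinearMap.snd_comp_inl,
      LinearMap.fst_comp_inr, LinearMap.snd_comp_inr, add_zero, zero_add, TrivSqZeroExt.map_id,
      G.map_id, G.map_id]
  · rw [← h1, ← h2]
    simp

/-- Multiples of tangent vectors at the origin are multiples of points. -/
theorem exists_zsmul_tangent (ψ₀ : G.O (G.centre (0 : G.Pt K)) →ₐ[K] TrivSqZeroExt K K) (n : ℤ) :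
    ∃ ψ : G.O (G.centre (0 : G.Pt K)) →ₐ[K] TrivSqZeroExt K K,
      G.pt _ ψ = n • G.pt _ ψ₀ ∧ ∀ v, (ψ v).snd = (n : K) * (ψ₀ v).snd := by
  have h0 : G.pt _ (G.zeroTangent (M := K) (0 : G.Pt K)) = 0 := by
    rw [G.pt_zeroTangent, map_zero]
  have hneg : ∀ ψ : G.O (G.centre (0 : G.Pt K)) →ₐ[K] TrivSqZeroExt K K, ∃ φ,
      G.pt _ φ = -G.pt _ ψ ∧ ∀ v, (φ v).snd = -(ψ v).snd := by
    intro ψ
    refine ⟨(TrivSqZeroExt.map (-LinearMap.id : K →ₗ[K] K)).comp ψ, ?_, fun v => by simp⟩
    obtain ⟨χ, hχ, hχs⟩ := G.exists_add_tangent ψ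
      ((TrivSqZeroExt.map (-LinearMap.id : K →ₗ[K] K)).comp ψ)
    have : χ = G.zeroTangent 0 := AlgHom.ext fun v =>
      TrivSqZeroExt.ext (by rw [G.fst_tangent, G.fst_tangent]) (by
        rw [hχs]; simp [zeroTangent])
    rw [this, h0] at hχ
    exact eq_neg_of_add_eq_zero_right hχ.symm
  induction n using Int.induction_on with
  | zero => exact ⟨G.zeroTangent 0, by rw [h0, zero_smul], fun v => by simp [zeroTangent]⟩
  | succ i ih =>
    obtain ⟨ψ, h, hs⟩ := ih
    obtain ⟨φ, hφ, hφs⟩ := G.exists_add_tangent ψ ψ₀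
    exact ⟨φ, by rw [hφ, h, add_smul, one_smul], fun v => by rw [hφs, hs]; push_cast; ring⟩
  | pred i ih =>
    obtain ⟨ψ, h, hs⟩ := ih
    obtain ⟨χ, hχ, hχs⟩ := hneg ψ₀
    obtain ⟨φ, hφ, hφs⟩ := G.exists_add_tangent ψ χ
    exact ⟨φ, by rw [hφ, h, hχ, sub_smul, one_smul, sub_eq_add_neg], fun v => by
      rw [hφs, hs, hχs]; push_cast; ring⟩

end Tangent

/-! ### Multiplication by `n` on local rings -/

theorem exists_mulLoc (p : G.Pt K) (n : ℤ) (h : n • p = 0) :
    ∃ ν : G.O (G.centre (0 : G.Pt K)) →ₐ[K] G.O (G.centre p),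
      G.pt _ ν = n • G.taut (G.centre p) :=
  G.exists_pt_eq _ (by rw [G.centre_zsmul_taut, h])

/-- The homomorphism of local rings given by multiplication by `n` at a point killed by `n`. -/
def mulLoc (p : G.Pt K) (n : ℤ) (h : n • p = 0) :
    G.O (G.centre (0 : G.Pt K)) →ₐ[K] G.O (G.centre p) :=
  (G.exists_mulLoc p n h).choose

theorem pt_mulLoc (p : G.Pt K) (n : ℤ) (h : n • p = 0) :
    G.pt _ (G.mulLoc p n h) = n • G.taut (G.centre p) :=
  (G.exists_mulLoc p n h).choose_spec

theorem pt_comp_mulLoc {R : Type u} [CommRing R] [Algebra K R] (p : G.Pt K) (n : ℤ)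
    (h : n • p = 0) (φ : G.O (G.centre p) →ₐ[K] R) :
    G.pt _ (φ.comp (G.mulLoc p n h)) = n • G.pt _ φ := by
  rw [← G.map_pt, G.pt_mulLoc, map_zsmul, G.map_taut]

theorem hom_mulLoc (p : G.Pt K) (n : ℤ) (h : n • p = 0) (v : G.O (G.centre (0 : G.Pt K))) :
    G.hom p (G.mulLoc p n h v) = G.hom 0 v :=
  DFunLike.congr_fun (G.algHom_eq_hom 0 ((G.hom p).comp (G.mulLoc p n h))) v

theorem mulLoc_mem_maxIdeal (p : G.Pt K) (n : ℤ) (h : n • p = 0)
    {v : G.O (G.centre (0 : G.Pt K))} (hv : v ∈ G.maxIdeal _) :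
    G.mulLoc p n h v ∈ G.maxIdeal _ := by
  rw [G.mem_maxIdeal_iff_hom, G.hom_mulLoc, ← G.mem_maxIdeal_iff_hom]
  exact hv

/-- A linear functional killing constants and the square of the maximal ideal is a tangent
vector. -/
theorem exists_tangent_of_linear (p : G.Pt K) (δ : G.O (G.centre p) →ₗ[K] K) (h1 : δ 1 = 0)
    (h2 : ∀ a ∈ G.maxIdeal (G.centre p), ∀ b ∈ G.maxIdeal (G.centre p), δ (a * b) = 0) :
    ∃ ψ : G.O (G.centre p) →ₐ[K] TrivSqZeroExt K K, ∀ v, (ψ v).snd = δ v := by
  have hc : ∀ c : K, δ (algebraMap K _ c) = 0 := fun c => by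
    rw [Algebra.algebraMap_eq_smul_one, map_smul, h1, smul_zero]
  have hmul : ∀ a b, δ (a * b) = G.hom p a * δ b + G.hom p b * δ a := by
    intro a b
    have := h2 _ (G.sub_algebraMap_hom_mem p a) _ (G.sub_algebraMap_hom_mem p b)
    set α := G.hom p a
    set β := G.hom p b
    rw [show (a - algebraMap K _ α) * (b - algebraMap K _ β) =
      a * b - α • b - β • a + algebraMap K _ (α * β) by
        rw [Algebra.smul_def, Algebra.smul_def, map_mul]; ring,
      map_add, map_sub, map_sub, map_smul, map_smul, hc, smul_eq_mul, smul_eq_mul] at this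
    linear_combination this
  refine ⟨{ toFun := fun v => TrivSqZeroExt.inl (G.hom p v) + TrivSqZeroExt.inr (δ v)
            map_one' := by simp [h1]
            map_mul' := fun a b => TrivSqZeroExt.ext (by simp) (by simp [hmul, mul_comm])
            map_zero' := by simp
            map_add' := fun a b => TrivSqZeroExt.ext (by simp) (by simp)
            commutes' := fun c => TrivSqZeroExt.ext (by simp [algebraMap_eq_inl])
              (by simp [algebraMap_eq_inl, hc]) }, fun v => by simp⟩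

/-- At the origin, multiplication by `n` is `n` to first order. -/
theorem mulLoc_zero_sub_mem (n : ℤ) (v : G.O (G.centre (0 : G.Pt K)))
    (hv : v ∈ G.maxIdeal _) :
    G.mulLoc 0 n (smul_zero n) v - (n : K) • v ∈ G.maxIdeal (G.centre (0 : G.Pt K)) ^ 2 := by
  set u := G.mulLoc 0 n (smul_zero n) v - (n : K) • v with hu
  by_contra hmem
  have hum : u ∈ G.maxIdeal (G.centre (0 : G.Pt K)) := by
    rw [hu, Algebra.smul_def]
    exact Ideal.sub_mem _ (G.mulLoc_mem_maxIdeal _ _ _ hv) (Ideal.mul_mem_left _ _ hv)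
  -- `u` is outside `K + m ^ 2`
  set P : Submodule K (G.O (G.centre (0 : G.Pt K))) :=
    Submodule.span K {1} ⊔ (G.maxIdeal (G.centre (0 : G.Pt K)) ^ 2).restrictScalars K
  have hP : u ∉ P := by
    intro h
    obtain ⟨c', hc', q, hq, he⟩ := Submodule.mem_sup.mp h
    obtain ⟨c, rfl⟩ := Submodule.mem_span_singleton.mp hc'
    have hqm : q ∈ G.maxIdeal (G.centre (0 : G.Pt K)) := Ideal.pow_le_self two_ne_zero hq
    have h0 := (G.mem_maxIdeal_iff_hom 0 u).mp hum
    rw [← he, map_add, map_smul, map_one, (G.mem_maxIdeal_iff_hom 0 q).mp hqm, add_zero,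
      smul_eq_mul, mul_one] at h0
    rw [h0, zero_smul, zero_add] at he
    exact hmem (he ▸ hq)
  obtain ⟨δ, hδu, hδ⟩ := Submodule.exists_dual_map_eq_bot_of_notMem hP inferInstance
  have hδP : ∀ w ∈ P, δ w = 0 := fun w hw =>
    (Submodule.mem_bot K).mp (hδ ▸ Submodule.mem_map_of_mem hw)
  obtain ⟨ψ, hψ⟩ := G.exists_tangent_of_linear 0 δ
    (hδP _ (Submodule.mem_sup_left (Submodule.mem_span_singleton_self 1)))
    fun a ha b hb => hδP _ (Submodule.mem_sup_right (pow_two (G.maxIdeal (G.centre (0 : G.Pt K))) ▸ Ideal.mul_mem_mul ha hb))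
  obtain ⟨φ, hφ, hφs⟩ := G.exists_zsmul_tangent ψ n
  have he : ψ.comp (G.mulLoc 0 n (smul_zero n)) = φ :=
    G.pt_injective _ ((G.pt_comp_mulLoc 0 n (smul_zero n) ψ).trans hφ.symm)
  apply hδu
  rw [hu, map_sub, map_smul, ← hψ, ← hψ, smul_eq_mul, ← hφs, ← he]
  exact sub_self _

/-- Multiplication by an invertible `n` is unramified at every point killed by `n`. -/
theorem span_image_mulLoc (p : G.Pt K) (n : ℤ) (hn : (n : K) ≠ 0) (hp : n • p = 0) :
    Ideal.span (G.mulLoc p n hp '' (G.maxIdeal (G.centre (0 : G.Pt K)) : Set _)) =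
      G.maxIdeal (G.centre p) := by
  set z := G.centre p with hz
  set J := Ideal.span (G.mulLoc p n hp '' (G.maxIdeal (G.centre (0 : G.Pt K)) : Set _)) with hJ
  have hle : J ≤ G.maxIdeal z := Ideal.span_le.mpr (by
    rintro _ ⟨v, hv, rfl⟩
    exact G.mulLoc_mem_maxIdeal p n hp hv)
  refine le_antisymm hle (Submodule.le_of_le_smul_of_le_jacobson_bot
    (I := G.maxIdeal z) (IsNoetherian.noetherian _)
    (IsLocalRing.maximalIdeal_le_jacobson _) ?_)
  set P : Submodule K (G.O z) :=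
    Submodule.span K {1} ⊔ (J ⊔ G.maxIdeal z • G.maxIdeal z).restrictScalars K with hPdef
  intro u hu
  by_contra hmem
  have hP : u ∉ P := by
    intro h
    obtain ⟨c', hc', q, hq, he⟩ := Submodule.mem_sup.mp h
    obtain ⟨c, rfl⟩ := Submodule.mem_span_singleton.mp hc'
    have hqm : q ∈ G.maxIdeal z :=
      (sup_le hle (Submodule.smul_le_right (I := G.maxIdeal z) (N := G.maxIdeal z))) hq
    have h0 := (G.mem_maxIdeal_iff_hom p u).mp hu
    rw [← he, map_add, map_smul, map_one, (G.mem_maxIdeal_iff_hom p q).mp hqm, add_zero,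
      smul_eq_mul, mul_one] at h0
    rw [h0, zero_smul, zero_add] at he
    exact hmem (he ▸ hq)
  obtain ⟨δ, hδu, hδ⟩ := Submodule.exists_dual_map_eq_bot_of_notMem hP inferInstance
  have hδP : ∀ w ∈ P, δ w = 0 := fun w hw =>
    (Submodule.mem_bot K).mp (hδ ▸ Submodule.mem_map_of_mem hw)
  have hδ1 : δ 1 = 0 := hδP _ (Submodule.mem_sup_left (Submodule.mem_span_singleton_self 1))
  obtain ⟨ψ, hψ⟩ := G.exists_tangent_of_linear p δ hδ1 fun a ha b hb => hδP _
    (Submodule.mem_sup_right (Submodule.mem_sup_right (Submodule.smul_mem_smul ha hb)))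
  -- translate to the origin
  have h0 : G.map (fstHom K K K) (G.pt z ψ - G.map (inlAlgHom K K K) p) = 0 := by
    rw [map_sub, G.map_fstHom_pt, ← G.map_comp,
      show (fstHom K K K).comp (inlAlgHom K K K) = AlgHom.id K K from
        AlgHom.ext fun c => fst_inl K c, G.map_id, sub_self]
  obtain ⟨χ, hχ⟩ := G.exists_tangent_of_map_fstHom h0
  obtain ⟨φ, hφ, hφs⟩ := G.exists_zsmul_tangent χ n
  have he : ψ.comp (G.mulLoc p n hp) = φ := by
    refine G.pt_injective _ ((G.pt_comp_mulLoc p n hp ψ).trans ?_)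
    rw [hφ, hχ, zsmul_sub, ← map_zsmul, hp, map_zero, sub_zero]
  have hχ0 : χ = G.zeroTangent 0 := by
    refine AlgHom.ext fun v => TrivSqZeroExt.ext ?_ ?_
    · rw [G.fst_tangent, G.fst_tangent]
    · set w := v - algebraMap K _ (G.hom 0 v) with hw
      have hwm : w ∈ G.maxIdeal _ := G.sub_algebraMap_hom_mem 0 v
      have h1 : (φ w).snd = 0 := by
        rw [← he, AlgHom.comp_apply, hψ]
        exact hδP _ (Submodule.mem_sup_right (Submodule.mem_sup_left
          (Ideal.subset_span ⟨w, hwm, rfl⟩)))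
      rw [hφs, mul_eq_zero, or_iff_right hn, hw, map_sub, AlgHom.commutes, snd_sub,
        algebraMap_eq_inl, snd_inl, sub_zero] at h1
      rw [h1]
      simp [zeroTangent]
  have hψ0 : ψ = G.zeroTangent p := by
    refine G.pt_injective _ ?_
    rw [G.pt_zeroTangent]
    rw [hχ0, G.pt_zeroTangent, map_zero] at hχ
    exact sub_eq_zero.mp hχ.symm
  apply hδu
  rw [← hψ, hψ0]
  simp [zeroTangent]

end GroupVariety

end Fermat.Agent.Abelian
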